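import Fermat.Agent.RED.UnitArg
import Fermat.Agent.RED.Model.IntSeries
import Fermat.Agent.EC.Ord
import Fermat.Agent.GR.RatInstances

/-!
# Series lemmas: integrality of polynomials in `j`, almost integral series

The main results are `mem_intSeries_of_almostIntegral` and `aeval_jqModC_mem_intSeries`.
-/

set_option autoImplicit false

noncomputable section

open ModularCurve Polynomial
open Fermat.RED.Model (intSeries mem_intSeries_iff)

namespace Fermat.HT.Cusp

variable {k : Type*} [Field k]

/-- The coefficients of `j` lie in every subring. -/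
theorem coeff_jqModC_mem (S : Subring k) (n : ℤ) : (jqModC k).coeff n ∈ S := by
  rw [coeff_jqModC_eq_intCast]; exact intCast_mem S _

/-- Series with coefficients in a subring are closed under products. -/
theorem coeff_mul_mem (S : Subring k) {f g : LaurentSeries k} (hf : ∀ n, f.coeff n ∈ S)
    (hg : ∀ n, g.coeff n ∈ S) (n : ℤ) : (f * g).coeff n ∈ S := by
  rw [HahnSeries.coeff_mul]
  exact sum_mem fun x _ => mul_mem (hf _) (hg _)

/-- Series with coefficients in a subring are closed under powers. -/
theorem coeff_pow_mem (S : Subring k) {f : LaurentSeries k} (hf : ∀ n, f.coeff n ∈ S) (m : ℕ)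
    (n : ℤ) : (f ^ m).coeff n ∈ S := by
  induction m generalizing n with
  | zero => rw [pow_zero, HahnSeries.coeff_one]; split <;> simp
  | succ m ih => rw [pow_succ]; exact coeff_mul_mem S ih hf n

/-- A monomial in `j` with coefficient in a subring has its series there. -/
theorem coeff_aeval_monomial_mem (S : Subring k) (d : ℕ) {c : k} (hc : c ∈ S) (n : ℤ) :
    (aeval (jqModC k) (monomial d c)).coeff n ∈ S := by
  rw [aeval_monomial, Fermat.RED.coeff_algebraMap_mul]
  exact mul_mem hc (coeff_pow_mem S (coeff_jqModC_mem S) d n)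

/-- A polynomial in `j` has its coefficients in any ring containing those of its series in
non-positive degrees. -/
theorem coeff_mem_of_aeval (S : Subring k) {G : k[X]}
    (h : ∀ n ≤ (0 : ℤ), (aeval (jqModC k) G).coeff n ∈ S) : ∀ i, G.coeff i ∈ S := by
  suffices H : ∀ (d : ℕ) (G : k[X]), G.natDegree ≤ d →
      (∀ n ≤ (0 : ℤ), (aeval (jqModC k) G).coeff n ∈ S) → ∀ i, G.coeff i ∈ S from H _ G le_rfl h
  intro d
  induction d with
  | zero =>
    intro G hd hG i
    obtain ⟨c, rfl⟩ := natDegree_eq_zero.mp (Nat.le_zero.mp hd)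
    rw [coeff_C]
    split
    · have := hG 0 le_rfl
      rwa [aeval_C, algebraMap_laurentSeries_eq_single, HahnSeries.coeff_single_same] at this
    · exact zero_mem S
  | succ d ih =>
    intro G hd hG i
    by_cases hlt : G.natDegree ≤ d
    · exact ih G hlt hG i
    -- the leading coefficient is read off in degree `-deg G`; subtract and induct
    have hlead : G.leadingCoeff ∈ S := by
      have := hG (-(G.natDegree : ℤ)) (by omega)
      rwa [Fermat.RED.coeff_aeval_jqModC] at this
    have hG' : ∀ j, (G.eraseLead).coeff j ∈ S := by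
      refine ih _ ((eraseLead_natDegree_le G).trans (by omega)) fun n hn => ?_
      rw [← self_sub_monomial_natDegree_leadingCoeff, map_sub, HahnSeries.coeff_sub]
      exact sub_mem (hG n hn) (coeff_aeval_monomial_mem S _ hlead n)
    by_cases hi : i = G.natDegree
    · rw [hi, coeff_natDegree]; exact hlead
    · have := hG' i
      rwa [eraseLead_coeff_of_ne i hi] at this

/-- The valuation ring is Archimedean. -/
def Arch {L : Type*} [Field L] (A : ValuationSubring L) : Prop :=
  ∀ a : L, a ∉ A → ∀ u : L, u ≠ 0 → ∃ m : ℕ, u * a ^ m ∉ A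

/-- The valuation ring of a place over `q` is Archimedean. -/
theorem arch_of_isPlace {A : ValuationSubring (AlgebraicClosure ℚ)} {q : ℕ}
    (h : Fermat.EC.Val.IsPlace A q) : Arch A := by
  intro a ha u hu
  have ha0 : a ≠ 0 := fun h0 => ha (h0 ▸ zero_mem A)
  have hlt : Fermat.EC.Val.ord A q a < 0 := by
    by_contra hge
    exact ha ((Fermat.EC.Val.mem_iff_ge h a).mpr (Or.inr (not_lt.mp hge)))
  obtain ⟨m, hm⟩ := exists_nat_gt (Fermat.EC.Val.ord A q u / (-Fermat.EC.Val.ord A q a))
  refine ⟨m, fun hmem => ?_⟩
  rcases (Fermat.EC.Val.mem_iff_ge h _).mp hmem with h0 | h0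
  · exact mul_ne_zero hu (pow_ne_zero _ ha0) h0
  · rw [Fermat.EC.Val.ord_mul h hu (pow_ne_zero _ ha0), Fermat.EC.Val.ord_pow h] at h0
    rw [div_lt_iff₀ (by linarith)] at hm
    nlinarith

variable {L : Type*} [Field L] {A : ValuationSubring L}

/-- `A((q))` is completely integrally closed in `L((q))`. -/
theorem mem_intSeries_of_almostIntegral (hA : Arch A) {v x : LaurentSeries L} (hv0 : v ≠ 0)
    (h : ∀ m : ℕ, v * x ^ m ∈ intSeries A) : x ∈ intSeries A := by
  classical
  rw [mem_intSeries_iff]
  by_contra hne
  push Not at hne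
  obtain ⟨n₀, hn₀⟩ := hne
  have hbdd : ∀ n, x.coeff n ∉ A → x.order ≤ n := by
    intro n hn
    by_contra hlt
    exact hn (by rw [HahnSeries.coeff_eq_zero_of_lt_order (not_le.mp hlt)]; exact zero_mem A)
  obtain ⟨t, ht, htmin⟩ := Int.exists_least_of_bdd (P := fun n => x.coeff n ∉ A)
    ⟨x.order, hbdd⟩ ⟨n₀, hn₀⟩
  -- remove from `x` its part below the first non-integral coefficient
  let y : LaurentSeries L := ⟨fun n => if n < t then x.coeff n else 0,
    x.isPWO_support'.mono fun n hn => by
      simp only [Function.mem_support] at hn ⊢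
      split_ifs at hn with h1
      · exact hn
      · exact absurd rfl hn⟩
  have hy : y ∈ intSeries A := by
    rw [mem_intSeries_iff]
    intro n
    by_cases hn : n < t
    · have : x.coeff n ∈ A := by
        by_contra hc
        exact absurd (htmin n hc) (not_le.mpr hn)
      simpa [y, hn] using this
    · simp [y, hn]
  have hz : ∀ m : ℕ, v * (x - y) ^ m ∈ intSeries A := by
    intro m
    rw [sub_eq_add_neg, add_pow, Finset.mul_sum]
    refine sum_mem fun i _ => ?_
    rw [show v * (x ^ i * (-y) ^ (m - i) * ((m.choose i : ℕ) : LaurentSeries L)) =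
      (v * x ^ i) * ((-y) ^ (m - i) * ((m.choose i : ℕ) : LaurentSeries L)) by ring]
    exact mul_mem (h i) (mul_mem (pow_mem (neg_mem hy) _) (natCast_mem _ _))
  set z := x - y
  have hzt : z.coeff t = x.coeff t := by simp [z, y]
  have hzlt : ∀ n < t, z.coeff n = 0 := fun n hn => by simp [z, y, hn]
  have hz0 : z ≠ 0 := fun h0 => ht (by rw [← hzt, h0]; simp)
  have hord : z.order = t := by
    refine le_antisymm (HahnSeries.order_le_of_coeff_ne_zero fun h0 => ht ?_) ?_
    · rw [← hzt, h0]; exact zero_mem A
    · by_contra hlt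
      exact (HahnSeries.leadingCoeff_eq_zero.not.mpr hz0)
        (by rw [HahnSeries.leadingCoeff_eq]; exact hzlt _ (not_le.mp hlt))
  have hla : z.leadingCoeff = x.coeff t := by rw [HahnSeries.leadingCoeff_eq, hord, hzt]
  -- the leading coefficients of `v z ^ m` leave the ring, as it is Archimedean
  obtain ⟨m, hm⟩ := hA _ ht v.leadingCoeff (HahnSeries.leadingCoeff_ne_zero.mpr hv0)
  refine hm ?_
  have hlm : (v * z ^ m).leadingCoeff = v.leadingCoeff * x.coeff t ^ m := by
    rw [HahnSeries.leadingCoeff_mul]
    congr 1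
    clear hm
    induction m with
    | zero => simp
    | succ m ih => rw [pow_succ, pow_succ, HahnSeries.leadingCoeff_mul, ← ih, hla]
  rw [← hlm, HahnSeries.leadingCoeff_eq]
  exact mem_intSeries_iff.mp (hz m) _

/-- An integral polynomial in `j` has an integral series. -/
theorem aeval_jqModC_mem_intSeries {G : L[X]} (hG : ∀ i, G.coeff i ∈ A) :
    aeval (jqModC L) G ∈ intSeries A := by
  rw [aeval_eq_sum_range]
  refine sum_mem fun i _ => ?_
  rw [Algebra.smul_def]
  exact mul_mem (Fermat.RED.Model.algebraMap_mem_intSeries (hG i))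
    (pow_mem (mem_intSeries_iff.mpr (coeff_jqModC_mem A.toSubring)) _)

end Fermat.HT.Cusp

end
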