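import Fermat.Agent.HT.Cusp.Branches
import Fermat.Agent.HT.Cusp.Series

/-!
# Functions regular at finite `j`

A function integral over `L[j]` has its polynomial of branches over `L[j]`; these functions form an
algebra, stable under the Fricke involution.
-/

set_option autoImplicit false
set_option linter.unusedSectionVars false

attribute [local instance 10000] SubalgebraClass.toAlgebra HahnSeries.powerSeriesAlgebra

noncomputable section

open ModularCurve Polynomial
open Fermat.RED (jField jb)

namespace Fermat.HT.Cusp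

open Fermat.MC Fermat.JAC.X0

variable {p : ℕ} [hp : Fact p.Prime] [NeZero p] {L : Type*} [Field L] [CharZero L] [IsAlgClosed L]
  [Algebra ℚ L] [EmbedsC L]

/-- Integral over `L[j]`. -/
def IntJ (f : FN p L) : Prop := f ∈ Fermat.FF.intClosure L (jL p L)

/-- Polynomials in `j`, expanded in `u = q^(1/p)`. -/
def jEta (p : ℕ) [NeZero p] (L : Type*) [Field L] : L[X] →+* LaurentSeries L :=
  (qExpand L p).comp (aeval (jqModC L)).toRingHom

/-- The value of `jEta`. -/
theorem jEta_apply (G : L[X]) : jEta p L G = qExpand L p (aeval (jqModC L) G) := rfl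

/-- `j(u^p)` is transcendental. -/
theorem jEta_injective : Function.Injective (jEta p L) := fun _ _ h =>
  transcendental_iff_injective.mp Fermat.RED.transcendental_jqModC (qExpand_injective p h)

/-- Every branch restricts to `jEta` on polynomials in `j`. -/
theorem br_comp_aeval (i : Option (Fin p)) :
    (br i).comp (aeval (jL p L) : L[X] →ₐ[L] FN p L).toRingHom = jEta p L := by
  refine Polynomial.ringHom_ext (fun c => ?_) ?_
  · simp only [RingHom.comp_apply, AlgHom.toRingHom_eq_coe, RingHom.coe_coe, aeval_C, br_algebraMap,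
      jEta_apply]
    rw [algebraMap_laurentSeries_eq_single, qExpand_single, mul_zero]
  · simp only [RingHom.comp_apply, AlgHom.toRingHom_eq_coe, RingHom.coe_coe, aeval_X, br_jL,
      jEta_apply]

/-- The expansion of a polynomial in `j`. -/
theorem coe_aeval_jL (G : L[X]) :
    ((aeval (jL p L) G : FN p L) : LaurentSeries L) = aeval (jqModC L) G := by
  rw [← coe_jL (p := p)]
  exact (Polynomial.aeval_algHom_apply (FN p L).val (jL p L) G).symm

/-- A root of a monic polynomial over `L[j]` is integral. -/
theorem intJ_of_root {f : FN p L} {P : L[X][X]} (hP : P.Monic)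
    (h : P.eval₂ (aeval (jL p L) : L[X] →ₐ[L] FN p L).toRingHom f = 0) : IntJ f := by
  refine Fermat.FF.mem_intClosure.mpr ⟨P.map
    (((aeval (jL p L) : L[X] →ₐ[L] FN p L).toRingHom).codRestrict
      (Algebra.adjoin L {jL p L}).toSubring fun G => aeval_mem_adjoin_singleton L _), hP.map _, ?_⟩
  rw [eval₂_map]
  exact h

/-- The polynomial of branches of an integral function has coefficients in `L[j]`. -/
theorem exists_gamPoly {f : FN p L} (hf : IntJ f) :
    ∃ P : L[X][X], P.Monic ∧ P.natDegree = p + 1 ∧ P.map (jEta p L) = gam f ∧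
      P.eval₂ (aeval (jL p L) : L[X] →ₐ[L] FN p L).toRingHom f = 0 := by
  classical
  let := (jEta p L).toAlgebra
  obtain ⟨Q, hQ, hQf⟩ := Fermat.FF.mem_intClosure.mp hf
  -- every branch of `f` is integral over the polynomials in `j`
  have hbr : ∀ i, br i f ∈ integralClosure L[X] (LaurentSeries L) := by
    intro i
    have hlift : Q.map (algebraMap (Algebra.adjoin L {jL p L}) (FN p L)) ∈
        Polynomial.lifts (aeval (jL p L) : L[X] →ₐ[L] FN p L).toRingHom := by
      refine (Polynomial.lifts_iff_coeff_lifts _).mpr fun n => ?_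
      rw [coeff_map]
      obtain ⟨G, hG⟩ := (AlgHom.mem_range _).mp
        ((Algebra.adjoin_singleton_eq_range_aeval L (jL p L)).le (Q.coeff n).2)
      exact ⟨G, hG⟩
    obtain ⟨Q', hQ', -, hQ'm⟩ := Polynomial.lifts_and_natDegree_eq_and_monic hlift (hQ.map _)
    refine ⟨Q', hQ'm, ?_⟩
    change Q'.eval₂ (jEta p L) (br i f) = 0
    rw [← br_comp_aeval i, ← hom_eval₂, ← eval_map, hQ', eval_map, ← aeval_def]
    rw [← aeval_def] at hQf
    rw [hQf, map_zero]
  -- so the coefficients of `gam f` are integral in the `j`-field, hence polynomials in `j`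
  have hcoeff : ∀ n, ∃ G : L[X], jEta p L G = (gam f).coeff n := by
    intro n
    have hmem : (gam f).coeff n ∈ integralClosure L[X] (LaurentSeries L) := by
      have e : gam f = (∏ i : Option (Fin p),
          (X - C (⟨br i f, hbr i⟩ : integralClosure L[X] (LaurentSeries L)))).map
            (integralClosure L[X] (LaurentSeries L)).val.toRingHom := by
        simp [gam, Polynomial.map_prod]
      rw [e, coeff_map]
      exact Subtype.prop _
    obtain ⟨P0, hP0⟩ := exists_gam_jField f
    have hv : (gam f).coeff n = qExpand L p ((P0.coeff n : jField L) : LaurentSeries L) := by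
      rw [← hP0, coeff_map]; rfl
    obtain ⟨R, hR, hR0⟩ := hmem
    change R.eval₂ (jEta p L) ((gam f).coeff n) = 0 at hR0
    obtain ⟨G, hG⟩ := Fermat.RED.exists_eq_aeval_of_monic (P0.coeff n).2 R hR (by
      refine qExpand_injective p ?_
      rw [map_zero, hom_eval₂, ← hv]
      exact hR0)
    exact ⟨G, by rw [hv, hG]; rfl⟩
  -- lift the monic polynomial; `f` is a root, as its branch is
  obtain ⟨P, hP, hPd, hPm⟩ := Polynomial.lifts_and_natDegree_eq_and_monic
    ((Polynomial.lifts_iff_coeff_lifts (f := jEta p L) (gam f)).mpr hcoeff) (gam_monic f)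
  refine ⟨P, hPm, hPd.trans (natDegree_gam f), hP, ?_⟩
  refine (br none).injective ?_
  rw [map_zero, hom_eval₂, br_comp_aeval, ← eval_map, hP, br_none, eval_gam_self]

/-- `j_N` is integral over `L[j]`. -/
theorem intJ_jNL : IntJ (jNL p L) := by
  refine intJ_of_root (P := (Fermat.RED.levelOne p).Φ.map (mapRingHom (Int.castRingHom L)))
    ((Fermat.RED.levelOne p).monic_Φ.map _) ((br none).injective ?_)
  rw [map_zero, hom_eval₂, br_comp_aeval, ← eval_map, Polynomial.map_map, br_jNL,
    show (jEta p L).comp (mapRingHom (Int.castRingHom L)) =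
      Fermat.RED.evalAt L (jb L ((1 : Lˣ) ^ p) (p * 1)) from Polynomial.ringHom_ext'
        (RingHom.ext_int _ _) (by
          simp only [RingHom.comp_apply, coe_mapRingHom, map_X, jEta_apply, aeval_X,
            Fermat.RED.evalAt, coe_eval₂RingHom, eval₂_X]
          rw [one_pow, mul_one, Fermat.RED.jb_one]),
    ((Fermat.RED.levelOne p).identities_of_isPrimitiveRoot isPrimitiveRoot_zeta).map_Φ_eq,
    eval_prod]
  exact Finset.prod_eq_zero (Finset.mem_univ none) (by simp)

/-- A root of a monic polynomial with coefficients integral over `K[x]` is integral over `K[x]`. -/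
theorem mem_intClosure_of_monic_root {K F T : Type*} [Field K] [Field F] [Algebra K F] [CommRing T]
    (x : F) (φ : T →+* F) (hφ : ∀ G, φ G ∈ Fermat.FF.intClosure K x) {P : T[X]} (hP : P.Monic)
    {f : F} (h : P.eval₂ φ f = 0) : f ∈ Fermat.FF.intClosure K x := by
  refine isIntegral_trans (R := Algebra.adjoin K {x})
    (A := integralClosure (Algebra.adjoin K {x}) F) _
    ⟨P.map (φ.codRestrict (integralClosure (Algebra.adjoin K {x}) F).toSubring hφ), hP.map _, ?_⟩
  rw [eval₂_map]
  exact h

/-- The Fricke involution preserves integrality over `L[j]`. -/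
theorem fricke_intJ {f : FN p L} (hf : IntJ f) : IntJ (fricke p L f) := by
  obtain ⟨P, hP, -, -, h0⟩ := exists_gamPoly hf
  set φ : L[X] →+* FN p L := (fricke p L).toAlgHom.toRingHom.comp
    (aeval (jL p L) : L[X] →ₐ[L] FN p L).toRingHom
  have hφ : ∀ G, φ G ∈ Fermat.FF.intClosure L (jL p L) := fun G => by
    change fricke p L (aeval (jL p L) G) ∈ _
    rw [← Polynomial.aeval_algHom_apply, fricke_jL]
    exact Algebra.adjoin_le (S := Fermat.FF.intClosure L (jL p L))
      (Set.singleton_subset_iff.mpr intJ_jNL) (aeval_mem_adjoin_singleton L _)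
  refine mem_intClosure_of_monic_root (jL p L) φ hφ hP ?_
  have := congrArg (fricke p L).toAlgHom.toRingHom h0
  rw [map_zero, hom_eval₂] at this
  exact this

variable {A : ValuationSubring L}

/-- The functions with poles only at `∞`. -/
def reg : Subalgebra L (FN p L) where
  carrier := {f | IntJ f ∧ atZero (p := p) (L := L) f ∈ Fermat.RED.Cusps.regSeries L}
  one_mem' := ⟨one_mem _, by rw [map_one]; exact one_mem _⟩
  mul_mem' := fun hf hg => ⟨mul_mem hf.1 hg.1, by rw [map_mul]; exact mul_mem hf.2 hg.2⟩
  zero_mem' := ⟨zero_mem _, by rw [map_zero]; exact zero_mem _⟩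
  add_mem' := fun hf hg => ⟨add_mem hf.1 hg.1, by rw [map_add]; exact add_mem hf.2 hg.2⟩
  algebraMap_mem' c := ⟨Subalgebra.algebraMap_mem _ c, by
    rw [AlgHom.commutes, Fermat.RED.Cusps.mem_regSeries_iff]
    intro n hn
    rw [algebraMap_laurentSeries_eq_single, HahnSeries.coeff_single_of_ne hn.ne]⟩

/-- Membership in `reg`: integral over `L[j]` with no polar part at `0`. -/
theorem mem_reg {f : FN p L} :
    f ∈ reg (p := p) (L := L) ↔ IntJ f ∧ ∀ n < (0 : ℤ), (atZero (p := p) (L := L) f).coeff n = 0 :=
  and_congr_right fun _ => Fermat.RED.Cusps.mem_regSeries_iff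

end Fermat.HT.Cusp

end
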