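import Fermat.Agent.RED.Model.Cusps
import Fermat.Agent.HT.Cusp.Regular

/-!
# The cusps as places

The place of an expansion, the two cusps of `X₀(p)` and the poles of `j`.
-/

set_option autoImplicit false
set_option linter.unusedSectionVars false

attribute [local instance 10000] SubalgebraClass.toAlgebra HahnSeries.powerSeriesAlgebra

noncomputable section

open ModularCurve AlgebraicCurve
open Fermat.RED.Cusps (regSeries mem_regSeries_iff)

namespace Fermat.HT.Cusp

open Fermat.FF

/-- The series of `j` has order `-1`. -/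
theorem order_jqModC {K : Type*} [Field K] : (jqModC K).order = -1 := by
  refine le_antisymm (HahnSeries.order_le_of_coeff_ne_zero
    (by rw [coeff_jqModC_neg_one]; exact one_ne_zero)) (le_of_not_gt fun hlt => ?_)
  have h := coeff_jqModC_of_lt K hlt
  rw [HahnSeries.coeff_order_eq_zero] at h
  rw [h, HahnSeries.order_zero] at hlt
  omega

/-- A nonzero series is regular iff its order is nonnegative. -/
theorem mem_regSeries_iff_order {K : Type*} [Field K] {f : LaurentSeries K} (hf : f ≠ 0) :
    f ∈ regSeries K ↔ 0 ≤ f.order := by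
  rw [mem_regSeries_iff]
  exact ⟨fun h => le_of_not_gt fun hlt => hf (HahnSeries.coeff_order_eq_zero.mp (h _ hlt)),
    fun h n hn => HahnSeries.coeff_eq_zero_of_lt_order (hn.trans_le h)⟩

section SeriesPlace

variable {K : Type*} [Field K] {F : Type*} [Field F] [Algebra K F]
  (ψ : F →ₐ[K] LaurentSeries K)

/-- Some value of `ψ` has a pole: then `ψ` defines a place of `F` (`seriesPlace`). -/
def SeriesPole : Prop := ∃ f : F, ψ f ∉ regSeries K

variable [IsAlgClosed K] [IsFunctionField K F] {ψ}

/-- The place of an expansion. -/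
def seriesPlace (h : SeriesPole ψ) : Place K F :=
  placeOfValuationSubring (V := (regSeries K).comap ψ.toRingHom)
    (fun c => by
      rw [ValuationSubring.mem_comap, AlgHom.toRingHom_eq_coe, RingHom.coe_coe, AlgHom.commutes,
        algebraMap_laurentSeries_eq_single, mem_regSeries_iff]
      exact fun n hn => HahnSeries.coeff_single_of_ne hn.ne)
    (fun htop => h.choose_spec (ValuationSubring.mem_comap.mp (htop ▸ ValuationSubring.mem_top _)))

/-- Regularity at the place of an expansion is regularity of the series. -/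
theorem ordGE_seriesPlace (h : SeriesPole ψ) {f : F} :
    OrdGE (seriesPlace h) f 0 ↔ ψ f ∈ regSeries K := by
  rw [← mem_iff_ordGE]
  exact ValuationSubring.mem_comap

/-- If some function has a simple zero or pole, the order of the place is that of the series. -/
theorem ord_seriesPlace (h : SeriesPole ψ) {t : F} (ht : (ψ t).order = -1) (f : F) :
    (seriesPlace h).ord f = (ψ f).order := by
  set v := seriesPlace h
  rcases eq_or_ne f 0 with rfl | hf
  · rw [map_zero, v.ord_zero, HahnSeries.order_zero]
  have hψ : ∀ {g : F}, g ≠ 0 → ψ g ≠ 0 := fun hg => (_root_.map_ne_zero ψ).mpr hg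
  have hinv : ∀ {g : F}, g ≠ 0 → (ψ g⁻¹).order = -(ψ g).order := fun {g} hg => by
    have e := HahnSeries.order_mul (hψ hg) (hψ (inv_ne_zero hg))
    rw [← map_mul, mul_inv_cancel₀ hg, map_one, HahnSeries.order_one] at e
    omega
  have hiff : ∀ {g : F}, g ≠ 0 → (0 ≤ v.ord g ↔ 0 ≤ (ψ g).order) := fun {g} hg => by
    rw [← ordGE_iff_of_ne hg, ordGE_seriesPlace, mem_regSeries_iff_order (hψ hg)]
  have ht0 : t ≠ 0 := fun h0 => by rw [h0, map_zero, HahnSeries.order_zero] at ht; omega
  -- both orders are additive and have the same nonnegative elements; compare on `t`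
  have hzero : ∀ {g : F}, g ≠ 0 → (ψ g).order = 0 → v.ord g = 0 := fun {g} hg hg0 => by
    have h1 := (hiff hg).mpr hg0.ge
    have h2 := (hiff (inv_ne_zero hg)).mpr (by rw [hinv hg, hg0]; simp)
    rw [v.ord_inv] at h2
    omega
  have hpow : ∀ {g : F}, g ≠ 0 → ∀ n : ℕ, (ψ (g ^ n)).order = n * (ψ g).order := fun {g} hg n => by
    induction n with
    | zero => simp
    | succ n ih =>
      rw [pow_succ, map_mul, HahnSeries.order_mul (hψ (pow_ne_zero n hg)) (hψ hg), ih]
      push_cast
      ring
  have hmul : ∀ {g : F}, g ≠ 0 → v.ord g = -(ψ g).order * v.ord t := fun {g} hg => by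
    rcases Int.eq_nat_or_neg (ψ g).order with ⟨n, hn | hn⟩
    · have h1 := hzero (mul_ne_zero hg (pow_ne_zero n ht0)) (by
        rw [map_mul, HahnSeries.order_mul (hψ hg) (hψ (pow_ne_zero n ht0)), hpow ht0, ht, hn]; ring)
      rw [v.ord_mul hg (pow_ne_zero n ht0), ord_pow] at h1
      rw [hn]
      linarith
    · have h1 := hzero (mul_ne_zero hg (pow_ne_zero n (inv_ne_zero ht0))) (by
        rw [map_mul, HahnSeries.order_mul (hψ hg) (hψ (pow_ne_zero n (inv_ne_zero ht0))),
          hpow (inv_ne_zero ht0), hinv ht0, ht, hn]; ring)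
      rw [v.ord_mul hg (pow_ne_zero n (inv_ne_zero ht0)), ord_pow, v.ord_inv] at h1
      rw [hn]
      linarith
  obtain ⟨s, hs0, hs⟩ := exists_ord_eq v 1
  have h1 := hmul hs0
  rw [hs] at h1
  have h2 : v.ord t < 0 := not_le.mp fun hle => by
    have := (hiff ht0).mp hle
    omega
  have h3 : v.ord t = -1 := by
    rcases Int.eq_one_or_neg_one_of_mul_eq_one' h1.symm with ⟨-, e⟩ | ⟨-, e⟩ <;> omega
  rw [hmul hf, h3]
  ring

end SeriesPlace

section Curve

open Fermat.MC Fermat.JAC.X0

variable {p : ℕ} [hp : Fact p.Prime] [NeZero p] {L : Type*} [Field L] [CharZero L] [IsAlgClosed L]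
  [Algebra ℚ L] [EmbedsC L] [IsFunctionField L (FN p L)]

/-- The expansion at `∞` has a pole. -/
theorem val_pole : SeriesPole (FN p L).val := ⟨jL p L, fun hm => by
  change ((jL p L : FN p L) : LaurentSeries L) ∈ _ at hm
  rw [coe_jL, mem_regSeries_iff_order (ModularCurve.jqModC_ne_zero_of_nontrivial L),
    order_jqModC] at hm
  omega⟩

/-- The expansion at `0` has a pole. -/
theorem atZero_pole : SeriesPole (atZero (p := p) (L := L)) := ⟨jL p L, fun hm => by
  rw [atZero_jL] at hm
  exact Fermat.RED.Cusps.jb_not_mem_regSeries 1 p hm⟩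

variable (p L) in
/-- The cusp `∞`. -/
def pinf : Place L (FN p L) := seriesPlace (val_pole (p := p) (L := L))

variable (p L) in
/-- The cusp `0`. -/
def pzero : Place L (FN p L) := seriesPlace (atZero_pole (p := p) (L := L))

/-- The order at `∞` is the order of the expansion. -/
theorem ord_pinf (f : FN p L) : (pinf p L).ord f = (f : LaurentSeries L).order :=
  ord_seriesPlace _ (t := jL p L)
    (by show ((jL p L : FN p L) : LaurentSeries L).order = -1; rw [coe_jL, order_jqModC]) f

/-- The order at `0` is the order of the expansion at `0`. -/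
theorem ord_pzero (f : FN p L) : (pzero p L).ord f = (atZero f).order :=
  ord_seriesPlace _ (t := jNL p L) (by rw [atZero_jNL, order_jqModC]) f

/-- `j` has a simple pole at `∞`. -/
theorem ord_pinf_jL : (pinf p L).ord (jL p L) = -1 := by rw [ord_pinf, coe_jL, order_jqModC]

/-- `j` has a pole of order `p` at `0`. -/
theorem ord_pzero_jL : (pzero p L).ord (jL p L) = -p := by
  rw [ord_pzero, atZero_jL, Fermat.RED.order_jb]

/-- `j_N` has a pole of order `p` at `∞`. -/
theorem ord_pinf_jNL : (pinf p L).ord (jNL p L) = -p := by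
  rw [ord_pinf, coe_jNL, Fermat.RED.order_jb]

/-- `j_N` has a simple pole at `0`. -/
theorem ord_pzero_jNL : (pzero p L).ord (jNL p L) = -1 := by
  rw [ord_pzero, atZero_jNL, order_jqModC]

/-- The two cusps are distinct. -/
theorem pinf_ne_pzero : pinf p L ≠ pzero p L := fun h => by
  have h1 := ord_pinf_jL (p := p) (L := L)
  rw [h, ord_pzero_jL] at h1
  have := hp.out.two_le
  omega

/-- `j_N` is transcendental. -/
theorem transcendental_jNL : Transcendental L (jNL p L) := fun h => by
  have h1 := h.algHom (fricke p L).toAlgHom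
  change IsAlgebraic L (fricke p L (jNL p L)) at h1
  rw [fricke_jNL] at h1
  exact Fermat.MC.transcendental_jL p h1

/-- The poles of `j` on `X₀(p)` are `∞` once and the other cusp `p` times. -/
theorem poleDiv_jL_eq
    (hd : Module.finrank (IntermediateField.adjoin L {jL p L}) (FN p L) = p + 1) :
    poleDiv L (jL p L) = Finsupp.single (pinf p L) 1 + Finsupp.single (pzero p L) (p : ℤ) := by
  classical
  have hdeg := FF.degree_poleDiv (K := L) (Fermat.MC.transcendental_jL (N := p) (L := L))
  rw [hd] at hdeg
  set E := Finsupp.single (pinf p L) (1 : ℤ) + Finsupp.single (pzero p L) (p : ℤ)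
  have hle : E ≤ poleDiv L (jL p L) := Finsupp.le_def.mpr fun v => by
    rw [poleDiv_apply, Finsupp.add_apply]
    rcases eq_or_ne v (pinf p L) with rfl | h1
    · rw [Finsupp.single_eq_same, Finsupp.single_eq_of_ne pinf_ne_pzero, ord_pinf_jL]; simp
    rcases eq_or_ne v (pzero p L) with rfl | h2
    · rw [Finsupp.single_eq_same, Finsupp.single_eq_of_ne pinf_ne_pzero.symm, ord_pzero_jL]; simp
    rw [Finsupp.single_eq_of_ne h1, Finsupp.single_eq_of_ne h2]
    simp
  refine (sub_eq_zero.mp (eq_zero_of_nonneg_of_degree (sub_nonneg.mpr hle) ?_))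
  rw [map_sub, hdeg, map_add, Divisor.degree_single, Divisor.degree_single, FF.deg_eq_one,
    FF.deg_eq_one]
  push_cast
  ring

end Curve

end Fermat.HT.Cusp

end
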