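import Fermat.Agent.JAC.X0.Fricke
import Fermat.Agent.RED.Model.X0Normal
import Mathlib.RingTheory.Norm.Transitivity

/-!
# The `p + 1` branches of `X₀(p)` over the `j`-line

With `q = u ^ p` the conjugates of a function `f` over `L(j)` are `f(u^p)` and the twists
`(w f)(ζ^b u)` of its expansion at the cusp `0`.
-/

set_option autoImplicit false
set_option linter.unusedSectionVars false

noncomputable section

open ModularCurve Polynomial
open Fermat.RED (jField jb levelField Branch inc twist child)

namespace Fermat.HT.Cusp

-- both lead to searches that take seconds to fail on subfields of Laurent series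
attribute [-instance] IsLocalRing.ResidueField.algebraOfIsIntegral IntermediateField.algebra'

open Fermat.MC Fermat.JAC.X0

variable {p : ℕ} [hp : Fact p.Prime] [NeZero p] {L : Type*} [Field L] [CharZero L] [IsAlgClosed L]
  [Algebra ℚ L] [EmbedsC L]

/-- The series of `j` over `L` is the base change of the rational one. -/
theorem coeffEmb_jq : coeffEmb L jq = jqModC L := by
  rw [← jqModC_rat, coeffEmb, coeffMap_jqModC]

/-- The expansion at `∞` of `j` is `jqModC L`. -/
theorem coe_jL : ((jL p L : FN p L) : LaurentSeries L) = jqModC L := coeffEmb_jq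

/-- The expansion at `∞` of `j_N` is that of `j(q^p)`. -/
theorem coe_jNL : ((jNL p L : FN p L) : LaurentSeries L) = jb L 1 p := by
  change coeffEmb L (qExpand ℚ p jq) = _
  rw [Fermat.RED.jb_one, coeffEmb, ModularCurve.coeffMap_qExpand, ← jqModC_rat, coeffMap_jqModC]

/-- The Fricke involution sends `j` to `j_N`. -/
theorem fricke_jL : fricke p L (jL p L) = jNL p L := by
  have h1 : (jdL L (⟨1, Nat.one_mem_divisors.mpr (NeZero.ne p)⟩ : DivIdx p)) = jL p L :=
    Subtype.ext (by change coeffEmb L (qExpand ℚ 1 jq) = coeffEmb L jq; rw [qExpand_one_apply])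
  rw [← h1, fricke_jdL]
  exact Subtype.ext (congrArg (coeffEmb L)
    (qExpand_congr (M := ((frickePerm p ⟨1, _⟩ : DivIdx p) : ℕ)) (K := p) (Nat.div_one p) jq))

/-- The Fricke involution sends `j_N` to `j`. -/
theorem fricke_jNL : fricke p L (jNL p L) = jL p L := by
  rw [← fricke_jL, fricke_fricke]

/-- The expansion at the cusp `0`, in the coordinate at `∞` of the Fricke image. -/
def atZero : FN p L →ₐ[L] LaurentSeries L := (FN p L).val.comp (fricke p L).toAlgHom

-- `p` and `L` are given explicitly below: elaboration is much slower without them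
/-- The expansion of `f` at `0` is that of `w f` at `∞`. -/
theorem atZero_apply (f : FN p L) :
    atZero (p := p) (L := L) f = (fricke p L f : LaurentSeries L) := rfl

/-- The expansion at `0` is injective. -/
theorem atZero_injective : Function.Injective (atZero : FN p L →ₐ[L] LaurentSeries L) :=
  fun _ _ h => (fricke p L).injective (Subtype.ext h)

/-- At the cusp `0` the function `j` expands as `j(q^p)`. -/
theorem atZero_jL : atZero (p := p) (L := L) (jL p L) = jb L 1 p := by
  rw [atZero_apply, fricke_jL, coe_jNL]

/-- At the cusp `0` the function `j_N` expands as `j(q)`. -/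
theorem atZero_jNL : atZero (p := p) (L := L) (jNL p L) = jqModC L := by
  rw [atZero_apply, fricke_jNL, coe_jL]

variable (p L) in
/-- `L` contains a primitive `p`-th root of unity. -/
theorem exists_zeta : ∃ z : Lˣ, IsPrimitiveRoot z p :=
  Fermat.RED.exists_isPrimitiveRoot_unit L p (Nat.cast_ne_zero.mpr hp.out.ne_zero)

variable (p L) in
/-- A primitive `p`-th root of unity. -/
def zeta : Lˣ := (exists_zeta p L).choose

/-- `zeta p L` is a primitive `p`-th root of unity. -/
theorem isPrimitiveRoot_zeta : IsPrimitiveRoot (zeta p L) p := (exists_zeta p L).choose_spec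

/-- The `p + 1` expansions: at `∞` and at the twists of the one at `0`. -/
def br : Option (Fin p) → FN p L →+* LaurentSeries L
  | none => (qExpand L p).comp (FN p L).val.toRingHom
  | some b => (twist (zeta p L ^ (b : ℕ))).comp atZero.toRingHom

/-- The branch at `∞` is the expansion in `u`, `q = u ^ p`. -/
theorem br_none (f : FN p L) : br none f = qExpand L p (f : LaurentSeries L) := rfl

/-- The other branches are the twists of the expansion at `0`. -/
theorem br_some (b : Fin p) (f : FN p L) :
    br (some b) f = twist (zeta p L ^ (b : ℕ)) (atZero (p := p) (L := L) f) :=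
  rfl

/-- The branches fix the constants. -/
theorem br_algebraMap (i : Option (Fin p)) (c : L) :
    br i (algebraMap L (FN p L) c) = algebraMap L (LaurentSeries L) c := by
  cases i with
  | none =>
    rw [br_none, show ((algebraMap L (FN p L) c : FN p L) : LaurentSeries L) =
      algebraMap L (LaurentSeries L) c from rfl, algebraMap_laurentSeries_eq_single, qExpand_single,
      mul_zero]
  | some b => rw [br_some, AlgHom.commutes, Fermat.RED.twist_algebraMap]

/-- All branches send `j` to `j(u^p)`. -/
theorem br_jL (i : Option (Fin p)) : br i (jL p L) = qExpand L p (jqModC L) := by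
  cases i with
  | none => rw [br_none, coe_jL]
  | some b =>
    rw [br_some, atZero_jL, Fermat.RED.twist_jb, mul_one, ← pow_mul, mul_comm, pow_mul,
      isPrimitiveRoot_zeta.pow_eq_one, one_pow, Fermat.RED.jb_one]

/-- The branches send `j_N` to the children of `j(u^p)`, the roots of the modular polynomial. -/
theorem br_jNL (i : Option (Fin p)) : br i (jNL p L) = child L p (zeta p L) 1 1 i := by
  cases i with
  | none =>
    rw [br_none, coe_jNL, Fermat.RED.qExpand_jb]
    simp [child]
  | some b =>
    rw [br_some, atZero_jNL, child, mul_one, Fermat.RED.jb_def, qExpand_one_apply]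

/-- The branches take distinct values at `j_N`. -/
theorem br_jNL_injective : Function.Injective fun i : Option (Fin p) => br i (jNL p L) := by
  intro i i' h
  simp only [br_jNL] at h
  exact Fermat.RED.child_injective hp.out.one_lt isPrimitiveRoot_zeta 1 1 h

/-- The level field and `FN p L` consist of the same series. -/
theorem mem_levelField {x : LaurentSeries L} : x ∈ levelField L p ↔ x ∈ FN p L := by
  rw [← IntermediateField.mem_restrictScalars L, Fermat.RED.levelField_restrictScalars,
    ← Fermat.RED.Model.fullC_eq_baseChange]

/-- A modular function as an element of `L(j)(j(q^p))`. -/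
def toLevel : FN p L ≃+* levelField L p where
  toFun x := ⟨x, mem_levelField.mpr x.2⟩
  invFun x := ⟨x, mem_levelField.mp x.2⟩
  left_inv _ := rfl
  right_inv _ := rfl
  map_mul' _ _ := rfl
  map_add' _ _ := rfl

/-- On the functions of the `j`-line every branch is `q ↦ q ^ p`. -/
theorem br_eq_qExpand (i : Option (Fin p)) {x : FN p L} (hx : (x : LaurentSeries L) ∈ jField L) :
    br i x = qExpand L p (x : LaurentSeries L) := by
  obtain ⟨x, hxF⟩ := x
  change x ∈ jField L at hx
  suffices H : ∃ h : x ∈ FN p L, br i ⟨x, h⟩ = qExpand L p x by
    obtain ⟨_, e⟩ := H; exact e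
  clear hxF
  unfold jField at hx
  induction hx using IntermediateField.adjoin_induction with
  | mem y hy =>
    rw [Set.mem_singleton_iff] at hy
    subst hy
    refine ⟨coe_jL (p := p) (L := L) ▸ (jL p L).2, ?_⟩
    rw [← br_jL i]
    exact congrArg _ (Subtype.ext coe_jL.symm)
  | algebraMap c =>
    refine ⟨IntermediateField.algebraMap_mem _ c, (br_algebraMap i c).trans ?_⟩
    rw [algebraMap_laurentSeries_eq_single, qExpand_single, mul_zero]
  | add y z _ _ hy hz =>
    obtain ⟨⟨h1, e1⟩, ⟨h2, e2⟩⟩ := hy, hz
    exact ⟨add_mem h1 h2, by rw [map_add, ← e1, ← e2, ← map_add]; rfl⟩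
  | inv y _ hy =>
    obtain ⟨h1, e1⟩ := hy
    exact ⟨inv_mem h1, by rw [map_inv₀, ← e1, ← map_inv₀]; rfl⟩
  | mul y z _ _ hy hz =>
    obtain ⟨⟨h1, e1⟩, ⟨h2, e2⟩⟩ := hy, hz
    exact ⟨mul_mem h1 h2, by rw [map_mul, ← e1, ← e2, ← map_mul]; rfl⟩

/-- The branches as embeddings over `L(j)`. -/
def brEmb (i : Option (Fin p)) : levelField L p →ₐ[jField L] Branch L p where
  toRingHom := (inc L p).comp ((br i).comp toLevel.symm.toRingHom)
  commutes' c := by
    change inc L p (br i ((toLevel (p := p) (L := L)).symm
      (algebraMap (jField L) (levelField L p) c))) = _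
    rw [Fermat.RED.algebraMap_branch, br_eq_qExpand i (x := (toLevel (p := p) (L := L)).symm _)
      (show ((algebraMap (jField L) (levelField L p) c : levelField L p) : LaurentSeries L) ∈
        jField L from c.2)]
    rfl

/-- `p` is nonzero in `L`. -/
theorem natCast_prime_ne_zero : ((p : ℕ) : L) ≠ 0 := Nat.cast_ne_zero.mpr hp.out.ne_zero

/-- The level field has degree `p + 1` over `L(j)`. -/
theorem finrank_level : Module.finrank (jField L) (levelField L p) = p + 1 := by
  rw [Fermat.RED.finrank_levelField p natCast_prime_ne_zero,
    show dedekindPsi p = dedekindPsi (p * 1) by rw [mul_one],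
    Fermat.RED.dedekindPsi_prime_mul hp.out one_ne_zero, if_neg hp.out.not_dvd_one, dedekindPsi_one,
    mul_one]

/-- The product of `X - f_i` over the branches. -/
def gam (f : FN p L) : (LaurentSeries L)[X] := ∏ i : Option (Fin p), (X - C (br i f))

/-- The branch polynomial is monic. -/
theorem gam_monic (f : FN p L) : (gam f).Monic := monic_prod_of_monic _ _ fun _ _ => monic_X_sub_C _

/-- The branch polynomial has degree `p + 1`. -/
theorem natDegree_gam (f : FN p L) : (gam f).natDegree = p + 1 := by
  rw [gam, natDegree_prod_of_monic _ _ fun _ _ => monic_X_sub_C _]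
  simp

/-- The value of the branch polynomial as a product over the branches. -/
theorem eval_gam (f : FN p L) (x : LaurentSeries L) :
    (gam f).eval x = ∏ i : Option (Fin p), (x - br i f) := by
  simp [gam, eval_prod]

/-- The expansion `f(u^p)` is a root of the branch polynomial of `f`. -/
theorem eval_gam_self (f : FN p L) : (gam f).eval (qExpand L p (f : LaurentSeries L)) = 0 := by
  rw [eval_gam]
  exact Finset.prod_eq_zero (Finset.mem_univ none) (sub_eq_zero.mpr (br_none f).symm)

/-- `gam f` is defined over `L(j)`. -/
theorem exists_gam_jField (f : FN p L) :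
    ∃ P : (jField L)[X], P.map ((qExpand L p).comp (jField L).val.toRingHom) = gam f := by
  classical
  -- given directly, as the search for it takes seconds
  have : Module.Free (jField L) (levelField L p) := Module.Free.of_divisionRing _ _
  have : Module.Finite (jField L) (levelField L p) :=
    Module.finite_of_finrank_pos (by rw [finrank_level]; omega)
  have : CharZero (jField L) := charZero_of_injective_algebraMap (algebraMap L _).injective
  have : Algebra.IsSeparable (jField L) (levelField L p) :=
    Algebra.IsAlgebraic.isSeparable_of_perfectField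
  set b := Module.finBasis (jField L) (levelField L p)
  set P := (Algebra.leftMulMatrix b (toLevel (p := p) (L := L) f)).charpoly
  refine ⟨P, Polynomial.eq_of_infinite_eval_eq _ _ ?_⟩
  refine Set.Infinite.mono (s := Set.range fun c : L => algebraMap L (LaurentSeries L) c) ?_
    (Set.infinite_range_of_injective (algebraMap L (LaurentSeries L)).injective)
  rintro _ ⟨c, rfl⟩
  change (P.map _).eval (algebraMap L (LaurentSeries L) c) = (gam f).eval _
  set c' : jField L := algebraMap L (jField L) c
  have hc : algebraMap L (LaurentSeries L) c =
      ((qExpand L p).comp (jField L).val.toRingHom) c' := by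
    change _ = qExpand L p (algebraMap L (LaurentSeries L) c)
    rw [algebraMap_laurentSeries_eq_single, qExpand_single, mul_zero]
  apply (inc L p).injective
  rw [hc, eval_map_apply, Matrix.eval_charpoly, eval_gam, map_prod]
  have hmat : Matrix.scalar _ c' - Algebra.leftMulMatrix b (toLevel (p := p) (L := L) f) =
      Algebra.leftMulMatrix b (algebraMap (jField L) (levelField L p) c' -
        toLevel (p := p) (L := L) f) := by
    rw [map_sub, AlgHom.commutes]
    rfl
  rw [hmat, ← Algebra.norm_eq_matrix_det]
  refine Eq.trans (show _ = algebraMap (jField L) (Branch L p) _ from rfl) ?_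
  rw [Algebra.norm_eq_prod_embeddings]
  have hinj : Function.Injective (brEmb (p := p) (L := L)) := fun i i' h => by
    refine br_jNL_injective ((inc L p).injective ?_)
    exact DFunLike.congr_fun h (toLevel (p := p) (L := L) (jNL p L))
  have hbij : Function.Bijective (brEmb (p := p) (L := L)) := by
    refine (Fintype.bijective_iff_injective_and_card _).mpr ⟨hinj, ?_⟩
    rw [AlgHom.card, finrank_level, Fintype.card_option, Fintype.card_fin]
  refine (Fintype.prod_bijective _ hbij _ _ fun i => ?_).symm
  rw [map_sub, map_sub, AlgHom.commutes, Fermat.RED.algebraMap_branch]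
  change inc L p (algebraMap L (LaurentSeries L) c) - inc L p (br i f) = _
  rw [hc]
  rfl

end Fermat.HT.Cusp

end
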