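import Fermat.Agent.HT.Cusp.Lift
import Fermat.Agent.MF.Eisen.Duality
import Fermat.Agent.MC.IntStructure

/-!
# Integral forms on the reduction

The reductions of integral forms of weight two are the annihilator of the polar parts at `∞` of
the functions regular elsewhere.
-/

set_option autoImplicit false
set_option linter.unusedSectionVars false

attribute [local instance 10000] SubalgebraClass.toAlgebra

noncomputable section

open ModularCurve AlgebraicCurve
open Fermat.RED.Model (intSeries redHom)

namespace Fermat.HT.Cusp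

-- searches through these take seconds to fail on subfields of Laurent series
attribute [-instance] IsScalarTower.of_algHom RingHom.Finite.instFinite

open Fermat.FF Fermat.MC Fermat.JAC.X0

variable {p : ℕ} [hp : Fact p.Prime] [NeZero p]

variable (p) in
/-- The coefficients of an integral cusp form of weight two. -/
def IsIntForm (a : ℕ → ℤ) : Prop :=
  ∃ g : CuspForm (CongruenceSubgroup.Gamma0 p) 2, ∀ n, ModularFormClass.qCoeff g n = a n

/-- An integral cusp form has no constant term. -/
theorem IsIntForm.zero_coeff {a : ℕ → ℤ} (ha : IsIntForm p a) : a 0 = 0 := by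
  obtain ⟨g, hg⟩ := ha
  exact_mod_cast ((hg 0).symm.trans (Fermat.MF.Eisen.qCoeff_form_zero_index g))

/-- An integer sequence as a series. -/
def aSer (K : Type*) [CommRing K] (a : ℕ → ℤ) : LaurentSeries K :=
  HahnSeries.ofPowerSeries ℤ K (PowerSeries.mk fun n => (a n : K))

/-- The coefficient of `aSer K a` in degree `n ≥ 0` is `a n`. -/
theorem coeff_aSer {K : Type*} [CommRing K] (a : ℕ → ℤ) (n : ℕ) :
    (aSer K a).coeff n = a n := by
  rw [aSer, HahnSeries.ofPowerSeries_apply_coeff, PowerSeries.coeff_mk]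

/-- `aSer K a` has no negative part. -/
theorem coeff_aSer_of_neg {K : Type*} [CommRing K] (a : ℕ → ℤ) {n : ℤ} (hn : n < 0) :
    (aSer K a).coeff n = 0 :=
  ofPowerSeries_coeff_of_neg _ hn

/-- Ring maps carry `aSer R a` to `aSer S a`. -/
theorem coeffMap_aSer {R S : Type*} [CommRing R] [CommRing S] (φ : R →+* S) (a : ℕ → ℤ) :
    coeffMap φ (aSer R a) = aSer S a := by
  refine HahnSeries.ext (funext fun n => ?_)
  rw [coeffMap_coeff]
  rcases lt_or_ge n 0 with hn | hn
  · rw [coeff_aSer_of_neg a hn, coeff_aSer_of_neg a hn, map_zero]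
  · obtain ⟨m, rfl⟩ := Int.eq_ofNat_of_zero_le hn
    rw [coeff_aSer, coeff_aSer, map_intCast]

/-- The `q`-series of a form with integral coefficients `a` is `aSer ℂ a`. -/
theorem qS_eq_aSer {g : CuspForm (CongruenceSubgroup.Gamma0 p) 2} {a : ℕ → ℤ}
    (hg : ∀ n, ModularFormClass.qCoeff g n = a n) : qS ⇑g = aSer ℂ a := by
  refine HahnSeries.ext (funext fun n => ?_)
  rcases lt_or_ge n 0 with hn | hn
  · rw [coeff_qS_neg _ hn, coeff_aSer_of_neg a hn]
  · obtain ⟨m, rfl⟩ := Int.eq_ofNat_of_zero_le hn
    rw [coeff_qS, coeff_aSer, hg]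

/-- The residue relation for integral forms. -/
theorem residue_int {f : FN p Qbar} (hf : f ∈ reg (p := p) (L := Qbar)) {a : ℕ → ℤ}
    (ha : IsIntForm p a) : ((f : LaurentSeries Qbar) * aSer Qbar a).coeff 0 = 0 := by
  obtain ⟨g, hg⟩ := ha
  refine (algebraMap Qbar ℂ).injective ?_
  rw [map_zero, ← coeffMap_coeff, map_mul, coeffMap_aSer, ← qS_eq_aSer hg]
  exact residue hf g

/-- The part of a series in degrees `-1, …, -m`. -/
def polar (K : Type*) [Field K] (m : ℕ) (f : LaurentSeries K) (i : Fin m) : K :=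
  f.coeff (-((i : ℕ) + 1 : ℤ))

/-- The `i`-th polar coordinate is the coefficient in degree `-(i + 1)`. -/
theorem polar_apply {K : Type*} [Field K] {m : ℕ} (f : LaurentSeries K) (i : Fin m) :
    polar K m f i = f.coeff (-((i : ℕ) + 1 : ℤ)) := rfl

/-- The constant coefficient of the product with the series of `a` is the polar part paired with
`a`. -/
theorem coeff_zero_mul_aSer {K : Type*} [Field K] {m : ℕ} {f : LaurentSeries K}
    (hf : ∀ n < -(m : ℤ), f.coeff n = 0) {a : ℕ → ℤ} (ha : a 0 = 0) :
    (f * aSer K a).coeff 0 = ∑ i : Fin m, polar K m f i * a ((i : ℕ) + 1) := by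
  classical
  rw [HahnSeries.coeff_mul]
  let e : Fin m → ℤ × ℤ := fun i => (-((i : ℕ) + 1 : ℤ), ((i : ℕ) + 1 : ℤ))
  have he : Function.Injective e := fun i j h => Fin.ext (by
    have := congrArg Prod.snd h; simp only [e] at this; omega)
  rw [show ∑ i : Fin m, polar K m f i * (a ((i : ℕ) + 1) : K) =
      ∑ ij ∈ Finset.univ.image e, f.coeff ij.1 * (aSer K a).coeff ij.2 by
    rw [Finset.sum_image fun i _ j _ h => he h]
    refine Finset.sum_congr rfl fun i _ => ?_
    change _ = _ * (aSer K a).coeff (((i : ℕ) + 1 : ℕ) : ℤ)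
    rw [coeff_aSer]
    rfl]
  refine Finset.sum_bij_ne_zero (fun ij _ _ => ij) (fun ij h1 h2 => ?_) (fun _ _ _ _ _ _ h => h)
    (fun ij h1 h2 => ⟨ij, ?_, h2, rfl⟩) fun _ _ _ => rfl
  · simp only [Finset.mem_antidiagonal, HahnSeries.mem_support] at h1
    obtain ⟨hf0, ha0, hsum⟩ := h1
    have h3 : -(m : ℤ) ≤ ij.1 := not_lt.mp fun h => hf0 (hf _ h)
    have h4 : 1 ≤ ij.2 := by
      by_contra h
      rcases lt_or_eq_of_le (show ij.2 ≤ 0 by omega) with h' | h'
      · exact ha0 (coeff_aSer_of_neg a h')
      · exact ha0 (by rw [h', ← Nat.cast_zero, coeff_aSer, ha, Int.cast_zero])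
    refine Finset.mem_image.mpr ⟨⟨(ij.2 - 1).toNat, by omega⟩, Finset.mem_univ _, ?_⟩
    simp only [e]
    refine Prod.ext ?_ ?_ <;> simp only <;> omega
  · simp only [Finset.mem_antidiagonal, HahnSeries.mem_support]
    obtain ⟨i, -, rfl⟩ := Finset.mem_image.mp h1
    exact ⟨left_ne_zero_of_mul h2, right_ne_zero_of_mul h2, by simp [e]⟩

/-- The genus of `X₀(p)` over `ℚ̄` is the complex one. -/
theorem genusFF_eq_complex : genusFF Qbar (FN p Qbar) = genusFF ℂ (FN p ℂ) := by
  have h1 := genusFF_FN (L := Qbar) p embC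
  have h2 := genusFF_FN (L := ℂ) p (RingHom.id ℂ)
  exact_mod_cast h1.trans h2.symm

namespace Red

variable (R : Red p)

/-- The series of an integer sequence is integral and reduces to itself. -/
theorem redHom_aSer (a : ℕ → ℤ) :
    ∃ h : aSer Qbar a ∈ intSeries R.A, redHom R.res ⟨_, h⟩ = aSer R.k a := by
  have e : coeffMap R.A.subtype (aSer R.A a) = aSer Qbar a := coeffMap_aSer _ _
  refine ⟨⟨_, e⟩, ?_⟩
  rw [← coeffMap_aSer R.res a, ← Fermat.RED.Model.redHom_coeffMap R.res (aSer R.A a) ⟨_, rfl⟩]
  exact congrArg _ (Subtype.ext e.symm)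

/-- The residue field has characteristic `ℓ`. -/
theorem charP_k : CharP R.k R.ℓ := by
  refine (CharP.charP_iff_prime_eq_zero R.hℓ).mpr ?_
  rw [← map_natCast R.res, IsLocalRing.residue_eq_zero_iff, IsLocalRing.mem_maximalIdeal]
  exact ValuationSubring.coe_mem_nonunits_iff.mp (by push_cast; exact R.hA)

/-- The residue relation on the reduction: an integral function with poles only at `∞` reduces to a
series whose product with the reduction of an integral form has no constant term. -/
theorem residue_red {f : FN p Qbar} (hf : f ∈ reg (p := p) (L := Qbar)) (hi : R.Int' f)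
    {a : ℕ → ℤ} (ha : IsIntForm p a) : (R.red f * aSer R.k a).coeff 0 = 0 := by
  obtain ⟨h, e⟩ := R.redHom_aSer a
  rw [← e, red, Fermat.RED.Model.redF_of_mem hi, ← map_mul, Fermat.RED.Model.redHom_coeff,
    ← map_zero R.res]
  exact congrArg R.res (Subtype.ext (residue_int hf ha))

/-- Integral forms remain independent after reduction, as many as the genus. -/
theorem exists_forms_indep :
    ∃ a : Fin (genusFF Qbar (FN p Qbar)) → ℕ → ℤ, (∀ i, IsIntForm p (a i)) ∧
      LinearIndependent R.k fun i n => ((a i n : ℤ) : R.k) := by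
  classical
  have := R.charP_k
  have : Fact R.ℓ.Prime := ⟨R.hℓ⟩
  have := CuspForm.intLattice.moduleFinite p
  have := CuspForm.intLattice.moduleFree p
  -- a basis of the integral lattice: it has at least `g` elements
  set r := Module.finrank ℤ (Fermat.MF.Eisen.Lat p)
  set b := Module.finBasis ℤ (Fermat.MF.Eisen.Lat p)
  choose a ha using fun i n => Fermat.MF.Eisen.exists_int_qCoeff (b i).2 n
  have hint : ∀ i, IsIntForm p (a i) := fun i => ⟨_, ha i⟩
  have hgr : genusFF Qbar (FN p Qbar) ≤ r := by
    rw [genusFF_eq_complex, ← finrank_cuspForm_two p]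
    have hspan : Submodule.span ℂ (Set.range fun i => ((b i : Fermat.MF.Eisen.Lat p) :
        CuspForm (CongruenceSubgroup.Gamma0 p) 2)) = ⊤ := by
      rw [eq_top_iff, ← (span_intLattice_eq_top p 2 : _ = ⊤), Submodule.span_le]
      intro x hx
      have e := congrArg Subtype.val (b.sum_repr ⟨x, hx⟩)
      simp only [AddSubmonoidClass.coe_finsetSum, SetLike.val_smul] at e
      rw [SetLike.mem_coe, ← e]
      refine sum_mem fun i _ => ?_
      rw [← Int.cast_smul_eq_zsmul ℂ]
      exact Submodule.smul_mem _ _ (Submodule.subset_span ⟨i, rfl⟩)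
    rw [← finrank_top ℂ, ← hspan]
    exact (finrank_span_le_card _).trans (by
      rw [Set.toFinset_range]; exact Finset.card_image_le.trans (by simp [r]))
  -- the lattice is saturated, so the basis stays independent modulo `ℓ`
  have key : ∀ u : Fin r → ℤ, (∀ n, ((∑ i, u i * a i n : ℤ) : ZMod R.ℓ) = 0) →
      ∀ i, ((u i : ℤ) : ZMod R.ℓ) = 0 := by
    intro u hu i
    choose q hq using fun n => (ZMod.intCast_zmod_eq_zero_iff_dvd _ _).mp (hu n)
    set g : Fermat.MF.Eisen.Lat p := ∑ i, u i • b i
    have hcoeff : ∀ n, ModularFormClass.qCoeff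
        ((g : Fermat.MF.Eisen.Lat p) : CuspForm (CongruenceSubgroup.Gamma0 p) 2) n =
          ((∑ i, u i * a i n : ℤ) : ℂ) := by
      intro n
      let φ : CuspForm (CongruenceSubgroup.Gamma0 p) 2 →+ ℂ :=
        AddMonoidHom.mk' (fun f => ModularFormClass.qCoeff f n)
          (fun f f' => Fermat.MF.Eisen.qCoeff_form_add f f' n)
      change φ (g : Fermat.MF.Eisen.Lat p).1 = _
      simp only [g, AddSubmonoidClass.coe_finsetSum, map_sum, Int.cast_sum, Int.cast_mul,
        SetLike.val_smul, map_zsmul, zsmul_eq_mul]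
      exact Finset.sum_congr rfl fun i _ => by rw [← ha i n]; rfl
    have hℓ0 : (R.ℓ : ℂ) ≠ 0 := Nat.cast_ne_zero.mpr R.hℓ.ne_zero
    have hmem : ((R.ℓ : ℂ)⁻¹ • (g : CuspForm (CongruenceSubgroup.Gamma0 p) 2)) ∈
        CuspForm.intLattice p 2 :=
      Submodule.subset_span fun n => ⟨q n, by
        rw [Fermat.MF.Eisen.qCoeff_form_smul, hcoeff, hq n]
        push_cast
        rw [← mul_assoc, inv_mul_cancel₀ hℓ0, one_mul]⟩
    have e : g = (R.ℓ : ℤ) • (⟨_, hmem⟩ : Fermat.MF.Eisen.Lat p) := Subtype.ext (by
      rw [SetLike.val_smul, ← Int.cast_smul_eq_zsmul ℂ, smul_smul]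
      push_cast
      rw [mul_inv_cancel₀ hℓ0, one_smul])
    have h1 : b.repr g i = u i := by
      simp only [g, map_sum, map_zsmul, Module.Basis.repr_self]
      simp [Finsupp.single_apply]
    rw [← h1, e, map_zsmul, Finsupp.smul_apply, smul_eq_mul, Int.cast_mul]
    simp
  have hspanF : Submodule.span (ZMod R.ℓ)
      (Set.range fun n => fun i => ((a i n : ℤ) : ZMod R.ℓ)) = ⊤ := by
    by_contra hne
    obtain ⟨φ, hφ0, hle⟩ := Submodule.exists_le_ker_of_lt_top _ (lt_top_iff_ne_top.mpr hne)
    refine hφ0 (LinearMap.pi_ext fun i x => ?_)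
    set w : Fin r → ZMod R.ℓ := fun i => φ (Pi.single i 1)
    have h0 := key (fun i => ((w i).val : ℤ)) (fun n => by
      have h1 : φ (fun i => ((a i n : ℤ) : ZMod R.ℓ)) = 0 := hle (Submodule.subset_span ⟨n, rfl⟩)
      rw [← LinearMap.sum_single_apply (fun _ => ZMod R.ℓ)
        (fun i => ((a i n : ℤ) : ZMod R.ℓ))] at h1
      rw [map_sum] at h1
      push_cast
      rw [← h1]
      refine Finset.sum_congr rfl fun i _ => ?_
      rw [ZMod.natCast_zmod_val, show (Pi.single i ((a i n : ℤ) : ZMod R.ℓ) : Fin r → ZMod R.ℓ) =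
        ((a i n : ℤ) : ZMod R.ℓ) • Pi.single i 1 by simp [← Pi.single_smul], map_smul, smul_eq_mul,
        mul_comm]) i
    push_cast at h0
    rw [ZMod.natCast_zmod_val] at h0
    rw [LinearMap.zero_apply, show (Pi.single i x : Fin r → ZMod R.ℓ) = x • Pi.single i 1 by
      simp [← Pi.single_smul], map_smul, show φ (Pi.single i 1) = w i from rfl, h0, smul_zero]
  -- independence over `𝔽_ℓ` extends to the residue field
  have hli : LinearIndependent R.k fun i n => ((a i n : ℤ) : R.k) := by
    rw [Fintype.linearIndependent_iff]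
    intro c hc j
    set ψ := ZMod.castHom dvd_rfl R.k (n := R.ℓ)
    suffices H : ∀ v ∈ Submodule.span (ZMod R.ℓ)
        (Set.range fun n => fun i => ((a i n : ℤ) : ZMod R.ℓ)), ∑ i, c i * ψ (v i) = 0 by
      have := H (Pi.single j 1) (hspanF ▸ Submodule.mem_top)
      simpa [Pi.single_apply, apply_ite] using this
    intro v hv
    induction hv using Submodule.span_induction with
    | mem v hv =>
      obtain ⟨n, rfl⟩ := hv
      have := congrFun hc n
      simpa [Finset.sum_apply] using this
    | zero => simp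
    | add x y _ _ hx hy => simp [mul_add, Finset.sum_add_distrib, hx, hy]
    | smul s x _ hx => simp [mul_left_comm _ (ψ s), ← Finset.mul_sum, hx]
  exact ⟨fun i => a (Fin.castLE hgr i), fun i => hint _,
    hli.comp _ (Fin.castLE_injective hgr)⟩

/-- A reduced function with poles only at `∞` is constant if its polar part vanishes. -/
theorem polar_injOn (m : ℕ) {z : R.T}
    (hz : z ∈ riemannRochSpace (Finsupp.single R.inf (m : ℤ)))
    (h0 : polar R.k m (z : LaurentSeries R.k) = 0) :
    ∃ c, z = algebraMap R.k R.T c := by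
  suffices h : ∀ v : Place R.k R.T, OrdGE v z 0 by
    obtain ⟨c, hc⟩ := mem_range_of_forall_ordGE (K := R.k) (f := z) h
    exact ⟨c, hc.symm⟩
  intro v
  rcases eq_or_ne v R.inf with rfl | hv
  · rcases eq_or_ne z 0 with rfl | hz0
    · exact ordGE_zero _ _
    refine (ordGE_iff_of_ne hz0).mpr ?_
    have h1 := (mem_riemannRochSpace.mp hz R.inf).le_ord hz0
    rw [Finsupp.single_eq_same, R.ord_inf] at h1
    rw [R.ord_inf]
    by_contra hlt
    refine hz0 (Subtype.ext (HahnSeries.coeff_order_eq_zero.mp ?_))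
    have h2 := congrFun h0 ⟨(-(z : LaurentSeries R.k).order - 1).toNat, by omega⟩
    rw [polar_apply] at h2
    refine Eq.trans (congrArg _ ?_) h2
    push_cast
    omega
  · exact (mem_riemannRochSpace.mp hz v).mono (by rw [Finsupp.single_eq_of_ne hv]; simp)

/-- A subspace of a coordinate space has coordinates which determine it and are dual to some of
its vectors. -/
private theorem exists_coordinates {k : Type*} [Field k] {m : ℕ}
    (N : Submodule k (Fin m → k)) :
    ∃ J : Finset (Fin m), (∀ j ∈ J, ∃ x ∈ N, ∀ i ∈ J, x i = if i = j then 1 else 0) ∧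
      ∀ x ∈ N, (∀ i ∈ J, x i = 0) → x = 0 := by
  classical
  let pr : Fin m → (N →ₗ[k] k) := fun i => (LinearMap.proj i).comp N.subtype
  obtain ⟨J, hJ, hJmax⟩ := exists_maximal_linearIndepOn k pr
  have hsep : ∀ x : N, (∀ i ∈ J, pr i x = 0) → x = 0 := by
    intro x hx
    refine Subtype.ext (funext fun i => ?_)
    by_cases hi : i ∈ J
    · exact hx i hi
    · obtain ⟨a', ha', hmem⟩ := hJmax i hi
      have hall : ∀ ψ ∈ Submodule.span k (pr '' J), ψ x = 0 := fun ψ hψ => by
        induction hψ using Submodule.span_induction with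
        | mem ψ hψ => obtain ⟨l, hl, rfl⟩ := hψ; exact hx l hl
        | zero => rfl
        | add u v _ _ hu hv => rw [LinearMap.add_apply, hu, hv, add_zero]
        | smul s u _ hu => rw [LinearMap.smul_apply, hu, smul_zero]
      have h3 := hall _ hmem
      rw [LinearMap.smul_apply, smul_eq_mul, mul_eq_zero] at h3
      exact h3.resolve_left ha'
  refine ⟨J.toFinset, fun j hj => ?_, fun x hx hx0 =>
    congrArg Subtype.val (hsep ⟨x, hx⟩ fun i hi => hx0 i (Set.mem_toFinset.mpr hi))⟩
  let ev : N →ₗ[k] (J → k) := LinearMap.pi fun i => pr i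
  have hinj : Function.Injective ev := (injective_iff_map_eq_zero _).mpr fun x hx =>
    hsep x fun i hi => congrFun hx ⟨i, hi⟩
  have hcard : Module.finrank k N = Module.finrank k (J → k) := by
    refine le_antisymm (LinearMap.finrank_le_finrank_of_injective hinj) ?_
    rw [Module.finrank_fintype_fun_eq_card, ← Subspace.dual_finrank_eq (K := k) (V := N)]
    exact hJ.linearIndependent.fintype_card_le_finrank
  obtain ⟨⟨x, hx⟩, hz⟩ := (LinearMap.injective_iff_surjective_of_finrank_eq_finrank hcard).mp
    hinj (fun i => if (i : Fin m) = j then 1 else 0)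
  exact ⟨x, hx, fun i hi => congrFun hz ⟨i, Set.mem_toFinset.mp hi⟩⟩

/-- Finitely many coefficients detect the linear relations among independent integral forms. -/
private theorem exists_detecting_bound {g : ℕ} {a : Fin g → ℕ → ℤ} (ha : ∀ i, IsIntForm p (a i))
    (hli : LinearIndependent R.k fun i n => ((a i n : ℤ) : R.k)) :
    ∃ N : ℕ, ∀ m ≥ N, ∀ c : Fin g → R.k,
      (∀ n < m, ∑ i, c i * (a i (n + 1) : R.k) = 0) → c = 0 := by
  let W : ℕ → Submodule R.k (Fin g → R.k) := fun m =>
    ⨅ n : Fin m, LinearMap.ker (Fintype.linearCombination R.k (fun i => (a i ((n : ℕ) + 1) : R.k)))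
  have hW : ∀ m c, c ∈ W m ↔ ∀ n < m, ∑ i, c i * (a i (n + 1) : R.k) = 0 := fun m c => by
    simp [W, Fintype.linearCombination_apply, Fin.forall_iff]
  have hanti : Antitone W := fun m n hmn c hc => by
    rw [hW] at hc ⊢
    exact fun i hi => hc i (hi.trans_le hmn)
  obtain ⟨N, hN⟩ := WellFoundedLT.antitone_chain_condition (f := W) hanti
  refine ⟨N, fun m hm c hc => ?_⟩
  have hc' : ∀ n, ∑ i, c i * (a i (n + 1) : R.k) = 0 := fun n => by
    have h1 : c ∈ W N := by rw [hW]; exact fun i hi => hc i (hi.trans_le hm)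
    rw [show W N = W (max N (n + 1)) from hN _ (le_max_left _ _), hW] at h1
    exact h1 n (by omega)
  refine funext fun i => Fintype.linearIndependent_iff.mp hli c (funext fun n => ?_) i
  simp only [Finset.sum_apply, Pi.smul_apply, smul_eq_mul, Pi.zero_apply]
  rcases n with _ | n
  · simp [fun i => (ha i).zero_coeff]
  · exact hc' n

/-- The polar part, as a linear map on the functions with poles of order at most `m` at `∞`. -/
private def polarMap (m : ℕ) :
    riemannRochSpace (Finsupp.single R.inf (m : ℤ)) →ₗ[R.k] (Fin m → R.k) where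
  toFun z := polar R.k m ((z : R.T) : LaurentSeries R.k)
  map_add' _ _ := rfl
  map_smul' c z := funext fun i => by
    change ((algebraMap R.k R.T c * (z : R.T) : R.T) : LaurentSeries R.k).coeff _ = c * _
    exact Fermat.RED.coeff_algebraMap_mul c _ _

/-- At most the constants have vanishing polar part, so the polar parts in degree `m` fill a
space of dimension at least `m - g`. -/
private theorem sub_genus_le_finrank_range_polarMap {m : ℕ}
    (hm : 2 * genusFF Qbar (FN p Qbar) ≤ m) :
    m - genusFF Qbar (FN p Qbar) ≤ Module.finrank R.k (LinearMap.range (R.polarMap m)) := by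
  have hV : Module.finrank R.k (riemannRochSpace (Finsupp.single R.inf (m : ℤ))) +
      genusFF Qbar (FN p Qbar) = m + 1 := by
    have h2 := ell_of_degree_ge (K := R.k) (D := Finsupp.single R.inf (m : ℤ)) (by
      rw [Divisor.degree_single, FF.deg_eq_one, R.spec_data.2]; push_cast; omega)
    rw [Divisor.degree_single, FF.deg_eq_one, R.spec_data.2] at h2
    change (Module.finrank R.k (riemannRochSpace (Finsupp.single R.inf (m : ℤ))) : ℤ) = _ at h2
    push_cast at h2
    omega
  have hker : Module.finrank R.k (LinearMap.ker (R.polarMap m)) ≤ 1 := by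
    have hle : (LinearMap.ker (R.polarMap m)).map
        (riemannRochSpace (Finsupp.single R.inf (m : ℤ))).subtype ≤
        Submodule.span R.k {(1 : R.T)} := by
      rintro _ ⟨⟨z, hz⟩, hz0, rfl⟩
      obtain ⟨c, hc⟩ := R.polar_injOn m hz hz0
      exact Submodule.mem_span_singleton.mpr ⟨c, by
        rw [Algebra.smul_def, mul_one]; exact hc.symm⟩
    have := Submodule.finrank_mono hle
    rw [(Submodule.equivMapOfInjective _ (Submodule.injective_subtype _) _).finrank_eq]
    exact this.trans ((finrank_span_le_card _).trans (by simp))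
  have := LinearMap.finrank_range_add_finrank_ker (R.polarMap m)
  omega

/-- In a degree detecting the relations, the polar parts are the annihilator of the reductions of
the integral forms. -/
private theorem range_polarMap_eq {m : ℕ} {a : Fin (genusFF Qbar (FN p Qbar)) → ℕ → ℤ}
    (hm : 2 * genusFF Qbar (FN p Qbar) ≤ m) (ha : ∀ i, IsIntForm p (a i))
    (hdet : ∀ c : Fin (genusFF Qbar (FN p Qbar)) → R.k,
      (∀ n < m, ∑ i, c i * (a i (n + 1) : R.k) = 0) → c = 0) :
    LinearMap.range (R.polarMap m) =
      ⨅ j, LinearMap.ker (Fintype.linearCombination R.k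
        fun i : Fin m => (a j ((i : ℕ) + 1) : R.k)) := by
  classical
  let β : (Fin (genusFF Qbar (FN p Qbar)) → R.k) →ₗ[R.k] ((Fin m → R.k) →ₗ[R.k] R.k) :=
    Fintype.linearCombination R.k fun j : Fin (genusFF Qbar (FN p Qbar)) =>
      Fintype.linearCombination R.k fun i : Fin m => (a j ((i : ℕ) + 1) : R.k)
  have hβ : ∀ c x, β c x = ∑ j, c j * ∑ i, x i * (a j ((i : ℕ) + 1) : R.k) := fun c x => by
    simp [β, Fintype.linearCombination_apply]
  have hβinj : Function.Injective β := (injective_iff_map_eq_zero _).mpr fun c hc =>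
    hdet c fun n hn => by
      have := LinearMap.congr_fun hc (Pi.single ⟨n, hn⟩ 1)
      simpa [hβ, Pi.single_apply] using this
  set Ann := ⨅ j : Fin (genusFF Qbar (FN p Qbar)),
    LinearMap.ker (Fintype.linearCombination R.k fun i : Fin m => (a j ((i : ℕ) + 1) : R.k))
  have hord : ∀ z ∈ riemannRochSpace (Finsupp.single R.inf (m : ℤ)), ∀ n < -(m : ℤ),
      ((z : R.T) : LaurentSeries R.k).coeff n = 0 := by
    intro z hz n hn
    rcases eq_or_ne z 0 with rfl | hz0
    · rfl
    refine HahnSeries.coeff_eq_zero_of_lt_order ?_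
    have := (mem_riemannRochSpace.mp hz R.inf).le_ord hz0
    rw [Finsupp.single_eq_same, R.ord_inf] at this
    omega
  -- lift a section and apply the residue relation
  have hle : LinearMap.range (R.polarMap m) ≤ Ann := by
    rintro x ⟨⟨z, hz⟩, rfl⟩
    simp only [Ann, Submodule.mem_iInf, LinearMap.mem_ker, Fintype.linearCombination_apply,
      smul_eq_mul]
    intro j
    have hdeg : 2 * (genusFF Qbar (FN p Qbar) : ℤ) ≤
        Divisor.degree (Finsupp.single (pinf p Qbar) (m : ℤ)) := by
      rw [Divisor.degree_single, FF.deg_eq_one]; push_cast; omega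
    obtain ⟨s, hs, hsi, hsz⟩ := R.exists_lift le_rfl hdeg (z := z) (by
      rw [Finsupp.mapDomain_single, R.r_pinf_eq]; exact hz)
    have h0 := R.residue_red (mem_reg_of_mem le_rfl hs) hsi (ha j)
    rw [show R.red s = ((z : R.T) : LaurentSeries R.k) from congrArg Subtype.val hsz,
      coeff_zero_mul_aSer (hord z hz) (ha j).zero_coeff] at h0
    exact h0
  -- the annihilator of `g` independent functionals has codimension `g`
  have hdim : Module.finrank R.k Ann ≤ m - genusFF Qbar (FN p Qbar) := by
    have h1 : Ann ≤ (LinearMap.range β).dualCoannihilator := fun x hx => by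
      rw [Submodule.mem_dualCoannihilator]
      rintro _ ⟨c, rfl⟩
      simp only [Ann, Submodule.mem_iInf, LinearMap.mem_ker, Fintype.linearCombination_apply,
        smul_eq_mul] at hx
      rw [hβ]
      exact Finset.sum_eq_zero fun j _ => by rw [hx j, mul_zero]
    have h2 := Subspace.finrank_add_finrank_dualCoannihilator_eq (LinearMap.range β)
    rw [LinearMap.finrank_range_of_inj hβinj, Module.finrank_fin_fun, Module.finrank_fin_fun] at h2
    have := Submodule.finrank_mono h1
    omega
  exact Submodule.eq_of_le_of_finrank_le hle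
    (hdim.trans (R.sub_genus_le_finrank_range_polarMap hm))

/-- Coordinates for polar parts in a large degree. -/
theorem exists_frame :
    ∃ (m : ℕ) (J : Finset (Fin m)), 2 * genusFF Qbar (FN p Qbar) ≤ m ∧
      (∀ j ∈ J, ∃ z ∈ riemannRochSpace (Finsupp.single R.inf (m : ℤ)),
        ∀ i ∈ J, polar R.k m ((z : R.T) : LaurentSeries R.k) i = if i = j then 1 else 0) ∧
      ∀ c : Fin m → R.k, (∀ i ∈ J, c i = 0) →
        (∀ a, IsIntForm p a → ∑ i, c i * (a ((i : ℕ) + 1) : R.k) = 0) → c = 0 := by
  obtain ⟨a, ha, hli⟩ := R.exists_forms_indep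
  obtain ⟨N, hN⟩ := R.exists_detecting_bound ha hli
  set m := max N (2 * genusFF Qbar (FN p Qbar))
  have hEq := R.range_polarMap_eq (le_max_right _ _ : _ ≤ m) ha (hN m (le_max_left _ _))
  obtain ⟨J, hdual, hsep⟩ := exists_coordinates (LinearMap.range (R.polarMap m))
  refine ⟨m, J, le_max_right _ _, fun j hj => ?_, fun c hc hann => hsep c ?_ hc⟩
  · obtain ⟨_, ⟨z, rfl⟩, hz⟩ := hdual j hj
    exact ⟨(z : R.T), z.2, hz⟩
  · rw [hEq]
    simp only [Submodule.mem_iInf, LinearMap.mem_ker, Fintype.linearCombination_apply, smul_eq_mul]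
    exact fun j => hann _ (ha j)

end Red

end Fermat.HT.Cusp

end
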