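import Fermat.Agent.JAC.X0.Act
import Fermat.Agent.JAC.X0.Fricke
import Fermat.Agent.JAC.CorrTools
import Fermat.Agent.S08

/-!
# `U_p = -w` on `J₀(p)`

The trace of a regular differential of `X₀(p)` to the `j`-line is zero; read on the expansions at
the `p + 1` branches this says that `U_p` is minus the pullback by the Fricke involution.
-/

set_option autoImplicit false
set_option linter.unusedSectionVars false

attribute [local instance 10000] SubalgebraClass.toAlgebra HahnSeries.powerSeriesAlgebra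

noncomputable section

open ModularCurve AlgebraicCurve
open Fermat.RED (twist twist_qExpand)

namespace Fermat.HT.Cusp

open Fermat.FF Fermat.MC Fermat.JAC Fermat.JAC.X0

variable (p : ℕ) [hp : Fact p.Prime] [NeZero p]

/-- The functions on the `j`-line are functions on `X₀(p)`. -/
theorem FN_one_le : FN 1 ℂ ≤ FN p ℂ := by
  rw [FN_eq_adjoin 1 ℂ]
  refine IntermediateField.adjoin_le_iff.mpr (Set.insert_subset (jq_mem_FN p ℂ) ?_)
  rw [Set.singleton_subset_iff, qExpand_one_apply]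
  exact jq_mem_FN p ℂ

/-- The map to the `j`-line. -/
def toLine : FN 1 ℂ →ₐ[ℂ] FN p ℂ := IntermediateField.inclusion (FN_one_le p)

/-- The map to the `j`-line respects `j`. -/
theorem toLine_jL : toLine p (jL 1 ℂ) = jL p ℂ :=
  Subtype.ext ((IntermediateField.coe_inclusion (FN_one_le p) (jL 1 ℂ)).trans (by rw [jL, jL]))

/-- The Fricke involution as an algebra map. -/
abbrev wC : FN p ℂ →ₐ[ℂ] FN p ℂ := (fricke p ℂ).toAlgHom

/-- The expansion of `w j`. -/
theorem inftyEmb_wC_jL :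
    inftyEmb p (wC p (jL p ℂ)) = qExpand ℂ p (coeffEmb ℂ jq) := by
  have h1 : (jdL ℂ (⟨1, Nat.one_mem_divisors.mpr (NeZero.ne p)⟩ : DivIdx p)) = jL p ℂ :=
    Subtype.ext (by change coeffEmb ℂ (qExpand ℚ 1 jq) = coeffEmb ℂ jq; rw [qExpand_one_apply])
  change ((fricke p ℂ (jL p ℂ) : FN p ℂ) : LaurentSeries ℂ) = _
  rw [← h1, fricke_jdL, coeffEmb, ← ModularCurve.coeffMap_qExpand]
  exact congrArg (coeffEmb ℂ)
    (qExpand_congr (M := ((frickePerm p ⟨1, _⟩ : DivIdx p) : ℕ)) (K := p) (Nat.div_one p) jq)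

/-- The expansion of `w j_N`. -/
theorem inftyEmb_wC_jNL : inftyEmb p (wC p (jNL p ℂ)) = coeffEmb ℂ jq := by
  have h1 : (jdL ℂ (⟨p, Nat.mem_divisors_self p (NeZero.ne p)⟩ : DivIdx p)) = jNL p ℂ :=
    Subtype.ext rfl
  change ((fricke p ℂ (jNL p ℂ) : FN p ℂ) : LaurentSeries ℂ) = _
  rw [← h1, fricke_jdL]
  refine congrArg (coeffEmb ℂ) ((qExpand_congr
    (M := ((frickePerm p ⟨p, _⟩ : DivIdx p) : ℕ)) (K := 1) ?_ jq).trans (qExpand_one_apply jq))
  exact Nat.div_self (Nat.pos_of_neZero p)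

/-- The Fricke involution is an involution. -/
theorem wC_wC (x : FN p ℂ) : wC p (wC p x) = x := fricke_fricke p ℂ x

/-- `X₀(p)` has degree `p + 1` over the `j`-line. -/
theorem finrank_toLine [IsFunctionField ℂ (FN 1 ℂ)] [IsFunctionField ℂ (FN p ℂ)] :
    finrankAlong ℂ (toLine p) = p + 1 := by
  have hpsi : ∀ (M : ℕ) [NeZero M],
      Divisor.degree (zeroDiv ℂ (jL M ℂ)) = (dedekindPsi M : ℤ) := fun M _ => by
    have : IsFunctionField ℂ (FN M ℂ) := MC.isFunctionField_FN M (RingHom.id ℂ)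
    rw [degree_zeroDiv (transcendental_jL M), (finrank_FN M (RingHom.id ℂ)).1,
      psiN_eq_dedekindPsi]
  have hj : toLine p (jL 1 ℂ) = jL p ℂ := toLine_jL p
  have hpull : pullDiv (toLine p) (zeroDiv ℂ (jL 1 ℂ)) = zeroDiv ℂ (jL p ℂ) := by
    ext w
    rw [pullDiv_apply, zeroDiv_apply, zeroDiv_apply, ← hj, ord_below,
      mul_max_of_nonneg _ _ (Int.natCast_nonneg _), mul_zero]
  have h := degree_pullDiv (toLine p) (zeroDiv ℂ (jL 1 ℂ))
  rw [hpull, hpsi, hpsi, dedekindPsi_one,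
    show dedekindPsi p = dedekindPsi (1 * p) by rw [one_mul],
    dedekindPsi_mul_prime 1 p hp.out, if_neg hp.out.not_dvd_one, dedekindPsi_one] at h
  push_cast at h
  omega

/-- The `j`-line has no regular differential. -/
theorem regDiff_one_eq_zero [IsFunctionField ℂ (FN 1 ℂ)] (ω : regDiff (FN 1 ℂ)) : ω = 0 := by
  obtain ⟨f, rfl⟩ := (eS2 1).surjective ω
  rw [Fermat.Agent.S08.result f, map_zero]

/-- The trace to the `j`-line vanishes: the `n`-th coefficient of a regular differential is minus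
the `p n`-th one of its expansion composed with the Fricke involution. -/
theorem coeff_qdiff_fricke [IsFunctionField ℂ (FN p ℂ)] (ω : regDiff (FN p ℂ)) (n : ℤ) :
    (qdiff (inftyEmb p) (ω : Ω[FN p ℂ⁄ℂ])).coeff n =
      -(qdiff ((inftyEmb p).comp (wC p)) (ω : Ω[FN p ℂ⁄ℂ])).coeff ((p : ℤ) * n) := by
  have : IsFunctionField ℂ (FN 1 ℂ) := MC.isFunctionField_FN 1 (RingHom.id ℂ)
  obtain ⟨u, hu⟩ := exists_zetaUnit p
  have hpow : ∀ i : ℕ, (u ^ i) ^ p = 1 := fun i => Units.ext (by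
    rw [← pow_mul, mul_comm, pow_mul, Units.val_pow_eq_pow_val, Units.val_pow_eq_pow_val,
      hu.pow_eq_one, one_pow, Units.val_one])
  set b := (qExpandC p).comp (inftyEmb 1)
  let σ : Option (Fin p) → (FN p ℂ →ₐ[ℂ] LaurentSeries ℂ) := fun o =>
    o.elim ((qExpandC p).comp (inftyEmb p))
      fun i => (twistC (u ^ (i : ℕ))).comp ((inftyEmb p).comp (wC p))
  have hσ : ∀ o x, σ o (toLine p x) = b x := by
    intro o x
    refine ringHom_ext_jdL (φ := ((σ o).comp (toLine p)).toRingHom) (ψ := b.toRingHom)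
      (fun c => (AlgHom.commutes _ c).trans (AlgHom.commutes _ c).symm) (fun d => ?_) x
    have hd : (jdL ℂ d : FN 1 ℂ) = jL 1 ℂ := by
      have : (d : ℕ) = 1 := Nat.eq_one_of_dvd_one d.dvd
      refine Subtype.ext ?_
      change coeffEmb ℂ (qExpand ℚ (d : ℕ) jq) = coeffEmb ℂ jq
      rw [qExpand_congr (K := 1) this, qExpand_one_apply]
    change σ o (toLine p (jdL ℂ d)) = b (jdL ℂ d)
    rw [hd, toLine_jL]
    rcases o with _ | i
    · rfl
    · change twist (u ^ (i : ℕ)) (inftyEmb p (wC p (jL p ℂ))) = qExpand ℂ p (coeffEmb ℂ jq)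
      rw [inftyEmb_wC_jL, twist_qExpand, hpow, RED.twist_one_apply]
  have hσy : ∀ o, (σ o (jNL p ℂ)).coeff (-1) =
      o.elim 0 fun i => ((u : ℂ) ^ (i : ℕ))⁻¹ := by
    rintro (_ | i)
    · refine qExpand_coeff_of_not_dvd p _ fun h => ?_
      have := Int.le_of_dvd one_pos (Int.dvd_neg.mp h)
      have := hp.out.two_le
      omega
    · change (twist (u ^ (i : ℕ)) (inftyEmb p (wC p (jNL p ℂ)))).coeff (-1) = _
      rw [inftyEmb_wC_jNL, RED.twist_coeff, coeffEmb_coeff, coeff_jq_neg_one, map_one, mul_one,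
        zpow_neg, zpow_one, Units.val_inv_eq_inv_val, Units.val_pow_eq_pow_val]
      rfl
  -- the `p + 1` embeddings are distinct
  have hinj : Function.Injective σ := fun o o' h => by
    have h1 := congrArg (fun g : FN p ℂ →ₐ[ℂ] LaurentSeries ℂ => (g (jNL p ℂ)).coeff (-1)) h
    simp only [hσy] at h1
    rcases o with _ | i <;> rcases o' with _ | j
    · rfl
    · exact absurd h1.symm (inv_ne_zero (pow_ne_zero _ u.ne_zero))
    · exact absurd h1 (inv_ne_zero (pow_ne_zero _ u.ne_zero))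
    · exact congrArg some (Fin.ext (hu.pow_inj i.2 j.2 (inv_injective h1)))
  have h0 : diffTr (toLine p) (ω : Ω[FN p ℂ⁄ℂ]) = 0 :=
    congrArg Subtype.val (regDiff_one_eq_zero (regTrace (toLine p) ω))
  -- the trace to the `j`-line is zero; read it at the exponents divisible by `p`
  have key := qdiff_diffTr (toLine p) b σ hσ hinj
    (by rw [Fintype.card_option, Fintype.card_fin, finrank_toLine]) (ω : Ω[FN p ℂ⁄ℂ])
  rw [h0, map_zero, Fintype.sum_option] at key
  have h1 := congrArg (fun z => z.coeff ((p : ℤ) * n)) key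
  simp only [HahnSeries.coeff_zero, HahnSeries.coeff_add, HahnSeries.coeff_sum] at h1
  have h2 : ∀ i : Fin p, (qdiff (σ (some i)) (ω : Ω[FN p ℂ⁄ℂ])).coeff ((p : ℤ) * n) =
      (qdiff ((inftyEmb p).comp (wC p)) (ω : Ω[FN p ℂ⁄ℂ])).coeff ((p : ℤ) * n) := fun i => by
    change (qdiff ((twistC (u ^ (i : ℕ))).comp _) _).coeff _ = _
    rw [qdiff_twist, RED.twist_coeff, zpow_mul, zpow_natCast, hpow, one_zpow, Units.val_one,
      one_mul]
  rw [Finset.sum_congr rfl fun i _ => h2 i, Finset.sum_const, Finset.card_univ, Fintype.card_fin,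
    nsmul_eq_mul, show σ none = (qExpandC p).comp (inftyEmb p) from rfl, qdiff_qExpand,
    HahnSeries.coeff_smul, qExpand_coeff_mul, smul_eq_mul, ← mul_add, eq_comm, mul_eq_zero] at h1
  exact eq_neg_of_add_eq_zero_left (h1.resolve_left (Nat.cast_ne_zero.mpr (NeZero.ne p)))

/-- The trace of a differential along the Fricke involution is its pullback. -/
theorem diffTr_wC [IsFunctionField ℂ (FN p ℂ)] (ω : Ω[FN p ℂ⁄ℂ]) :
    diffTr (wC p) ω = diffPull (wC p) ω := by
  refine qdiff_injective (inftyEmb p) ?_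
  rw [qdiff_diffPull, qdiff_diffTr (wC p) (inftyEmb p)
    (fun _ : Unit => (inftyEmb p).comp (wC p))
    (fun _ x => congrArg (inftyEmb p) (wC_wC p x)) (fun _ _ _ => rfl) ?_ ω]
  · exact Fintype.sum_unique _
  · let := algebraAlong (wC p)
    have hid : finrankAlong ℂ (AlgHom.id ℂ (FN p ℂ)) = 1 := by
      have h := degree_pullDiv (AlgHom.id ℂ (FN p ℂ)) (Finsupp.single (below (AlgHom.id ℂ (FN p ℂ))
        (Classical.choice (nonempty_place ℂ (FN p ℂ)))) 1)
      have hb : ∀ w : Place ℂ (FN p ℂ), below (AlgHom.id ℂ (FN p ℂ)) w = w ∧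
          w.ramificationIndexAlong (AlgHom.id ℂ (FN p ℂ)) = 1 := fun w => by
        have := below_algAut (AlgEquiv.refl : FN p ℂ ≃ₐ[ℂ] FN p ℂ) w
        rw [show (AlgEquiv.refl : FN p ℂ ≃ₐ[ℂ] FN p ℂ) = 1 from rfl, map_one, one_smul] at this
        exact this
      rw [(hb _).1, show pullDiv (AlgHom.id ℂ (FN p ℂ)) (Finsupp.single
          (Classical.choice (nonempty_place ℂ (FN p ℂ))) 1) = Finsupp.single
          (Classical.choice (nonempty_place ℂ (FN p ℂ))) 1 from Finsupp.ext fun w => by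
        rw [pullDiv_apply, (hb w).1, (hb w).2, Nat.cast_one, one_mul],
        Divisor.degree_single, FF.deg_eq_one] at h
      push_cast at h
      omega
    rw [Fintype.card_unit, ← hid]
    exact finrankAlong_eq_of_equiv (AlgHom.id ℂ (FN p ℂ)) (wC p) AlgEquiv.refl (fricke p ℂ)
      fun _ => rfl

/-- `U_p` is minus the Fricke pullback on regular differentials. -/
theorem corrDiff_self [IsFunctionField ℂ (FN p ℂ)] (ω : regDiff (FN p ℂ)) :
    corrDiff p p ω = -regPull (wC p) ω := by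
  refine Subtype.ext (qdiff_injective (inftyEmb p) (HahnSeries.ext (funext fun n => ?_)))
  change (qdiff (inftyEmb p) (diffTr (heckeBetaBar ℂ p p) (diffPull (heckeAlphaBar ℂ p p)
    (ω : Ω[FN p ℂ⁄ℂ])))).coeff n = (qdiff (inftyEmb p) (-diffPull (wC p) (ω : Ω[FN p ℂ⁄ℂ]))).coeff n
  rw [qdiff_heckeCorr p p hp.out, if_neg fun h => h.1 dvd_rfl, add_zero, map_neg,
    HahnSeries.coeff_neg]
  have h := coeff_qdiff_fricke p (regPull (wC p) ω) n
  change (qdiff (inftyEmb p) (diffPull (wC p) (ω : Ω[FN p ℂ⁄ℂ]))).coeff n =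
    -(qdiff ((inftyEmb p).comp (wC p)) (diffPull (wC p) (ω : Ω[FN p ℂ⁄ℂ]))).coeff ((p : ℤ) * n) at h
  rw [h, neg_neg, qdiff_diffPull, AlgHom.comp_assoc,
    show (wC p).comp (wC p) = AlgHom.id ℂ _ from AlgHom.ext (wC_wC p), AlgHom.comp_id]

/-- The Fricke involution commutes with extension of the constants to `ℂ`. -/
theorem fricke_lbc (f : FN p Qbar) :
    fricke p ℂ (algebraMap (FN p Qbar) (FN p ℂ) f) =
      algebraMap (FN p Qbar) (FN p ℂ) (fricke p Qbar f) := by
  refine ringHom_ext_jdL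
    (φ := ((fricke p ℂ).toAlgHom.toRingHom).comp (algebraMap (FN p Qbar) (FN p ℂ)))
    (ψ := (algebraMap (FN p Qbar) (FN p ℂ)).comp (fricke p Qbar).toAlgHom.toRingHom)
    (fun c => ?_) (fun d => ?_) f
  · change fricke p ℂ (algebraMap (FN p Qbar) (FN p ℂ) (algebraMap Qbar (FN p Qbar) c)) =
      algebraMap (FN p Qbar) (FN p ℂ) (fricke p Qbar (algebraMap Qbar (FN p Qbar) c))
    rw [AlgEquiv.commutes, IsConstExt.comm (K := ℂ) c, AlgEquiv.commutes]
  · change fricke p ℂ (algebraMap (FN p Qbar) (FN p ℂ) (jdL Qbar d)) =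
      algebraMap (FN p Qbar) (FN p ℂ) (fricke p Qbar (jdL Qbar d))
    have he : ∀ e : DivIdx p, algebraMap (FN p Qbar) (FN p ℂ) (jdL Qbar e) = jdL ℂ e := fun e => by
      refine Subtype.ext ?_
      simp only [RingHom.algebraMap_toAlgebra, coe_lbcMap]
      exact coeffMap_coeffEmb_ext _ _ _
    rw [he, fricke_jdL, fricke_jdL, he]

/-- `U_p = -w` on the Jacobian. -/
theorem heckeOperatorBar_self (x : JZero p) :
    heckeOperatorBar p ⟨p, hp.out⟩ x = -(frickeAut p Qbar • x) := by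
  have : IsFunctionField ℂ (FN p ℂ) := MC.isFunctionField_FN p (RingHom.id ℂ)
  -- compare over `ℂ`, on functionals of regular differentials
  refine toC_injective p ?_
  have hw : toC p (frickeAut p Qbar • x) = frickeAut p ℂ • toC p x := by
    rw [frickeAut, frickeAut, ← pullPic_algAut, ← pullPic_algAut, toC,
      ConstExt.pullPic_pic0Ext (φ₀ := (fricke p Qbar).toAlgHom) (φ := (fricke p ℂ).toAlgHom)
        (fricke_lbc p)]
  rw [map_neg, hw]
  refine Eq.trans (toC_heckeOperatorBar p (⟨p, hp.out⟩ : Nat.Primes) x) ?_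
  change pushPic (heckeAlphaBar ℂ p p) (pullPic (heckeBetaBar ℂ p p) (toC p x)) = _
  obtain ⟨v, hv⟩ := unif_surjective (toC p x)
  rw [← hv, correspondence_unif, frickeAut, ← unif_autDual, ← map_neg]
  refine congrArg _ (LinearMap.ext fun ω => ?_)
  rw [LinearMap.neg_apply, LinearMap.comp_apply]
  change v (corrDiff p p ω) = -v ((regTrace (wC p)).comp (regPull (AlgHom.id ℂ (FN p ℂ))) ω)
  rw [corrDiff_self, map_neg]
  refine congrArg (fun η => -v η) (Subtype.ext ?_)
  change diffPull (wC p) (ω : Ω[FN p ℂ⁄ℂ]) = diffTr (wC p)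
    (diffPull (AlgHom.id ℂ _) (ω : Ω[FN p ℂ⁄ℂ]))
  rw [diffTr_wC]
  refine congrArg _ (qdiff_injective (inftyEmb p) ?_)
  rw [qdiff_diffPull, AlgHom.comp_id]

end Fermat.HT.Cusp

end
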