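import Fermat.Agent.HT.Cusp.HeckeT
import Fermat.Agent.HT.Cusp.UpFricke

/-!
# `U_p` on presentations

The image of a presentation by the Fricke involution represents the image class by `U_p`.
-/

set_option autoImplicit false

attribute [local instance 10000] SubalgebraClass.toAlgebra HahnSeries.powerSeriesAlgebra

noncomputable section

open ModularCurve Polynomial AlgebraicCurve
open Fermat.RED.Model (intSeries qExpand_mem_intSeries)

namespace Fermat.HT.Cusp

open Fermat.FF Fermat.MC Fermat.JAC Fermat.JAC.X0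

variable {p : ℕ} [hp : Fact p.Prime] [NeZero p]

namespace Red

variable (R : Red p)

/-- The Fricke involution exchanges the two cusps on points with non-integral `j`. -/
theorem near_iff_not_near_fricke (v : Pt p)
    (hv : (fricke p Qbar).toAlgHom (jL p Qbar) ∉ placeVal R.A v) :
    R.Near v ↔ ¬ R.Near (below (fricke p Qbar).toAlgHom v) := by
  set W := placeVal R.A v
  have hf1 : (fricke p Qbar).toAlgHom (jL p Qbar) = jNL p Qbar := fricke_jL
  have hf2 : (fricke p Qbar).toAlgHom (jNL p Qbar) = jL p Qbar := fricke_jNL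
  have hid : R.Near v ↔ jL p Qbar ∉ W ∧ W.valuation (jNL p Qbar) = W.valuation (jL p Qbar) ^ p := by
    have h := R.near_below_iff (AlgHom.id Qbar (FN p Qbar)) v
    have e : below (AlgHom.id Qbar (FN p Qbar)) v = v := by
      have := below_algAut (AlgEquiv.refl : FN p Qbar ≃ₐ[Qbar] FN p Qbar) v
      rw [show (AlgEquiv.refl : FN p Qbar ≃ₐ[Qbar] FN p Qbar) = 1 from rfl, map_one, one_smul]
        at this
      exact this.1
    rwa [e] at h
  rw [hid, R.near_below_iff, hf1, hf2]
  rw [hf1] at hv
  have hgt : 1 < W.valuation (jNL p Qbar) := by rwa [← not_le, W.valuation_le_one_iff]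
  obtain ⟨ζ, hζ⟩ := Fermat.RED.exists_isPrimitiveRoot_unit Qbar p
    (Nat.cast_ne_zero.mpr hp.out.ne_zero)
  obtain ⟨hx, hcases⟩ := val_cases p W.valuation (natCast_le W) hgt (y := jL p Qbar) (rel_eval (by
    rw [coe_jNL, coe_jL]
    have h := Fermat.RED.eval_modular_mul_self hζ 1
    rw [Fermat.RED.jb_one 1, qExpand_one_apply] at h
    simpa only [mul_one] using h))
  have hnot : jL p Qbar ∉ W := fun hm => not_le_of_gt hx ((W.valuation_le_one_iff _).mpr hm)
  refine ⟨fun h h' => ?_, fun h => ⟨hnot, (hcases.resolve_left fun e => h ⟨hv, e⟩).symm⟩⟩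
  have h1 := h.2
  have h2 := h'.2
  rw [h1, ← pow_mul] at h2
  have := (pow_right_strictMono₀ hx).injective ((pow_one _).trans h2)
  have := hp.out.two_le
  nlinarith

/-- At a zero or pole of `pfun s` the function `j` is not integral. -/
theorem not_mem_of_ord_pfun {s : Multiset (Pt p)} (hs : R.NearS s) {v : Pt p}
    (hv : v.ord (pfun s) ≠ 0) : jL p Qbar ∉ placeVal R.A v := by
  rintro ⟨h0, h1⟩
  refine hv ?_
  -- it is enough that `pfun s` has a value reducing to `1` at the place
  suffices H : OrdGE v (pfun s) 0 ∧ ∃ h : evalAt v (pfun s) ∈ R.A, R.res ⟨_, h⟩ = 1 by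
    obtain ⟨hg, h, he⟩ := H
    have := hg.le_ord (R.pfun_data hs).2.2.1
    by_contra hne
    have h2 : evalAt v (pfun s) = 0 :=
      (evalAt_eq_zero_iff hg).mpr ((ordGE_iff_of_ne (R.pfun_data hs).2.2.1).mpr (by omega))
    rw [show (⟨_, h⟩ : R.A) = 0 from Subtype.ext h2, map_zero] at he
    exact zero_ne_one he
  clear hv
  induction s using Multiset.induction with
  | empty =>
    rw [pfun_zero, evalAt_one]
    exact ⟨ordGE_one v, one_mem _, map_one _⟩
  -- each factor `1 - τ j` has one, as `τ` is small and `j` integral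
  | cons Q s ih =>
    obtain ⟨i1, i2, i3⟩ := ih fun x hx => hs x (Multiset.mem_cons_of_mem hx)
    obtain ⟨hτ, hτ0⟩ := R.tau_small (hs Q (Multiset.mem_cons_self Q s))
    have hm : OrdGE v (algebraMap Qbar (FN p Qbar) (tau Q) * jL p Qbar) 0 :=
      ((ordGE_algebraMap v _).mul h0).mono (by simp)
    have hu : OrdGE v (1 - algebraMap Qbar (FN p Qbar) (tau Q) * jL p Qbar) 0 :=
      (ordGE_one v).sub hm
    have he : evalAt v (1 - algebraMap Qbar (FN p Qbar) (tau Q) * jL p Qbar) =
        1 - tau Q * evalAt v (jL p Qbar) := by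
      rw [sub_eq_add_neg, show -(algebraMap Qbar (FN p Qbar) (tau Q) * jL p Qbar) =
        algebraMap Qbar (FN p Qbar) (-tau Q) * jL p Qbar by rw [map_neg, neg_mul],
        evalAt_add (ordGE_one v) (((ordGE_algebraMap v _).mul h0).mono (by simp)),
        evalAt_mul (ordGE_algebraMap v _) h0, evalAt_one, evalAt_algebraMap]
      ring
    rw [pfun_cons, evalAt_mul hu i1, he]
    refine ⟨(hu.mul i1).mono (by simp), mul_mem (sub_mem (one_mem _) (mul_mem hτ h1)) i2, ?_⟩
    rw [show (⟨_, mul_mem (sub_mem (one_mem _) (mul_mem hτ h1)) i2⟩ : R.A) =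
        (1 - ⟨_, hτ⟩ * ⟨_, h1⟩) * ⟨_, i2⟩ from rfl, map_mul, map_sub, map_mul, hτ0, i3, map_one,
      zero_mul, sub_zero, one_mul]

/-- `U_p` on a presentation. -/
theorem exists_rep_U {π : Qbar} (hπ : R.IsScale π)
    {z : Pic0 Qbar (FN p Qbar)} {s : Multiset (Pt p)} (hs : R.IsPres π z s) :
    ∃ h F c, R.IsRep π (heckeOperatorBar p ⟨p, hp.out⟩ z) h F c ∧
      ∀ a b : ℕ → ℤ, (∀ n, b n = a (n * p)) → R.pair (R.red F) a = R.lamS π s b := by
  classical
  obtain ⟨hi, h1, h0, -, -⟩ := R.pfun_data hs.near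
  obtain ⟨hcA, hc1⟩ := R.coeff_zero_pfun hs.near
  set φ := (fricke p Qbar).toAlgHom
  set c := (pfun s : LaurentSeries Qbar).coeff 0
  set F := tfun π s
  have hF := hs.int
  -- on polynomials in `j` the Fricke involution is `q ↦ q^p`
  have hser : ∀ G : Qbar[X], ((φ (aeval (jL p Qbar) G) : FN p Qbar) : LaurentSeries Qbar) =
      qExpand Qbar p ((aeval (jL p Qbar) G : FN p Qbar) : LaurentSeries Qbar) := by
    intro G
    induction G using Polynomial.induction_on' with
    | add P Q hP hQ => simp only [map_add, AddMemClass.coe_add, hP, hQ]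
    | monomial m a =>
      have hf1 : φ (jL p Qbar) = jNL p Qbar := fricke_jL
      simp only [aeval_monomial, map_mul, map_pow, hf1, AlgHom.commutes, MulMemClass.coe_mul,
        SubmonoidClass.coe_pow, IntermediateField.coe_algebraMap_apply, qExpand_algebraMap, coe_jL,
        coe_jNL, Fermat.RED.jb_one]
  obtain ⟨G₀, hG₀⟩ := exists_pfun_eq_aeval s
  have hFG : F = aeval (jL p Qbar) (C π⁻¹ * (G₀ - C c)) := by
    rw [map_mul, map_sub, hG₀, aeval_C, aeval_C]; rfl
  have hFi : R.Int' (φ F) := by
    change _ ∈ intSeries R.A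
    rw [hFG, hser, ← hFG]
    exact qExpand_mem_intSeries p hF
  have heq : φ (pfun s) = algebraMap Qbar (FN p Qbar) c + algebraMap Qbar (FN p Qbar) π * φ F := by
    conv_lhs => rw [pfun_eq_tfun hπ.ne_zero s]
    rw [map_add, map_mul, AlgHom.commutes, AlgHom.commutes]
  have m1 := R.int_algebraMap hcA
  have m2 := R.int_mul (R.int_algebraMap hπ.mem) hFi
  refine ⟨φ (pfun s), φ F, c, ⟨fricke_intJ (intJ_pfun s), heq ▸ R.int_add m1 m2, ?_, heq, hFi,
    fun t ht => ?_⟩, ?_⟩
  · rw [heq, R.redT_add m1 m2, R.redT_mul (R.int_algebraMap hπ.mem) hFi,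
      R.redT_algebraMap hcA, R.redT_algebraMap hπ.mem, hπ.small, hc1]
    simp
  -- the involution exchanges near and far zeros, and the total divisor is principal
  · have hnear : R.nearPart (pullDiv φ (divOf Qbar (pfun s))) =
        pullDiv φ (divOf Qbar (pfun s) - nearDiv s) := by
      rw [← R.nearPart_divOf_pfun hs.near]
      refine Finsupp.ext fun v => ?_
      rw [pullDiv_apply, Finsupp.sub_apply]
      by_cases hv : (fricke p Qbar).toAlgHom (jL p Qbar) ∈ placeVal R.A v
      · have hz : divOf Qbar (pfun s) (below φ v) = 0 := by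
          rw [divOf_apply]
          by_contra hne
          exact R.not_mem_of_ord_pfun hs.near hne ((map_mem_placeVal R.A φ v _).mp hv)
        have hz' : R.nearPart (divOf Qbar (pfun s)) (below φ v) = 0 := by
          by_cases hn : R.Near (below φ v)
          · rw [R.nearPart_apply_pos hn, hz]
          · rw [R.nearPart_apply_neg hn]
        rw [hz', hz, sub_zero, mul_zero]
        by_cases hn : R.Near v
        · rw [R.nearPart_apply_pos hn, pullDiv_apply, hz, mul_zero]
        · rw [R.nearPart_apply_neg hn]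
      have hsw := R.near_iff_not_near_fricke v hv
      by_cases hn : R.Near v
      · rw [R.nearPart_apply_pos hn, R.nearPart_apply_neg (hsw.mp hn), sub_zero, pullDiv_apply]
      · rw [R.nearPart_apply_neg hn, R.nearPart_apply_pos (not_not.mp fun h => hn (hsw.mpr h)),
          sub_self, mul_zero]
    rw [← pullDiv_divOf, hnear] at ht
    have hm : pullDiv φ (divOf Qbar (pfun s) - nearDiv s) ∈
        Divisor.degZero (K := Qbar) (F := FN p Qbar) := by
      rw [ht]; exact nearDiv_mem t
    have hdeg0 : divOf Qbar (pfun s) ∈ Divisor.degZero (K := Qbar) (F := FN p Qbar) := by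
      rw [Divisor.mem_degZero, ← R.hr.degree_mapDomain,
        R.mapDomain_divOf hi (by rw [h1]; exact one_ne_zero), h1,
        show divOf R.k (1 : R.T) = 0 from Finsupp.ext fun v => by rw [divOf_apply, v.ord_one]; rfl,
        map_zero]
    have hdeg : divOf Qbar (pfun s) - nearDiv s ∈
        Divisor.degZero (K := Qbar) (F := FN p Qbar) := sub_mem hdeg0 (nearDiv_mem s)
    have hprinc : Pic0.mk ⟨_, hdeg0⟩ = (0 : Pic0 Qbar (FN p Qbar)) := by
      rw [← cls_zero, eq_comm]
      refine (cls_eq_iff _).mpr ⟨pfun s, h0, ?_⟩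
      rw [show nearDiv (0 : Multiset (Pt p)) = 0 by simp [nearDiv, ofMult], sub_zero]
    have hneg : Pic0.mk ⟨_, hdeg⟩ = -z := by
      refine eq_neg_of_add_eq_zero_left ?_
      rw [← hs.cls_eq, cls, ← Pic0.mk_add, ← hprinc]
      exact congrArg Pic0.mk (Subtype.ext (sub_add_cancel _ _))
    rw [cls, heckeOperatorBar_self, frickeAut, ← pullPic_algAut, ← map_neg, ← hneg,
      pullPic_mk φ ⟨_, hdeg⟩ hm]
    exact congrArg Pic0.mk (Subtype.ext ht.symm)
  · intro a b hb
    have hred : R.red (φ F) = qExpand R.k p (R.red F) := by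
      refine HahnSeries.ext (funext fun n => ?_)
      rw [R.red_coeff hFi]
      by_cases hd : (p : ℤ) ∣ n
      · obtain ⟨m, rfl⟩ := hd
        rw [qExpand_coeff_mul, R.red_coeff hF]
        exact congrArg R.res (Subtype.ext (by
          change ((φ F : FN p Qbar) : LaurentSeries Qbar).coeff _ = (F : LaurentSeries Qbar).coeff m
          rw [hFG, hser, qExpand_coeff_mul]))
      · rw [qExpand_coeff_of_not_dvd p _ hd]
        refine (congrArg R.res (Subtype.ext ?_ : _ = (0 : R.A))).trans (map_zero _)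
        change ((φ F : FN p Qbar) : LaurentSeries Qbar).coeff _ = 0
        rw [hFG, hser, qExpand_coeff_of_not_dvd p _ hd]
    rw [pair, lamS, pair, hred]
    refine coeff_zero_qExpand_mul p _ _ _ fun n => ?_
    rcases lt_or_ge n 0 with hn | hn
    · rw [coeff_aSer_of_neg _ hn,
        coeff_aSer_of_neg a (mul_neg_of_pos_of_neg (by exact_mod_cast hp.out.pos) hn)]
    · obtain ⟨m, rfl⟩ := Int.eq_ofNat_of_zero_le hn
      rw [coeff_aSer, show (p : ℤ) * (m : ℤ) = ((m * p : ℕ) : ℤ) by push_cast; ring, coeff_aSer,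
        hb]

end Red

end Fermat.HT.Cusp

end
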