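import Fermat.Agent.MC.IntStructure
import Fermat.Agent.HT.Cusp.HeckeU

/-!
# The Hecke algebra on the leading digits

The classes presented at a scale are stable under the Hecke algebra, and the leading digit of
`t z` at a form is that of `z` at the image of the form by `t`.
-/

set_option autoImplicit false
set_option linter.unusedSectionVars false

attribute [local instance 10000] SubalgebraClass.toAlgebra HahnSeries.powerSeriesAlgebra

noncomputable section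

open AlgebraicCurve

namespace Fermat.HT.Cusp

open Fermat.MC Fermat.JAC.X0
open Fermat.GR (FullHecke)
open ModularFormClass (qCoeff)

variable {p : ℕ} [hp : Fact p.Prime] [NeZero p]

/-- `b` is the sequence of the image by `t` of the form with sequence `a`. -/
def IsActSeq (t : Module.End ℂ (CuspForm (CongruenceSubgroup.Gamma0 p) 2)) (a b : ℕ → ℤ) : Prop :=
  ∃ g, (∀ n, qCoeff (g : CuspForm (CongruenceSubgroup.Gamma0 p) 2) n = a n) ∧
    ∀ n, qCoeff (t g) n = b n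

/-- An image sequence is the sequence of an integral form. -/
theorem IsActSeq.isIntForm_right
    {t : Module.End ℂ (CuspForm (CongruenceSubgroup.Gamma0 p) 2)} {a b : ℕ → ℤ}
    (h : IsActSeq t a b) : IsIntForm p b :=
  h.elim fun g hg => ⟨t g, hg.2⟩

/-- The coefficients of `T_l g` in weight two. -/
theorem qCoeff_heckeT_two {l : ℕ} (hl : l.Prime) (hlN : ¬ l ∣ p)
    (g : CuspForm (CongruenceSubgroup.Gamma0 p) 2) (n : ℕ) :
    qCoeff (CuspForm.heckeTLin 2 hl hlN g) n =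
      qCoeff g (n * l) + if l ∣ n then (l : ℂ) * qCoeff g (n / l) else 0 := by
  obtain ⟨hd, hper, hb⟩ := bddPer_cuspForm g
  rw [CuspForm.coe_heckeTLin_apply,
    UpperHalfPlane.qCoeff_heckeT (by exact_mod_cast hper) hd hb 2 hl.ne_zero n,
    ModularForm.coeffHeckeT_apply]
  norm_num

/-- The coefficients of `U_l g` in weight two. -/
theorem qCoeff_heckeU_two {l : ℕ} (hl : l.Prime) (hlN : l ∣ p)
    (g : CuspForm (CongruenceSubgroup.Gamma0 p) 2) (n : ℕ) :
    qCoeff (CuspForm.heckeULin 2 hlN g) n = qCoeff g (n * l) := by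
  obtain ⟨hd, hper, hb⟩ := bddPer_cuspForm g
  rw [CuspForm.coe_heckeULin_apply,
    UpperHalfPlane.qCoeff_heckeU (by exact_mod_cast hper) hd hb 2 hl.ne_zero n,
    ModularForm.coeffHeckeU_apply]

/-- Integral forms are closed under addition. -/
theorem IsIntForm.add {a b : ℕ → ℤ} (ha : IsIntForm p a) (hb : IsIntForm p b) :
    IsIntForm p (a + b) := by
  obtain ⟨g, hg⟩ := ha
  obtain ⟨g', hg'⟩ := hb
  exact ⟨g + g', fun n => by
      rw [Fermat.MF.Eisen.qCoeff_form_add, hg, hg', Pi.add_apply]; push_cast; rfl⟩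

/-- Integral forms are closed under integer multiples. -/
theorem IsIntForm.zsmul {a : ℕ → ℤ} (ha : IsIntForm p a) (m : ℤ) : IsIntForm p (m • a) := by
  obtain ⟨g, hg⟩ := ha
  exact ⟨(m : ℂ) • g, fun n => by
    rw [Fermat.MF.Eisen.qCoeff_form_smul, hg, Pi.smul_apply, smul_eq_mul]; push_cast; rfl⟩

/-- `aSer` is additive in the sequence. -/
theorem aSer_add {K : Type*} [CommRing K] (a b : ℕ → ℤ) :
    aSer K (a + b) = aSer K a + aSer K b := by
  refine HahnSeries.ext (funext fun n => ?_)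
  rw [HahnSeries.coeff_add]
  rcases lt_or_ge n 0 with hn | hn
  · rw [coeff_aSer_of_neg _ hn, coeff_aSer_of_neg _ hn, coeff_aSer_of_neg _ hn, add_zero]
  · obtain ⟨m, rfl⟩ := Int.eq_ofNat_of_zero_le hn
    rw [coeff_aSer, coeff_aSer, coeff_aSer, Pi.add_apply, Int.cast_add]

/-- `aSer` commutes with integer multiples. -/
theorem aSer_zsmul {K : Type*} [CommRing K] (m : ℤ) (a : ℕ → ℤ) :
    aSer K (m • a) = m • aSer K a := by
  refine HahnSeries.ext (funext fun n => ?_)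
  rw [HahnSeries.coeff_smul]
  rcases lt_or_ge n 0 with hn | hn
  · rw [coeff_aSer_of_neg _ hn, coeff_aSer_of_neg _ hn, smul_zero]
  · obtain ⟨k, rfl⟩ := Int.eq_ofNat_of_zero_le hn
    rw [coeff_aSer, coeff_aSer, Pi.smul_apply, smul_eq_mul, Int.cast_mul, zsmul_eq_mul]

namespace Red

variable (R : Red p)

/-- The leading digit is additive in the form. -/
theorem lam_forms_add {π : Qbar} (hπ : R.IsScale π) (z : R.scaleSub hπ)
    (a b : {a // IsIntForm p a}) :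
    R.lam hπ z ⟨a.1 + b.1, a.2.add b.2⟩ = R.lam hπ z a + R.lam hπ z b := by
  obtain ⟨z, s, hs⟩ := z
  rw [R.lam_eq hπ hs, R.lam_eq hπ hs, R.lam_eq hπ hs, lamS, lamS, lamS, pair, pair, pair, aSer_add,
    mul_add, HahnSeries.coeff_add]

/-- The leading digit commutes with integer multiples of the form. -/
theorem lam_forms_zsmul {π : Qbar} (hπ : R.IsScale π) (z : R.scaleSub hπ)
    (m : ℤ) (a : {a // IsIntForm p a}) :
    R.lam hπ z ⟨m • a.1, a.2.zsmul m⟩ = m • R.lam hπ z a := by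
  obtain ⟨z, s, hs⟩ := z
  rw [R.lam_eq hπ hs, R.lam_eq hπ hs, lamS, lamS, pair, pair, aSer_zsmul, mul_smul_comm,
    HahnSeries.coeff_smul]

/-- Classes at a scale are stable under `T_l`, whose digit at a form is the digit at the image
form. -/
theorem lam_jAct_T {l : ℕ} (hl : l.Prime) (hlN : ¬ l ∣ p) {π : Qbar} (hπ : R.IsScale π)
    {z : Pic0 Qbar (FN p Qbar)} (hz : z ∈ R.scaleSub hπ) :
    ∃ hm : jAct p (CuspForm.heckeAlgebra.T hl hlN (Set.notMem_empty l)) z ∈ R.scaleSub hπ,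
      ∀ a b (ha : IsIntForm p a) (hb : IsIntForm p b),
        IsActSeq (CuspForm.heckeTLin 2 hl hlN) a b →
          R.lam hπ ⟨_, hm⟩ ⟨a, ha⟩ = R.lam hπ ⟨z, hz⟩ ⟨b, hb⟩ := by
  obtain ⟨s, hs⟩ := hz
  obtain ⟨h, F, c, H, hpair⟩ := R.exists_rep_T hπ hl (fun e => hlN (e ▸ dvd_rfl)) hs
  obtain ⟨hm, hlam⟩ := H.lam hπ
  have e := jAct_T p hl hlN z
  refine ⟨(congrArg (· ∈ R.scaleSub hπ) e).mpr hm, fun a b ha hb hact => ?_⟩
  rw [show (⟨_, (congrArg (· ∈ R.scaleSub hπ) e).mpr hm⟩ : R.scaleSub hπ) = ⟨_, hm⟩ from Subtype.ext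
    e, hlam, R.lam_eq hπ hs]
  refine hpair a b fun n => ?_
  obtain ⟨g, hga, hgb⟩ := hact
  have h := qCoeff_heckeT_two hl hlN g n
  rw [hgb, hga, hga] at h
  exact_mod_cast h

/-- Classes at a scale are stable under `U_q`, whose digit at a form is the digit at the image
form. -/
theorem lam_jAct_U {q : ℕ} (hq : q.Prime) (hqN : q ∣ p) {π : Qbar} (hπ : R.IsScale π)
    {z : Pic0 Qbar (FN p Qbar)} (hz : z ∈ R.scaleSub hπ) :
    ∃ hm : jAct p (CuspForm.heckeAlgebra.U hq hqN (Set.notMem_empty q)) z ∈ R.scaleSub hπ,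
      ∀ a b (ha : IsIntForm p a) (hb : IsIntForm p b),
        IsActSeq (CuspForm.heckeULin 2 hqN) a b →
          R.lam hπ ⟨_, hm⟩ ⟨a, ha⟩ = R.lam hπ ⟨z, hz⟩ ⟨b, hb⟩ := by
  obtain rfl : q = p := (Nat.prime_dvd_prime_iff_eq hq hp.out).mp hqN
  obtain ⟨s, hs⟩ := hz
  obtain ⟨h, F, c, H, hpair⟩ := R.exists_rep_U hπ hs
  obtain ⟨hm, hlam⟩ := H.lam hπ
  have e := jAct_U q hq hqN z
  refine ⟨(congrArg (· ∈ R.scaleSub hπ) e).mpr hm, fun a b ha hb hact => ?_⟩
  rw [show (⟨_, (congrArg (· ∈ R.scaleSub hπ) e).mpr hm⟩ : R.scaleSub hπ) = ⟨_, hm⟩ from Subtype.ext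
    e, hlam, R.lam_eq hπ hs]
  refine hpair a b fun n => ?_
  obtain ⟨g, hga, hgb⟩ := hact
  have h := qCoeff_heckeU_two hq hqN g n
  rw [hgb, hga] at h
  exact_mod_cast h

/-- The Hecke algebra on leading digits. -/
theorem jAct_scale (t : FullHecke p) :
    (∀ a, IsIntForm p a →
      ∃ b, IsActSeq (t : Module.End ℂ (CuspForm (CongruenceSubgroup.Gamma0 p) 2)) a b) ∧
    ∀ (π : Qbar) (hπ : R.IsScale π) (z : Pic0 Qbar (FN p Qbar)) (hz : z ∈ R.scaleSub hπ),
      ∃ hm : jAct p t z ∈ R.scaleSub hπ, ∀ a b (ha : IsIntForm p a) (hb : IsIntForm p b),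
        IsActSeq (t : Module.End ℂ (CuspForm (CongruenceSubgroup.Gamma0 p) 2)) a b →
          R.lam hπ ⟨_, hm⟩ ⟨a, ha⟩ = R.lam hπ ⟨z, hz⟩ ⟨b, hb⟩ := by
  obtain ⟨t, ht⟩ := t
  -- both properties are proved for the generators and are stable under the ring operations
  induction ht using Algebra.adjoin_induction with
  | mem u hu =>
    rcases hu with ⟨l, hl, hlN, -, rfl⟩ | ⟨q, hqN, hq, -, rfl⟩
    -- the generators: `T l` and `U q`, from their formulas on coefficients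
    · refine ⟨fun a ⟨g, hg⟩ => ⟨fun n => a (n * l) + if l ∣ n then (l : ℤ) * a (n / l) else 0,
        g, hg, fun n => ?_⟩, fun π hπ z hz => R.lam_jAct_T hl hlN hπ hz⟩
      rw [qCoeff_heckeT_two hl hlN g n, hg, hg]
      push_cast
      split_ifs <;> rfl
    · refine ⟨fun a ⟨g, hg⟩ => ⟨fun n => a (n * q), g, hg, fun n => ?_⟩,
        fun π hπ z hz => R.lam_jAct_U hq hqN hπ hz⟩
      rw [qCoeff_heckeU_two hq hqN g n, hg]
  | algebraMap m =>
    -- an integer acts by multiplication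
    have hgm : ∀ g n, qCoeff ((algebraMap ℤ (Module.End ℂ
        (CuspForm (CongruenceSubgroup.Gamma0 p) 2)) m) g) n = (m : ℂ) * qCoeff g n := fun g n => by
      rw [Module.algebraMap_end_apply, ← Int.cast_smul_eq_zsmul ℂ,
        Fermat.MF.Eisen.qCoeff_form_smul]
    refine ⟨fun a ⟨g, hg⟩ => ⟨m • a, g, hg, fun n => ?_⟩, fun π hπ z hz => ?_⟩
    · rw [hgm, hg, Pi.smul_apply, smul_eq_mul, Int.cast_mul]
    have e : jAct p ⟨algebraMap ℤ _ m, Subalgebra.algebraMap_mem _ m⟩ z = m • z := by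
      rw [show (⟨algebraMap ℤ _ m, Subalgebra.algebraMap_mem _ m⟩ : FullHecke p) = (m : FullHecke p)
        from rfl, map_intCast, AddMonoid.End.intCast_apply]
    refine ⟨(congrArg (· ∈ R.scaleSub hπ) e).mpr (zsmul_mem hz m), fun a b ha hb hact => ?_⟩
    obtain ⟨g, hga, hgb⟩ := hact
    obtain rfl : b = m • a := funext fun n => by
      have h := hgm g n
      rw [hgb, hga] at h
      rw [Pi.smul_apply, smul_eq_mul]
      exact_mod_cast h
    rw [show (⟨_, (congrArg (· ∈ R.scaleSub hπ) e).mpr (zsmul_mem hz m)⟩ : R.scaleSub hπ) =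
      m • ⟨z, hz⟩ from Subtype.ext e, map_zsmul, Pi.smul_apply]
    exact (R.lam_forms_zsmul hπ ⟨z, hz⟩ m ⟨a, ha⟩).symm
  | add x y hx hy h1 h2 =>
    refine ⟨fun a ha => ?_, fun π hπ z hz => ?_⟩
    · obtain ⟨b1, g, hga, hg1⟩ := h1.1 a ha
      obtain ⟨b2, g', hga', hg2⟩ := h2.1 a ha
      obtain rfl : g = g' := MC.eq_of_qCoeff fun n => by rw [hga, hga']
      exact ⟨b1 + b2, g, hga, fun n => by
        rw [LinearMap.add_apply, Fermat.MF.Eisen.qCoeff_form_add, hg1, hg2, Pi.add_apply]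
        push_cast; rfl⟩
    -- a sum: the leading digits add
    obtain ⟨m1, e1⟩ := h1.2 π hπ z hz
    obtain ⟨m2, e2⟩ := h2.2 π hπ z hz
    have e : jAct p ⟨x + y, add_mem hx hy⟩ z = jAct p ⟨x, hx⟩ z + jAct p ⟨y, hy⟩ z := by
      rw [show (⟨x + y, add_mem hx hy⟩ : FullHecke p) = ⟨x, hx⟩ + ⟨y, hy⟩ from rfl, map_add]
      rfl
    refine ⟨(congrArg (· ∈ R.scaleSub hπ) e).mpr (add_mem m1 m2), fun a b ha hb hact => ?_⟩
    obtain ⟨g, hga, hgb⟩ := hact
    obtain ⟨b1, g1, hga1, hg1⟩ := h1.1 a ha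
    obtain ⟨b2, g2, hga2, hg2⟩ := h2.1 a ha
    obtain rfl : g = g1 := MC.eq_of_qCoeff fun n => by rw [hga, hga1]
    obtain rfl : g = g2 := MC.eq_of_qCoeff fun n => by rw [hga, hga2]
    obtain rfl : b = b1 + b2 := funext fun n => by
      have h := hgb n
      rw [LinearMap.add_apply, Fermat.MF.Eisen.qCoeff_form_add, hg1, hg2] at h
      rw [Pi.add_apply]
      exact_mod_cast h.symm
    rw [show (⟨_, (congrArg (· ∈ R.scaleSub hπ) e).mpr (add_mem m1 m2)⟩ : R.scaleSub hπ) =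
      ⟨_, m1⟩ + ⟨_, m2⟩ from Subtype.ext e, map_add, Pi.add_apply,
      e1 a b1 ha ⟨x g, hg1⟩ ⟨g, hga, hg1⟩,
      e2 a b2 ha ⟨y g, hg2⟩ ⟨g, hga, hg2⟩]
    exact (R.lam_forms_add hπ ⟨z, hz⟩ ⟨b1, ⟨x g, hg1⟩⟩ ⟨b2, ⟨y g, hg2⟩⟩).symm
  | mul x y hx hy h1 h2 =>
    have hcomm : x * y = y * x :=
      congrArg Subtype.val (mul_comm (⟨x, hx⟩ : FullHecke p) ⟨y, hy⟩)
    refine ⟨fun a ha => ?_, fun π hπ z hz => ?_⟩
    · obtain ⟨b, g, hga, hgb⟩ := h2.1 a ha
      obtain ⟨b', g', hga', hgb'⟩ := h1.1 b ⟨y g, hgb⟩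
      obtain rfl : g' = y g := MC.eq_of_qCoeff fun n => by rw [hga', hgb]
      exact ⟨b', g, hga, hgb'⟩
    -- a product: apply `y` and then `x`; the operators commute on forms
    obtain ⟨m1, e1⟩ := h2.2 π hπ z hz
    obtain ⟨m2, e2⟩ := h1.2 π hπ _ m1
    have e : jAct p ⟨x * y, mul_mem hx hy⟩ z = jAct p ⟨x, hx⟩ (jAct p ⟨y, hy⟩ z) := by
      rw [show (⟨x * y, mul_mem hx hy⟩ : FullHecke p) = ⟨x, hx⟩ * ⟨y, hy⟩ from rfl, map_mul]
      rfl
    refine ⟨(congrArg (· ∈ R.scaleSub hπ) e).mpr m2, fun a b ha hb hact => ?_⟩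
    obtain ⟨g, hga, hgb⟩ := hact
    obtain ⟨c, g', hga', hgc⟩ := h1.1 a ha
    obtain rfl : g = g' := MC.eq_of_qCoeff fun n => by rw [hga, hga']
    rw [show (⟨_, (congrArg (· ∈ R.scaleSub hπ) e).mpr m2⟩ : R.scaleSub hπ) =
      ⟨_, m2⟩ from Subtype.ext e,
      e2 a c ha ⟨x g, hgc⟩ ⟨g, hga, hgc⟩, e1 c b ⟨x g, hgc⟩ hb ⟨x g, hgc, fun n => ?_⟩]
    change qCoeff (y (x g)) n = _
    rw [← hgb n, show ((⟨x * y, mul_mem hx hy⟩ : FullHecke p) :
        Module.End ℂ (CuspForm (CongruenceSubgroup.Gamma0 p) 2)) g = y (x g) from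
      (DFunLike.congr_fun hcomm g)]

end Red

end Fermat.HT.Cusp

end
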