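import Fermat.Agent.HT.Cusp.Rep
import Fermat.Agent.RED.Congruence.X0

/-!
# `T_ℓ` on presentations

The norm of a presentation along `T_ℓ` represents the image class; its digit pairs with a form as
the original digit with the image of the form.
-/

set_option autoImplicit false
set_option linter.unusedSectionVars false

attribute [local instance 10000] SubalgebraClass.toAlgebra HahnSeries.powerSeriesAlgebra

noncomputable section

open ModularCurve AlgebraicCurve
open Fermat.RED.Model (intSeries mem_intSeries_iff qExpand_mem_intSeries redHom)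

namespace Fermat.HT.Cusp

open Fermat.FF Fermat.MC Fermat.JAC Fermat.JAC.X0
open Fermat.RED (jb twist)

section Series

/-- If `φ c = 1` and `φ π = 0` then `∏ (c + π G_o)` is `c ^ card + π G'` with `φ G' = ∑ φ G_o`. -/
theorem exists_prod_add {S T ι : Type*} [CommRing S] [CommRing T] (φ : S →+* T) (s : Finset ι)
    (c π : S) (G : ι → S) (hc : φ c = 1) (hπ : φ π = 0) :
    ∃ G', ∏ o ∈ s, (c + π * G o) = c ^ s.card + π * G' ∧ φ G' = ∑ o ∈ s, φ (G o) := by
  classical
  induction s using Finset.induction with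
  | empty => exact ⟨0, by simp, by simp⟩
  | insert a s ha ih =>
    obtain ⟨G', h1, h2⟩ := ih
    refine ⟨G a * c ^ s.card + c * G' + π * (G a * G'), ?_, ?_⟩
    · rw [Finset.prod_insert ha, h1, Finset.card_insert_of_notMem ha]; ring
    · rw [Finset.sum_insert ha, map_add, map_add, map_mul, map_mul, map_mul, map_pow, hc, hπ, h2,
        one_pow, mul_one, one_mul, zero_mul, add_zero]

/-- The constant term of `X(q^l) Y` is that of `X Z`, where `Z` extracts the coefficients of `Y` at
multiples of `l`. -/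
theorem coeff_zero_qExpand_mul {K : Type*} [Field K] (l : ℕ) [NeZero l] (X Y Z : LaurentSeries K)
    (hZ : ∀ n : ℤ, Z.coeff n = Y.coeff ((l : ℤ) * n)) :
    (qExpand K l X * Y).coeff 0 = (X * Z).coeff 0 := by
  have h1 : (qExpand K l (X * Z)).coeff 0 = (X * Z).coeff 0 := by
    rw [← mul_zero (l : ℤ), qExpand_coeff_mul, mul_zero]
  rw [← h1, map_mul, ← sub_eq_zero, ← HahnSeries.coeff_sub, ← mul_sub, HahnSeries.coeff_mul]
  refine Finset.sum_eq_zero fun ij hij => ?_
  simp only [Finset.mem_antidiagonal, HahnSeries.mem_support] at hij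
  obtain ⟨h2, h3, h4⟩ := hij
  by_cases hd : (l : ℤ) ∣ ij.1
  · obtain ⟨i, hi⟩ := hd
    refine absurd ?_ h3
    rw [show ij.2 = (l : ℤ) * -i by rw [mul_neg, ← hi]; omega, HahnSeries.coeff_sub,
      qExpand_coeff_mul, hZ, sub_self]
  · exact absurd (qExpand_coeff_of_not_dvd l X hd) h2

end Series

variable {p : ℕ} [hp : Fact p.Prime] [NeZero p]

/-- The norm along `T_ℓ` of a function integral away from the cusps. -/
theorem intJ_normAlong {l : ℕ} [NeZero l] (hl : l.Prime) [IsFunctionField Qbar (FN p Qbar)]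
    [IsFunctionField Qbar (FN (p * l) Qbar)] {h : FN p Qbar} (hJ : IntJ h) (h0 : h ≠ 0) :
    IntJ (normAlong (heckeAlphaBar Qbar p l) (heckeBetaBar Qbar p l h)) := by
  have : Fact l.Prime := ⟨hl⟩
  set α := heckeAlphaBar Qbar p l
  set β := heckeBetaBar Qbar p l
  have hβh : β h ≠ 0 := (map_ne_zero_iff _ β.toRingHom.injective).mpr h0
  refine intJ_iff.mpr fun v hv => ordGE_iff.mpr (.inr ?_)
  rw [ord_normAlong α v hβh]
  refine Finset.sum_nonneg fun w hw => ?_
  have h1' : OrdGE w (α (jL p Qbar)) 0 := ordGE_comp α ((mem_above α).1 hw ▸ hv)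
  set W := w.toValuationSubring
  have h2 : β (jL p Qbar) ∈ W := by
    by_contra hn
    have hgt : 1 < W.valuation (β (jL p Qbar)) := by
      rwa [← not_le, W.valuation_le_one_iff]
    obtain ⟨ζ, hζ⟩ := Fermat.RED.exists_isPrimitiveRoot_unit Qbar l
      (Nat.cast_ne_zero.mpr hl.ne_zero)
    have c1 : ((α (jL p Qbar) : FN (p * l) Qbar) : LaurentSeries Qbar) = jb Qbar 1 1 := by
      rw [Fermat.RED.jb_one, qExpand_one_apply]; exact (coe_heckeAlphaBar p l _).trans coe_jL
    have cl : ((β (jL p Qbar) : FN (p * l) Qbar) : LaurentSeries Qbar) = jb Qbar 1 (l * 1) := by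
      rw [← Fermat.RED.qExpand_jb, ← c1]
      exact (coe_heckeBetaBar p l _).trans (by rw [coe_heckeAlphaBar])
    have := (val_cases l W.valuation (Red.natCast_le W) hgt (y := α (jL p Qbar)) (Red.rel_eval (by
      rw [c1, cl]; exact Fermat.RED.eval_modular_mul_self hζ 1))).1
    exact not_le_of_gt this ((W.valuation_le_one_iff _).mpr ((mem_iff_ordGE w).mpr h1'))
  have h3 : OrdGE (below β w) (jL p Qbar) 0 := by
    refine ordGE_iff.mpr (.inr ?_)
    have h4 := ((mem_iff_ordGE w).mp h2).le_ord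
      ((map_ne_zero_iff _ β.toRingHom.injective).mpr jL_ne_zero)
    rw [ord_below] at h4
    exact nonneg_of_mul_nonneg_right h4 (by exact_mod_cast ramificationIndexAlong_pos β w)
  rw [ord_below]
  exact mul_nonneg (Int.natCast_nonneg _) ((intJ_iff.mp hJ _ h3).le_ord h0)

/-- The expansion of the norm along `T_ℓ`. -/
theorem qExpand_normAlong_beta {l : ℕ} [NeZero l] (hl : l.Prime) (hlp : l ≠ p)
    [IsFunctionField Qbar (FN p Qbar)] [IsFunctionField Qbar (FN (p * l) Qbar)]
    {ζ : Qbarˣ} (hζ : IsPrimitiveRoot (ζ : Qbar) l) (h : FN p Qbar) :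
    qExpand Qbar l
        ((normAlong (heckeAlphaBar Qbar p l) (heckeBetaBar Qbar p l h) : FN p Qbar) :
          LaurentSeries Qbar) =
      qExpand Qbar l (qExpand Qbar l (h : LaurentSeries Qbar)) *
        ∏ i : Fin l, twist (ζ ^ (i : ℕ)) (h : LaurentSeries Qbar) := by
  have hlN : ¬ l ∣ p := fun h => hlp ((Nat.prime_dvd_prime_iff_eq hl hp.out).mp h)
  obtain ⟨e₀, hα₀, hβ₀⟩ := Fermat.RED.CongX0.exists_otherExpansion p l hl hlN
  exact Fermat.RED.qExpand_normAlong_eq (heckeAlphaBar Qbar p l) (heckeBetaBar Qbar p l)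
    (modularFunctionFieldBar p).val.toRingHom (modularFunctionFieldBar (p * l)).val.toRingHom e₀ id
    (coe_heckeAlphaBar p l) (coe_heckeBetaBar p l) hα₀ hβ₀ hζ hl.one_lt
    (Fermat.RED.CongX0.finrankAlong_alpha_bar p l hl hlN) (y := jL p Qbar)
    (by
      change (coeffEmb Qbar jq).coeff (-1 : ℤ) ≠ 0
      rw [coeffEmb_coeff, coeff_jq_neg_one, map_one]
      exact one_ne_zero) h

/-- The pairing of the digit of a norm. -/
theorem coeff_zero_digit_norm {K : Type*} [Field K] {l : ℕ} [NeZero l] {Y Y' : LaurentSeries K}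
    (hY : ∀ n : ℤ, Y'.coeff n = (qExpand K l Y).coeff n + (l : K) * Y.coeff ((l : ℤ) * n))
    {a b : ℕ → ℤ} (hb : ∀ n, b n = a (n * l) + if l ∣ n then (l : ℤ) * a (n / l) else 0) :
    (Y' * aSer K a).coeff 0 = (Y * aSer K b).coeff 0 := by
  have hl0 : 0 < l := Nat.pos_of_neZero l
  set A := aSer K a
  -- `W` and `Z` are the coefficients at multiples of `l`
  set W := Y' - qExpand K l Y with hWdef
  have hW : ∀ n : ℤ, W.coeff n =
      (algebraMap K (LaurentSeries K) (l : K) * Y).coeff ((l : ℤ) * n) := fun n => by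
    rw [hWdef, HahnSeries.coeff_sub, hY, Fermat.RED.coeff_algebraMap_mul, add_sub_cancel_left]
  set Z := aSer K fun n => a (n * l)
  have hZ : ∀ n : ℤ, Z.coeff n = A.coeff ((l : ℤ) * n) := fun n => by
    rcases lt_or_ge n 0 with hn | hn
    · rw [coeff_aSer_of_neg _ hn,
        coeff_aSer_of_neg a (mul_neg_of_pos_of_neg (by exact_mod_cast hl0) hn)]
    · obtain ⟨m, rfl⟩ := Int.eq_ofNat_of_zero_le hn
      rw [coeff_aSer, show (l : ℤ) * (m : ℤ) = ((m * l : ℕ) : ℤ) by push_cast; ring, coeff_aSer]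
  -- `aSer b` is `Z` plus `l` times the expansion of `A`
  have hB : aSer K b = Z + algebraMap K (LaurentSeries K) (l : K) * qExpand K l A := by
    refine HahnSeries.ext (funext fun n => ?_)
    rw [HahnSeries.coeff_add, Fermat.RED.coeff_algebraMap_mul]
    rcases lt_or_ge n 0 with hn | hn
    · rw [coeff_aSer_of_neg _ hn, coeff_aSer_of_neg _ hn]
      by_cases hd : (l : ℤ) ∣ n
      · obtain ⟨m, rfl⟩ := hd
        rw [qExpand_coeff_mul, coeff_aSer_of_neg a (by
          have : (0 : ℤ) < l := by exact_mod_cast hl0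
          nlinarith)]
        simp
      · rw [qExpand_coeff_of_not_dvd l _ hd]; simp
    · obtain ⟨m, rfl⟩ := Int.eq_ofNat_of_zero_le hn
      rw [coeff_aSer, coeff_aSer, hb m]
      by_cases hd : l ∣ m
      · obtain ⟨k, rfl⟩ := hd
        rw [if_pos (dvd_mul_right l k), Nat.mul_div_cancel_left k hl0,
          show ((l * k : ℕ) : ℤ) = (l : ℤ) * (k : ℤ) by push_cast; ring, qExpand_coeff_mul,
          coeff_aSer]
        push_cast
        ring
      · rw [if_neg hd, qExpand_coeff_of_not_dvd l _ (by exact_mod_cast hd)]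
        simp
  -- so the two pairings agree term by term
  rw [show Y' = qExpand K l Y + W by rw [hWdef, add_sub_cancel], hB, add_mul, mul_add,
    HahnSeries.coeff_add, HahnSeries.coeff_add, coeff_zero_qExpand_mul l Y A Z hZ, mul_comm W A,
    ← coeff_zero_qExpand_mul l A (algebraMap K (LaurentSeries K) (l : K) * Y) W hW,
    mul_left_comm (qExpand K l A), mul_left_comm Y, mul_comm Y (qExpand K l A)]

namespace Red

variable (R : Red p)

/-- The reduction of an integral function, computed on its series. -/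
theorem red_coe {f : FN p Qbar} (hf : R.Int' f) :
    redHom R.res ⟨(f : LaurentSeries Qbar), hf⟩ = R.red f :=
  (Fermat.RED.Model.redF_of_mem (π := R.res) (ι := (FN p Qbar).val.toRingHom) hf).symm

/-- Twisting by an `l`-th root of unity preserves integrality. -/
theorem twist_mem_intSeries {l : ℕ} [NeZero l] {u : Qbarˣ} (hu : u ^ l = 1)
    {f : LaurentSeries Qbar} (hf : f ∈ intSeries R.A) : twist u f ∈ intSeries R.A :=
  mem_intSeries_iff.mpr fun n => by
    rw [Fermat.RED.twist_coeff]
    refine mul_mem ?_ (mem_intSeries_iff.mp hf n)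
    rw [← R.A.valuation_le_one_iff, Units.val_zpow_eq_zpow_val, map_zpow₀]
    have h := congrArg (fun x : Qbarˣ => R.A.valuation (x : Qbar)) hu
    simp only [Units.val_pow_eq_pow_val, Units.val_one, map_pow, map_one] at h
    rw [(pow_eq_one_iff_of_nonneg zero_le (NeZero.ne l)).mp h, one_zpow]

/-- The digit of a norm product. -/
theorem exists_digit_prod {l : ℕ} [NeZero l] {ζ : Qbarˣ} (hζ : ζ ^ l = 1) {c π : Qbar}
    (hc : c ∈ R.A) (hc1 : R.res ⟨c, hc⟩ = 1) (hπ : π ∈ R.A) (hπ0 : R.res ⟨π, hπ⟩ = 0)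
    {f : LaurentSeries Qbar} (hf : f ∈ intSeries R.A) :
    ∃ G : intSeries R.A,
      qExpand Qbar l (qExpand Qbar l
          (algebraMap Qbar (LaurentSeries Qbar) c + algebraMap Qbar (LaurentSeries Qbar) π * f)) *
        ∏ i : Fin l, twist (ζ ^ (i : ℕ))
          (algebraMap Qbar (LaurentSeries Qbar) c + algebraMap Qbar (LaurentSeries Qbar) π * f) =
        algebraMap Qbar (LaurentSeries Qbar) (c ^ (l + 1)) +
          algebraMap Qbar (LaurentSeries Qbar) π * (G : LaurentSeries Qbar) ∧
      ∀ n : ℤ, (redHom R.res G).coeff ((l : ℤ) * n) =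
        (qExpand R.k l (redHom R.res ⟨f, hf⟩)).coeff n +
          (l : R.k) * (redHom R.res ⟨f, hf⟩).coeff ((l : ℤ) * n) := by
  have hXc : algebraMap Qbar (LaurentSeries Qbar) c ∈ intSeries R.A := R.int_algebraMap hc
  have hXπ : algebraMap Qbar (LaurentSeries Qbar) π ∈ intSeries R.A := R.int_algebraMap hπ
  have hi : ∀ i : ℕ, (ζ ^ i) ^ l = 1 := fun i => by rw [← pow_mul, mul_comm, pow_mul, hζ, one_pow]
  have htw : ∀ i : ℕ, twist (ζ ^ i) f ∈ intSeries R.A := fun i => R.twist_mem_intSeries (hi i) hf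
  -- expand the product of the `l + 1` factors `c + π * G o` to first order
  let G : Option (Fin l) → intSeries R.A := fun o =>
    o.elim ⟨_, qExpand_mem_intSeries l (qExpand_mem_intSeries l hf)⟩ fun i => ⟨_, htw i⟩
  obtain ⟨G', hG', hG''⟩ := exists_prod_add (redHom R.res) Finset.univ
    (⟨_, hXc⟩ : intSeries R.A) ⟨_, hXπ⟩ G
        (by rw [RED.Model.redHom_algebraMap R.res hc, hc1, map_one])
    (by rw [RED.Model.redHom_algebraMap R.res hπ, hπ0, map_zero])
  refine ⟨G', ?_, fun n => ?_⟩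
  · have hG1 := congrArg Subtype.val hG'
    simp only [Subring.coe_mul, Subring.coe_add, SubmonoidClass.coe_pow,
      SubmonoidClass.coe_finsetProd, Finset.card_univ, Fintype.card_option, Fintype.card_fin,
      Fintype.prod_option] at hG1
    rw [map_pow, ← hG1]
    simp only [map_add, map_mul, qExpand_algebraMap, Fermat.RED.twist_algebraMap, G, Option.elim]
  -- modulo the maximal ideal `G'` is the sum of the `G o`
  · rw [hG'', HahnSeries.coeff_sum, Fintype.sum_option]
    refine congrArg₂ (· + ·) ?_ ?_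
    · rw [Fermat.RED.Model.redHom_coeff]
      by_cases hd : (l : ℤ) ∣ n
      · obtain ⟨m, rfl⟩ := hd
        rw [qExpand_coeff_mul, Fermat.RED.Model.redHom_coeff]
        exact congrArg R.res (Subtype.ext (by
          change (qExpand Qbar l (qExpand Qbar l f)).coeff _ = f.coeff m
          rw [qExpand_coeff_mul, qExpand_coeff_mul]))
      · rw [qExpand_coeff_of_not_dvd l _ hd]
        refine (congrArg R.res (Subtype.ext ?_ : _ = (0 : R.A))).trans (map_zero _)
        change (qExpand Qbar l (qExpand Qbar l f)).coeff _ = 0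
        rw [qExpand_coeff_mul, qExpand_coeff_of_not_dvd l _ hd]
    -- and twisting fixes the coefficients at multiples of `l`
    · rw [Finset.sum_congr rfl fun i _ =>
          (?_ : _ = (redHom R.res ⟨f, hf⟩).coeff ((l : ℤ) * n)), Finset.sum_const,
        Finset.card_univ, Fintype.card_fin, nsmul_eq_mul]
      rw [Fermat.RED.Model.redHom_coeff, Fermat.RED.Model.redHom_coeff]
      refine congrArg R.res (Subtype.ext ?_)
      change (twist (ζ ^ (i : ℕ)) f).coeff _ = f.coeff _
      rw [Fermat.RED.twist_coeff, zpow_mul, zpow_natCast, hi, one_zpow, Units.val_one, one_mul]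

/-- The class of the near part of the divisor of a norm. -/
theorem cls_norm {l : ℕ} [NeZero l] (hl : l.Prime) (hlp : l ≠ p)
    [IsFunctionField Qbar (FN (p * l) Qbar)] {s t : Multiset (Pt p)} (hs : R.NearS s)
    (ht : R.nearPart (divOf Qbar (normAlong (heckeAlphaBar Qbar p l)
      (heckeBetaBar Qbar p l (pfun s)))) = nearDiv t) :
    cls t = pushPic (heckeAlphaBar Qbar p l) (pullPic (heckeBetaBar Qbar p l) (cls s)) := by
  set α := heckeAlphaBar Qbar p l
  set β := heckeBetaBar Qbar p l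
  have hcomm : ∀ D, R.nearPart (pushDiv α (pullDiv β D)) =
      pushDiv α (pullDiv β (R.nearPart D)) := by
    intro D
    refine Finsupp.ext fun v => ?_
    by_cases hv : R.Near v
    · rw [R.nearPart_apply_pos hv, pushDiv_apply, pushDiv_apply]
      refine Finset.sum_congr rfl fun w hw => ?_
      rw [pullDiv_apply, pullDiv_apply, R.nearPart_apply_pos
        ((R.near_alpha_iff_beta hl hlp w).mp ((mem_above α).1 hw ▸ hv))]
    · rw [R.nearPart_apply_neg hv, pushDiv_apply]
      refine (Finset.sum_eq_zero fun w hw => ?_).symm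
      rw [pullDiv_apply, R.nearPart_apply_neg fun h =>
        hv ((mem_above α).1 hw ▸ (R.near_alpha_iff_beta hl hlp w).mpr h), mul_zero]
  have hβh : β (pfun s) ≠ 0 :=
    (map_ne_zero_iff _ β.toRingHom.injective).mpr (R.pfun_data hs).2.2.1
  rw [← pushDiv_divOf α hβh, ← pullDiv_divOf, hcomm, R.nearPart_divOf_pfun hs] at ht
  have hm1 : pullDiv β (nearDiv s) ∈ Divisor.degZero (K := Qbar) (F := FN (p * l) Qbar) := by
    rw [Divisor.mem_degZero, degree_pullDiv, Divisor.mem_degZero.mp (nearDiv_mem s), mul_zero]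
  have hm2 : pushDiv α (pullDiv β (nearDiv s)) ∈
      Divisor.degZero (K := Qbar) (F := FN p Qbar) := by
    rw [Divisor.mem_degZero, degree_pushDiv, Divisor.mem_degZero.mp hm1]
  rw [cls, cls, pullPic_mk β ⟨nearDiv s, nearDiv_mem s⟩ hm1, pushPic_mk α ⟨_, hm1⟩ hm2]
  exact congrArg Pic0.mk (Subtype.ext ht.symm)

/-- `T_ℓ`, `ℓ` prime to the level, on a presentation. -/
theorem exists_rep_T {π : Qbar} (hπ : R.IsScale π) {l : ℕ} (hl : l.Prime) (hlp : l ≠ p)
    {z : Pic0 Qbar (FN p Qbar)} {s : Multiset (Pt p)} (hs : R.IsPres π z s) :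
    ∃ h F c, R.IsRep π (heckeOperatorBar p ⟨l, hl⟩ z) h F c ∧
      ∀ a b : ℕ → ℤ, (∀ n, b n = a (n * l) + if l ∣ n then (l : ℤ) * a (n / l) else 0) →
        R.pair (R.red F) a = R.lamS π s b := by
  have : NeZero l := ⟨hl.ne_zero⟩
  have : IsFunctionField Qbar (FN (p * l) Qbar) := MC.isFunctionField_FN (p * l) embC
  obtain ⟨hi, h1, h0, -, -⟩ := R.pfun_data hs.near
  obtain ⟨hcA, hc1⟩ := R.coeff_zero_pfun hs.near
  obtain ⟨ζ, hζ⟩ := Fermat.RED.exists_isPrimitiveRoot_unit Qbar l (Nat.cast_ne_zero.mpr hl.ne_zero)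
  have hser := qExpand_normAlong_beta hl hlp (IsPrimitiveRoot.coe_units_iff.mpr hζ) (pfun s)
  -- the expansion of the norm gives the digit
  obtain ⟨G, hG, hG'⟩ := R.exists_digit_prod hζ.pow_eq_one hcA hc1 hπ.mem hπ.small hs.int
  rw [show ((pfun s : FN p Qbar) : LaurentSeries Qbar) = algebraMap Qbar (LaurentSeries Qbar) _ +
      algebraMap Qbar (LaurentSeries Qbar) π * (tfun π s : LaurentSeries Qbar) from
    congrArg Subtype.val (pfun_eq_tfun hπ.ne_zero s), hG] at hser
  set c := (pfun s : LaurentSeries Qbar).coeff 0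
  set h' := normAlong (heckeAlphaBar Qbar p l) (heckeBetaBar Qbar p l (pfun s))
  set F' := algebraMap Qbar (FN p Qbar) π⁻¹ * (h' - algebraMap Qbar (FN p Qbar) (c ^ (l + 1)))
    with hF'def
  have hF' : qExpand Qbar l (F' : LaurentSeries Qbar) = (G : LaurentSeries Qbar) := by
    rw [hF'def, MulMemClass.coe_mul, AddSubgroupClass.coe_sub,
      IntermediateField.coe_algebraMap_apply, IntermediateField.coe_algebraMap_apply, map_mul,
      map_sub, qExpand_algebraMap, qExpand_algebraMap, hser, add_sub_cancel_left, ← mul_assoc,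
      ← map_mul, inv_mul_cancel₀ hπ.ne_zero, map_one, one_mul]
  have hF'i : R.Int' F' := mem_intSeries_iff.mpr fun n => by
    rw [← qExpand_coeff_mul l (F' : LaurentSeries Qbar) n, hF']
    exact mem_intSeries_iff.mp G.2 _
  have heq : h' = algebraMap Qbar (FN p Qbar) (c ^ (l + 1)) +
      algebraMap Qbar (FN p Qbar) π * F' := by
    rw [hF'def, ← mul_assoc, ← map_mul, mul_inv_cancel₀ hπ.ne_zero, map_one, one_mul,
      add_sub_cancel]
  have hcA' : c ^ (l + 1) ∈ R.A := pow_mem hcA _
  have hcl : R.res ⟨_, hcA'⟩ = 1 := by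
    rw [show (⟨_, hcA'⟩ : R.A) = ⟨c, hcA⟩ ^ (l + 1) from Subtype.ext rfl, map_pow, hc1, one_pow]
  have m1 := R.int_algebraMap hcA'
  have m2 := R.int_mul (R.int_algebraMap hπ.mem) hF'i
  refine ⟨h', F', c ^ (l + 1),
    ⟨intJ_normAlong hl (intJ_pfun s) h0, heq ▸ R.int_add m1 m2, ?_, heq, hF'i, fun t ht => ?_⟩, ?_⟩
  · rw [heq, R.redT_add m1 m2, R.redT_mul (R.int_algebraMap hπ.mem) hF'i,
      R.redT_algebraMap hcA', R.redT_algebraMap hπ.mem, hπ.small, hcl]
    simp
  · rw [R.cls_norm hl hlp hs.near ht, hs.cls_eq]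
    exact (heckeOperatorBar_eq p ⟨l, hl⟩ z).symm
  · intro a b hb
    refine coeff_zero_digit_norm (fun n => ?_) hb
    have e1 : (R.red F').coeff n = (redHom R.res G).coeff ((l : ℤ) * n) := by
      rw [R.red_coeff hF'i, Fermat.RED.Model.redHom_coeff]
      exact congrArg R.res (Subtype.ext (by
        change (F' : LaurentSeries Qbar).coeff n = (G : LaurentSeries Qbar).coeff ((l : ℤ) * n)
        rw [← hF', qExpand_coeff_mul]))
    rw [e1, hG', R.red_coe hs.int]

end Red

end Fermat.HT.Cusp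

end
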