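import Fermat.Agent.HT.Cusp.HeckeAct
import Fermat.Agent.RED.Congruence.Frobenius

/-!
# Multiplication by `ℓ` on presentations and the formal immersion

Multiplication by `ℓ` carries the scale `π` to `ℓ π` and keeps the digit when `π ^ (ℓ - 1)` is
smaller than `ℓ`; hence a Hecke image of a point near `∞` can be torsion only if the image of
every form has first coefficient divisible by `ℓ`.
-/

set_option autoImplicit false
set_option linter.unusedSectionVars false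

noncomputable section

open ModularCurve AlgebraicCurve
open Fermat.RED.Model (intSeries mem_intSeries_iff)

namespace Fermat.HT.Cusp

open Fermat.FF Fermat.MC Fermat.JAC.X0
open Fermat.GR (FullHecke)

variable {p : ℕ} [hp : Fact p.Prime] [NeZero p]

namespace Red

variable (R : Red p)

/-- The functions with integral expansion. -/
def intSub : Subring (FN p Qbar) := (intSeries R.A).comap (FN p Qbar).val.toRingHom

/-- The reduction on integral functions. -/
def redS : R.intSub →+* R.T where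
  toFun f := R.redT f.1
  map_one' := R.redT_one
  map_zero' := R.redT_zero
  map_mul' f g := R.redT_mul f.2 g.2
  map_add' f g := R.redT_add f.2 g.2

/-- The reduction of a constant. -/
theorem redS_algebraMap {c : Qbar} (hc : c ∈ R.A) :
    R.redS ⟨algebraMap Qbar (FN p Qbar) c, R.int_algebraMap hc⟩ =
      algebraMap R.k R.T (R.res ⟨c, hc⟩) := R.redT_algebraMap hc

/-- Natural numbers lie in the valuation ring. -/
theorem natCast_mem (n : ℕ) : (n : Qbar) ∈ R.A := _root_.natCast_mem R.A n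

/-- `ℓ` reduces to zero. -/
theorem res_ell : R.res ⟨(R.ℓ : Qbar), R.natCast_mem R.ℓ⟩ = 0 := by
  have := R.charP_k
  rw [show (⟨(R.ℓ : Qbar), R.natCast_mem R.ℓ⟩ : R.A) = (R.ℓ : R.A) from Subtype.ext (by simp),
    map_natCast, CharP.cast_eq_zero]

variable {R}
variable {π : Qbar} {z : Pic0 Qbar (FN p Qbar)} {h F : FN p Qbar} {c : Qbar}

/-- A multiple of a class has a representative with digit the multiple of the digit. -/
theorem IsRep.npow (hπ : R.IsScale π) (H : R.IsRep π z h F c) (n : ℕ) :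
    ∃ G, R.IsRep π (n • z) (h ^ n) G (c ^ n) ∧ R.red G = n • R.red F := by
  induction n with
  | zero =>
    refine ⟨0, ?_, ?_⟩
    · have H0 := isRep_of_pres hπ (R.isPres_zero π (p := p))
      rw [pfun_zero, show tfun π (0 : Multiset (Pt p)) = 0 by
          simp [tfun, pfun_zero, HahnSeries.coeff_one],
        show ((1 : FN p Qbar) : LaurentSeries Qbar).coeff 0 =
          1 by simp [HahnSeries.coeff_one]] at H0
      rw [zero_nsmul, pow_zero, pow_zero]
      exact H0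
    · rw [zero_smul, red, Fermat.RED.Model.redF_zero]
  | succ n ih =>
    obtain ⟨G, hG, hG'⟩ := ih
    obtain ⟨G', hG1, hG2⟩ := hG.mul hπ H
    exact ⟨G', by rw [succ_nsmul, pow_succ, pow_succ]; exact hG1,
      by rw [hG2, hG', succ_nsmul]⟩

/-- The expansion of the `ℓ`-th power of a representative. -/
theorem IsRep.pow_ell_eq (hπ : R.IsScale π) (H : R.IsRep π z h F c) :
    ∃ E, R.Int' E ∧ R.redT E = R.redT F ∧
      h ^ R.ℓ = algebraMap Qbar (FN p Qbar) (c ^ R.ℓ) +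
        algebraMap Qbar (FN p Qbar) (R.ℓ * π) * E +
        algebraMap Qbar (FN p Qbar) (π ^ R.ℓ) * F ^ R.ℓ := by
  obtain ⟨hc, hc1⟩ := H.const hπ
  -- write the representative as `c + π F` in the integral functions
  set X := algebraMap Qbar (FN p Qbar)
  set c' : R.intSub := ⟨X c, R.int_algebraMap hc⟩
  set F' : R.intSub := ⟨F, H.intF⟩
  set π' : R.intSub := ⟨X π, R.int_algebraMap hπ.mem⟩
  have hc0 : R.redS c' = 1 := by rw [R.redS_algebraMap hc, hc1, map_one]
  have hπ0 : R.redS π' = 0 := by rw [R.redS_algebraMap hπ.mem, hπ.small, map_zero]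
  set r : R.intSub := ∑ k ∈ Finset.Ioo 0 R.ℓ,
    c' ^ (k - 1) * (π' * F') ^ (R.ℓ - k - 1) * ((R.ℓ.choose k / R.ℓ : ℕ) : R.intSub)
  -- the middle part of the binomial expansion reduces to `1`
  have hr : R.redS r = 1 := by
    have h2 := R.hℓ.two_le
    rw [map_sum, Finset.sum_eq_single (R.ℓ - 1)]
    · rw [map_mul, map_mul, map_pow, map_pow, hc0, one_pow, one_mul,
        show R.ℓ - (R.ℓ - 1) - 1 = 0 by omega, pow_zero, one_mul, map_natCast,
        Nat.choose_symm (by omega : 1 ≤ R.ℓ), Nat.choose_one_right, Nat.div_self R.hℓ.pos,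
        Nat.cast_one]
    · intro k hk hne
      rw [map_mul, map_mul, map_pow, map_pow, map_mul, hπ0, zero_mul,
        zero_pow (by have := Finset.mem_Ioo.mp hk; omega), mul_zero, zero_mul]
    · intro h
      exact absurd (Finset.mem_Ioo.mpr ⟨by omega, by omega⟩) h
  refine ⟨((c' * F' * r : R.intSub) : FN p Qbar), (c' * F' * r).2, ?_, ?_⟩
  · change R.redS (c' * F' * r) = R.redS F'
    rw [map_mul, map_mul, hc0, hr, one_mul, mul_one]
  -- binomial theorem
  · have e := congrArg Subtype.val (add_pow_prime_eq R.hℓ c' (π' * F'))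
    push_cast at e
    rw [show h = X c + X π * F from H.eq]
    refine e.trans ?_
    simp only [Subring.coe_mul]
    change X c ^ R.ℓ + (X π * F) ^ R.ℓ + (R.ℓ : FN p Qbar) * X c * (X π * F) * _ =
      X (c ^ R.ℓ) + X (R.ℓ * π) * (X c * F * (r : FN p Qbar)) + X (π ^ R.ℓ) * F ^ R.ℓ
    rw [map_pow, map_pow, map_mul, map_natCast, mul_pow]
    simp only [r, AddSubmonoidClass.coe_finsetSum, Subring.coe_mul, SubmonoidClass.coe_pow]
    push_cast
    ring

/-- A nonzero integral multiple of a scale is a scale. -/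
theorem isScale_mul {a : Qbar} (ha0 : a ≠ 0) (ha : a ∈ R.A) (hπ : R.IsScale π) :
    R.IsScale (a * π) :=
  ⟨mul_ne_zero ha0 hπ.ne_zero, mul_mem ha hπ.mem, by
    rw [show (⟨a * π, mul_mem ha hπ.mem⟩ : R.A) = ⟨a, ha⟩ * ⟨π, hπ.mem⟩ from rfl, map_mul, hπ.small,
      mul_zero]⟩

/-- The condition for multiplication by `ℓ` to be linear at the scale `π`. -/
def SmallPow (R : Red p) (π : Qbar) : Prop :=
  ∃ h : π ^ (R.ℓ - 1) / R.ℓ ∈ R.A, R.res ⟨_, h⟩ = 0

/-- Multiplication by `ℓ` below the threshold. -/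
theorem IsRep.smul_ell (hπ : R.IsScale π) (hs : SmallPow R π) (H : R.IsRep π z h F c) :
    ∃ G c', R.IsRep (R.ℓ * π) (R.ℓ • z) (h ^ R.ℓ) G c' ∧ R.red G = R.red F := by
  obtain ⟨E, hE, hE', he⟩ := H.pow_ell_eq hπ
  obtain ⟨G₁, hG₁, -⟩ := H.npow hπ R.ℓ
  obtain ⟨hq, hq0⟩ := hs
  set X := algebraMap Qbar (FN p Qbar)
  have m := R.int_mul (R.int_algebraMap hq) (R.int_pow H.intF R.ℓ)
  refine ⟨E + X (π ^ (R.ℓ - 1) / R.ℓ) * F ^ R.ℓ, c ^ R.ℓ,
    ⟨hG₁.intJ, hG₁.int, hG₁.red_one, ?_, R.int_add hE m, hG₁.cls_eq⟩, ?_⟩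
  · rw [he, mul_add, ← mul_assoc, ← map_mul, add_assoc]
    congr 3
    have h0 : (R.ℓ : Qbar) ≠ 0 := Nat.cast_ne_zero.mpr R.hℓ.ne_zero
    rw [mul_right_comm, mul_div_cancel₀ _ h0, ← pow_succ,
      Nat.sub_add_cancel R.hℓ.one_le]
  · refine congrArg Subtype.val (show R.redT (E + _) = R.redT F from ?_)
    rw [R.redT_add hE m, R.redT_mul (R.int_algebraMap hq) (R.int_pow H.intF R.ℓ),
      R.redT_algebraMap hq, hq0, hE', map_zero, zero_mul, add_zero]

/-- The condition `SmallPow` passes from `π` to `ℓ π`. -/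
theorem SmallPow.mul_ell (hs : SmallPow R π) : SmallPow R (R.ℓ * π) := by
  obtain ⟨hq, hq0⟩ := hs
  have e : (R.ℓ * π) ^ (R.ℓ - 1) / R.ℓ = (R.ℓ : Qbar) ^ (R.ℓ - 1) * (π ^ (R.ℓ - 1) / R.ℓ) := by
    rw [mul_pow, mul_div_assoc]
  have hm : (R.ℓ : Qbar) ^ (R.ℓ - 1) * (π ^ (R.ℓ - 1) / R.ℓ) ∈ R.A :=
    mul_mem (pow_mem (R.natCast_mem _) _) hq
  refine ⟨e ▸ hm, ?_⟩
  rw [show (⟨_, e ▸ hm⟩ : R.A) = ⟨_, pow_mem (R.natCast_mem R.ℓ) (R.ℓ - 1)⟩ * ⟨_, hq⟩ from
    Subtype.ext e, map_mul, hq0, mul_zero]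

/-- Iterated multiplication by `ℓ` below the threshold keeps the digit. -/
theorem IsRep.smul_ell_pow (k : ℕ) : ∀ {π : Qbar} {z : Pic0 Qbar (FN p Qbar)} {h F : FN p Qbar}
    {c : Qbar}, R.IsScale π → SmallPow R π → R.IsRep π z h F c →
      ∃ π' h' G c', R.IsScale π' ∧ R.IsRep π' (R.ℓ ^ k • z) h' G c' ∧ R.red G = R.red F := by
  induction k with
  | zero => exact fun {π z h F c} hπ _ H => ⟨π, h, F, c, hπ, by rwa [pow_zero, one_nsmul], rfl⟩
  | succ k ih =>
    intro π z h F c hπ hs H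
    obtain ⟨G, c', hG, hG'⟩ := H.smul_ell hπ hs
    obtain ⟨π', h', G', c'', h1, h2, h3⟩ := ih
      (isScale_mul (Nat.cast_ne_zero.mpr R.hℓ.ne_zero) (R.natCast_mem _) hπ) hs.mul_ell hG
    exact ⟨π', h', G', c'', h1, by rwa [pow_succ, mul_nsmul'], h3.trans hG'⟩

variable (R)

/-- A torsion class presented below the threshold has digit zero. -/
theorem lam_eq_zero_of_torsion {π : Qbar} (hπ : R.IsScale π) (hs : SmallPow R π)
    (w : R.scaleSub hπ) {N : ℕ} (hN : N ≠ 0) (hw : N • (w : Pic0 Qbar (FN p Qbar)) = 0) :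
    R.lam hπ w = 0 := by
  obtain ⟨k, m, hm, rfl⟩ := Nat.exists_eq_pow_mul_and_not_dvd hN R.ℓ R.hℓ.ne_one
  obtain ⟨w, s, hs'⟩ := w
  obtain ⟨G, hG, hG'⟩ := (isRep_of_pres hπ hs').npow hπ m
  obtain ⟨π', h', G', c', hπ', h2, h3⟩ := hG.smul_ell_pow k hπ hs
  rw [← mul_nsmul', show (R.ℓ ^ k * m) • w = 0 from hw] at h2
  funext a
  have h4 := h2.pair_eq_zero hπ'.ne_zero a.2
  rw [h3, hG', pair, smul_mul_assoc, HahnSeries.coeff_smul, nsmul_eq_mul] at h4
  have := R.charP_k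
  have hm0 : (m : R.k) ≠ 0 := fun e => hm ((CharP.cast_eq_zero_iff R.k R.ℓ m).mp e)
  rw [R.lam_eq hπ hs']
  exact (mul_eq_zero.mp h4).resolve_left hm0

/-- The reduced `j` pairs with a form to its first coefficient. -/
theorem red_jL_pair {a : ℕ → ℤ} (ha : a 0 = 0) : R.pair (R.red (jL p Qbar)) a = (a 1 : R.k) := by
  rw [pair, R.red_jL, coeff_zero_mul_aSer (m := 1)
    (fun n hn => coeff_jqModC_of_lt R.k (by omega)) ha, Fin.sum_univ_one, polar_apply]
  simp only [Fin.val_zero, Nat.cast_zero, zero_add]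
  rw [show (-(1 : ℤ)) = -1 from rfl, coeff_jqModC_neg_one, one_mul]

/-- The point `P` near `∞`, minus `∞`, is presented at the scale `1 / j(P)`. -/
theorem isPres_point {P : Pt p} (hP : R.Near P) (hPj : OrdGE P (jL p Qbar) 0) :
    ∃ (hπ : R.IsScale (tau P)) (hm : cls {P} ∈ R.scaleSub hπ),
      ∀ a, R.lam hπ ⟨_, hm⟩ a = -(a.1 1 : R.k) := by
  obtain ⟨hA, h0⟩ := R.tau_small hP
  obtain ⟨hx, hτ⟩ := R.tau_eq hP hPj
  have hτ0 : tau P ≠ 0 := hτ ▸ inv_ne_zero hx
  have hπ : R.IsScale (tau P) := ⟨hτ0, hA, h0⟩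
  set d := ((jL p Qbar : FN p Qbar) : LaurentSeries Qbar).coeff 0
  have hd : d ∈ R.A := mem_intSeries_iff.mp R.int_jL 0
  have hp1 : pfun ({P} : Multiset (Pt p)) =
      1 - algebraMap Qbar (FN p Qbar) (tau P) * jL p Qbar := by simp [pfun]
  have e : tfun (tau P) {P} = algebraMap Qbar (FN p Qbar) d - jL p Qbar := by
    have hc : ((1 - algebraMap Qbar (FN p Qbar) (tau P) * jL p Qbar : FN p Qbar) :
        LaurentSeries Qbar).coeff 0 = 1 - tau P * d := by
      change ((1 : LaurentSeries Qbar) - algebraMap Qbar (LaurentSeries Qbar) (tau P) *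
        ((jL p Qbar : FN p Qbar) : LaurentSeries Qbar)).coeff 0 = _
      rw [HahnSeries.coeff_sub, Fermat.RED.coeff_algebraMap_mul, HahnSeries.coeff_one, if_pos rfl]
    rw [tfun, hp1, hc, map_sub, map_one, map_mul]
    have h1 : algebraMap Qbar (FN p Qbar) (tau P)⁻¹ * algebraMap Qbar (FN p Qbar) (tau P) = 1 := by
      rw [← map_mul, inv_mul_cancel₀ hτ0, map_one]
    linear_combination (algebraMap Qbar (FN p Qbar) d - jL p Qbar) * h1
  have hi : R.Int' (tfun (tau P) {P}) := e ▸ R.int_sub (R.int_algebraMap hd) R.int_jL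
  have hs : R.IsPres (tau P) (cls {P}) {P} :=
    ⟨fun Q hQ => by rw [Multiset.mem_singleton.mp hQ]; exact hP, rfl, hi⟩
  refine ⟨hπ, ⟨_, hs⟩, fun a => ?_⟩
  have e2 : R.red (tfun (tau P) {P}) =
      algebraMap R.k (LaurentSeries R.k) (R.res ⟨d, hd⟩) - R.red (jL p Qbar) :=
    congrArg Subtype.val (show R.redT (tfun (tau P) {P}) =
        algebraMap R.k R.T (R.res ⟨d, hd⟩) - R.redT (jL p Qbar) by
      rw [e, R.redT_sub (R.int_algebraMap hd) R.int_jL, R.redT_algebraMap hd])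
  rw [R.lam_eq hπ hs, lamS, e2, ← zero_sub (a.1 1 : R.k), ← R.red_jL_pair a.2.zero_coeff,
    ← R.pair_const (R.res ⟨d, hd⟩) a.2.zero_coeff, pair, pair, pair, sub_mul, HahnSeries.coeff_sub]

/-- **Formal immersion at `∞`**: if a Hecke image of `P - ∞` is torsion then the image of every
form has first coefficient divisible by `ℓ`. -/
theorem immersion {P : Pt p} (hP : R.Near P) (hPj : OrdGE P (jL p Qbar) 0) (hℓ : 3 ≤ R.ℓ)
    (hτℓ : tau P / R.ℓ ∈ R.A) (t : FullHecke p) {N : ℕ} (hN : N ≠ 0)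
    (htor : N • jAct p t (cls {P}) = 0) {a b : ℕ → ℤ}
    (hab : IsActSeq (t : Module.End ℂ (CuspForm (CongruenceSubgroup.Gamma0 p) 2)) a b) :
    (R.ℓ : ℤ) ∣ b 1 := by
  obtain ⟨hπ, hm, hlam⟩ := R.isPres_point hP hPj
  obtain ⟨hm', h1⟩ := (R.jAct_scale t).2 _ hπ _ hm
  have ha : IsIntForm p a := hab.elim fun g hg => ⟨g, hg.1⟩
  have hb := hab.isIntForm_right
  have hsp : SmallPow R (tau P) := by
    have e : tau P ^ (R.ℓ - 1) / R.ℓ = tau P ^ (R.ℓ - 2) * (tau P / R.ℓ) := by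
      rw [← mul_div_assoc, ← pow_succ, show R.ℓ - 2 + 1 = R.ℓ - 1 by omega]
    have hm : tau P ^ (R.ℓ - 2) * (tau P / R.ℓ) ∈ R.A := mul_mem (pow_mem hπ.mem _) hτℓ
    refine ⟨e ▸ hm, ?_⟩
    rw [show (⟨_, e ▸ hm⟩ : R.A) = ⟨_, hπ.mem⟩ ^ (R.ℓ - 2) * ⟨_, hτℓ⟩ from Subtype.ext e, map_mul,
      map_pow, hπ.small, zero_pow (by omega), zero_mul]
  have h2 := R.lam_eq_zero_of_torsion hπ hsp ⟨_, hm'⟩ hN htor
  have h3 := h1 a b ha hb hab
  rw [h2, hlam, Pi.zero_apply, eq_comm, neg_eq_zero] at h3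
  have := R.charP_k
  exact (CharP.intCast_eq_zero_iff R.k R.ℓ _).mp h3

end Red

end Fermat.HT.Cusp

end
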