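import Fermat.Agent.HT.Cusp.Near
import Fermat.Agent.FF.Duality

/-!
# Lifting sections from the reduction

Integral functions in a Riemann-Roch space of large degree reduce onto that of the reduction.
-/

set_option autoImplicit false
set_option linter.unusedSectionVars false

attribute [local instance 10000] SubalgebraClass.toAlgebra HahnSeries.powerSeriesAlgebra

noncomputable section

open AlgebraicCurve
open Fermat.RED.Model (intSeries)

namespace Fermat.HT.Cusp

open Fermat.FF Fermat.MC Fermat.JAC.X0

variable {p : ℕ} [hp : Fact p.Prime] [NeZero p]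

/-- Functions of bounded pole at `∞` and no other pole are regular at finite `j`. -/
theorem intJ_of_mem {D : Divisor Qbar (FN p Qbar)} {m : ℤ}
    (hD : D ≤ Finsupp.single (pinf p Qbar) m) {f : FN p Qbar} (hf : f ∈ riemannRochSpace D) :
    IntJ f := by
  refine intJ_iff.mpr fun v hv => ?_
  have hne : v ≠ pinf p Qbar := fun e => by
    have := hv.le_ord jL_ne_zero
    rw [e, ord_pinf_jL] at this
    omega
  refine (mem_riemannRochSpace.mp hf v).mono ?_
  have := Finsupp.le_def.mp hD v
  rw [Finsupp.single_eq_of_ne hne] at this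
  omega

/-- Functions with bounded pole at `∞` and no other pole lie in `reg`. -/
theorem mem_reg_of_mem {D : Divisor Qbar (FN p Qbar)} {m : ℤ}
    (hD : D ≤ Finsupp.single (pinf p Qbar) m) {f : FN p Qbar} (hf : f ∈ riemannRochSpace D) :
    f ∈ reg (p := p) (L := Qbar) := by
  refine ⟨intJ_of_mem hD hf, ?_⟩
  rcases eq_or_ne f 0 with rfl | h0
  · rw [map_zero]; exact zero_mem _
  rw [mem_regSeries_iff_order ((_root_.map_ne_zero_iff _ atZero_injective).mpr h0), ← ord_pzero]
  have h := (mem_riemannRochSpace.mp hf (pzero p Qbar)).le_ord h0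
  have h1 := Finsupp.le_def.mp hD (pzero p Qbar)
  rw [Finsupp.single_eq_of_ne pinf_ne_pzero.symm] at h1
  omega

namespace Red

variable (R : Red p)

/-- An integral multiple with nonzero reduction. -/
theorem exists_scale {f : FN p Qbar} (hf : IntJ f) (h0 : f ≠ 0) :
    ∃ c : Qbar, c ≠ 0 ∧ R.Int' (algebraMap Qbar (FN p Qbar) c * f) ∧
      R.redT (algebraMap Qbar (FN p Qbar) c * f) ≠ 0 := by
  obtain ⟨P, hP, -, -, hPf⟩ := exists_gamPoly hf
  obtain ⟨c, hc, -, hcf⟩ := Fermat.RED.Model.exists_scale_mem_chart (A := R.A) hP hPf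
  obtain ⟨a, -, ha, g, hg, hg0, e⟩ := R.goodModel.1.toPreModel.exists_eq_smul_primitive hcf
    (mul_ne_zero ((_root_.map_ne_zero _).mpr hc) h0)
  have e' : algebraMap Qbar (FN p Qbar) (a⁻¹ * c) * f = g := by
    rw [map_mul, mul_assoc, e, ← mul_assoc, ← map_mul, inv_mul_cancel₀ ha, map_one, one_mul]
  refine ⟨a⁻¹ * c, mul_ne_zero (inv_ne_zero ha) hc, ?_, ?_⟩
  · rw [e']; exact R.goodModel.1.int_chart g hg
  · rw [e']; exact fun h => hg0 (congrArg Subtype.val h)

/-- The reduction is additive on finite sums of integral functions. -/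
theorem redT_sum {ι : Type*} (s : Finset ι) {f : ι → FN p Qbar} (hf : ∀ i ∈ s, R.Int' (f i)) :
    R.redT (∑ i ∈ s, f i) = ∑ i ∈ s, R.redT (f i) := by
  refine Subtype.ext ?_
  rw [AddSubmonoidClass.coe_finsetSum]
  exact Fermat.RED.Model.redF_sum s hf

/-- Finite sums of integral functions are integral. -/
theorem int_sum {ι : Type*} (s : Finset ι) {f : ι → FN p Qbar} (hf : ∀ i ∈ s, R.Int' (f i)) :
    R.Int' (∑ i ∈ s, f i) := by
  change ((∑ i ∈ s, f i : FN p Qbar) : LaurentSeries Qbar) ∈ intSeries R.A
  rw [AddSubmonoidClass.coe_finsetSum]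
  exact sum_mem hf

/-- A space of integral functions has a basis with independent reductions. -/
theorem exists_reduced_basis (V : Submodule Qbar (FN p Qbar)) [FiniteDimensional Qbar V]
    (hV : ∀ f ∈ V, IntJ f) :
    ∃ b : Fin (Module.finrank Qbar V) → FN p Qbar, (∀ i, b i ∈ V ∧ R.Int' (b i)) ∧
      LinearIndependent R.k fun i => R.redT (b i) := by
  suffices H : ∀ (d : ℕ) (V : Submodule Qbar (FN p Qbar)), FiniteDimensional Qbar V →
      Module.finrank Qbar V = d → (∀ f ∈ V, IntJ f) →
      ∃ b : Fin d → FN p Qbar, (∀ i, b i ∈ V ∧ R.Int' (b i)) ∧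
        LinearIndependent R.k fun i => R.redT (b i) from H _ V inferInstance rfl hV
  intro d
  induction d with
  | zero => exact fun V _ _ _ => ⟨Fin.elim0, fun i => i.elim0, linearIndependent_empty_type⟩
  | succ d ih =>
    intro V hfin hd hV
    have := hfin
    have hne : V ≠ ⊥ := fun h => by rw [h, finrank_bot] at hd; omega
    obtain ⟨f, hfV, hf0⟩ := Submodule.exists_mem_ne_zero_of_ne_bot hne
    -- scale one vector to nonzero reduction, recurse on the kernel of a nonzero coefficient of it
    obtain ⟨c, -, hgi, hg0⟩ := R.exists_scale (hV f hfV) hf0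
    set g := algebraMap Qbar (FN p Qbar) c * f
    have hgV : g ∈ V := by
      simp only [g, ← Algebra.smul_def]; exact V.smul_mem c hfV
    obtain ⟨n, hn⟩ : ∃ n, (R.red g).coeff n ≠ 0 := by
      by_contra! h
      exact hg0 (Subtype.ext (HahnSeries.ext (funext h)))
    have hgn : (g : LaurentSeries Qbar).coeff n ≠ 0 := fun h => hn (by
      rw [R.red_coeff hgi]
      exact (congrArg R.res (Subtype.ext h : _ = (0 : R.A))).trans (map_zero _))
    let φ : V →ₗ[Qbar] Qbar :=
      { toFun := fun v => ((v : FN p Qbar) : LaurentSeries Qbar).coeff n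
        map_add' := fun v w => rfl
        map_smul' := fun c v => by
          change ((algebraMap Qbar (FN p Qbar) c * (v : FN p Qbar) : FN p Qbar) :
            LaurentSeries Qbar).coeff n = c * _
          exact Fermat.RED.coeff_algebraMap_mul c _ n }
    have hsurj : LinearMap.range φ = ⊤ := by
      refine eq_top_iff.mpr fun x _ => ⟨(x / φ ⟨g, hgV⟩) • ⟨g, hgV⟩, ?_⟩
      rw [map_smul, smul_eq_mul]
      exact div_mul_cancel₀ _ (show φ ⟨g, hgV⟩ ≠ 0 from hgn)
    have hker : Module.finrank Qbar (LinearMap.ker φ) = d := by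
      have := LinearMap.finrank_range_add_finrank_ker φ
      rw [hsurj, finrank_top, Module.finrank_self, hd] at this
      omega
    set V' := (LinearMap.ker φ).map V.subtype
    have hV' : Module.finrank Qbar V' = d := by
      rw [← hker]
      exact (Submodule.equivMapOfInjective _ V.injective_subtype _).finrank_eq.symm
    obtain ⟨b, hb, hli⟩ := ih V' inferInstance hV' fun x hx => by
      obtain ⟨y, -, rfl⟩ := hx
      exact hV _ y.2
    refine ⟨Fin.cons g b, fun i => ?_, ?_⟩
    · refine Fin.cases ⟨hgV, hgi⟩ (fun j => ?_) i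
      obtain ⟨⟨y, -, hy⟩, hbi⟩ := hb j
      refine ⟨?_, hbi⟩
      rw [Fin.cons_succ, ← hy]
      exact y.2
    · rw [Fintype.linearIndependent_iff]
      intro c hc
      simp only [Fin.sum_univ_succ, Fin.cons_zero, Fin.cons_succ] at hc
      have hbn : ∀ j, (R.red (b j)).coeff n = 0 := fun j => by
        obtain ⟨⟨y, hy0, hy⟩, hbi⟩ := hb j
        rw [R.red_coeff hbi]
        refine (congrArg R.res (Subtype.ext ?_ : _ = (0 : R.A))).trans (map_zero _)
        change ((b j : FN p Qbar) : LaurentSeries Qbar).coeff n = 0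
        have : φ y = 0 := hy0
        refine Eq.trans ?_ this
        change _ = ((y : FN p Qbar) : LaurentSeries Qbar).coeff n
        rw [show b j = (y : FN p Qbar) from hy.symm]
      have h0 : c 0 = 0 := by
        have := congrArg (fun z : R.T => (z : LaurentSeries R.k).coeff n) hc
        simp only [AddMemClass.coe_add, AddSubmonoidClass.coe_finsetSum, HahnSeries.coeff_add,
          HahnSeries.coeff_sum, Algebra.smul_def, MulMemClass.coe_mul,
          IntermediateField.coe_algebraMap_apply, Fermat.RED.coeff_algebraMap_mul] at this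
        rw [Finset.sum_eq_zero fun j _ => ?_] at this
        · simpa [show ((R.redT g : R.T) : LaurentSeries R.k) = R.red g from rfl, hn] using this
        · rw [show ((R.redT (b j) : R.T) : LaurentSeries R.k) = R.red (b j) from rfl, hbn j,
            mul_zero]
      rw [h0, zero_smul, zero_add] at hc
      intro i
      exact Fin.cases h0 (Fintype.linearIndependent_iff.mp hli _ hc) i

/-- The reduction of divisors is monotone. -/
theorem mapDomain_le {D E : Divisor Qbar (FN p Qbar)} (h : D ≤ E) :
    Finsupp.mapDomain R.r D ≤ Finsupp.mapDomain R.r E := by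
  have := Finsupp.mapDomain_nonneg (f := R.r) (sub_nonneg.mpr h)
  rwa [Finsupp.mapDomain_sub, sub_nonneg] at this

/-- The reduction of an integral section of `D` is a section of the reduction of `D`. -/
theorem redT_mem {D : Divisor Qbar (FN p Qbar)} {f : FN p Qbar} (hf : f ∈ riemannRochSpace D)
    (hi : R.Int' f) : R.redT f ∈ riemannRochSpace (Finsupp.mapDomain R.r D) := by
  refine mem_riemannRochSpace.mpr fun Q => ?_
  rcases eq_or_ne (R.redT f) 0 with h0 | h0
  · rw [h0]; exact ordGE_zero _ _
  have hf0 : f ≠ 0 := fun e => h0 (by rw [e, R.redT_zero])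
  have h : -D ≤ divOf Qbar f := Finsupp.le_def.mpr fun v => by
    rw [Finsupp.neg_apply, divOf_apply]
    exact (mem_riemannRochSpace.mp hf v).le_ord hf0
  have h1 := Finsupp.le_def.mp (R.mapDomain_le h) Q
  rw [R.mapDomain_divOf hi h0, divOf_apply,
    show -D = (0 : Divisor Qbar (FN p Qbar)) - D by rw [zero_sub], Finsupp.mapDomain_sub,
    Finsupp.mapDomain_zero, zero_sub, Finsupp.neg_apply] at h1
  exact (ordGE_iff_of_ne h0).mpr h1

/-- Sections lift from the reduction in large degree. -/
theorem exists_lift {D : Divisor Qbar (FN p Qbar)} {m : ℤ}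
    (hD : D ≤ Finsupp.single (pinf p Qbar) m)
    (hdeg : 2 * (genusFF Qbar (FN p Qbar) : ℤ) ≤ Divisor.degree D) {z : R.T}
    (hz : z ∈ riemannRochSpace (Finsupp.mapDomain R.r D)) :
    ∃ s ∈ riemannRochSpace D, R.Int' s ∧ R.redT s = z := by
  classical
  have hg := R.spec_data.2
  have h1 := ell_of_degree_ge (D := D) (by omega)
  have h2 := ell_of_degree_ge (D := Finsupp.mapDomain R.r D)
    (by rw [R.hr.degree_mapDomain, hg]; omega)
  rw [R.hr.degree_mapDomain, hg] at h2
  have hpos : 0 < ell D := by omega
  have : FiniteDimensional Qbar (riemannRochSpace D) := Module.finite_of_finrank_pos hpos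
  have : FiniteDimensional R.k (riemannRochSpace (Finsupp.mapDomain R.r D)) :=
    Module.finite_of_finrank_pos (show 0 < ell (Finsupp.mapDomain R.r D) by omega)
  -- by Riemann-Roch the reduced basis fills the space on the reduction
  obtain ⟨b, hb, hli⟩ := R.exists_reduced_basis (riemannRochSpace D) fun f hf => intJ_of_mem hD hf
  set v : Fin (ell D) → riemannRochSpace (Finsupp.mapDomain R.r D) :=
    fun i => ⟨R.redT (b i), R.redT_mem (hb i).1 (hb i).2⟩
  have hv : LinearIndependent R.k v :=
    LinearIndependent.of_comp (riemannRochSpace (Finsupp.mapDomain R.r D)).subtype hli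
  have hspan := hv.span_eq_top_of_card_eq_finrank' (by
    rw [Fintype.card_fin]
    change ell D = ell (Finsupp.mapDomain R.r D)
    omega)
  obtain ⟨c, hc⟩ := (Submodule.mem_span_range_iff_exists_fun R.k).mp
    (hspan.ge (Submodule.mem_top (x := ⟨z, hz⟩)))
  choose a ha using fun i => R.res_surjective (c i)
  refine ⟨∑ i, algebraMap Qbar (FN p Qbar) (a i : Qbar) * b i, sum_mem fun i _ => ?_,
    R.int_sum _ fun i _ => R.int_mul (R.int_algebraMap (a i).2) (hb i).2, ?_⟩
  · rw [← Algebra.smul_def]; exact Submodule.smul_mem _ _ (hb i).1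
  · rw [R.redT_sum _ fun i _ => R.int_mul (R.int_algebraMap (a i).2) (hb i).2]
    have := congrArg Subtype.val hc
    simp only [AddSubmonoidClass.coe_finsetSum, SetLike.val_smul, v] at this
    refine Eq.trans (Finset.sum_congr rfl fun i _ => ?_) this
    rw [R.redT_mul (R.int_algebraMap (a i).2) (hb i).2, R.redT_algebraMap (a i).2, Algebra.smul_def]
    exact congrArg (fun x => algebraMap R.k R.T x * _) (ha i)

end Red

end Fermat.HT.Cusp

end
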