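import Fermat.Agent.HT.Cusp.Regular
import Fermat.Agent.JAC.X0.DiffS2

/-!
# The residue relation

A function with poles only at `∞` times a cusp form of weight two has no constant term: the sum
over the branches of `f h`, `h dj` the differential of the form, is a polynomial in `j`, and the
branches over the cusp `0` vanish there to order more than `p`.
-/

set_option autoImplicit false
set_option linter.unusedSectionVars false

attribute [local instance 10000] SubalgebraClass.toAlgebra HahnSeries.powerSeriesAlgebra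

noncomputable section

open ModularCurve Polynomial AlgebraicCurve
open Fermat.RED (jField)

namespace Fermat.HT.Cusp

open Fermat.FF Fermat.MC Fermat.JAC.X0

variable {p : ℕ} [hp : Fact p.Prime] [NeZero p]

section Sum

variable {L : Type*} [Field L] [CharZero L] [IsAlgClosed L] [Algebra ℚ L] [EmbedsC L]

/-- The sum over the branches is minus a coefficient of the branch polynomial. -/
theorem sum_br_eq (x : FN p L) : ∑ i, br i x = -(gam x).coeff p := by
  have h := Polynomial.prod_X_sub_C_coeff_card_pred (Finset.univ : Finset (Option (Fin p)))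
    (fun i => br i x) (by simp)
  rw [Finset.card_univ, Fintype.card_option, Fintype.card_fin, Nat.add_sub_cancel] at h
  rw [gam, h, neg_neg]

/-- The sum over the branches of an integral function is a polynomial in `j`. -/
theorem exists_sum_br {x : FN p L} (hx : IntJ x) : ∃ G : L[X], ∑ i, br i x = jEta p L G := by
  obtain ⟨P, -, -, hP, -⟩ := exists_gamPoly hx
  exact ⟨-P.coeff p, by rw [sum_br_eq, ← hP, coeff_map, map_neg]⟩

/-- A product of distinct linear factors dividing a power divides the base. -/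
theorem prod_X_sub_C_dvd_of_dvd_pow {k : Type*} [Field k] (S : Finset k) {G : k[X]} {M : ℕ}
    (h : (∏ a ∈ S, (X - C a)) ∣ G ^ M) : (∏ a ∈ S, (X - C a)) ∣ G := by
  refine Finset.prod_dvd_of_coprime (fun a _ b _ hab => ?_) fun a ha => ?_
  · exact isCoprime_X_sub_C_of_isUnit_sub (isUnit_iff_ne_zero.mpr (sub_ne_zero.mpr hab))
  · exact (prime_X_sub_C a).dvd_of_dvd_pow
      ((Finset.dvd_prod_of_mem (fun a : k => X - C a) ha).trans h)

/-- If each `x i ^ N` is `D` times an integral element, so is a power of `∑ x i`. -/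
theorem exists_sum_pow_eq {R A ι : Type*} [CommRing R] [CommRing A] [Algebra R A] [Fintype ι]
    (x y : ι → A) (D : R) (N : ℕ) (hx : ∀ i, IsIntegral R (x i)) (hy : ∀ i, IsIntegral R (y i))
    (h : ∀ i, x i ^ N = algebraMap R A D * y i) :
    ∃ (M : ℕ) (z : A), IsIntegral R z ∧ (∑ i, x i) ^ M = algebraMap R A D * z := by
  set I : Ideal (integralClosure R A) := Ideal.span {algebraMap R _ D}
  have hrad : ∀ i, (⟨x i, hx i⟩ : integralClosure R A) ∈ I.radical := fun i =>
    ⟨N, Ideal.mem_span_singleton.mpr ⟨⟨y i, hy i⟩, Subtype.ext (by simpa using h i)⟩⟩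
  obtain ⟨M, hM⟩ := Ideal.mem_radical_iff.mp
    (I.radical.sum_mem fun i (_ : i ∈ Finset.univ) => hrad i)
  obtain ⟨z, hz⟩ := Ideal.mem_span_singleton.mp hM
  exact ⟨M, z, z.2, by simpa using congrArg Subtype.val hz⟩

/-- In `L[j]`, if `G(j) / D(j)` is integral then `D` divides `G`. -/
theorem dvd_of_isIntegral_div {G : L[X]} {D : L[X]} (hD : D ≠ 0)
    (h : @IsIntegral L[X] (LaurentSeries L) _ _ (jEta p L).toAlgebra (jEta p L G / jEta p L D)) :
    D ∣ G := by
  obtain ⟨R, hR, hR0⟩ := h
  change R.eval₂ (jEta p L) _ = 0 at hR0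
  have hv : aeval (jqModC L) G / aeval (jqModC L) D ∈ jField L :=
    div_mem (IntermediateField.algebra_adjoin_le_adjoin L _ (aeval_mem_adjoin_singleton L _))
      (IntermediateField.algebra_adjoin_le_adjoin L _ (aeval_mem_adjoin_singleton L _))
  obtain ⟨Q, hQ⟩ := Fermat.RED.exists_eq_aeval_of_monic hv R hR (by
    refine qExpand_injective p ?_
    rw [map_zero, hom_eval₂, map_div₀]
    exact hR0)
  refine ⟨Q, transcendental_iff_injective.mp Fermat.RED.transcendental_jqModC ?_⟩
  rw [map_mul, ← hQ, mul_div_cancel₀ _ (Fermat.RED.aeval_jqModC_ne_zero hD)]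

variable [IsFunctionField L (FN p L)]

/-- Integral over `L[j]` means regular at all points with finite `j`. -/
theorem intJ_iff {f : FN p L} :
    IntJ f ↔ ∀ v : Place L (FN p L), OrdGE v (jL p L) 0 → OrdGE v f 0 :=
  mem_intClosure_iff

/-- `j - a` is a unit at the points where the value of `j` is not `a`. -/
theorem ord_j_sub {v : Place L (FN p L)} (hv : OrdGE v (jL p L) 0) {a : L}
    (ha : evalAt v (jL p L) ≠ a) :
    v.ord (jL p L - algebraMap L (FN p L) a) = 0 := by
  have h0 : OrdGE v (jL p L - algebraMap L (FN p L) a) 0 := hv.sub (ordGE_algebraMap v a)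
  have hne : jL p L - algebraMap L (FN p L) a ≠ 0 := fun h =>
    (Fermat.MC.transcendental_jL p) (sub_eq_zero.mp h ▸ isAlgebraic_algebraMap a)
  by_contra hne0
  have h1 : OrdGE v (jL p L - algebraMap L (FN p L) a) 1 :=
    (ordGE_iff_of_ne hne).mpr (by have := h0.le_ord hne; omega)
  exact ha (evalAt_eq h1)

/-- If `D(j) x` and `(D(j) x)^N / D(j)` are integral, `D` with simple roots, the sum over the
branches of `x` is a polynomial in `j`. -/
theorem exists_sum_br_of_pow_dvd (S : Finset L) (x : FN p L) {N : ℕ}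
    (hint : IntJ (aeval (jL p L) (∏ a ∈ S, (X - C a)) * x))
    (hint' : IntJ ((aeval (jL p L) (∏ a ∈ S, (X - C a)) * x) ^ N /
      aeval (jL p L) (∏ a ∈ S, (X - C a)))) :
    ∃ Q : L[X], ∑ i, br i x = jEta p L Q := by
  let := (jEta p L).toAlgebra
  set D : L[X] := ∏ a ∈ S, (X - C a) with hDdef
  have hD : D ≠ 0 := Finset.prod_ne_zero_iff.mpr fun a _ => X_sub_C_ne_zero a
  set d : FN p L := aeval (jL p L) D with hdA
  have hd0 : d ≠ 0 := fun h => hD (transcendental_iff.mp (Fermat.MC.transcendental_jL p) D h)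
  clear_value d
  obtain ⟨G, hG⟩ := exists_sum_br hint
  -- the sum is nilpotent modulo `D(j)`
  have hbr : ∀ {y : FN p L}, IntJ y → ∀ i, IsIntegral L[X] (br i y) := by
    intro y hy i
    obtain ⟨P, hPm, -, hP, -⟩ := exists_gamPoly hy
    refine ⟨P, hPm, ?_⟩
    change P.eval₂ (jEta p L) (br i y) = 0
    rw [← eval_map, hP, eval_gam]
    exact Finset.prod_eq_zero (Finset.mem_univ i) (sub_self _)
  have hbd : ∀ i, br i d = jEta p L D := fun i => hdA ▸
    DFunLike.congr_fun (br_comp_aeval (L := L) i) D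
  obtain ⟨M, z, hzint, hz'⟩ := exists_sum_pow_eq (fun i => br i (d * x))
    (fun i => br i ((d * x) ^ N / d)) D N (hbr hint) (hbr hint') fun i => by
      change br i (d * x) ^ N = jEta p L D * br i ((d * x) ^ N / d)
      rw [← hbd i, ← map_mul, mul_div_cancel₀ _ hd0, map_pow]
  rw [hG] at hz'
  change jEta p L G ^ M = jEta p L D * z at hz'
  have hdvd : D ∣ G ^ M := dvd_of_isIntegral_div (p := p) hD (by
    rw [map_pow, hz', mul_div_cancel_left₀ _
      ((_root_.map_ne_zero_iff _ (jEta_injective (p := p) (L := L))).mpr hD)]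
    exact hzint)
  have hDG : D ∣ G := prod_X_sub_C_dvd_of_dvd_pow S hdvd
  obtain ⟨Q, rfl⟩ := hDG
  have hD' : jEta p L D ≠ 0 := (_root_.map_ne_zero_iff _ (jEta_injective (p := p) (L := L))).mpr hD
  have h1 : jEta p L D * ∑ i, br i x = jEta p L D * jEta p L Q := by
    rw [← map_mul, ← hG, Finset.mul_sum]
    exact Finset.sum_congr rfl fun i _ => by rw [map_mul, hbd i]
  exact ⟨Q, mul_left_cancel₀ hD' h1⟩

/-- The sum over the branches of a function with at most tame poles at finite `j` is a polynomial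
in `j`. -/
theorem exists_sum_br_of_tame {x : FN p L}
    (H : ∀ v : Place L (FN p L), OrdGE v (jL p L) 0 →
      OrdGE v ((jL p L - algebraMap L (FN p L) (evalAt v (jL p L))) * x) 1) :
    ∃ Q : L[X], ∑ i, br i x = jEta p L Q := by
  classical
  let := (jEta p L).toAlgebra
  rcases eq_or_ne x 0 with rfl | hx0
  · exact ⟨0, by simp⟩
  set T := (finite_setOf_ord_ne_zero (K := L) x).toFinset.filter fun v => OrdGE v (jL p L) 0
  set S : Finset L := T.image fun v => evalAt v (jL p L)
  set D : L[X] := ∏ a ∈ S, (X - C a)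
  have hD : D ≠ 0 := Finset.prod_ne_zero_iff.mpr fun a _ => X_sub_C_ne_zero a
  set d : FN p L := aeval (jL p L) D with hdA
  have hd : d = ∏ a ∈ S, (jL p L - algebraMap L (FN p L) a) := by simp [d, D, map_prod]
  have hd0 : d ≠ 0 := fun h => hD (transcendental_iff.mp (Fermat.MC.transcendental_jL p) D h)
  clear_value d
  have hfac : ∀ (v : Place L (FN p L)) (a : L), OrdGE v (jL p L) 0 →
      OrdGE v (jL p L - algebraMap L (FN p L) a) 0 := fun v a hv =>
    hv.sub (ordGE_algebraMap v a)
  -- `D(j) x` is integral and vanishes over the roots of `D`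
  have hreg : ∀ v : Place L (FN p L), OrdGE v (jL p L) 0 →
      OrdGE v (d * x) (if evalAt v (jL p L) ∈ S then 1 else 0) := by
    intro v hv
    rw [hd]
    split_ifs with ha
    · rw [← Finset.mul_prod_erase S _ ha, mul_right_comm]
      refine ((H v hv).mul (?_ : OrdGE v _ 0)).mono (by simp)
      exact (evalAt_prod (S.erase _) _ fun a _ => hfac v a hv).1
    · refine ((evalAt_prod S _ fun a _ => hfac v a hv).1.mul (?_ : OrdGE v x 0)).mono (by simp)
      refine ordGE_iff.mpr (.inr ?_)
      by_contra hlt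
      exact ha (Finset.mem_image_of_mem _ (Finset.mem_filter.mpr
        ⟨by rw [Set.Finite.mem_toFinset]; simp only [Set.mem_ofPred_eq]; omega, hv⟩))
  have hint : IntJ (d * x) := intJ_iff.mpr fun v hv =>
    (hreg v hv).mono (by split_ifs <;> simp)
  set N : ℕ := ∑ v ∈ (finite_setOf_ord_ne_zero (K := L) d).toFinset, (v.ord d).natAbs
  have hint' : IntJ ((d * x) ^ N / d) := by
    refine intJ_iff.mpr fun v hv => ordGE_iff.mpr (.inr ?_)
    rw [ord_div v (pow_ne_zero _ (mul_ne_zero hd0 hx0)) hd0, ord_pow]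
    have h0 := (hreg v hv).le_ord (mul_ne_zero hd0 hx0)
    rcases eq_or_ne (v.ord d) 0 with hz | hz
    · rw [hz, sub_zero]
      exact mul_nonneg (Int.natCast_nonneg _) (le_trans (by split_ifs <;> simp) h0)
    · have hle : (v.ord d).natAbs ≤ N :=
        Finset.single_le_sum (f := fun w : Place L (FN p L) => (w.ord d).natAbs)
          (fun _ _ => Nat.zero_le _) (by simpa using hz)
      have hS : evalAt v (jL p L) ∈ S := by
        by_contra hns
        refine hz ?_
        rw [hd, ord_prod v S _ fun a _ h =>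
          (Fermat.MC.transcendental_jL p) (sub_eq_zero.mp h ▸ isAlgebraic_algebraMap a)]
        exact Finset.sum_eq_zero fun a ha => ord_j_sub hv fun e => hns (e ▸ ha)
      rw [if_pos hS] at h0
      have h1 : (N : ℤ) ≤ N * v.ord (d * x) := le_mul_of_one_le_right (Int.natCast_nonneg _) h0
      omega
  exact exists_sum_br_of_pow_dvd (N := N) S x (hdA ▸ hint) (hdA ▸ hint')

end Sum

section Complex

/-- The derivative of a power. -/
theorem thetaSeries_pow_succ (f : LaurentSeries ℂ) (m : ℕ) :
    JAC.thetaSeries (f ^ (m + 1)) =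
      algebraMap ℂ (LaurentSeries ℂ) (m + 1 : ℕ) * (f ^ m * JAC.thetaSeries f) := by
  induction m with
  | zero => simp
  | succ m ih =>
    rw [pow_succ f (m + 1), JAC.thetaSeries_mul, ih]
    push_cast
    ring

/-- A polynomial in `j` times `θ j` has no constant term. -/
theorem coeff_zero_aeval_mul_theta (Q : ℂ[X]) :
    (aeval (jqModC ℂ) Q * JAC.thetaSeries (jqModC ℂ)).coeff 0 = 0 := by
  induction Q using Polynomial.induction_on' with
  | add P R hP hR => rw [map_add, add_mul, HahnSeries.coeff_add, hP, hR, add_zero]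
  | monomial m a =>
    rw [aeval_monomial, mul_assoc, Fermat.RED.coeff_algebraMap_mul]
    have h := congrArg (fun f : LaurentSeries ℂ => f.coeff 0) (thetaSeries_pow_succ (jqModC ℂ) m)
    simp only [JAC.thetaSeries_coeff, Int.cast_zero, zero_mul, Fermat.RED.coeff_algebraMap_mul] at h
    rw [eq_comm, mul_eq_zero] at h
    rw [h.resolve_left (by exact_mod_cast Nat.succ_ne_zero m), mul_zero]

/-- `θ j` has pole order at most one. -/
theorem thetaSeries_jq_coeff_of_lt {n : ℤ} (hn : n < -1) :
    (JAC.thetaSeries (jqModC ℂ)).coeff n = 0 := by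
  rw [JAC.thetaSeries_coeff, coeff_jqModC_of_lt ℂ hn, mul_zero]

/-- The order at the cusp `0` of the differential of a cusp form. -/
theorem coeff_atZero_phiS2 (g : CuspForm (CongruenceSubgroup.Gamma0 p) 2) {n : ℤ} (hn : n ≤ p) :
    (atZero (p := p) (L := ℂ) (phiS2 p g)).coeff n = 0 := by
  set h := phiS2 p g
  rcases eq_or_ne h 0 with h0 | h0
  · rw [h0, map_zero, HahnSeries.coeff_zero]
  let V := (Fermat.RED.Cusps.regSeries ℂ).comap (atZero (p := p) (L := ℂ)).toRingHom
  have hconst : ∀ c, algebraMap ℂ (FN p ℂ) c ∈ V := fun c =>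
    ((reg (p := p) (L := ℂ)).algebraMap_mem c).2
  have hj : jL p ℂ ∉ V := fun hm => by
    rw [ValuationSubring.mem_comap, AlgHom.toRingHom_eq_coe, RingHom.coe_coe, atZero_jL] at hm
    exact Fermat.RED.Cusps.jb_not_mem_regSeries 1 p hm
  have htop : V ≠ ⊤ := fun e => hj (e ▸ ValuationSubring.mem_top _)
  -- the place of the expansion at `0`
  set v := placeOfValuationSubring hconst htop
  have hmem : ∀ f : FN p ℂ, OrdGE v f 0 ↔
      atZero (p := p) (L := ℂ) f ∈ Fermat.RED.Cusps.regSeries ℂ := fun f => by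
    rw [← mem_iff_ordGE]; exact ValuationSubring.mem_comap
  have hvj : v.ord (jL p ℂ) < 0 := by
    rw [← not_mem_iff]; exact hj
  obtain ⟨-, hdiv⟩ := divDj_pole p hvj
  rw [v.ord_inv] at hdiv
  have hh : -(divDj p v) ≤ v.ord h := ((mem_riemannRochSpace.mp (phiS2_mem p g)) v).le_ord h0
  have hj0 : jL p ℂ ≠ 0 := fun e => by rw [e, v.ord_zero] at hvj; omega
  -- `h j` vanishes at `v`
  have hpos : 1 ≤ v.ord (h * jL p ℂ) := by rw [v.ord_mul h0 hj0]; omega
  have hnot : atZero (p := p) (L := ℂ) (h * jL p ℂ)⁻¹ ∉ Fermat.RED.Cusps.regSeries ℂ := fun hm => by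
    have := ((hmem _).mpr hm).le_ord (inv_ne_zero (mul_ne_zero h0 hj0))
    rw [v.ord_inv] at this
    omega
  rw [Fermat.RED.Cusps.mem_regSeries_iff] at hnot
  push Not at hnot
  obtain ⟨m, hm, hm0⟩ := hnot
  have h1 := HahnSeries.order_le_of_coeff_ne_zero hm0
  have hA : ∀ {f : FN p ℂ}, f ≠ 0 → atZero (p := p) (L := ℂ) f ≠ 0 :=
    fun hf => (map_ne_zero_iff (atZero (p := p) (L := ℂ))
      (atZero_injective (p := p) (L := ℂ))).mpr hf
  have h2 := HahnSeries.order_mul (hA (mul_ne_zero h0 hj0)) (hA (inv_ne_zero (mul_ne_zero h0 hj0)))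
  rw [← map_mul, mul_inv_cancel₀ (mul_ne_zero h0 hj0), map_one, HahnSeries.order_one, map_mul,
    HahnSeries.order_mul (hA h0) (hA hj0), atZero_jL, Fermat.RED.order_jb] at h2
  exact HahnSeries.coeff_eq_zero_of_lt_order (by omega)

/-- The residue relation over `ℂ`. -/
theorem residue_complex {f : FN p ℂ} (hf : f ∈ reg (p := p) (L := ℂ))
    (g : CuspForm (CongruenceSubgroup.Gamma0 p) 2) :
    ((f : LaurentSeries ℂ) * qS ⇑g).coeff 0 = 0 := by
  set h := phiS2 p g
  set θ := JAC.thetaSeries (jqModC ℂ)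
  obtain ⟨Q, hQ⟩ := exists_sum_br_of_tame (x := f * h) fun v hv => by
    rcases eq_or_ne h 0 with h0 | h0
    · rw [h0, mul_zero, mul_zero]; exact ordGE_zero _ _
    have hv' : 0 ≤ v.ord (jL p ℂ) := by
      rcases ordGE_iff.mp hv with e | e
      · exact absurd (e ▸ isAlgebraic_zero) (Fermat.MC.transcendental_jL p (L := ℂ))
      · exact e
    obtain ⟨-, hdiv⟩ := divDj_finite p hv'
    set u := jL p ℂ - algebraMap ℂ (FN p ℂ) (evalAt v (jL p ℂ))
    have hh : OrdGE v h (1 - v.ord u) :=
      ((mem_riemannRochSpace.mp (phiS2_mem p g)) v).mono (by rw [hdiv]; omega)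
    rw [show u * (f * h) = u * h * f by ring]
    exact (((ordGE_ord v u).mul hh).mul (intJ_iff.mp hf.1 v hv)).mono (by omega)
  -- the constant terms of both sides against `θ j`
  have hR : (jEta p ℂ Q * qExpand ℂ p θ).coeff 0 = 0 := by
    rw [jEta_apply, ← map_mul, ← mul_zero (p : ℤ), qExpand_coeff_mul, coeff_zero_aeval_mul_theta]
  have hlow : ∀ n : ℤ, n < -(p : ℤ) → (qExpand ℂ p θ).coeff n = 0 := by
    intro n hn
    by_cases hd : (p : ℤ) ∣ n
    · obtain ⟨i, rfl⟩ := hd
      rw [qExpand_coeff_mul]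
      exact thetaSeries_jq_coeff_of_lt (by
        have : (0 : ℤ) < p := by exact_mod_cast hp.out.pos
        nlinarith)
    · exact qExpand_coeff_of_not_dvd p _ hd
  have hlowf : ∀ n : ℤ, n ≤ p → (atZero (p := p) (L := ℂ) (f * h)).coeff n = 0 := by
    intro n hn
    rw [map_mul, HahnSeries.coeff_mul]
    refine Finset.sum_eq_zero fun ij hij => ?_
    simp only [Finset.mem_antidiagonal, HahnSeries.mem_support] at hij
    rcases lt_or_ge ij.1 0 with h1 | h1
    · exact absurd ((mem_reg.mp hf).2 _ h1) hij.1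
    · exact absurd (coeff_atZero_phiS2 g (n := ij.2) (by omega)) hij.2.1
  have hsome : ∀ b : Fin p, (br (some b) (f * h) * qExpand ℂ p θ).coeff 0 = 0 := by
    intro b
    rw [br_some, HahnSeries.coeff_mul]
    refine Finset.sum_eq_zero fun ij hij => ?_
    simp only [Finset.mem_antidiagonal, HahnSeries.mem_support, Fermat.RED.twist_coeff] at hij
    rcases le_or_gt ij.1 p with h1 | h1
    · exact absurd (by rw [hlowf _ h1, mul_zero]) hij.1
    · exact absurd (hlow ij.2 (by omega)) hij.2.1
  have hsum := congrArg (fun t : LaurentSeries ℂ => (t * qExpand ℂ p θ).coeff 0) hQ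
  simp only [hR, Fintype.sum_option, br_none, add_mul, Finset.sum_mul, HahnSeries.coeff_add,
    HahnSeries.coeff_sum, hsome, Finset.sum_const_zero, add_zero] at hsum
  rw [← map_mul, ← mul_zero (p : ℤ), qExpand_coeff_mul] at hsum
  have hphi := (exists_phiS2_theta p).choose_spec.2 g
  rw [show (exists_phiS2_theta p).choose = thetaConst p from rfl] at hphi
  rw [coeffEmb_jq] at hphi
  rw [MulMemClass.coe_mul, mul_assoc, hphi, mul_left_comm, Fermat.RED.coeff_algebraMap_mul] at hsum
  exact (mul_eq_zero.mp hsum).resolve_left (thetaConst_ne_zero p)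

end Complex

section Transfer

/-- A function over `ℚ̄` as one over `ℂ`. -/
def funToC : FN p Qbar →+* FN p ℂ := Fermat.JAC.lbcMap Qbar ℂ (modularFunctionFieldFull p)

/-- The expansion of the extension to `ℂ`. -/
theorem coe_funToC (x : FN p Qbar) :
    (funToC x : LaurentSeries ℂ) = coeffMap (algebraMap Qbar ℂ) (x : LaurentSeries Qbar) := rfl

/-- The extension to `ℂ` fixes the generators. -/
theorem funToC_jdL (d : DivIdx p) : funToC (jdL Qbar d) = jdL ℂ d :=
  Subtype.ext (Fermat.JAC.coeffMap_coeffEmb_ext Qbar ℂ _)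

/-- The extension to `ℂ` fixes `j`. -/
theorem funToC_jL : funToC (jL p Qbar) = jL p ℂ :=
  Subtype.ext (Fermat.JAC.coeffMap_coeffEmb_ext Qbar ℂ _)

/-- The extension to `ℂ` on constants. -/
theorem funToC_algebraMap (c : Qbar) :
    funToC (algebraMap Qbar (FN p Qbar) c) = algebraMap ℂ (FN p ℂ) (algebraMap Qbar ℂ c) :=
  Subtype.ext (Fermat.JAC.coeffMap_algebraMap_ext Qbar ℂ c)

/-- The extension to `ℂ` commutes with the Fricke involution. -/
theorem fricke_funToC (x : FN p Qbar) : fricke p ℂ (funToC x) = funToC (fricke p Qbar x) := by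
  refine ringHom_ext_jdL (φ := (fricke p ℂ).toAlgHom.toRingHom.comp funToC)
    (ψ := funToC.comp (fricke p Qbar).toAlgHom.toRingHom) (fun c => ?_) (fun d => ?_) x
  · change fricke p ℂ (funToC (algebraMap _ _ c)) = funToC (fricke p Qbar (algebraMap _ _ c))
    rw [AlgEquiv.commutes, funToC_algebraMap, AlgEquiv.commutes]
  · change fricke p ℂ (funToC (jdL _ d)) = funToC (fricke p Qbar (jdL _ d))
    rw [funToC_jdL, fricke_jdL, fricke_jdL, funToC_jdL]

/-- The extension to `ℂ` maps `reg` to `reg`. -/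
theorem funToC_mem_reg {f : FN p Qbar} (hf : f ∈ reg (p := p) (L := Qbar)) :
    funToC f ∈ reg (p := p) (L := ℂ) := by
  refine mem_reg.mpr ⟨?_, fun n hn => ?_⟩
  · obtain ⟨P, hP, -, -, h0⟩ := exists_gamPoly hf.1
    refine intJ_of_root (P := P.map (mapRingHom (algebraMap Qbar ℂ))) (hP.map _) ?_
    have := congrArg funToC h0
    rw [map_zero, hom_eval₂] at this
    rw [eval₂_map]
    refine Eq.trans (congrArg (fun φ => P.eval₂ φ _) ?_) this
    refine Polynomial.ringHom_ext (fun c => ?_) ?_
    · simp [funToC_algebraMap]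
    · simp [funToC_jL]
  · rw [atZero_apply, fricke_funToC, coe_funToC, coeffMap_coeff, ← atZero_apply,
      (mem_reg.mp hf).2 n hn, map_zero]

/-- The product of a function in `reg` and a cusp form has no constant term at `∞`. -/
theorem residue {f : FN p Qbar} (hf : f ∈ reg (p := p) (L := Qbar))
    (g : CuspForm (CongruenceSubgroup.Gamma0 p) 2) :
    (coeffMap (algebraMap Qbar ℂ) (f : LaurentSeries Qbar) * qS ⇑g).coeff 0 = 0 := by
  rw [← coe_funToC]
  exact residue_complex (funToC_mem_reg hf) g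

end Transfer

end Fermat.HT.Cusp

end
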