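import Fermat.Agent.HT.Cusp.Setup
import Fermat.Agent.HT.Cusp.Residue

/-!
# Points near the cusp `∞`

A point reduces to `∞` iff its `j` is not integral and `j_N` has the size of `j ^ p`.
-/

set_option autoImplicit false
set_option linter.unusedSectionVars false

attribute [local instance 10000] SubalgebraClass.toAlgebra HahnSeries.powerSeriesAlgebra

noncomputable section

open ModularCurve AlgebraicCurve
open Fermat.RED.Model (mem_intSeries_iff qExpand_mem_intSeries)

namespace Fermat.HT.Cusp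

open Fermat.FF Fermat.MC Fermat.JAC.X0

variable {p : ℕ} [hp : Fact p.Prime] [NeZero p]

/-- A pole of `j` is one of the two cusps. -/
theorem cusp_of_not_ordGE {L : Type*} [Field L] [CharZero L] [IsAlgClosed L] [Algebra ℚ L]
    [EmbedsC L] [IsFunctionField L (FN p L)]
    (hd : Module.finrank (IntermediateField.adjoin L {jL p L}) (FN p L) = p + 1)
    {P : Place L (FN p L)} (hP : ¬ OrdGE P (jL p L) 0) : P = pinf p L ∨ P = pzero p L := by
  by_contra hne
  push Not at hne
  have h := DFunLike.congr_fun (poleDiv_jL_eq hd) P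
  rw [poleDiv_apply, Finsupp.add_apply, Finsupp.single_eq_of_ne hne.1,
    Finsupp.single_eq_of_ne hne.2] at h
  exact hP (ordGE_iff.mpr (.inr (by omega)))

/-- `j` is nonzero. -/
theorem jL_ne_zero : jL p Qbar ≠ 0 := fun h =>
  Fermat.MC.transcendental_jL (N := p) (L := Qbar) (h ▸ isAlgebraic_zero)

/-- `j_N` is nonzero. -/
theorem jNL_ne_zero : jNL p Qbar ≠ 0 := fun h =>
  transcendental_jNL (p := p) (L := Qbar) (h ▸ isAlgebraic_zero)

/-- The parameter `1/j` at a point. -/
def tau (P : Place Qbar (FN p Qbar)) : Qbar := evalAt P (jL p Qbar)⁻¹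

namespace Red

variable (R : Red p)

/-- The point reduces to the cusp `∞`. -/
def Near (P : Place Qbar (FN p Qbar)) : Prop := R.r P = R.inf

/-- The cusp `∞` is near itself. -/
theorem near_pinf : R.Near (pinf p Qbar) := R.r_pinf_eq

/-- The cusp `0` is not near `∞`. -/
theorem not_near_pzero : ¬ R.Near (pzero p Qbar) := R.r_pzero_ne

/-- The reduced `j` is nonzero. -/
theorem jbar_ne_zero : R.jbar ≠ 0 := fun h => R.transcendental_jbar (h ▸ isAlgebraic_zero)

/-- A zero of `j` reduces to a zero of the reduced `j`. -/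
theorem zero_reduces {P : Place Qbar (FN p Qbar)} (hP : 0 < P.ord (jL p Qbar)) :
    0 < (R.r P).ord R.jbar := by
  classical
  have h := DFunLike.congr_fun (R.fibre_eq (zero_mem R.A)).1 (R.r P)
  rw [map_zero, sub_zero, show (⟨0, zero_mem R.A⟩ : R.A) = 0 from rfl, map_zero, map_zero, sub_zero,
    zeroDiv_apply, R.sum_fibre] at h
  by_contra hle
  rw [max_eq_right (not_lt.mp hle)] at h
  have h2 := (Finset.sum_eq_zero_iff_of_nonneg (fun P' _ => ?_)).mp h P ?_
  · rw [if_pos rfl, zeroDiv_apply, max_eq_left hP.le] at h2; omega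
  · split_ifs
    · rw [zeroDiv_apply]; exact le_max_right _ _
    · exact le_rfl
  · rw [Finsupp.mem_support_iff, zeroDiv_apply]; omega

/-- A pole of the reduced `j` is the reduction of one of the two cusps. -/
theorem pole_cases {Q : Place R.k R.T} (hQ : Q.ord R.jbar < 0) :
    Q = R.inf ∨ Q = R.r (pzero p Qbar) := by
  by_contra hne
  push Not at hne
  have h := DFunLike.congr_fun R.poles_eq Q
  rw [poleDiv_apply, R.r_pinf_eq, Finsupp.add_apply, Finsupp.single_eq_of_ne hne.1,
    Finsupp.single_eq_of_ne hne.2] at h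
  omega

/-- The reduced `j` has a pole at the reduction of the cusp `0`. -/
theorem pole_pzero : (R.r (pzero p Qbar)).ord R.jbar < 0 := by
  have h := DFunLike.congr_fun R.poles_eq (R.r (pzero p Qbar))
  rw [poleDiv_apply, R.r_pinf_eq, Finsupp.add_apply, Finsupp.single_eq_of_ne R.r_pzero_ne,
    Finsupp.single_eq_same] at h
  have := hp.out.pos
  omega

/-- A pole of `j` reduces to a pole of the reduced `j`. -/
theorem pole_of_pole {P : Place Qbar (FN p Qbar)} (hP : ¬ OrdGE P (jL p Qbar) 0) :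
    (R.r P).ord R.jbar < 0 := by
  rcases cusp_of_not_ordGE R.finrank_jL hP with rfl | rfl
  · rw [R.r_pinf_eq, R.ord_inf_jbar]; omega
  · exact R.pole_pzero

/-- A point with non-integral `j` reduces to a cusp. -/
theorem pole_of_not_mem {P : Place Qbar (FN p Qbar)}
    (hx : evalAt P (jL p Qbar) ∉ R.A) : (R.r P).ord R.jbar < 0 := by
  by_contra hle
  have hpole : ∀ P', R.r P' = R.r P → OrdGE P' (jL p Qbar) 0 := fun P' hP' => by
    by_contra hn
    exact hle (hP' ▸ R.pole_of_pole hn)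
  obtain ⟨h, -⟩ := R.res_evalAt R.int_jL (P := P) rfl hpole
  exact hx h

/-- `1/j` is integral. -/
theorem int_inv_jL : R.Int' (jL p Qbar)⁻¹ := R.goodModel.1.int_inv

/-- The reduction of `1/j` is the inverse of the reduced `j`. -/
theorem redT_inv_jL : R.redT (jL p Qbar)⁻¹ = R.jbar⁻¹ := by
  refine eq_inv_of_mul_eq_one_left ?_
  rw [← R.redT_mul R.int_inv_jL R.int_jL, inv_mul_cancel₀ jL_ne_zero, R.redT_one]

/-- Poles of `1/j` do not reduce to cusps. -/
theorem ordGE_inv_jL {P : Place Qbar (FN p Qbar)} (hP : (R.r P).ord R.jbar < 0) :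
    OrdGE P (jL p Qbar)⁻¹ 0 := by
  refine ordGE_iff.mpr (.inr ?_)
  rw [P.ord_inv]
  by_contra hlt
  have := R.zero_reduces (P := P) (by omega)
  omega

/-- At a point near `∞` the parameter lies in the maximal ideal. -/
theorem tau_small {P : Place Qbar (FN p Qbar)} (hP : R.Near P) :
    ∃ h : tau P ∈ R.A, R.res ⟨tau P, h⟩ = 0 := by
  have hinv : OrdGE R.inf (R.redT (jL p Qbar)⁻¹) 1 := by
    rw [R.redT_inv_jL]
    refine (ordGE_iff_of_ne (inv_ne_zero R.jbar_ne_zero)).mpr ?_
    rw [R.inf.ord_inv, R.ord_inf_jbar]; norm_num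
  obtain ⟨h, he⟩ := R.res_evalAt R.int_inv_jL hP
    (fun P' hP' => R.ordGE_inv_jL (by rw [hP', R.ord_inf_jbar]; omega))
  exact ⟨h, he.trans ((evalAt_eq_zero_iff (hinv.mono zero_le_one)).mpr hinv)⟩

/-- The parameter vanishes at `∞`. -/
theorem tau_pinf : tau (pinf p Qbar) = 0 := by
  have h : OrdGE (pinf p Qbar) (jL p Qbar)⁻¹ 1 := by
    refine (ordGE_iff_of_ne (inv_ne_zero jL_ne_zero)).mpr ?_
    rw [(pinf p Qbar).ord_inv, ord_pinf_jL]; norm_num
  exact (evalAt_eq_zero_iff (h.mono zero_le_one)).mpr h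

/-- At a finite point near `∞` the parameter is the inverse of the value of `j`. -/
theorem tau_eq {P : Place Qbar (FN p Qbar)} (hP : R.Near P) (hP' : OrdGE P (jL p Qbar) 0) :
    evalAt P (jL p Qbar) ≠ 0 ∧ tau P = (evalAt P (jL p Qbar))⁻¹ := by
  have hnear : (R.r P).ord R.jbar < 0 := by rw [hP, R.ord_inf_jbar]; omega
  have h1 : evalAt P (jL p Qbar) * tau P = 1 := by
    rw [tau, ← evalAt_mul hP' (R.ordGE_inv_jL hnear), mul_inv_cancel₀ jL_ne_zero, evalAt_one]
  exact ⟨left_ne_zero_of_mul_eq_one h1, eq_inv_of_mul_eq_one_right h1⟩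

/-- At a finite point near `∞` the value of `j` is not integral. -/
theorem not_mem_of_near {P : Place Qbar (FN p Qbar)} (hP : R.Near P)
    (hP' : OrdGE P (jL p Qbar) 0) : evalAt P (jL p Qbar) ∉ R.A := by
  intro hmem
  obtain ⟨h, he⟩ := R.tau_small hP
  obtain ⟨hx, hτ⟩ := R.tau_eq hP hP'
  have h1 : (⟨_, hmem⟩ : R.A) * ⟨tau P, h⟩ = 1 := Subtype.ext (by
    change evalAt P (jL p Qbar) * tau P = 1
    rw [hτ, mul_inv_cancel₀ hx])
  have := congrArg R.res h1
  rw [map_mul, he, mul_zero, map_one] at this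
  exact zero_ne_one this

variable (p) in
/-- `j_N / j ^ p`. -/
def uFun : FN p Qbar := jNL p Qbar / jL p Qbar ^ p

/-- `j_N` is integral. -/
theorem int_jNL : R.Int' (jNL p Qbar) := by
  refine mem_intSeries_iff.mpr fun n => ?_
  rw [coe_jNL, Fermat.RED.jb_one]
  exact mem_intSeries_iff.mp (qExpand_mem_intSeries p
    (mem_intSeries_iff.mpr (coeff_jqModC_mem R.A.toSubring))) n

/-- The reduced `j_N` is `j(q^p)`. -/
theorem red_jNL : R.red (jNL p Qbar) = qExpand R.k p (jqModC R.k) := by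
  refine HahnSeries.ext (funext fun n => ?_)
  rw [R.red_coeff R.int_jNL]
  simp only [coe_jNL, Fermat.RED.jb_one]
  by_cases hd : (p : ℤ) ∣ n
  · obtain ⟨m, rfl⟩ := hd
    simp only [qExpand_coeff_mul]
    rw [coeff_jqModC_eq_intCast m (R := R.k)]
    refine Eq.trans (congrArg R.res (Subtype.ext ?_ : _ = (((jqModC ℤ).coeff m : ℤ) : R.A)))
      (map_intCast R.res _)
    simp [coeff_jqModC_eq_intCast m (R := Qbar)]
  · refine Eq.trans ?_ (qExpand_coeff_of_not_dvd p _ hd).symm
    exact (congrArg R.res (Subtype.ext (qExpand_coeff_of_not_dvd p _ hd) : _ = (0 : R.A))).trans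
      (map_zero R.res)

/-- Powers of integral functions are integral. -/
theorem int_pow {f : FN p Qbar} (hf : R.Int' f) (n : ℕ) : R.Int' (f ^ n) := pow_mem hf n

/-- The reduction of a power. -/
theorem redT_pow {f : FN p Qbar} (hf : R.Int' f) (n : ℕ) : R.redT (f ^ n) = R.redT f ^ n :=
  Subtype.ext (Fermat.RED.Model.redF_pow hf n)

/-- `uFun` is integral. -/
theorem int_uFun : R.Int' (uFun p) := by
  rw [uFun, div_eq_mul_inv, ← inv_pow]
  exact R.int_mul R.int_jNL (R.int_pow R.int_inv_jL p)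

/-- The reduction of `uFun`. -/
theorem redT_uFun : R.redT (uFun p) = R.redT (jNL p Qbar) * R.jbar⁻¹ ^ p := by
  rw [uFun, div_eq_mul_inv, ← inv_pow, R.redT_mul R.int_jNL (R.int_pow R.int_inv_jL p),
    R.redT_pow R.int_inv_jL, R.redT_inv_jL]

/-- The reduction of `uFun` is nonzero. -/
theorem redT_uFun_ne_zero : R.redT (uFun p) ≠ 0 := by
  rw [R.redT_uFun]
  refine mul_ne_zero (fun h => ?_) (pow_ne_zero _ (inv_ne_zero R.jbar_ne_zero))
  have h1 : R.red (jNL p Qbar) = 0 := congrArg Subtype.val h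
  rw [R.red_jNL, ← map_zero (qExpand R.k p)] at h1
  exact jqModC_ne_zero_of_nontrivial R.k (qExpand_injective p h1)

/-- The reduction of `uFun` is `1` at `∞`. -/
theorem ordGE_uFun_sub_one : OrdGE R.inf (R.redT (uFun p) - 1) 1 := by
  have hk : ∀ n ≤ -(p : ℤ), (R.red (jNL p Qbar) - jqModC R.k ^ p).coeff n = 0 := by
    intro n hn
    rw [HahnSeries.coeff_sub, R.red_jNL]
    rcases lt_or_eq_of_le hn with hlt | rfl
    · rw [coeff_jqModC_pow_of_lt R.k hlt, sub_zero, ← Fermat.RED.jb_one,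
        Fermat.RED.coeff_jb_of_lt _ p hlt]
    · rw [coeff_jqModC_pow_self, show (-(p : ℤ)) = (p : ℤ) * (-1) by ring, qExpand_coeff_mul,
        coeff_jqModC_neg_one, sub_self]
  set d := R.redT (jNL p Qbar) - R.jbar ^ p
  have he : R.redT (uFun p) - 1 = d * R.jbar⁻¹ ^ p := by
    rw [R.redT_uFun, sub_mul, ← mul_pow, mul_inv_cancel₀ R.jbar_ne_zero, one_pow]
  have hcoe : (d : LaurentSeries R.k) = R.red (jNL p Qbar) - jqModC R.k ^ p := by
    rw [← R.red_jL]; rfl
  have hd : OrdGE R.inf d (1 - (p : ℤ)) := by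
    rcases eq_or_ne d 0 with h0 | h0
    · rw [h0]; exact ordGE_zero _ _
    refine (ordGE_iff_of_ne h0).mpr ?_
    rw [R.ord_inf]
    by_contra hlt
    refine h0 (Subtype.ext (HahnSeries.coeff_order_eq_zero.mp ?_))
    rw [hcoe] at hlt ⊢
    exact hk _ (by omega)
  rw [he]
  have hj : OrdGE R.inf R.jbar⁻¹ 1 :=
    (ordGE_iff_of_ne (inv_ne_zero R.jbar_ne_zero)).mpr
      (by rw [R.inf.ord_inv, R.ord_inf_jbar]; norm_num)
  exact (hd.mul (hj.pow p)).mono (by omega)

/-- `uFun` is regular at points reducing to cusps. -/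
theorem ordGE_uFun {P : Place Qbar (FN p Qbar)} (hP : (R.r P).ord R.jbar < 0) :
    OrdGE P (uFun p) 0 := by
  have hp1 := hp.out.two_le
  have hN0 : jNL p Qbar ≠ 0 := jNL_ne_zero
  have hle : P.ord (jL p Qbar) ≤ 0 := by
    by_contra h
    have := R.zero_reduces (P := P) (by omega)
    omega
  by_cases hj : OrdGE P (jL p Qbar) 0
  · have h0 : P.ord (jL p Qbar) = 0 := by have := hj.le_ord jL_ne_zero; omega
    have h1 : OrdGE P (jNL p Qbar) 0 := intJ_iff.mp intJ_jNL P hj
    refine ordGE_iff.mpr (.inr ?_)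
    rw [uFun, ord_div P hN0 (pow_ne_zero _ jL_ne_zero), ord_pow, h0]
    have := h1.le_ord hN0
    omega
  · refine ordGE_iff.mpr (.inr ?_)
    rw [uFun, ord_div P hN0 (pow_ne_zero _ jL_ne_zero), ord_pow]
    rcases cusp_of_not_ordGE R.finrank_jL hj with rfl | rfl
    · rw [ord_pinf_jL, ord_pinf_jNL]; omega
    · rw [ord_pzero_jL, ord_pzero_jNL]; nlinarith

open Classical in
/-- At a point reducing to a cusp `uFun` reduces to `1` or `0` according as the cusp is `∞`. -/
theorem evalAt_uFun_cases {P : Place Qbar (FN p Qbar)} (hP : (R.r P).ord R.jbar < 0) :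
    ∃ h : evalAt P (uFun p) ∈ R.A,
      R.res ⟨evalAt P (uFun p), h⟩ = if R.r P = R.inf then 1 else 0 := by
  have hpoles : ∀ P', R.r P' = R.r P → OrdGE P' (uFun p) 0 := fun P' e =>
    R.ordGE_uFun (e ▸ hP)
  rcases R.pole_cases hP with hQ | hQ
  · obtain ⟨h, he⟩ := R.res_evalAt R.int_uFun rfl hpoles
    refine ⟨h, he.trans ?_⟩
    rw [if_pos hQ, hQ]
    exact evalAt_eq (by rw [map_one]; exact R.ordGE_uFun_sub_one)
  · have hord : 0 < (pzero p Qbar).ord (uFun p) := by
      rw [uFun, ord_div _ jNL_ne_zero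
        (pow_ne_zero _ jL_ne_zero), ord_pow, ord_pzero_jL, ord_pzero_jNL]
      have := hp.out.two_le
      nlinarith
    have hge := R.one_le_of_no_poles R.int_uFun R.redT_uFun_ne_zero hQ.symm
      (fun P' e => (hpoles P' e).le_ord (fun h0 => R.redT_uFun_ne_zero (by rw [h0, R.redT_zero])))
      hord
    have h1 : OrdGE (R.r P) (R.redT (uFun p)) 1 := (ordGE_iff_of_ne R.redT_uFun_ne_zero).mpr hge
    obtain ⟨h, he⟩ := R.res_evalAt R.int_uFun rfl hpoles
    refine ⟨h, he.trans ?_⟩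
    rw [if_neg (fun e => R.r_pzero_ne (hQ.symm.trans e))]
    exact (evalAt_eq_zero_iff (h1.mono zero_le_one)).mpr h1

/-- The value of `uFun` times that of `j ^ p` is that of `j_N`. -/
theorem evalAt_uFun_mul {P : Place Qbar (FN p Qbar)} (hP : OrdGE P (jL p Qbar) 0)
    (hr : (R.r P).ord R.jbar < 0) :
    evalAt P (uFun p) * evalAt P (jL p Qbar) ^ p = evalAt P (jNL p Qbar) := by
  have hjp : OrdGE P (jL p Qbar ^ p) 0 := (hP.pow p).mono (by simp)
  rw [← evalAt_pow hP, ← evalAt_mul (R.ordGE_uFun hr) hjp, uFun,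
    div_mul_cancel₀ _ (pow_ne_zero _ jL_ne_zero)]

/-- The criterion for reducing to `∞`. -/
theorem near_iff {P : Place Qbar (FN p Qbar)} (hP : OrdGE P (jL p Qbar) 0)
    (hx : evalAt P (jL p Qbar) ∉ R.A) :
    R.Near P ↔ R.A.valuation (evalAt P (jNL p Qbar)) =
      R.A.valuation (evalAt P (jL p Qbar)) ^ p := by
  have hr := R.pole_of_not_mem hx
  obtain ⟨h, he⟩ := R.evalAt_uFun_cases hr
  have hx0 : evalAt P (jL p Qbar) ≠ 0 := fun h0 => hx (h0 ▸ zero_mem R.A)
  rw [← R.evalAt_uFun_mul hP hr, map_mul, map_pow]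
  constructor
  · intro hn
    rw [if_pos (show R.r P = R.inf from hn)] at he
    have hu : ¬ R.A.valuation (evalAt P (uFun p)) < 1 := fun hlt => by
      rw [(R.res_eq_zero_iff h).mpr hlt] at he
      exact zero_ne_one he
    rw [le_antisymm ((R.A.valuation_le_one_iff _).mpr h) (not_lt.mp hu), one_mul]
  · intro hv
    by_contra hn
    rw [if_neg (show ¬ R.r P = R.inf from hn)] at he
    have hlt := (R.res_eq_zero_iff h).mp he
    have hne : R.A.valuation (evalAt P (jL p Qbar)) ^ p ≠ 0 :=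
      pow_ne_zero _ ((_root_.map_ne_zero R.A.valuation).mpr hx0)
    rw [mul_eq_right₀ hne] at hv
    exact hlt.ne hv

end Red

end Fermat.HT.Cusp

end
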