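import Fermat.Agent.HT.Cusp.Pres

/-!
# Normal forms on the kernel of reduction

A nonzero class with zero reduction has a presentation at some scale with nonzero pairing, and
at that scale or finer the pairing depends on the class only.
-/

set_option autoImplicit false
set_option linter.unusedSectionVars false

attribute [local instance 10000] SubalgebraClass.toAlgebra HahnSeries.powerSeriesAlgebra

noncomputable section

open ModularCurve AlgebraicCurve
open Fermat.RED (redPic redPic_mk)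
open Fermat.RED.Model (intSeries mem_intSeries_iff redHom)
open Fermat.RED.Cusps (regSeries mem_regSeries_iff)

namespace Fermat.HT.Cusp

open Fermat.FF Fermat.MC Fermat.JAC.X0

variable {p : ℕ} [hp : Fact p.Prime] [NeZero p]

namespace Red

variable (R : Red p)

/-- Reduction of classes. -/
abbrev redJ : Pic0 Qbar (FN p Qbar) →+ Pic0 R.k R.T := redPic R.hr

/-- A near tuple reduces to its length at `∞`. -/
theorem mapDomain_ofMult {s : Multiset (Pt p)} (hs : R.NearS s) :
    Finsupp.mapDomain R.r (ofMult s) = Finsupp.single R.inf (Multiset.card s : ℤ) := by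
  have h := R.mapDomain_nearDiv hs
  rw [nearDiv, Finsupp.mapDomain_sub, Finsupp.mapDomain_single, R.r_pinf_eq, sub_eq_zero] at h
  exact h

/-- A tuple reducing to a multiple of `∞` is near. -/
theorem nearS_of_mapDomain {s : Multiset (Pt p)} {n : ℤ}
    (h : Finsupp.mapDomain R.r (ofMult s) = Finsupp.single R.inf n) : R.NearS s := by
  classical
  intro Q hQ
  change R.r Q = R.inf
  by_contra hne
  obtain ⟨t, rfl⟩ := Multiset.exists_cons_of_mem hQ
  have h1 := DFunLike.congr_fun h (R.r Q)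
  rw [Finsupp.single_eq_of_ne hne, ofMult_cons, Finsupp.mapDomain_add, Finsupp.add_apply,
    Finsupp.mapDomain_single, Finsupp.single_eq_same] at h1
  have h2 := Finsupp.le_def.mp (Finsupp.mapDomain_nonneg (f := R.r) (ofMult_nonneg t)) (R.r Q)
  rw [Finsupp.zero_apply] at h2
  omega

/-- The class of a near tuple reduces to zero. -/
theorem redJ_cls {s : Multiset (Pt p)} (hs : R.NearS s) : R.redJ (cls s) = 0 := by
  refine ((redPic_mk R.hr ⟨nearDiv s, nearDiv_mem s⟩).trans ?_)
  refine Eq.trans (congrArg Pic0.mk (Subtype.ext ?_)) Pic0.mk_zero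
  exact R.mapDomain_nearDiv hs

/-- Classes with zero reduction are sums of differences of near points. -/
theorem exists_near {z : Pic0 Qbar (FN p Qbar)} (hz : R.redJ z = 0) :
    ∃ s : Multiset (Pt p), R.NearS s ∧ cls s = z := by
  set g : ℤ := (genusFF Qbar (FN p Qbar) : ℤ)
  obtain ⟨⟨D, hD⟩, rfl⟩ := Pic0.mk_surjective z
  have hdeg : Divisor.degree (-D + Finsupp.single (pinf p Qbar) g) = g := by
    rw [map_add, map_neg, Divisor.mem_degZero.mp hD, Divisor.degree_single, FF.deg_eq_one]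
    push_cast; ring
  -- move `-z` to an effective divisor minus `g ∞`
  obtain ⟨f, hf0, hE⟩ := exists_effective_of_ell_ne_zero
    (D := -D + Finsupp.single (pinf p Qbar) g) (by
      have := riemann_inequality (-D + Finsupp.single (pinf p Qbar) g)
      rw [hdeg] at this
      omega)
  set E := -D + Finsupp.single (pinf p Qbar) g + divOf Qbar f
  have hEdeg : Divisor.degree E = g := by
    simp only [E, map_add] at hdeg ⊢
    rw [hdeg, degree_divOf, add_zero]
  have hE0 : (E - Finsupp.single (pinf p Qbar) g) ∈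
      Divisor.degZero (K := Qbar) (F := FN p Qbar) := by
    rw [Divisor.mem_degZero, map_sub, hEdeg, Divisor.degree_single, FF.deg_eq_one]
    push_cast; ring
  have hneg : R.redJ (Pic0.mk ⟨_, hE0⟩) = 0 := by
    rw [← neg_zero (G := Pic0 R.k R.T), ← hz, ← map_neg]
    refine congrArg _ ?_
    rw [Pic0.mk, Pic0.mk, ← QuotientAddGroup.mk_neg, QuotientAddGroup.eq,
      AddSubgroup.mem_addSubgroupOf]
    refine ⟨f⁻¹, inv_ne_zero hf0, fun v => ?_⟩
    rw [v.ord_inv]
    simp [E]
    ring
  rw [redPic_mk, Pic0.mk, QuotientAddGroup.eq_zero_iff, AddSubgroup.mem_addSubgroupOf] at hneg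
  obtain ⟨h, hh0, hh⟩ := hneg
  have hh' : divOf R.k h =
      Finsupp.mapDomain R.r (E - Finsupp.single (pinf p Qbar) g) := Finsupp.ext fun v => by
    rw [divOf_apply]
    exact (hh v).symm
  set D3 := Finsupp.single (pinf p Qbar) (3 * g) - E
  have hD3 : D3 ≤ Finsupp.single (pinf p Qbar) (3 * g) := sub_le_self _ hE
  have hd3 : Divisor.degree D3 = 2 * g := by
    simp only [D3, map_sub, hEdeg, Divisor.degree_single, FF.deg_eq_one]
    push_cast; ring
  have hmap : Finsupp.mapDomain R.r D3 =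
      Finsupp.single R.inf (3 * g) - Finsupp.mapDomain R.r E := by
    rw [Finsupp.mapDomain_sub, Finsupp.mapDomain_single, R.r_pinf_eq]
  have hmap' : Finsupp.mapDomain R.r (E - Finsupp.single (pinf p Qbar) g) =
      Finsupp.mapDomain R.r E - Finsupp.single R.inf g := by
    rw [Finsupp.mapDomain_sub, Finsupp.mapDomain_single, R.r_pinf_eq]
  -- lift the function trivialising the reduction; its zeros are the near points
  obtain ⟨u, hu, hui, huz⟩ := R.exists_lift hD3 hd3.ge (z := h) (by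
    refine (nonneg_add_divOf_iff hh0).mp ?_
    rw [hmap, hh', hmap', show Finsupp.single R.inf (3 * g) - Finsupp.mapDomain R.r E +
      (Finsupp.mapDomain R.r E - Finsupp.single R.inf g) = Finsupp.single R.inf (2 * g) by
      rw [show 3 * g = 2 * g + g by ring, Finsupp.single_add]; abel]
    exact Finsupp.single_nonneg.mpr (by omega))
  have hu0 : u ≠ 0 := fun e => hh0 (by rw [← huz, e, R.redT_zero])
  obtain ⟨s, hs, hcard⟩ := exists_ofMult ((nonneg_add_divOf_iff hu0).mpr hu)
  rw [map_add, degree_divOf, add_zero, hd3] at hcard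
  refine ⟨s, R.nearS_of_mapDomain (n := 2 * g) ?_, (cls_eq_iff _).mpr ⟨f / u,
    div_ne_zero hf0 hu0, ?_⟩⟩
  · rw [hs, Finsupp.mapDomain_add, R.mapDomain_divOf hui (huz ▸ hh0), huz, hmap, hh', hmap',
      show 3 * g = 2 * g + g by ring, Finsupp.single_add]
    abel
  · rw [div_eq_mul_inv, divOf_mul hf0 (inv_ne_zero hu0), divOf_inv, nearDiv, hs, hcard]
    simp only [D3, E]
    rw [show 3 * g = 2 * g + g by ring, Finsupp.single_add]
    abel

/-- A bound on the order at `∞` kills the coefficients below it. -/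
theorem coeff_eq_zero_of_ord {f : FN p Qbar} {c : ℤ} (h : OrdGE (pinf p Qbar) f c) {n : ℤ}
    (hn : n < c) : (f : LaurentSeries Qbar).coeff n = 0 := by
  rcases eq_or_ne f 0 with rfl | h0
  · rfl
  refine HahnSeries.coeff_eq_zero_of_lt_order (hn.trans_le ?_)
  rw [← ord_pinf]
  exact h.le_ord h0

/-- Solving a system congruent to the identity. -/
theorem exists_solve {ι : Type*} [Fintype ι] [DecidableEq ι] (M : Matrix ι ι R.A)
    (hM : M.map R.res = 1) (b : ι → R.A) (hb : ∀ i, R.res (b i) = 0) :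
    ∃ c : ι → R.A, M.mulVec c = b ∧ ∀ i, R.res (c i) = 0 := by
  have hdet : IsUnit M.det := by
    rw [← IsLocalRing.residue_ne_zero_iff_isUnit]
    change R.res M.det ≠ 0
    rw [RingHom.map_det, RingHom.mapMatrix_apply, hM, Matrix.det_one]
    exact one_ne_zero
  refine ⟨M⁻¹.mulVec b, ?_, fun i => ?_⟩
  · rw [Matrix.mulVec_mulVec, Matrix.mul_nonsing_inv M hdet, Matrix.one_mulVec]
  · rw [RingHom.map_mulVec, show R.res ∘ b = 0 from funext hb, Matrix.mulVec_zero]
    rfl

/-- Sections `≡ 1` of the complement of a near divisor give near representatives. -/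
theorem exists_rep {z : Pic0 Qbar (FN p Qbar)} {E : Multiset (Pt p)} (hE : R.NearS E)
    (hEz : cls E = -z) {m : ℕ} {s : FN p Qbar}
    (hs : s ∈ riemannRochSpace
      (Finsupp.single (pinf p Qbar) ((Multiset.card E + m : ℕ) : ℤ) - ofMult E))
    (hsi : R.Int' s) (hs1 : R.redT s = 1) :
    ∃ t : Multiset (Pt p), R.NearS t ∧ Multiset.card t = m ∧ cls t = z ∧
      divOf Qbar s = nearDiv (t + E) := by
  set D := Finsupp.single (pinf p Qbar) ((Multiset.card E + m : ℕ) : ℤ) - ofMult E
  have hdeg : Divisor.degree D = m := by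
    simp only [D, map_sub, degree_ofMult, Divisor.degree_single, FF.deg_eq_one]
    push_cast; ring
  have hs0 : s ≠ 0 := fun e => by rw [e, R.redT_zero] at hs1; exact zero_ne_one hs1
  obtain ⟨t, ht, hcard⟩ := exists_ofMult ((nonneg_add_divOf_iff hs0).mpr hs)
  rw [map_add, degree_divOf, add_zero, hdeg] at hcard
  have hcard' : Multiset.card t = m := by exact_mod_cast hcard
  have hdiv : divOf Qbar s = nearDiv (t + E) := by
    rw [nearDiv_add, nearDiv, nearDiv, ht, hcard']
    simp only [D]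
    push_cast
    rw [Finsupp.single_add]
    abel
  refine ⟨t, R.nearS_of_mapDomain (n := (m : ℤ)) ?_, hcard', ?_, hdiv⟩
  · rw [ht, Finsupp.mapDomain_add, R.mapDomain_divOf hsi (by rw [hs1]; exact one_ne_zero), hs1]
    simp only [D, Finsupp.mapDomain_sub, Finsupp.mapDomain_single, R.r_pinf_eq,
      R.mapDomain_ofMult hE]
    push_cast
    rw [Finsupp.single_add, add_sub_cancel_left]
    refine add_eq_left.mpr (Finsupp.ext fun v => ?_)
    rw [divOf_apply, v.ord_one]
    rfl
  · have h : cls (t + E) = 0 := cls_eq_zero_iff.mpr ⟨s, hs0, hdiv⟩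
    rw [cls_add, hEz, ← sub_eq_add_neg, sub_eq_zero] at h
    exact h

/-- A series reducing to `1` has constant term reducing to `1`. -/
theorem coeff_zero_of_redHom {U : intSeries R.A} (hU : redHom R.res U = 1) :
    R.res ⟨(U : LaurentSeries Qbar).coeff 0, mem_intSeries_iff.mp U.2 0⟩ = 1 := by
  rw [← Fermat.RED.Model.redHom_coeff, hU, HahnSeries.coeff_one, if_pos rfl]

/-- Units `≡ 1` among the regular series. -/
theorem exists_inv_unit {U : intSeries R.A} (hU : redHom R.res U = 1)
    (hreg : (U : LaurentSeries Qbar) ∈ regSeries Qbar) :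
    ∃ W : intSeries R.A, redHom R.res W = 1 ∧ (W : LaurentSeries Qbar) ∈ regSeries Qbar ∧
      (U : LaurentSeries Qbar) * W = 1 := by
  have h0 := R.coeff_zero_of_redHom hU
  have hne : (U : LaurentSeries Qbar).coeff 0 ≠ 0 := fun e => by
    rw [show (⟨_, mem_intSeries_iff.mp U.2 0⟩ : R.A) = 0 from Subtype.ext e, map_zero] at h0
    exact zero_ne_one h0
  have hU0 : (U : LaurentSeries Qbar) ≠ 0 := fun e => hne (by rw [e, HahnSeries.coeff_zero])
  have hord : (U : LaurentSeries Qbar).order = 0 :=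
    le_antisymm (HahnSeries.order_le_of_coeff_ne_zero hne) ((mem_regSeries_iff_order hU0).mp hreg)
  have hinv := Fermat.RED.Model.inv_mem_intSeries R.res_surjective U.2 (fun h => by
    have e : R.res ⟨(U : LaurentSeries Qbar).coeff 0, mem_intSeries_iff.mp U.2 0⟩ = 0 :=
      (congrArg R.res (Subtype.ext (by
        change _ = (U : LaurentSeries Qbar).leadingCoeff
        rw [HahnSeries.leadingCoeff_eq, hord]))).trans h
    rw [h0] at e
    exact one_ne_zero e)
  set W : intSeries R.A := ⟨_, hinv⟩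
  have hUW : U * W = 1 := Subtype.ext (mul_inv_cancel₀ hU0)
  refine ⟨W, ?_, ?_, mul_inv_cancel₀ hU0⟩
  · have h := congrArg (redHom R.res) hUW
    rwa [map_mul, map_one, hU, one_mul] at h
  · refine (mem_regSeries_iff_order (inv_ne_zero hU0)).mpr ?_
    have e := HahnSeries.order_mul hU0 (inv_ne_zero hU0)
    rw [mul_inv_cancel₀ hU0, HahnSeries.order_one, hord, zero_add] at e
    exact e.le

/-- Multiplying by a unit `≡ 1` keeps the leading digits of the polar part. -/
theorem polar_mul_unit {π : Qbar} (hπ : π ≠ 0) {g : LaurentSeries Qbar} {X : intSeries R.A}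
    (hX : redHom R.res X = 1) (hXreg : (X : LaurentSeries Qbar) ∈ regSeries Qbar)
    (hg : ∀ n < (0 : ℤ), g.coeff n / π ∈ R.A) (n : ℤ) (hn : n < 0) :
    ∃ h : (g * X).coeff n / π ∈ R.A, R.res ⟨_, h⟩ = R.res ⟨_, hg n hn⟩ := by
  -- `T0` is the polar part of `g` divided by `π`, and is integral
  set T0 := algebraMap Qbar (LaurentSeries Qbar) π⁻¹ * HahnSeries.truncLT (0 : ℤ) g
  have hT : ∀ k, T0.coeff k = if k < 0 then g.coeff k / π else 0 := fun k => by
    simp only [T0, Fermat.RED.coeff_algebraMap_mul, HahnSeries.coeff_truncLT]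
    split_ifs
    · rw [inv_mul_eq_div]
    · rw [mul_zero]
  have hT0 : T0 ∈ intSeries R.A := mem_intSeries_iff.mpr fun k => by
    rw [hT]
    split_ifs with hk
    · exact hg k hk
    · exact zero_mem _
  have hdec : (g - algebraMap Qbar (LaurentSeries Qbar) π * T0) ∈ regSeries Qbar :=
    mem_regSeries_iff.mpr fun k hk => by
      rw [HahnSeries.coeff_sub, Fermat.RED.coeff_algebraMap_mul, hT, if_pos hk,
        mul_div_cancel₀ _ hπ, sub_self]
  -- multiplying the regular rest by `X` gives no polar part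
  have hsplit : g * (X : LaurentSeries Qbar) =
      (g - algebraMap Qbar (LaurentSeries Qbar) π * T0) * (X : LaurentSeries Qbar) +
      algebraMap Qbar (LaurentSeries Qbar) π * (T0 * (X : LaurentSeries Qbar)) := by
    rw [sub_mul, mul_assoc, sub_add_cancel]
  have he : (g * (X : LaurentSeries Qbar)).coeff n / π =
      (T0 * (X : LaurentSeries Qbar)).coeff n := by
    rw [hsplit, HahnSeries.coeff_add, mem_regSeries_iff.mp (mul_mem hdec hXreg) n hn, zero_add,
      Fermat.RED.coeff_algebraMap_mul, mul_div_cancel_left₀ _ hπ]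
  set Y : intSeries R.A := ⟨T0, hT0⟩
  have hY : (Y : LaurentSeries Qbar) * (X : LaurentSeries Qbar) = ((Y * X : intSeries R.A) :
      LaurentSeries Qbar) := rfl
  have hA : (g * (X : LaurentSeries Qbar)).coeff n / π ∈ R.A := by
    rw [he]; exact mem_intSeries_iff.mp (mul_mem hT0 X.2) n
  refine ⟨hA, ?_⟩
  -- reduce, where `X` becomes `1`
  have h1 : R.res ⟨_, hA⟩ = (redHom R.res (Y * X)).coeff n := by
    rw [Fermat.RED.Model.redHom_coeff]
    exact congrArg R.res (Subtype.ext
      (he.trans (congrArg (fun F : LaurentSeries Qbar => F.coeff n) hY)))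
  rw [h1, map_mul, hX, mul_one, Fermat.RED.Model.redHom_coeff]
  exact congrArg R.res (Subtype.ext ((hT n).trans (if_pos hn)))

/-- Carrying sections to functions with poles at `∞` alone. -/
theorem translate {E t0 : Multiset (Pt p)} {m : ℕ} (ht0 : R.NearS t0)
    (hcard : Multiset.card t0 = m) {f0 : FN p Qbar} (hf0i : R.Int' f0) (hf01 : R.redT f0 = 1)
    (ht0d : divOf Qbar f0 = nearDiv (t0 + E)) {u : FN p Qbar}
    (hu : u ∈ riemannRochSpace
      (Finsupp.single (pinf p Qbar) ((Multiset.card E + m : ℕ) : ℤ) - ofMult E))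
    (hui : R.Int' u) :
    R.Int' (u * pfun t0 / f0) ∧ R.redT (u * pfun t0 / f0) = R.redT u ∧
      OrdGE (pinf p Qbar) (u * pfun t0 / f0) (-(m : ℤ)) := by
  obtain ⟨i1, i2, i3, i4, i5⟩ := R.pfun_data ht0
  have hf0ne : f0 ≠ 0 := fun e => by rw [e, R.redT_zero] at hf01; exact zero_ne_one hf01
  rcases eq_or_ne u 0 with rfl | hu0
  · rw [zero_mul, zero_div]
    exact ⟨zero_mem _, rfl, ordGE_zero _ _⟩
  set D := Finsupp.single (pinf p Qbar) ((Multiset.card E + m : ℕ) : ℤ) - ofMult E
  have hd : ∀ v : Pt p, v.ord (u * pfun t0 / f0) = v.ord u + v.ord (pfun t0) - v.ord f0 :=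
    fun v => by rw [ord_div v (mul_ne_zero hu0 i3) hf0ne, v.ord_mul hu0 i3]
  have hD : nearDiv (t0 + E) = ofMult t0 - D := by
    rw [nearDiv_add, nearDiv, nearDiv, hcard]
    simp only [D]
    push_cast
    rw [Finsupp.single_add]
    abel
  have hfd : ∀ v : Pt p, v.ord f0 = ofMult t0 v - D v := fun v => by
    rw [← divOf_apply (K := Qbar), ht0d, hD, Finsupp.sub_apply]
  have hq : IntJ (u * pfun t0 / f0) := intJ_iff.mpr fun v hv => by
    refine ordGE_iff.mpr (.inr ?_)
    have h1 := (mem_riemannRochSpace.mp hu v).le_ord hu0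
    have h2 := (i5 v hv).le_ord i3
    rw [hd, hfd]
    omega
  obtain ⟨a1, a2⟩ := R.int_div (R.int_mul hui i1) hf0i (by rw [hf01]; exact one_ne_zero) hq
  refine ⟨a1, by rw [a2, R.redT_mul hui i1, i2, hf01, mul_one, div_one], ordGE_iff.mpr (.inr ?_)⟩
  have h1 := (mem_riemannRochSpace.mp hu (pinf p Qbar)).le_ord hu0
  rw [hd, hfd, i4, hcard]
  omega

/-- The exponent of the `i`-th polar coefficient. -/
abbrev pidx {m : ℕ} (i : Fin m) : ℤ := -((i : ℕ) + 1 : ℤ)

/-- Killing the polar coordinates in a set where the reduced sections are a standard basis. -/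
theorem exists_adjusted {E t0 : Multiset (Pt p)} {m : ℕ} (ht0 : R.NearS t0)
    (hcard : Multiset.card t0 = m) {f0 : FN p Qbar}
    (hf0 : f0 ∈ riemannRochSpace
      (Finsupp.single (pinf p Qbar) ((Multiset.card E + m : ℕ) : ℤ) - ofMult E))
    (hf0i : R.Int' f0) (hf01 : R.redT f0 = 1) (ht0d : divOf Qbar f0 = nearDiv (t0 + E))
    {J : Finset (Fin m)} (s : J → FN p Qbar)
    (hs : ∀ j, s j ∈ riemannRochSpace
      (Finsupp.single (pinf p Qbar) ((Multiset.card E + m : ℕ) : ℤ) - ofMult E))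
    (hsi : ∀ j, R.Int' (s j))
    (hsr : ∀ i j : J, (R.red (s j)).coeff (pidx (i : Fin m)) = if i = j then 1 else 0) :
    ∃ u ∈ riemannRochSpace
        (Finsupp.single (pinf p Qbar) ((Multiset.card E + m : ℕ) : ℤ) - ofMult E),
      R.Int' u ∧ R.redT u = 1 ∧
        ∀ i ∈ J, ((u * pfun t0 / f0 : FN p Qbar) : LaurentSeries Qbar).coeff (pidx i) = 0 := by
  classical
  obtain ⟨i1, i2, i3, i4, i5⟩ := R.pfun_data ht0
  have hf0ne : f0 ≠ 0 := fun e => by rw [e, R.redT_zero] at hf01; exact zero_ne_one hf01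
  -- translates of the `s j` still reduce to the identity matrix on `J`
  choose hgi hgr hgo using fun j => R.translate ht0 hcard hf0i hf01 ht0d (hs j) (hsi j)
  -- so the system for the coefficients has a solution `c` reducing to zero
  obtain ⟨c, hc, hcr⟩ := R.exists_solve
    (Matrix.of fun i j : J => (⟨_, mem_intSeries_iff.mp (hgi j) (pidx (i : Fin m))⟩ : R.A))
    (Matrix.ext fun i j => by
      rw [Matrix.map_apply, Matrix.of_apply, ← R.red_coeff (hgi j),
        show R.red (s j * pfun t0 / f0) = R.red (s j) from congrArg Subtype.val (hgr j), hsr,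
        Matrix.one_apply])
    (fun i : J => -(⟨_, mem_intSeries_iff.mp i1 (pidx (i : Fin m))⟩ : R.A)) fun i => by
      rw [map_neg, ← R.red_coeff i1, show R.red (pfun t0) = 1 from congrArg Subtype.val i2,
        HahnSeries.coeff_one, if_neg (by simp only [pidx]; omega), neg_zero]
  have hsum : R.Int' (∑ j, algebraMap Qbar (FN p Qbar) (c j : Qbar) * s j) :=
    R.int_sum _ fun j _ => R.int_mul (R.int_algebraMap (c j).2) (hsi j)
  -- `f0 + ∑ c j * s j` is the adjusted function
  refine ⟨f0 + ∑ j, algebraMap Qbar (FN p Qbar) (c j : Qbar) * s j,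
    add_mem hf0 (sum_mem fun j _ => ?_), R.int_add hf0i hsum, ?_, fun i hi => ?_⟩
  · rw [← Algebra.smul_def]; exact Submodule.smul_mem _ _ (hs j)
  · rw [R.redT_add hf0i hsum, hf01,
      R.redT_sum _ fun j _ => R.int_mul (R.int_algebraMap (c j).2) (hsi j)]
    refine add_eq_left.mpr (Finset.sum_eq_zero fun j _ => ?_)
    rw [R.redT_mul (R.int_algebraMap (c j).2) (hsi j), R.redT_algebraMap (c j).2,
      show R.res ⟨(c j : Qbar), (c j).2⟩ = 0 from hcr j, map_zero, zero_mul]
  -- its translate has vanishing coefficients on `J` by the choice of `c`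
  · have e : (f0 + ∑ j, algebraMap Qbar (FN p Qbar) (c j : Qbar) * s j) * pfun t0 / f0 =
        pfun t0 + ∑ j, algebraMap Qbar (FN p Qbar) (c j : Qbar) * (s j * pfun t0 / f0) := by
      rw [add_mul, add_div, mul_div_cancel_left₀ _ hf0ne, Finset.sum_mul, Finset.sum_div]
      exact congrArg _ (Finset.sum_congr rfl fun j _ => by ring)
    rw [e, AddMemClass.coe_add, HahnSeries.coeff_add, AddSubmonoidClass.coe_finsetSum,
      HahnSeries.coeff_sum]
    have := congrArg Subtype.val (congrFun hc ⟨i, hi⟩)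
    simp only [Matrix.mulVec, dotProduct, Matrix.of_apply, AddSubmonoidClass.coe_finsetSum,
      MulMemClass.coe_mul, NegMemClass.coe_neg] at this
    refine add_eq_zero_iff_eq_neg'.mpr (Eq.trans (Finset.sum_congr rfl fun j _ => ?_) this)
    rw [MulMemClass.coe_mul, IntermediateField.coe_algebraMap_apply,
      Fermat.RED.coeff_algebraMap_mul, mul_comm]

/-- Two sections of one complement differ by near polynomials and a unit. -/
theorem exists_mul_unit {E t0 t : Multiset (Pt p)} (hE : R.NearS E) (ht0 : R.NearS t0)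
    (ht : R.NearS t) {f0 u : FN p Qbar} (hf0i : R.Int' f0) (hf01 : R.redT f0 = 1)
    (ht0d : divOf Qbar f0 = nearDiv (t0 + E)) (hui : R.Int' u) (hu1 : R.redT u = 1)
    (htd : divOf Qbar u = nearDiv (t + E)) :
    ∃ X : intSeries R.A, redHom R.res X = 1 ∧ (X : LaurentSeries Qbar) ∈ regSeries Qbar ∧
      (pfun t : LaurentSeries Qbar) =
        ((u * pfun t0 / f0 : FN p Qbar) : LaurentSeries Qbar) * X := by
  obtain ⟨U, hU1, hUreg, hU⟩ := R.exists_unit (ht.add hE) hui hu1 htd
  obtain ⟨U0, hU01, hU0reg, hU0⟩ := R.exists_unit (ht0.add hE) hf0i hf01 ht0d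
  obtain ⟨W, hW1, hWreg, hW⟩ := R.exists_inv_unit hU1 (mem_regSeries_iff.mpr hUreg)
  have hf0ne : f0 ≠ 0 := fun e => by rw [e, R.redT_zero] at hf01; exact zero_ne_one hf01
  refine ⟨U0 * W, by rw [map_mul, hU01, hW1, one_mul],
    mul_mem (mem_regSeries_iff.mpr hU0reg) hWreg, ?_⟩
  set g := u * pfun t0 / f0 with hg
  have e1 : (g : LaurentSeries Qbar) * (f0 : LaurentSeries Qbar) =
      (u : LaurentSeries Qbar) * (pfun t0 : LaurentSeries Qbar) := by
    rw [← MulMemClass.coe_mul, ← MulMemClass.coe_mul, hg, div_mul_cancel₀ _ hf0ne]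
  rw [hU, hU0, pfun_add, pfun_add, MulMemClass.coe_mul, MulMemClass.coe_mul] at e1
  have hne : (pfun E : LaurentSeries Qbar) * (pfun t0 : LaurentSeries Qbar) ≠ 0 :=
    mul_ne_zero (fun e => (R.pfun_data hE).2.2.1 (Subtype.ext e))
      (fun e => (R.pfun_data ht0).2.2.1 (Subtype.ext e))
  have e2 : (g : LaurentSeries Qbar) * U0 = (pfun t : LaurentSeries Qbar) * U :=
    mul_left_cancel₀ hne (by linear_combination e1)
  change _ = _ * ((U0 : LaurentSeries Qbar) * (W : LaurentSeries Qbar))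
  rw [← mul_assoc, e2, mul_assoc, hW, mul_one]

/-- The scale and the digit of a near divisor with adjusted polar part. -/
theorem exists_digit {m : ℕ} {J : Finset (Fin m)}
    (hann : ∀ c : Fin m → R.k, (∀ i ∈ J, c i = 0) →
      (∀ a, IsIntForm p a → ∑ i, c i * (a ((i : ℕ) + 1) : R.k) = 0) → c = 0)
    {z : Pic0 Qbar (FN p Qbar)} (hz0 : z ≠ 0) {t : Multiset (Pt p)} (ht : R.NearS t)
    (htc : Multiset.card t = m) (htz : cls t = z) {g : FN p Qbar} (gi : R.Int' g)
    (gr : R.redT g = 1) (go : OrdGE (pinf p Qbar) g (-(m : ℤ))) {X : intSeries R.A}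
    (hX1 : redHom R.res X = 1) (hXreg : (X : LaurentSeries Qbar) ∈ regSeries Qbar)
    (hP : (pfun t : LaurentSeries Qbar) = (g : LaurentSeries Qbar) * X)
    (hgJ : ∀ i ∈ J, (g : LaurentSeries Qbar).coeff (pidx i) = 0) :
    ∃ (π : Qbar) (a : ℕ → ℤ), R.IsScale π ∧ R.IsPres π z t ∧
      IsIntForm p a ∧ R.lamS π t a ≠ 0 := by
  classical
  have hrep : ∀ n < (0 : ℤ), ¬ n < -(m : ℤ) → ∃ i : Fin m, n = pidx i := fun n hn h =>
    ⟨⟨(-n - 1).toNat, by omega⟩, by simp only [pidx]; omega⟩
  -- without polar part the tuple is all at `∞` and the class is zero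
  by_cases hall : ∀ i : Fin m, (g : LaurentSeries Qbar).coeff (pidx i) = 0
  · exfalso
    obtain ⟨-, -, j3, j4, -⟩ := R.pfun_data ht
    have hgreg : (g : LaurentSeries Qbar) ∈ regSeries Qbar := mem_regSeries_iff.mpr fun n hn => by
      by_cases h : n < -(m : ℤ)
      · exact coeff_eq_zero_of_ord go h
      · obtain ⟨i, rfl⟩ := hrep n hn h
        exact hall i
    have hPreg := mul_mem hgreg hXreg
    rw [← hP, mem_regSeries_iff_order (fun e => j3 (Subtype.ext e)), ← ord_pinf, j4, htc] at hPreg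
    have hle : Finsupp.single (pinf p Qbar) (m : ℤ) ≤ ofMult t := Finsupp.le_def.mpr fun v => by
      rcases eq_or_ne v (pinf p Qbar) with rfl | hv
      · rw [Finsupp.single_eq_same]; omega
      · rw [Finsupp.single_eq_of_ne hv]; exact Finsupp.le_def.mp (ofMult_nonneg t) v
    have heq := sub_eq_zero.mp (eq_zero_of_nonneg_of_degree (sub_nonneg.mpr hle) (by
      rw [map_sub, degree_ofMult, htc, Divisor.degree_single, FF.deg_eq_one]; push_cast; ring))
    refine hz0 (htz ▸ cls_eq_zero_iff.mpr ⟨1, one_ne_zero, Finsupp.ext fun v => ?_⟩)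
    rw [divOf_apply, v.ord_one, nearDiv, heq, htc, sub_self]
    rfl
  push Not at hall
  obtain ⟨i₁, hi₁⟩ := hall
  -- the scale is the largest polar coefficient
  obtain ⟨i₀, -, hmax⟩ := Finset.exists_max_image (Finset.univ : Finset (Fin m))
    (fun i => R.A.valuation ((g : LaurentSeries Qbar).coeff (pidx i))) ⟨i₁, Finset.mem_univ _⟩
  set π := (g : LaurentSeries Qbar).coeff (pidx i₀) with hπdef
  have hπ0 : π ≠ 0 := fun e => hi₁ (by
    have := hmax i₁ (Finset.mem_univ _)
    rw [e, map_zero, le_zero_iff, map_eq_zero] at this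
    exact this)
  have hπs : R.IsScale π := ⟨hπ0, mem_intSeries_iff.mp gi _, by
    rw [← R.red_coeff gi (pidx i₀), show R.red g = 1 from congrArg Subtype.val gr,
      HahnSeries.coeff_one, if_neg (by simp only [pidx]; omega)]⟩
  have hdivA : ∀ n < (0 : ℤ), (g : LaurentSeries Qbar).coeff n / π ∈ R.A := fun n hn => by
    by_cases h : n < -(m : ℤ)
    · rw [coeff_eq_zero_of_ord go h, zero_div]; exact zero_mem _
    · obtain ⟨i, rfl⟩ := hrep n hn h
      rw [← R.A.valuation_le_one_iff, map_div₀,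
        div_le_one₀ (zero_lt_iff.mpr ((_root_.map_ne_zero _).mpr hπ0))]
      exact hmax _ (Finset.mem_univ _)
  have hpol := fun n hn => R.polar_mul_unit hπ0 hX1 hXreg hdivA n hn
  simp only [← hP] at hpol
  have hint : R.Int' (tfun π t) := R.int_tfun_of_coeff fun n hn => (hpol n hn).1
  have htf : ∀ n (hn : n < 0), (R.red (tfun π t)).coeff n = R.res ⟨_, hdivA n hn⟩ := by
    intro n hn
    rw [R.red_coeff hint, ← (hpol n hn).2]
    refine congrArg R.res (Subtype.ext ?_)
    change (algebraMap Qbar (LaurentSeries Qbar) π⁻¹ * ((pfun t : LaurentSeries Qbar) -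
      algebraMap Qbar (LaurentSeries Qbar) _)).coeff n = _
    rw [Fermat.RED.coeff_algebraMap_mul, HahnSeries.coeff_sub, algebraMap_laurentSeries_eq_single,
      HahnSeries.coeff_single_of_ne hn.ne, sub_zero, inv_mul_eq_div]
  have hlow : ∀ n < -(m : ℤ), (R.red (tfun π t)).coeff n = 0 := fun n hn => by
    rw [htf n (by omega), show (⟨_, hdivA n (by omega)⟩ : R.A) = 0 from Subtype.ext (by
      change (g : LaurentSeries Qbar).coeff n / π = 0
      rw [coeff_eq_zero_of_ord go hn, zero_div]), map_zero]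
  have hidx : ∀ i : Fin m, pidx i < 0 := fun i => by simp only [pidx]; omega
  -- the digit is nonzero and vanishes on `J`, so some form pairs nontrivially with it
  obtain ⟨a, ha, hane⟩ : ∃ a, IsIntForm p a ∧
      ∑ i : Fin m, R.res ⟨_, hdivA _ (hidx i)⟩ * (a ((i : ℕ) + 1) : R.k) ≠ 0 := by
    by_contra hno
    push Not at hno
    have h0 := congrFun (hann (fun i => R.res ⟨_, hdivA _ (hidx i)⟩) (fun i hi => by
      refine (congrArg R.res (Subtype.ext ?_ : _ = (0 : R.A))).trans (map_zero _)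
      change (g : LaurentSeries Qbar).coeff (pidx i) / π = 0
      rw [hgJ i hi, zero_div]) hno) i₀
    simp only [Pi.zero_apply] at h0
    rw [show (⟨_, hdivA _ (hidx i₀)⟩ : R.A) = 1 from Subtype.ext (div_self hπ0), map_one] at h0
    exact one_ne_zero h0
  refine ⟨π, a, hπs, ⟨ht, htz, hint⟩, ha, ?_⟩
  rw [lamS, pair, coeff_zero_mul_aSer hlow ha.zero_coeff]
  refine Eq.mpr (congrArg (· ≠ 0) (Finset.sum_congr rfl fun i _ => ?_)) hane
  rw [polar_apply, htf _ (hidx i)]

/-- A nonzero class in the kernel of reduction has a presentation at some scale and a form nonzero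
on it. -/
theorem exists_normalForm {z : Pic0 Qbar (FN p Qbar)} (hz : R.redJ z = 0) (hz0 : z ≠ 0) :
    ∃ (π : Qbar) (t : Multiset (Pt p)) (a : ℕ → ℤ), R.IsScale π ∧ R.IsPres π z t ∧
      IsIntForm p a ∧ R.lamS π t a ≠ 0 := by
  classical
  obtain ⟨m, J, hm, hJ, hann⟩ := R.exists_frame
  obtain ⟨E, hE, hEz⟩ := R.exists_near (z := -z) (by rw [map_neg, hz, neg_zero])
  set D := Finsupp.single (pinf p Qbar) ((Multiset.card E + m : ℕ) : ℤ) - ofMult E
  have hD : D ≤ Finsupp.single (pinf p Qbar) ((Multiset.card E + m : ℕ) : ℤ) :=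
    sub_le_self _ (ofMult_nonneg E)
  have hdeg : 2 * (genusFF Qbar (FN p Qbar) : ℤ) ≤ Divisor.degree D := by
    simp only [D, map_sub, degree_ofMult, Divisor.degree_single, FF.deg_eq_one]
    push_cast; omega
  have hmap : Finsupp.mapDomain R.r D = Finsupp.single R.inf (m : ℤ) := by
    simp only [D, Finsupp.mapDomain_sub, Finsupp.mapDomain_single, R.r_pinf_eq,
      R.mapDomain_ofMult hE]
    push_cast
    rw [Finsupp.single_add, add_sub_cancel_left]
  -- lifts of the coordinate sections and of `1`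
  choose zb hzb hzbJ using hJ
  choose s hs hsi hsr using fun j : J => R.exists_lift hD hdeg (z := zb j j.2) (hmap ▸ hzb j j.2)
  obtain ⟨f0, hf0, hf0i, hf01⟩ := R.exists_lift hD hdeg (z := 1) (by
    rw [hmap]
    refine mem_riemannRochSpace.mpr fun v => (ordGE_one v).mono ?_
    rw [neg_nonpos]
    exact Finsupp.le_def.mp (Finsupp.single_nonneg.mpr (by omega)) v)
  obtain ⟨t0, ht0, ht0c, -, ht0d⟩ := R.exists_rep hE hEz hf0 hf0i hf01
  -- kill the coordinates in `J`, then read the scale and the digit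
  obtain ⟨u, hu, hui, hu1, hgJ⟩ := R.exists_adjusted ht0 ht0c hf0 hf0i hf01 ht0d s hs hsi
    fun i j => by
      rw [show R.red (s j) = ((zb j j.2 : R.T) : LaurentSeries R.k) from
        congrArg Subtype.val (hsr j), ← polar_apply (m := m), hzbJ j j.2 i i.2]
      exact if_congr Subtype.ext_iff.symm rfl rfl
  obtain ⟨t, ht, htc, htz, htd⟩ := R.exists_rep hE hEz hu hui hu1
  obtain ⟨X, hX1, hXreg, hP⟩ := R.exists_mul_unit hE ht0 ht hf0i hf01 ht0d hui hu1 htd
  obtain ⟨gi, gr, go⟩ := R.translate ht0 ht0c hf0i hf01 ht0d hu hui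
  rw [hu1] at gr
  obtain ⟨π, a, h1, h2, h3, h4⟩ :=
    R.exists_digit hann hz0 ht htc htz gi gr go hX1 hXreg hP hgJ
  exact ⟨π, t, a, h1, h2, h3, h4⟩

/-- A presentation at a scale `π'` is one at a scale `π` dividing it, with `lamS` scaled. -/
theorem IsPres.rescale {π π' : Qbar} (hπ' : π' ≠ 0) {z : Pic0 Qbar (FN p Qbar)}
    {s : Multiset (Pt p)} (hs : R.IsPres π' z s) (hdiv : π' / π ∈ R.A) :
    R.IsPres π z s ∧ ∀ a, R.lamS π s a = R.res ⟨_, hdiv⟩ * R.lamS π' s a := by
  have e : tfun π s = algebraMap Qbar (FN p Qbar) (π' / π) * tfun π' s := by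
    rw [tfun, tfun, ← mul_assoc, ← map_mul, div_mul_eq_mul_div, mul_inv_cancel₀ hπ', one_div]
  refine ⟨⟨hs.near, hs.cls_eq, e ▸ R.int_mul (R.int_algebraMap hdiv) hs.int⟩, fun a => ?_⟩
  have h2 : R.red (tfun π s) =
      algebraMap R.k (LaurentSeries R.k) (R.res ⟨_, hdiv⟩) * R.red (tfun π' s) := by
    rw [e]
    exact congrArg Subtype.val (show R.redT _ = _ by
      rw [R.redT_mul (R.int_algebraMap hdiv) hs.int, R.redT_algebraMap hdiv])
  rw [lamS, lamS, pair, pair, h2, mul_assoc, Fermat.RED.coeff_algebraMap_mul]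

/-- Opposite classes are presented at the same scales, with opposite pairings. -/
theorem exists_neg {π : Qbar} (hπ : R.IsScale π) {z : Pic0 Qbar (FN p Qbar)}
    {s : Multiset (Pt p)} (hs : R.IsPres π z s) :
    ∃ t, R.IsPres π (-z) t ∧ ∀ a, IsIntForm p a → R.lamS π t a = -R.lamS π s a := by
  suffices h : ∃ t, R.IsPres π (-z) t by
    obtain ⟨t, ht⟩ := h
    refine ⟨t, ht, fun a ha => ?_⟩
    obtain ⟨h1, h2⟩ := IsPres.add R hπ hs ht
    rw [add_neg_cancel] at h1
    have h3 := R.lamS_eq_zero_of_cls hπ.ne_zero h1 ha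
    rw [h2 a ha.zero_coeff] at h3
    exact eq_neg_of_add_eq_zero_right h3
  rcases eq_or_ne z 0 with rfl | hz0
  · exact ⟨0, neg_zero (G := Pic0 Qbar (FN p Qbar)) ▸ R.isPres_zero π⟩
  obtain ⟨π₁, u, a, hπ₁, hu, ha, hne⟩ := R.exists_normalForm (z := -z)
    (by rw [map_neg, ← hs.cls_eq, R.redJ_cls hs.near, neg_zero]) (neg_ne_zero.mpr hz0)
  -- the normal form of `-z` cannot be coarser than `π`
  refine ⟨u, (IsPres.rescale R hπ₁.ne_zero hu ?_).1⟩
  by_contra hdiv
  have hinv : π / π₁ ∈ R.A := by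
    have := (R.A.mem_or_inv_mem (π₁ / π)).resolve_left hdiv
    rwa [inv_div] at this
  have hres : R.res ⟨_, hinv⟩ = 0 :=
    Fermat.RED.Model.map_eq_zero_of_inv_notMem R.res_surjective (a := ⟨_, hinv⟩)
      (by rwa [inv_div])
  obtain ⟨h1, h1'⟩ := IsPres.rescale R hπ.ne_zero hs hinv
  obtain ⟨h2, h2'⟩ := IsPres.add R hπ₁ h1 hu
  rw [add_neg_cancel] at h2
  have h3 := R.lamS_eq_zero_of_cls hπ₁.ne_zero h2 ha
  rw [h2' a ha.zero_coeff, h1' a, hres, zero_mul, zero_add] at h3
  exact hne h3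

/-- The pairing depends on the class only. -/
theorem lamS_congr {π : Qbar} (hπ : R.IsScale π) {z : Pic0 Qbar (FN p Qbar)}
    {s t : Multiset (Pt p)} (hs : R.IsPres π z s) (ht : R.IsPres π z t) {a : ℕ → ℤ}
    (ha : IsIntForm p a) : R.lamS π s a = R.lamS π t a := by
  obtain ⟨u, hu, hu'⟩ := R.exists_neg hπ hs
  obtain ⟨h1, h2⟩ := IsPres.add R hπ ht hu
  rw [add_neg_cancel] at h1
  have h3 := R.lamS_eq_zero_of_cls hπ.ne_zero h1 ha
  rw [h2 a ha.zero_coeff, hu' a ha, ← sub_eq_add_neg, sub_eq_zero] at h3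
  exact h3.symm

/-- The classes presented at the scale `π`. -/
def scaleSub {π : Qbar} (hπ : R.IsScale π) : AddSubgroup (Pic0 Qbar (FN p Qbar)) where
  carrier := {z | ∃ s, R.IsPres π z s}
  zero_mem' := ⟨0, R.isPres_zero π⟩
  add_mem' := fun ⟨s, hs⟩ ⟨t, ht⟩ => ⟨s + t, (IsPres.add R hπ hs ht).1⟩
  neg_mem' := fun ⟨_, hs⟩ => (R.exists_neg hπ hs).imp fun _ h => h.1

/-- Membership in `scaleSub`. -/
theorem mem_scaleSub {π : Qbar} {hπ : R.IsScale π} {z : Pic0 Qbar (FN p Qbar)} :
    z ∈ R.scaleSub hπ ↔ ∃ s, R.IsPres π z s := Iff.rfl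

/-- The leading digit of a class at the scale `π`. -/
def lam {π : Qbar} (hπ : R.IsScale π) : R.scaleSub hπ →+ ({a // IsIntForm p a} → R.k) :=
  AddMonoidHom.mk' (fun z a => R.lamS π (R.mem_scaleSub.mp z.2).choose a.1) fun z w => by
    funext a
    obtain ⟨h1, h2⟩ := IsPres.add R hπ (R.mem_scaleSub.mp z.2).choose_spec
      (R.mem_scaleSub.mp w.2).choose_spec
    exact (R.lamS_congr hπ (R.mem_scaleSub.mp (z + w).2).choose_spec h1 a.2).trans
      (h2 _ a.2.zero_coeff)

/-- The leading digit computed on any presentation. -/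
theorem lam_eq {π : Qbar} (hπ : R.IsScale π) {z : Pic0 Qbar (FN p Qbar)}
    {s : Multiset (Pt p)} (hs : R.IsPres π z s) (a : {a // IsIntForm p a}) :
    R.lam hπ ⟨z, ⟨s, hs⟩⟩ a = R.lamS π s a.1 :=
  R.lamS_congr hπ ((R.mem_scaleSub (z := z) (hπ := hπ)).mp ⟨s, hs⟩).choose_spec hs a.2

/-- A nonzero class with zero reduction has a nonzero leading digit at some scale. -/
theorem exists_lam_ne_zero {z : Pic0 Qbar (FN p Qbar)} (hz : R.redJ z = 0) (hz0 : z ≠ 0) :
    ∃ (π : Qbar) (hπ : R.IsScale π) (hm : z ∈ R.scaleSub hπ), R.lam hπ ⟨z, hm⟩ ≠ 0 := by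
  obtain ⟨π, t, a, hπ, ht, ha, hne⟩ := R.exists_normalForm hz hz0
  exact ⟨π, hπ, ⟨t, ht⟩, fun h => hne (by rw [← R.lam_eq hπ ht ⟨a, ha⟩, h]; rfl)⟩

end Red

end Fermat.HT.Cusp

end
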