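import Fermat.Agent.HT.Cusp.Forms
import Fermat.Agent.RED.Spec.X0

/-!
# Presentations at a scale

For points `Q` near `∞` with `τ = 1/j(Q)` the polynomial `∏ (1 - τ j)` is `≡ 1`; when it is
`≡ 1` at the scale `π` its polar part at scale `π` pairs with the forms, and the pairing is zero
on principal divisors.
-/

set_option autoImplicit false
set_option linter.unusedSectionVars false

attribute [local instance 10000] SubalgebraClass.toAlgebra HahnSeries.powerSeriesAlgebra

noncomputable section

open ModularCurve Polynomial AlgebraicCurve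
open Fermat.RED.Model (intSeries mem_intSeries_iff redHom)

namespace Fermat.HT.Cusp

open Fermat.FF Fermat.MC Fermat.JAC.X0

variable {p : ℕ} [hp : Fact p.Prime] [NeZero p]

variable (p) in
/-- Points of `X₀(p)` over `ℚ̄`. -/
abbrev Pt : Type := Place Qbar (FN p Qbar)

/-- A multiset of points as a divisor. -/
def ofMult (s : Multiset (Pt p)) : Divisor Qbar (FN p Qbar) :=
  (s.map fun Q => Finsupp.single Q (1 : ℤ)).sum

/-- `ofMult` is additive. -/
theorem ofMult_add (s t : Multiset (Pt p)) : ofMult (s + t) = ofMult s + ofMult t := by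
  simp [ofMult]

/-- The divisor of a tuple with one more point. -/
theorem ofMult_cons (Q : Pt p) (s : Multiset (Pt p)) :
    ofMult (Q ::ₘ s) = Finsupp.single Q 1 + ofMult s := by
  simp [ofMult]

/-- The divisor of a tuple is effective. -/
theorem ofMult_nonneg (s : Multiset (Pt p)) : 0 ≤ ofMult s :=
  Multiset.sum_nonneg fun z hz => by
    obtain ⟨w, -, rfl⟩ := Multiset.mem_map.mp hz; simp

/-- The degree of the divisor of a tuple is its length. -/
theorem degree_ofMult (s : Multiset (Pt p)) : Divisor.degree (ofMult s) = Multiset.card s := by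
  induction s using Multiset.induction with
  | empty => simp [ofMult]
  | cons Q s ih =>
    rw [ofMult_cons, map_add, ih, Divisor.degree_single, FF.deg_eq_one, Multiset.card_cons]
    push_cast
    ring

/-- An effective divisor is the divisor of a tuple. -/
theorem exists_ofMult {D : Divisor Qbar (FN p Qbar)} (hD : 0 ≤ D) :
    ∃ s : Multiset (Pt p), ofMult s = D ∧ (Multiset.card s : ℤ) = Divisor.degree D := by
  obtain ⟨s, hs, hdeg⟩ := exists_multiset D
  refine ⟨s, ?_, hdeg hD⟩
  have hle : D ≤ ofMult s := Finsupp.le_def.mpr hs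
  exact sub_eq_zero.mp (eq_zero_of_nonneg_of_degree (sub_nonneg.mpr hle)
    (by rw [map_sub, degree_ofMult, hdeg hD, sub_self]))

/-- The divisor `Σ Q - n ∞`. -/
def nearDiv (s : Multiset (Pt p)) : Divisor Qbar (FN p Qbar) :=
  ofMult s - Finsupp.single (pinf p Qbar) (Multiset.card s : ℤ)

/-- `nearDiv` has degree zero. -/
theorem nearDiv_mem (s : Multiset (Pt p)) :
    nearDiv s ∈ Divisor.degZero (K := Qbar) (F := FN p Qbar) := by
  rw [Divisor.mem_degZero, nearDiv, map_sub, degree_ofMult, Divisor.degree_single, FF.deg_eq_one]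
  push_cast
  ring

/-- `nearDiv` is additive. -/
theorem nearDiv_add (s t : Multiset (Pt p)) : nearDiv (s + t) = nearDiv s + nearDiv t := by
  rw [nearDiv, nearDiv, nearDiv, ofMult_add, Multiset.card_add, Nat.cast_add, Finsupp.single_add]
  abel

/-- The class of `Σ (Q - ∞)`. -/
def cls (s : Multiset (Pt p)) : Pic0 Qbar (FN p Qbar) := Pic0.mk ⟨nearDiv s, nearDiv_mem s⟩

/-- `cls` is additive. -/
theorem cls_add (s t : Multiset (Pt p)) : cls (s + t) = cls s + cls t := by
  rw [cls, cls, cls, ← Pic0.mk_add]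
  exact congrArg _ (Subtype.ext (nearDiv_add s t))

/-- When the class of a tuple is that of a given divisor. -/
theorem cls_eq_iff {s : Multiset (Pt p)}
    (D : Divisor.degZero (K := Qbar) (F := FN p Qbar)) :
    cls s = Pic0.mk D ↔
      ∃ f : FN p Qbar, f ≠ 0 ∧ divOf Qbar f = (D : Divisor Qbar (FN p Qbar)) - nearDiv s := by
  rw [cls, Pic0.mk, Pic0.mk, QuotientAddGroup.eq, AddSubgroup.mem_addSubgroupOf,
    show ((-(⟨nearDiv s, nearDiv_mem s⟩ : Divisor.degZero (K := Qbar) (F := FN p Qbar)) + D :
      Divisor.degZero (K := Qbar) (F := FN p Qbar)) : Divisor Qbar (FN p Qbar)) =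
        (D : Divisor Qbar (FN p Qbar)) - nearDiv s by
      simp [AddSubgroup.coe_add, sub_eq_add_neg, add_comm]]
  constructor
  · rintro ⟨f, hf, e⟩
    exact ⟨f, hf, Finsupp.ext fun v => by rw [divOf_apply]; exact (e v).symm⟩
  · rintro ⟨f, hf, e⟩
    exact ⟨f, hf, fun v => by rw [← e, divOf_apply]⟩

/-- When the class of a tuple vanishes. -/
theorem cls_eq_zero_iff {s : Multiset (Pt p)} :
    cls s = 0 ↔ ∃ f : FN p Qbar, f ≠ 0 ∧ divOf Qbar f = nearDiv s := by
  rw [show (0 : Pic0 Qbar (FN p Qbar)) = Pic0.mk 0 from rfl, cls_eq_iff]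
  constructor <;> rintro ⟨f, hf, e⟩ <;> refine ⟨f⁻¹, inv_ne_zero hf, ?_⟩ <;>
    rw [divOf_inv, e] <;> simp

/-- The class of the empty tuple is zero. -/
theorem cls_zero : cls (0 : Multiset (Pt p)) = 0 :=
  cls_eq_zero_iff.mpr ⟨1, one_ne_zero, by
    rw [nearDiv, Multiset.card_zero, Nat.cast_zero, Finsupp.single_zero, sub_zero]
    refine Finsupp.ext fun v => ?_
    rw [divOf_apply, v.ord_one]
    simp [ofMult]⟩

/-- The polynomial `∏ (1 - τ_Q j)`. -/
def pfun (s : Multiset (Pt p)) : FN p Qbar :=
  (s.map fun Q => 1 - algebraMap Qbar (FN p Qbar) (tau Q) * jL p Qbar).prod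

/-- The product with one more factor. -/
theorem pfun_cons (Q : Pt p) (s : Multiset (Pt p)) :
    pfun (Q ::ₘ s) = (1 - algebraMap Qbar (FN p Qbar) (tau Q) * jL p Qbar) * pfun s := by
  simp [pfun]

/-- The empty product. -/
theorem pfun_zero : pfun (0 : Multiset (Pt p)) = 1 := by simp [pfun]

/-- `pfun` is multiplicative. -/
theorem pfun_add (s t : Multiset (Pt p)) : pfun (s + t) = pfun s * pfun t := by simp [pfun]

/-- `pfun s` is integral over `L[j]`. -/
theorem intJ_pfun (s : Multiset (Pt p)) : IntJ (pfun s) := by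
  induction s using Multiset.induction with
  | empty => rw [pfun_zero]; exact one_mem (Fermat.FF.intClosure Qbar (jL p Qbar))
  | cons Q s ih =>
    rw [pfun_cons]
    exact mul_mem (S := Subalgebra Qbar (FN p Qbar)) (s := Fermat.FF.intClosure Qbar (jL p Qbar))
      (sub_mem (one_mem _) (mul_mem (Subalgebra.algebraMap_mem _ _) (self_mem_intClosure _))) ih

/-- `pfun s` is a polynomial in `j`. -/
theorem exists_pfun_eq_aeval (s : Multiset (Pt p)) :
    ∃ G : Qbar[X], aeval (jL p Qbar) G = pfun s := by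
  induction s using Multiset.induction with
  | empty => exact ⟨1, by rw [pfun_zero, map_one]⟩
  | cons Q s ih =>
    obtain ⟨G, hG⟩ := ih
    exact ⟨(1 - C (tau Q) * X) * G, by rw [pfun_cons, map_mul, hG]; simp⟩

namespace Red

variable (R : Red p)

/-- All points are near `∞`. -/
def NearS (s : Multiset (Pt p)) : Prop := ∀ Q ∈ s, R.Near Q

variable {R} in
/-- Unions of near tuples are near. -/
theorem NearS.add {s t : Multiset (Pt p)} (hs : R.NearS s) (ht : R.NearS t) : R.NearS (s + t) :=
  fun Q hQ => (Multiset.mem_add.mp hQ).elim (hs Q) (ht Q)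

/-- The empty tuple is near. -/
theorem nearS_zero : R.NearS 0 := fun Q hQ => absurd hQ (Multiset.notMem_zero Q)

/-- A near divisor reduces to zero. -/
theorem mapDomain_nearDiv {s : Multiset (Pt p)} (hs : R.NearS s) :
    Finsupp.mapDomain R.r (nearDiv s) = 0 := by
  induction s using Multiset.induction with
  | empty => simp [nearDiv, ofMult]
  | cons Q s ih =>
    rw [← Multiset.singleton_add, nearDiv_add, Finsupp.mapDomain_add,
      ih fun x hx => hs x (Multiset.mem_cons_of_mem hx), add_zero, nearDiv]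
    simp only [ofMult, Multiset.map_singleton, Multiset.sum_singleton, Multiset.card_singleton,
      Nat.cast_one, Finsupp.mapDomain_sub, Finsupp.mapDomain_single]
    rw [show R.r Q = R.inf from hs Q (Multiset.mem_cons_self Q s), R.r_pinf_eq, sub_self]

open Classical in
/-- The factor `1 - τ j` of a point near `∞` reduces to `1`, with a simple pole at `∞` unless the
point is `∞`, and vanishes at the point if it is finite. -/
theorem factor_data {Q : Pt p} (hQ : R.Near Q) :
    let u := 1 - algebraMap Qbar (FN p Qbar) (tau Q) * jL p Qbar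
    R.Int' u ∧ R.redT u = 1 ∧ u ≠ 0 ∧
      (pinf p Qbar).ord u = (if Q = pinf p Qbar then 0 else -1) ∧
      ((OrdGE Q (jL p Qbar) 0) → OrdGE Q u 1) := by
  intro u
  obtain ⟨hA, hres⟩ := R.tau_small hQ
  -- `τ j` is integral and reduces to zero, as `τ` is small
  have hi := R.int_mul (R.int_algebraMap hA) R.int_jL
  have h1 : R.redT u = 1 := by
    rw [R.redT_sub (one_mem _) hi, R.redT_mul (R.int_algebraMap hA) R.int_jL,
      R.redT_algebraMap hA, hres, map_zero, zero_mul, sub_zero, R.redT_one]
  have hu0 : u ≠ 0 := fun h => by rw [h, R.redT_zero] at h1; exact zero_ne_one h1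
  refine ⟨R.int_sub (one_mem _) hi, h1, hu0, ?_, fun hQj => ?_⟩
  -- at `∞` the function is `1`; otherwise its pole is that of `τ j`
  · split_ifs with hc
    · simp only [u, hc, tau_pinf, map_zero, zero_mul, sub_zero]
      exact (pinf p Qbar).ord_one
    · have hQj : OrdGE Q (jL p Qbar) 0 := by
        by_contra hn
        rcases cusp_of_not_ordGE R.finrank_jL hn with e | e
        · exact hc e
        · exact R.not_near_pzero (e ▸ hQ)
      obtain ⟨hx, hτ⟩ := R.tau_eq hQ hQj
      have hτ0 : algebraMap Qbar (FN p Qbar) (tau Q) ≠ 0 :=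
        (_root_.map_ne_zero _).mpr (hτ ▸ inv_ne_zero hx)
      have hne : -(algebraMap Qbar (FN p Qbar) (tau Q) * jL p Qbar) ≠ 0 :=
        neg_ne_zero.mpr (mul_ne_zero hτ0 jL_ne_zero)
      have ho : (pinf p Qbar).ord (-(algebraMap Qbar (FN p Qbar) (tau Q) * jL p Qbar)) = -1 := by
        rw [FF.ord_neg, (pinf p Qbar).ord_mul hτ0 jL_ne_zero, FF.ord_algebraMap, ord_pinf_jL,
          zero_add]
      simp only [u]
      rw [sub_eq_neg_add, (ord_add_of_lt (pinf p Qbar) hne (g := 1) (by
        rw [ho, (pinf p Qbar).ord_one]; norm_num)).1, ho]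
  -- at a finite point it is a multiple of `j - j(Q)`
  · obtain ⟨hx, hτ⟩ := R.tau_eq hQ hQj
    have he : u = -(algebraMap Qbar (FN p Qbar) (tau Q) *
        (jL p Qbar - algebraMap Qbar (FN p Qbar) (evalAt Q (jL p Qbar)))) := by
      simp only [u, mul_sub, ← map_mul, hτ, inv_mul_cancel₀ hx, map_one]
      ring
    rw [he]
    exact (((ordGE_algebraMap Q _).mul (evalAt_spec hQj)).mono (by simp)).neg

/-- The product of the factors of near points reduces to `1`, has the expected order at `∞` and
at least the expected order at finite points. -/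
theorem pfun_data {s : Multiset (Pt p)} (hs : R.NearS s) :
    R.Int' (pfun s) ∧ R.redT (pfun s) = 1 ∧ pfun s ≠ 0 ∧
      (pinf p Qbar).ord (pfun s) = ofMult s (pinf p Qbar) - Multiset.card s ∧
      ∀ v : Pt p, OrdGE v (jL p Qbar) 0 → OrdGE v (pfun s) (ofMult s v) := by
  classical
  induction s using Multiset.induction with
  | empty =>
    refine ⟨by rw [pfun_zero]; exact one_mem _, by rw [pfun_zero]; exact R.redT_one,
      by rw [pfun_zero]; exact one_ne_zero, ?_, fun v _ => ?_⟩
    · rw [pfun_zero, (pinf p Qbar).ord_one]; simp [ofMult]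
    · rw [pfun_zero]; simpa [ofMult] using ordGE_one v
  | cons Q s ih =>
    obtain ⟨i1, i2, i3, i4, i5⟩ := ih fun x hx => hs x (Multiset.mem_cons_of_mem hx)
    obtain ⟨u1, u2, u3, u4, u5⟩ := R.factor_data (hs Q (Multiset.mem_cons_self Q s))
    rw [pfun_cons]
    refine ⟨R.int_mul u1 i1, by rw [R.redT_mul u1 i1, u2, i2, one_mul], mul_ne_zero u3 i3, ?_,
      fun v hv => ?_⟩
    · rw [(pinf p Qbar).ord_mul u3 i3, u4, i4, ofMult_cons, Finsupp.add_apply, Finsupp.single_apply,
        Multiset.card_cons]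
      split_ifs <;> push_cast <;> ring
    · rw [ofMult_cons, Finsupp.add_apply, Finsupp.single_apply]
      split_ifs with h
      · subst h
        exact (u5 hv).mul (i5 Q hv)
      · exact (((ordGE_one v).sub (((ordGE_algebraMap v _).mul hv).mono (by simp))).mul
          (i5 v hv)).mono (by simp)

/-- The quotient of integral functions, the denominator with nonzero reduction, is integral when
it is integral over `L[j]`. -/
theorem int_div {h f : FN p Qbar} (hh : R.Int' h) (hf : R.Int' f) (hf0 : R.redT f ≠ 0)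
    (hq : IntJ (h / f)) : R.Int' (h / f) ∧ R.redT (h / f) = R.redT h / R.redT f := by
  have hfne : f ≠ 0 := fun e => hf0 (by rw [e, R.redT_zero])
  suffices H : R.Int' (h / f) by
    refine ⟨H, eq_div_of_mul_eq hf0 ?_⟩
    rw [← R.redT_mul H hf, div_mul_cancel₀ _ hfne]
  rcases eq_or_ne (h / f) 0 with h0 | h0
  · rw [h0]; exact zero_mem _
  obtain ⟨c, hc, hi, hred⟩ := R.exists_scale hq h0
  by_cases hinv : c⁻¹ ∈ R.A
  · have := R.int_mul (R.int_algebraMap hinv) hi
    rwa [← mul_assoc, ← map_mul, inv_mul_cancel₀ hc, map_one, one_mul] at this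
  exfalso
  have hcA : c ∈ R.A := (R.A.mem_or_inv_mem c).resolve_right hinv
  have e := R.redT_mul hi hf
  rw [mul_assoc, div_mul_cancel₀ _ hfne, R.redT_mul (R.int_algebraMap hcA) hh,
    R.redT_algebraMap hcA, Fermat.RED.Model.map_eq_zero_of_inv_notMem R.res_surjective
      (a := ⟨c, hcA⟩) hinv, map_zero, zero_mul] at e
  exact mul_ne_zero hred hf0 e.symm

/-- Pairing with a form on the reduction. -/
def pair (F : LaurentSeries R.k) (a : ℕ → ℤ) : R.k := (F * aSer R.k a).coeff 0

/-- The pairing is additive in the series. -/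
theorem pair_add (F G : LaurentSeries R.k) (a : ℕ → ℤ) :
    R.pair (F + G) a = R.pair F a + R.pair G a := by
  rw [pair, add_mul, HahnSeries.coeff_add]; rfl

/-- Constants pair to zero with a form. -/
theorem pair_const (c : R.k) {a : ℕ → ℤ} (ha : a 0 = 0) :
    R.pair (algebraMap R.k (LaurentSeries R.k) c) a = 0 := by
  rw [pair, Fermat.RED.coeff_algebraMap_mul, ← Nat.cast_zero, coeff_aSer, ha]
  simp

/-- The polar digit at the scale `π`. -/
def tfun (π : Qbar) (s : Multiset (Pt p)) : FN p Qbar :=
  algebraMap Qbar (FN p Qbar) π⁻¹ *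
    (pfun s - algebraMap Qbar (FN p Qbar) ((pfun s : LaurentSeries Qbar).coeff 0))

/-- A scale: a nonzero element of the maximal ideal. -/
structure IsScale (π : Qbar) : Prop where
  /-- The scale is not zero. -/
  ne_zero : π ≠ 0
  /-- The scale is integral at the place. -/
  mem : π ∈ R.A
  /-- The scale reduces to zero. -/
  small : R.res ⟨π, mem⟩ = 0

/-- A presentation of `z` at the scale `π`. -/
structure IsPres (π : Qbar) (z : Pic0 Qbar (FN p Qbar)) (s : Multiset (Pt p)) : Prop where
  /-- Every point reduces to the cusp `∞`. -/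
  near : R.NearS s
  /-- The class of the points is `z`. -/
  cls_eq : cls s = z
  /-- The digit at the scale `π` has integral expansion at `∞`. -/
  int : R.Int' (tfun π s)

/-- The product is its constant term plus `π` times its digit. -/
theorem pfun_eq_tfun {π : Qbar} (hπ : π ≠ 0) (s : Multiset (Pt p)) :
    pfun s = algebraMap Qbar (FN p Qbar) ((pfun s : LaurentSeries Qbar).coeff 0) +
      algebraMap Qbar (FN p Qbar) π * tfun π s := by
  rw [tfun, ← mul_assoc, ← map_mul, mul_inv_cancel₀ hπ, map_one, one_mul, add_sub_cancel]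

/-- The constant term of a near product reduces to `1`. -/
theorem coeff_zero_pfun {s : Multiset (Pt p)} (hs : R.NearS s) :
    ∃ h : (pfun s : LaurentSeries Qbar).coeff 0 ∈ R.A, R.res ⟨_, h⟩ = 1 := by
  obtain ⟨hi, h1, -⟩ := R.pfun_data hs
  refine ⟨mem_intSeries_iff.mp hi 0, ?_⟩
  rw [← R.red_coeff hi 0, show R.red (pfun s) = 1 from congrArg Subtype.val h1,
    HahnSeries.coeff_one, if_pos rfl]

/-- The pairing of a presentation. -/
def lamS (π : Qbar) (s : Multiset (Pt p)) (a : ℕ → ℤ) : R.k := R.pair (R.red (tfun π s)) a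

/-- The empty presentation of zero. -/
theorem isPres_zero (π : Qbar) : R.IsPres π 0 0 :=
  ⟨R.nearS_zero, cls_zero, by
    rw [show tfun π (0 : Multiset (Pt p)) = 0 by simp [tfun, pfun_zero, HahnSeries.coeff_one]]
    exact zero_mem _⟩

/-- The scaled part of a sum of near tuples, from those of the two. -/
theorem tfun_add {π : Qbar} (hπ : π ≠ 0) (s t : Multiset (Pt p)) :
    ∃ e : Qbar, tfun π (s + t) =
      algebraMap Qbar (FN p Qbar) ((pfun s : LaurentSeries Qbar).coeff 0) * tfun π t +
      algebraMap Qbar (FN p Qbar) ((pfun t : LaurentSeries Qbar).coeff 0) * tfun π s +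
      algebraMap Qbar (FN p Qbar) π * (tfun π s * tfun π t) - algebraMap Qbar (FN p Qbar) e := by
  set a := (pfun s : LaurentSeries Qbar).coeff 0
  set b := (pfun t : LaurentSeries Qbar).coeff 0
  set c := (pfun (s + t) : LaurentSeries Qbar).coeff 0
  refine ⟨(c - a * b) / π, mul_left_cancel₀
    ((_root_.map_ne_zero (algebraMap Qbar (FN p Qbar))).mpr hπ) ?_⟩
  have h : pfun s * pfun t =
      algebraMap Qbar (FN p Qbar) c + algebraMap Qbar (FN p Qbar) π * tfun π (s + t) :=
    (pfun_add s t).symm.trans (pfun_eq_tfun hπ (s + t))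
  have hs' : pfun s = algebraMap Qbar (FN p Qbar) a + algebraMap Qbar (FN p Qbar) π * tfun π s :=
    pfun_eq_tfun hπ s
  have ht' : pfun t = algebraMap Qbar (FN p Qbar) b + algebraMap Qbar (FN p Qbar) π * tfun π t :=
    pfun_eq_tfun hπ t
  simp only [mul_sub, mul_add, ← map_mul, mul_div_cancel₀ _ hπ]
  simp only [map_sub, map_mul]
  linear_combination -h + pfun t * hs' +
    (algebraMap Qbar (FN p Qbar) a + algebraMap Qbar (FN p Qbar) π * tfun π s) * ht'

/-- Presentations add, and the digit is additive. -/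
theorem IsPres.add {π : Qbar} (hπ : R.IsScale π) {z w : Pic0 Qbar (FN p Qbar)}
    {s t : Multiset (Pt p)} (hs : R.IsPres π z s) (ht : R.IsPres π w t) :
    R.IsPres π (z + w) (s + t) ∧
      ∀ a : ℕ → ℤ, a 0 = 0 → R.lamS π (s + t) a = R.lamS π s a + R.lamS π t a := by
  obtain ⟨hsA, hs1⟩ := R.coeff_zero_pfun hs.near
  obtain ⟨htA, ht1⟩ := R.coeff_zero_pfun ht.near
  obtain ⟨e, he⟩ := tfun_add hπ.ne_zero s t
  set X := algebraMap Qbar (FN p Qbar) ((pfun s : LaurentSeries Qbar).coeff 0) * tfun π t +
      algebraMap Qbar (FN p Qbar) ((pfun t : LaurentSeries Qbar).coeff 0) * tfun π s +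
      algebraMap Qbar (FN p Qbar) π * (tfun π s * tfun π t)
  have hX : R.Int' X := R.int_add (R.int_add (R.int_mul (R.int_algebraMap hsA) ht.int)
    (R.int_mul (R.int_algebraMap htA) hs.int))
    (R.int_mul (R.int_algebraMap hπ.mem) (R.int_mul hs.int ht.int))
  have hc : ((tfun π (s + t) : FN p Qbar) : LaurentSeries Qbar).coeff 0 = 0 := by
    change (algebraMap Qbar (LaurentSeries Qbar) π⁻¹ * ((pfun (s + t) : LaurentSeries Qbar) -
      algebraMap Qbar (LaurentSeries Qbar) _)).coeff 0 = 0
    rw [Fermat.RED.coeff_algebraMap_mul, HahnSeries.coeff_sub, algebraMap_laurentSeries_eq_single,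
      HahnSeries.coeff_single_same, sub_self, mul_zero]
  -- the constant is integral, being a constant term
  have heA : e ∈ R.A := by
    have h0 := congrArg (fun f : FN p Qbar => ((f : FN p Qbar) : LaurentSeries Qbar).coeff 0) he
    simp only [hc, AddSubgroupClass.coe_sub, HahnSeries.coeff_sub,
      IntermediateField.coe_algebraMap_apply, algebraMap_laurentSeries_eq_single,
      HahnSeries.coeff_single_same] at h0
    rw [eq_comm, sub_eq_zero] at h0
    rw [← h0]
    exact mem_intSeries_iff.mp hX 0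
  have hres : R.redT (tfun π (s + t)) =
      R.redT (tfun π s) + R.redT (tfun π t) - algebraMap R.k R.T (R.res ⟨e, heA⟩) := by
    rw [he, R.redT_sub hX (R.int_algebraMap heA), R.redT_algebraMap heA,
      R.redT_add (R.int_add (R.int_mul (R.int_algebraMap hsA) ht.int)
        (R.int_mul (R.int_algebraMap htA) hs.int))
        (R.int_mul (R.int_algebraMap hπ.mem) (R.int_mul hs.int ht.int)),
      R.redT_add (R.int_mul (R.int_algebraMap hsA) ht.int)
        (R.int_mul (R.int_algebraMap htA) hs.int),
      R.redT_mul (R.int_algebraMap hsA) ht.int, R.redT_mul (R.int_algebraMap htA) hs.int,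
      R.redT_mul (R.int_algebraMap hπ.mem) (R.int_mul hs.int ht.int), R.redT_algebraMap hsA,
      R.redT_algebraMap htA, R.redT_algebraMap hπ.mem, hs1, ht1, hπ.small]
    simp [add_comm]
  refine ⟨⟨hs.near.add ht.near, by rw [cls_add, hs.cls_eq, ht.cls_eq],
    he ▸ R.int_sub hX (R.int_algebraMap heA)⟩, fun a ha => ?_⟩
  have h2 : R.red (tfun π (s + t)) =
      R.red (tfun π s) + R.red (tfun π t) - algebraMap R.k (LaurentSeries R.k) (R.res ⟨e, heA⟩) :=
    congrArg Subtype.val hres
  rw [lamS, h2, pair, sub_mul, add_mul, HahnSeries.coeff_sub, HahnSeries.coeff_add]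
  rw [show (algebraMap R.k (LaurentSeries R.k) (R.res ⟨e, heA⟩) * aSer R.k a).coeff 0 = 0 from
    R.pair_const _ ha, sub_zero]
  rfl

/-- From polar coefficients of size `π` to a presentation. -/
theorem int_tfun_of_coeff {π : Qbar} {s : Multiset (Pt p)}
    (h : ∀ n : ℤ, n < 0 → (pfun s : LaurentSeries Qbar).coeff n / π ∈ R.A) :
    R.Int' (tfun π s) := by
  obtain ⟨G, hG⟩ := exists_pfun_eq_aeval s
  set c := (pfun s : LaurentSeries Qbar).coeff 0
  have hH : ((tfun π s : FN p Qbar) : LaurentSeries Qbar) =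
      aeval (jqModC Qbar) (C π⁻¹ * (G - C c)) := by
    rw [← coe_aeval_jL (p := p), map_mul, map_sub, hG, aeval_C, aeval_C]
    rfl
  change _ ∈ intSeries R.A
  rw [hH]
  refine aeval_jqModC_mem_intSeries (coeff_mem_of_aeval R.A.toSubring fun n hn => ?_)
  rw [map_mul, aeval_C, Fermat.RED.coeff_algebraMap_mul, map_sub, aeval_C, HahnSeries.coeff_sub,
    ← coe_aeval_jL (p := p), hG, algebraMap_laurentSeries_eq_single]
  rcases lt_or_eq_of_le hn with hlt | rfl
  · rw [HahnSeries.coeff_single_of_ne hlt.ne, sub_zero, inv_mul_eq_div]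
    exact h n hlt
  · rw [HahnSeries.coeff_single_same, sub_self, mul_zero]
    exact zero_mem _

/-- An integral function of order `0` at `∞` reducing to `1` has integral inverse. -/
theorem inv_mem_intSeries_of_red_one {w : FN p Qbar} (hw : R.Int' w) (h1 : R.redT w = 1)
    (ho : (pinf p Qbar).ord w = 0) : (w : LaurentSeries Qbar)⁻¹ ∈ intSeries R.A := by
  refine Fermat.RED.Model.inv_mem_intSeries R.res_surjective hw ?_
  rw [ord_pinf] at ho
  intro h
  have h' : R.res ⟨(w : LaurentSeries Qbar).coeff 0, mem_intSeries_iff.mp hw 0⟩ = 0 :=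
    (congrArg R.res (Subtype.ext (by
      change _ = (w : LaurentSeries Qbar).leadingCoeff
      rw [HahnSeries.leadingCoeff_eq, ho]))).trans h
  rw [← R.red_coeff hw 0, show R.red w = 1 from congrArg Subtype.val h1, HahnSeries.coeff_one,
    if_pos rfl] at h'
  exact one_ne_zero h'

/-- A function with near zeros and a pole only at `∞` is `∏ (1 - τ j)` up to a unit power series. -/
theorem exists_unit {s : Multiset (Pt p)} (hs : R.NearS s) {f : FN p Qbar} (hf : R.Int' f)
    (hf1 : R.redT f = 1) (hdiv : divOf Qbar f = nearDiv s) :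
    ∃ U : intSeries R.A, redHom R.res U = 1 ∧
      (∀ n < (0 : ℤ), (U : LaurentSeries Qbar).coeff n = 0) ∧
      (f : LaurentSeries Qbar) = (pfun s : LaurentSeries Qbar) * U := by
  -- the product vanishes at the points of `s`, so the quotient is integral over `j`
  obtain ⟨i1, i2, i3, i4, i5⟩ := R.pfun_data hs
  have hf0 : f ≠ 0 := fun e => by rw [e, R.redT_zero] at hf1; exact zero_ne_one hf1
  have hq : IntJ (pfun s / f) := intJ_iff.mpr fun v hv => by
    refine ordGE_iff.mpr (.inr ?_)
    have hne : v ≠ pinf p Qbar := fun e => by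
      have := hv.le_ord jL_ne_zero
      rw [e, ord_pinf_jL] at this
      omega
    have h1 := (i5 v hv).le_ord i3
    have h2 := DFunLike.congr_fun hdiv v
    rw [divOf_apply, nearDiv, Finsupp.sub_apply, Finsupp.single_eq_of_ne hne, sub_zero] at h2
    rw [ord_div v i3 hf0]
    omega
  obtain ⟨hwi, hw1⟩ := R.int_div i1 hf (by rw [hf1]; exact one_ne_zero) hq
  rw [i2, hf1, div_one] at hw1
  -- it has order zero at `∞` and reduces to `1`, so its inverse is a unit series
  have hord : (pinf p Qbar).ord (pfun s / f) = 0 := by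
    have h2 := DFunLike.congr_fun hdiv (pinf p Qbar)
    rw [divOf_apply, nearDiv, Finsupp.sub_apply, Finsupp.single_eq_same] at h2
    rw [ord_div _ i3 hf0, i4, h2, sub_self]
  have hinv := R.inv_mem_intSeries_of_red_one hwi hw1 hord
  set U : intSeries R.A := ⟨_, hinv⟩
  have hmul : U * ⟨_, hwi⟩ = 1 := Subtype.ext (inv_mul_cancel₀ (fun e => by
    exact div_ne_zero i3 hf0 (Subtype.ext e)))
  -- this unit is `f / pfun s`
  refine ⟨U, ?_, fun n hn => ?_, ?_⟩
  · have h := congrArg (redHom R.res) hmul
    rw [map_mul, map_one, show redHom R.res ⟨_, hwi⟩ = 1 from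
      (Fermat.RED.Model.redF_of_mem (π := R.res) (ι := (FN p Qbar).val.toRingHom) hwi).symm.trans
        (congrArg Subtype.val hw1), mul_one] at h
    exact h
  · refine HahnSeries.coeff_eq_zero_of_lt_order (hn.trans_le ?_)
    rw [show (U : LaurentSeries Qbar) = ((pfun s / f)⁻¹ : FN p Qbar) from rfl, ← ord_pinf,
      (pinf p Qbar).ord_inv, hord, neg_zero]
  · change _ = _ * (((pfun s / f : FN p Qbar) : LaurentSeries Qbar))⁻¹
    rw [← IntermediateField.coe_inv, ← MulMemClass.coe_mul, inv_div, mul_div_cancel₀ _ i3]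

/-- A near tuple of class zero is the near divisor of a function regular at finite `j` reducing
to `1`. -/
theorem exists_red_one {s : Multiset (Pt p)} (hs : R.NearS s) (hc : cls s = 0) :
    ∃ f : FN p Qbar, R.Int' f ∧ R.redT f = 1 ∧ divOf Qbar f = nearDiv s ∧
      f ∈ reg (p := p) (L := Qbar) := by
  -- a function with divisor `nearDiv s` has poles only at `∞`
  obtain ⟨f, hf0, hdiv⟩ := cls_eq_zero_iff.mp hc
  have hmem : f ∈ riemannRochSpace (Finsupp.single (pinf p Qbar) (Multiset.card s : ℤ)) := by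
    refine mem_riemannRochSpace.mpr fun v => (ordGE_iff_of_ne hf0).mpr ?_
    have h2 := DFunLike.congr_fun hdiv v
    have h3 := Finsupp.le_def.mp (ofMult_nonneg s) v
    rw [divOf_apply, nearDiv, Finsupp.sub_apply] at h2
    rw [Finsupp.zero_apply] at h3
    omega
  -- scale it to be integral with nonzero reduction
  obtain ⟨c, hc0, hi, hred⟩ := R.exists_scale (intJ_of_mem le_rfl hmem) hf0
  set g := algebraMap Qbar (FN p Qbar) c * f
  have hgdiv : divOf Qbar g = nearDiv s := by
    rw [← hdiv, divOf_mul ((_root_.map_ne_zero _).mpr hc0) hf0]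
    refine add_eq_right.mpr (Finsupp.ext fun v => ?_)
    rw [divOf_apply, FF.ord_algebraMap]
    rfl
  -- the reduction has divisor zero, so is a constant, which is rescaled to `1`
  have hconst := R.mapDomain_divOf hi hred
  rw [hgdiv, R.mapDomain_nearDiv hs] at hconst
  obtain ⟨c', hc'⟩ := mem_range_of_forall_ordGE (K := R.k) (f := R.redT g) fun v => by
    refine ordGE_iff.mpr (.inr ?_)
    have := DFunLike.congr_fun hconst v
    rw [divOf_apply, Finsupp.zero_apply] at this
    omega
  have hc'0 : c' ≠ 0 := fun e => hred (by rw [← hc', e, map_zero])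
  obtain ⟨⟨b, hb⟩, hbe⟩ := R.res_surjective c'⁻¹
  have hb0 : b ≠ 0 := fun e => inv_ne_zero hc'0 (by
    rw [← hbe]; exact (congrArg R.res (Subtype.ext e : _ = (0 : R.A))).trans (map_zero _))
  refine ⟨algebraMap Qbar (FN p Qbar) b * g, R.int_mul (R.int_algebraMap hb) hi, ?_, ?_, ?_⟩
  · rw [R.redT_mul (R.int_algebraMap hb) hi, R.redT_algebraMap hb, hbe, ← hc', ← map_mul,
      inv_mul_cancel₀ hc'0, map_one]
  · rw [← hgdiv, divOf_mul ((_root_.map_ne_zero _).mpr hb0)
      (mul_ne_zero ((_root_.map_ne_zero _).mpr hc0) hf0)]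
    refine add_eq_right.mpr (Finsupp.ext fun v => ?_)
    rw [divOf_apply, FF.ord_algebraMap]
    rfl
  · have := mem_reg_of_mem le_rfl hmem
    exact mul_mem (Subalgebra.algebraMap_mem _ b) (mul_mem (Subalgebra.algebraMap_mem _ c) this)

/-- Principal presentations pair to zero. -/
theorem lamS_eq_zero_of_cls {π : Qbar} (hπ : π ≠ 0) {s : Multiset (Pt p)}
    (hs : R.IsPres π 0 s) {a : ℕ → ℤ} (ha : IsIntForm p a) : R.lamS π s a = 0 := by
  -- `f = pfun s` times a unit series is killed by the residue relation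
  obtain ⟨f, hfi, hf1, hdiv, hreg⟩ := R.exists_red_one hs.near hs.cls_eq
  obtain ⟨U, hU1, hUneg, hf⟩ := R.exists_unit hs.near hfi hf1 hdiv
  obtain ⟨hA, hAred⟩ := R.redHom_aSer a
  have h0 := residue_int hreg ha
  set c := (pfun s : LaurentSeries Qbar).coeff 0
  have hUa : ((U : LaurentSeries Qbar) * aSer Qbar a).coeff 0 = 0 := by
    rw [coeff_zero_mul_aSer (m := 0) (by simpa using hUneg) ha.zero_coeff]
    simp
  have hP : ((pfun s : FN p Qbar) : LaurentSeries Qbar) = algebraMap Qbar (LaurentSeries Qbar) c +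
      algebraMap Qbar (LaurentSeries Qbar) π * (tfun π s : LaurentSeries Qbar) := by
    conv_lhs => rw [pfun_eq_tfun hπ s]
    rfl
  rw [hf, hP, add_mul, add_mul, HahnSeries.coeff_add, mul_assoc, Fermat.RED.coeff_algebraMap_mul,
    hUa, mul_zero, zero_add, mul_assoc, mul_assoc, Fermat.RED.coeff_algebraMap_mul] at h0
  have h1 : redHom R.res (⟨_, hs.int⟩ * U * ⟨_, hA⟩) =
      R.red (tfun π s) * 1 * aSer R.k a := by
    rw [map_mul, map_mul, hU1, hAred, red, Fermat.RED.Model.redF_of_mem hs.int]
    rfl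
  rw [mul_one] at h1
  rw [lamS, pair, ← h1, Fermat.RED.Model.redHom_coeff, ← map_zero R.res]
  refine congrArg R.res (Subtype.ext ?_)
  change ((tfun π s : LaurentSeries Qbar) * U * aSer Qbar a).coeff 0 = 0
  rw [mul_assoc]
  exact (mul_eq_zero.mp h0).resolve_left hπ

end Red

end Fermat.HT.Cusp

end
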