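import Fermat.Agent.RED.Branch

/-!
# The size of the roots of the modular polynomial

If `Φ_ℓ(x, y) = 0` and `x` is not integral for a valuation, then `v y = v x ^ ℓ` or
`v y ^ ℓ = v x`.
-/

set_option autoImplicit false

attribute [local instance 10000] SubalgebraClass.toAlgebra HahnSeries.powerSeriesAlgebra

noncomputable section

open Polynomial ModularCurve
open Fermat.RED (jb evalAt levelOne ordNorm)

namespace Fermat.HT.Cusp

variable (l : ℕ) [hl : Fact l.Prime]

/-- The coefficients of `Φ_ℓ(X, Y)` as a polynomial in `Y`. -/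
def modC (i : ℕ) : ℤ[X] := (levelOne l).Φ.coeff i

/-- Evaluating at `j(q^l)` is `q ↦ q^l` of evaluating at `j`. -/
theorem evalAt_jb_eq (g : ℤ[X]) :
    evalAt ℂ (jb ℂ 1 l) g = qExpand ℂ l (aeval (jqModC ℂ) (g.map (Int.castRingHom ℂ))) := by
  have : (evalAt ℂ (jb ℂ 1 l)) = (qExpand ℂ l).comp
      ((aeval (jqModC ℂ)).toRingHom.comp (mapRingHom (Int.castRingHom ℂ))) := by
    refine Polynomial.ringHom_ext' (RingHom.ext_int _ _) ?_
    simp [evalAt, Fermat.RED.jb_one]
  rw [this]; rfl

/-- For `g` of degree at most `m` the coefficient of `q^(-l m)` in `g(j(q^l))` is `g.coeff m`. -/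
theorem coeff_evalAt_jb {g : ℤ[X]} {m : ℕ} (hg : g.natDegree ≤ m) :
    (evalAt ℂ (jb ℂ 1 l) g).coeff ((l : ℤ) * -(m : ℤ)) = g.coeff m := by
  rw [evalAt_jb_eq, qExpand_coeff_mul]
  have hd : (g.map (Int.castRingHom ℂ)).natDegree = g.natDegree :=
    natDegree_map_eq_of_injective (Int.castRingHom ℂ).injective_int _
  rcases hg.eq_or_lt with h | h
  · rw [← h, ← hd, Fermat.RED.coeff_aeval_jqModC, Polynomial.leadingCoeff, hd, coeff_map]
    rfl
  · rw [Fermat.RED.coeff_aeval_jqModC_of_lt (by rw [hd]; omega), coeff_eq_zero_of_natDegree_lt h,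
      Int.cast_zero]

/-- A bound on the pole order of `g(j(q^l))` bounds the degree of `g`. -/
theorem natDegree_le_of_orderTop {g : ℤ[X]} {m r : ℕ} (hr : r < l)
    (h : ((-((l * m + r : ℕ) : ℤ) : ℤ) : WithTop ℤ) ≤ (evalAt ℂ (jb ℂ 1 l) g).orderTop) :
    g.natDegree ≤ m := by
  by_contra hlt
  have h1 := (coeff_evalAt_jb l (le_refl g.natDegree))
  rw [HahnSeries.coeff_eq_zero_of_lt_orderTop (lt_of_lt_of_le (WithTop.coe_lt_coe.mpr ?_) h),
    eq_comm, Int.cast_eq_zero, ← leadingCoeff, leadingCoeff_eq_zero] at h1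
  · exact hlt (by rw [h1, natDegree_zero]; exact Nat.zero_le m)
  · have h2 : l * (m + 1) ≤ l * g.natDegree := Nat.mul_le_mul_left l (by omega)
    rw [mul_add, mul_one] at h2
    push_cast
    have : ((l * m : ℕ) : ℤ) + l ≤ ((l * g.natDegree : ℕ) : ℤ) := by exact_mod_cast h2
    push_cast at this
    linarith [(by exact_mod_cast hr : (r : ℤ) < l)]

/-- Lower bounds on the orders add under products. -/
theorem le_orderTop_mul {f g : LaurentSeries ℂ} {a b : ℤ} (hf : (a : WithTop ℤ) ≤ f.orderTop)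
    (hg : (b : WithTop ℤ) ≤ g.orderTop) : ((a + b : ℤ) : WithTop ℤ) ≤ (f * g).orderTop := by
  rw [HahnSeries.orderTop_mul, WithTop.coe_add]
  exact add_le_add hf hg

/-- A lower bound on the orders passes to differences. -/
theorem le_orderTop_sub {f g : LaurentSeries ℂ} {a : WithTop ℤ} (hf : a ≤ f.orderTop)
    (hg : a ≤ g.orderTop) : a ≤ (f - g).orderTop := by
  rw [sub_eq_add_neg]
  exact (le_min hf (by rwa [HahnSeries.orderTop_neg])).trans HahnSeries.min_orderTop_le_orderTop_add

/-- `j(c q^e)` has pole order at most `e`. -/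
theorem le_orderTop_jb (c : ℂˣ) (e : ℕ) [NeZero e] :
    ((-(e : ℤ) : ℤ) : WithTop ℤ) ≤ (jb ℂ c e).orderTop :=
  HahnSeries.le_orderTop_iff_forall.mpr fun _ hn =>
    Fermat.RED.coeff_jb_of_lt c e (WithTop.coe_lt_coe.mp hn)

/-- Coefficients of a product of linear factors with at most simple poles have bounded pole
order. -/
theorem le_orderTop_coeff_prod {ι : Type*} (s : Finset ι) (y : ι → LaurentSeries ℂ)
    (hy : ∀ b, ((-1 : ℤ) : WithTop ℤ) ≤ (y b).orderTop) (i : ℕ) :
    (((i : ℤ) - s.card : ℤ) : WithTop ℤ) ≤ ((∏ b ∈ s, (X - C (y b))).coeff i).orderTop := by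
  classical
  induction s using Finset.induction generalizing i with
  | empty =>
    rw [Finset.prod_empty, coeff_one]
    split_ifs with h
    · subst h; simp
    · simp
  | insert a s ha ih =>
    rw [Finset.prod_insert ha, Finset.card_insert_of_notMem ha,
      show ∀ P : (LaurentSeries ℂ)[X], (X - C (y a)) * P = X * P - C (y a) * P from
        fun P => sub_mul X (C (y a)) P, coeff_sub, coeff_C_mul]
    refine le_orderTop_sub ?_ ?_
    · rcases i with _ | i
      · rw [coeff_X_mul_zero, HahnSeries.orderTop_zero]; exact le_top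
      · rw [coeff_X_mul]
        refine le_trans (WithTop.coe_le_coe.mpr ?_) (ih i)
        push_cast; omega
    · refine le_trans (WithTop.coe_le_coe.mpr ?_) (le_orderTop_mul (hy a) (ih i))
      push_cast; omega

/-- The constant coefficient has degree `l + 1` and unit leading coefficient. -/
theorem modC_zero_spec :
    (modC l 0).natDegree = l + 1 ∧ IsUnit (modC l 0).leadingCoeff := by
  obtain ⟨ζ, hζ, hid⟩ := (levelOne l).identities
  have : NeZero (l * l) := ⟨Nat.mul_ne_zero (NeZero.ne l) (NeZero.ne l)⟩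
  set y : Fin l → LaurentSeries ℂ := fun b => jb ℂ (ζ ^ (b : ℕ)) 1 with hy
  set Q : (LaurentSeries ℂ)[X] := ∏ b, (X - C (y b)) with hQ
  -- at `j(lτ)` the constant coefficient is the product of the negated roots
  have hP : evalAt ℂ (jb ℂ 1 l) (modC l 0) = ((X - C (jb ℂ 1 (l * l))) * Q).coeff 0 := by
    rw [modC, ← coeff_map, hid.eq_modular, Fintype.prod_option]
    rfl
  have hnorm : ‖((ζ : ℂˣ) : ℂ)‖ = 1 :=
    Complex.norm_eq_one_of_pow_eq_one
      (by rw [← Units.val_pow_eq_pow_val, hζ.pow_eq_one]; rfl) (NeZero.ne l)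
  -- each root has a leading coefficient of absolute value one
  have hON : ∀ (c : ℂˣ) (e : ℕ) [NeZero e], ‖(c : ℂ)‖ = 1 →
      -jb ℂ c e ≠ 0 ∧ ordNorm (-jb ℂ c e) = (-(e : ℤ), 1) := by
    intro c e _ hc
    refine ⟨neg_ne_zero.mpr (Fermat.RED.jb_ne_zero c e), ?_⟩
    simp only [ordNorm, HahnSeries.leadingCoeff_eq, HahnSeries.order_neg, HahnSeries.coeff_neg,
      Fermat.RED.order_jb, norm_neg, Fermat.RED.coeff_jb_neg, Units.val_inv_eq_inv_val, norm_inv,
      hc, inv_one]
  have hprod : ∀ s : Finset (Fin l), (∏ b ∈ s, -y b) ≠ 0 ∧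
      ordNorm (∏ b ∈ s, -y b) = (-(s.card : ℤ), 1) := by
    intro s
    classical
    induction s using Finset.induction with
    | empty => exact ⟨by simp, by simp [ordNorm, HahnSeries.leadingCoeff_one]⟩
    | insert a s ha ih =>
      have hn : ‖((ζ ^ (a : ℕ) : ℂˣ) : ℂ)‖ = 1 := by
        rw [Units.val_pow_eq_pow_val, norm_pow, hnorm, one_pow]
      obtain ⟨e1, e2⟩ := hON _ 1 hn
      rw [Finset.prod_insert ha]
      refine ⟨mul_ne_zero e1 ih.1, ?_⟩
      rw [Fermat.RED.ordNorm_mul e1 ih.1, e2, ih.2, Finset.card_insert_of_notMem ha]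
      simp
  obtain ⟨e1, e2⟩ := hON 1 (l * l) (by simp)
  obtain ⟨p1, p2⟩ := hprod Finset.univ
  set g := modC l 0
  have hval : evalAt ℂ (jb ℂ 1 l) g = -jb ℂ 1 (l * l) * ∏ b, -y b := by
    rw [hP, mul_coeff_zero, coeff_sub, coeff_X_zero, coeff_C_zero, zero_sub, hQ,
      coeff_zero_prod]
    simp
  have hne : evalAt ℂ (jb ℂ 1 l) g ≠ 0 := by rw [hval]; exact mul_ne_zero e1 p1
  have hg : g ≠ 0 := fun h => hne (by rw [h, map_zero])
  -- so the value has order `-l (l + 1)` and a leading coefficient of absolute value one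
  have hon : ordNorm (evalAt ℂ (jb ℂ 1 l) g) = (-((l * (l + 1) : ℕ) : ℤ), 1) := by
    rw [hval, Fermat.RED.ordNorm_mul e1 p1, e2, p2, Finset.card_univ, Fintype.card_fin, one_mul]
    refine Prod.ext ?_ rfl
    push_cast
    ring
  -- the value of `g` has order `-l deg g` with the leading coefficient of `g`
  have hlead := coeff_evalAt_jb l (le_refl g.natDegree)
  have hlc : g.coeff g.natDegree ≠ 0 := leadingCoeff_ne_zero.mpr hg
  obtain ⟨ho, hl'⟩ := Fermat.RED.order_lead_of_coeff (f := evalAt ℂ (jb ℂ 1 l) g)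
    (a := (l : ℤ) * -(g.natDegree : ℤ)) (by rw [hlead]; exact_mod_cast hlc) (fun n hn => by
      rw [evalAt_jb_eq]
      by_cases hd : (l : ℤ) ∣ n
      · obtain ⟨t, rfl⟩ := hd
        rw [qExpand_coeff_mul]
        refine Fermat.RED.coeff_aeval_jqModC_of_lt ?_
        rw [natDegree_map_eq_of_injective (Int.castRingHom ℂ).injective_int]
        exact lt_of_mul_lt_mul_left hn (by positivity)
      · exact qExpand_coeff_of_not_dvd l _ hd)
  rw [ordNorm, Prod.mk.injEq, ho, hl', hlead, Complex.norm_intCast] at hon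
  refine ⟨?_, ?_⟩
  · have h1 : (l : ℤ) * g.natDegree = (l : ℤ) * ((l + 1 : ℕ) : ℤ) := by
      have := hon.1; push_cast at this ⊢; linarith
    exact_mod_cast mul_left_cancel₀ (Nat.cast_ne_zero.mpr (NeZero.ne l)) h1
  · rw [Int.isUnit_iff_abs_eq, leadingCoeff]
    exact_mod_cast hon.2

/-- The shape of the coefficients. -/
theorem modC_spec :
    (∀ i, 1 ≤ i → i ≤ l → (modC l i).natDegree ≤ l) ∧
      ((modC l l).natDegree = l ∧ (modC l l).leadingCoeff = -1) ∧
      ((modC l 0).natDegree = l + 1 ∧ IsUnit (modC l 0).leadingCoeff) := by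
  obtain ⟨ζ, hζ, hid⟩ := (levelOne l).identities
  have h2 := hl.out.two_le
  have : NeZero (l * l) := ⟨Nat.mul_ne_zero (NeZero.ne l) (NeZero.ne l)⟩
  set y : Fin l → LaurentSeries ℂ := fun b => jb ℂ (ζ ^ (b : ℕ)) 1 with hy
  set Q : (LaurentSeries ℂ)[X] := ∏ b, (X - C (y b)) with hQ
  have hP : ∀ i, evalAt ℂ (jb ℂ 1 l) (modC l i) = ((X - C (jb ℂ 1 (l * l))) * Q).coeff i := by
    intro i
    rw [modC, ← coeff_map, hid.eq_modular, Fintype.prod_option]
    rfl
  -- the `i`-th coefficient of the product over the other roots has order at least `i - l`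
  have hQb : ∀ i : ℕ, (((i : ℤ) - l : ℤ) : WithTop ℤ) ≤ (Q.coeff i).orderTop := fun i => by
    have := le_orderTop_coeff_prod (Finset.univ : Finset (Fin l)) y
      (fun b => le_orderTop_jb _ 1) i
    rwa [Finset.card_univ, Fintype.card_fin] at this
  -- so the value of `modC l i` at `j(lτ)` has order at least `-l² - l + i`
  have hdeg : ∀ i, 1 ≤ i → i ≤ l → (modC l i).natDegree ≤ l := by
    intro i h1 hil
    obtain ⟨i, rfl⟩ := Nat.exists_eq_add_of_le' h1
    refine natDegree_le_of_orderTop l (r := l - (i + 1)) (by omega) ?_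
    rw [hP, sub_mul, coeff_sub, coeff_X_mul, coeff_C_mul]
    refine le_orderTop_sub (le_trans (WithTop.coe_le_coe.mpr ?_) (hQb i))
      (le_trans (WithTop.coe_le_coe.mpr ?_) (le_orderTop_mul (le_orderTop_jb 1 (l * l))
        (hQb (i + 1))))
    · have : (4 : ℤ) ≤ (l : ℤ) * l := by nlinarith [(by exact_mod_cast h2 : (2 : ℤ) ≤ l)]
      push_cast [Nat.cast_sub hil]
      linarith
    · push_cast [Nat.cast_sub hil]
      linarith
  have hmon : Q.coeff l = 1 := by
    have hm : Q.Monic := monic_prod_of_monic _ _ fun b _ => monic_X_sub_C _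
    have hd : Q.natDegree = l := by
      rw [hQ, natDegree_prod_of_monic _ _ fun b _ => monic_X_sub_C _]; simp
    have := hm.coeff_natDegree
    rwa [hd] at this
  -- the top coefficient comes from `-j(l²τ)` alone
  have htop : (modC l l).coeff l = -1 := by
    have h := coeff_evalAt_jb l (hdeg l (by omega) le_rfl)
    rw [hP, sub_mul, coeff_sub, coeff_C_mul, hmon, mul_one, HahnSeries.coeff_sub,
      show (l : ℤ) * -(l : ℤ) = -((l * l : ℕ) : ℤ) by push_cast; ring, Fermat.RED.coeff_jb_neg]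
      at h
    have hz : ((X * Q).coeff l).coeff (-((l * l : ℕ) : ℤ)) = 0 := by
      obtain ⟨m, hm⟩ := Nat.exists_eq_add_of_le' (show 1 ≤ l by omega)
      rw [show (X * Q : (LaurentSeries ℂ)[X]).coeff l = Q.coeff m by rw [hm, coeff_X_mul]]
      refine HahnSeries.coeff_eq_zero_of_lt_orderTop
        (lt_of_lt_of_le (WithTop.coe_lt_coe.mpr ?_) (hQb m))
      have h3 : 4 ≤ l * l := Nat.mul_le_mul h2 h2
      omega
    rw [hz, inv_one, Units.val_one, zero_sub] at h
    exact_mod_cast h.symm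
  refine ⟨hdeg, ⟨?_, ?_⟩, ?_⟩
  · exact le_antisymm (hdeg l (by omega) le_rfl) (le_natDegree_of_ne_zero (by rw [htop]; norm_num))
  · rw [leadingCoeff, le_antisymm (hdeg l (by omega) le_rfl)
      (le_natDegree_of_ne_zero (by rw [htop]; norm_num)), htop]
  exact modC_zero_spec l

section Valuation

variable {K : Type*} [Field K] {Γ : Type*} [LinearOrderedCommGroupWithZero Γ] (v : Valuation K Γ)

/-- Integers have valuation at most `1`. -/
theorem val_intCast_le (hle : ∀ n : ℕ, v (n : K) ≤ 1) (n : ℤ) : v (n : K) ≤ 1 := by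
  rcases Int.eq_nat_or_neg n with ⟨m, rfl | rfl⟩
  · exact_mod_cast hle m
  · push_cast; rw [Valuation.map_neg]; exact hle m

/-- The size of a polynomial at `x` with `1 ≤ v x`. -/
theorem val_eval_le {x : K} (hle : ∀ n : ℕ, v (n : K) ≤ 1) (hx : 1 ≤ v x) {g : ℤ[X]} {m : ℕ}
    (hg : g.natDegree ≤ m) : v (eval₂ (Int.castRingHom K) x g) ≤ v x ^ m := by
  rw [eval₂_eq_sum_range' (Int.castRingHom K) (Nat.lt_succ_of_le hg)]
  refine v.map_sum_le fun i hi => ?_
  rw [map_mul, map_pow]
  refine (mul_le_of_le_one_left' (val_intCast_le v hle _)).trans ?_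
  exact pow_le_pow_right₀ hx (by have := Finset.mem_range.mp hi; omega)

/-- A polynomial with unit leading coefficient has the size of `x ^ m` at a non-integral `x`. -/
theorem val_eval_eq {x : K} (hle : ∀ n : ℕ, v (n : K) ≤ 1) (hx : 1 < v x) {g : ℤ[X]} {m : ℕ}
    (hg : g.natDegree = m) (hu : IsUnit g.leadingCoeff) :
    v (eval₂ (Int.castRingHom K) x g) = v x ^ m := by
  classical
  have hv : v ((g.coeff m : ℤ) : K) = 1 := by
    rw [← hg, ← leadingCoeff]
    rcases Int.isUnit_iff.mp hu with h | h <;> simp [h]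
  have htop : v (Int.castRingHom K (g.coeff m) * x ^ m) = v x ^ m := by
    rw [map_mul, map_pow, eq_intCast, hv, one_mul]
  rw [eval₂_eq_sum_range' (Int.castRingHom K) (Nat.lt_succ_of_le hg.le),
    v.map_sum_eq_of_lt (j := m) (by simp) fun i hi => ?_, htop]
  rw [htop, map_mul, map_pow]
  refine (mul_le_of_le_one_left' (val_intCast_le v hle _)).trans_lt ?_
  refine pow_lt_pow_right₀ hx ?_
  simp only [Finset.mem_sdiff, Finset.mem_range, Finset.mem_singleton] at hi
  omega

/-- The two possible sizes of a root. -/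
theorem val_cases {x y : K} (hle : ∀ n : ℕ, v (n : K) ≤ 1) (hx : 1 < v x)
    (h : ((levelOne l).Φ.map (eval₂RingHom (Int.castRingHom K) x)).eval y = 0) :
    1 < v y ∧ (v y = v x ^ l ∨ v y ^ l = v x) := by
  classical
  obtain ⟨hd, ⟨hdl, hll⟩, hd0, hl0⟩ := modC_spec l
  set f : ℕ → K := fun i => eval₂ (Int.castRingHom K) x (modC l i) * y ^ i
  have hsum : ∑ i ∈ Finset.range (l + 2), f i = 0 := by
    rw [← h, eval_map, eval₂_eq_sum_range' _ (n := l + 2) (by rw [(levelOne l).natDegree_Φ]; omega)]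
    rfl
  have hX : v x ≠ 0 := (zero_lt_one.trans hx).ne'
  have h0 : v (f 0) = v x ^ (l + 1) := by
    simp only [f, pow_zero, mul_one]
    exact val_eval_eq v hle hx hd0 hl0
  have hmid : ∀ i, 1 ≤ i → i ≤ l → v (f i) ≤ v x ^ l * v y ^ i := fun i h1 h2 => by
    simp only [f, map_mul, map_pow]
    exact mul_le_mul_left (val_eval_le v hle hx.le (hd i h1 h2)) _
  have hfl : v (f l) = v x ^ l * v y ^ l := by
    simp only [f, map_mul, map_pow]
    rw [val_eval_eq v hle hx hdl (by rw [hll]; exact isUnit_one.neg)]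
  have htop : v (f (l + 1)) = v y ^ (l + 1) := by
    have : modC l (l + 1) = 1 := by
      rw [modC, ← (levelOne l).natDegree_Φ]; exact (levelOne l).monic_Φ.coeff_natDegree
    simp only [f, this, eval₂_one, one_mul, map_pow]
  -- no term is strictly dominant
  have hdom : ∀ j, j ≤ l + 1 → 0 < v (f j) → ∃ i, i ≤ l + 1 ∧ i ≠ j ∧ v (f j) ≤ v (f i) := by
    intro j hj hpos
    by_contra hno
    push Not at hno
    have := v.map_sum_eq_of_lt (s := Finset.range (l + 2)) (f := f) (j := j)
      (Finset.mem_range.mpr (by omega)) fun i hi => by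
        simp only [Finset.mem_sdiff, Finset.mem_range, Finset.mem_singleton] at hi
        exact hno i (by omega) hi.2
    rw [hsum, map_zero] at this
    exact hpos.ne this
  have h2 := hl.out.two_le
  have hXl : 1 < v x ^ l := one_lt_pow₀ hx (by omega)
  -- otherwise the constant term dominates
  have hy : 1 < v y := by
    by_contra hle'
    push Not at hle'
    obtain ⟨i, hi, hne, hge⟩ := hdom 0 (Nat.zero_le _)
      (by rw [h0]; exact pow_pos (zero_lt_iff.mpr hX) _)
    rw [h0] at hge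
    have hlt : v x ^ l < v x ^ (l + 1) := pow_lt_pow_right₀ hx (Nat.lt_succ_self l)
    rcases (Nat.lt_or_eq_of_le hi) with h' | rfl
    · exact not_lt_of_ge hge (((hmid i (by omega) (by omega)).trans
        (mul_le_of_le_one_right' (pow_le_one₀ zero_le hle'))).trans_lt hlt)
    · rw [htop] at hge
      exact not_lt_of_ge hge ((pow_le_one₀ zero_le hle').trans_lt (hXl.trans hlt))
  refine ⟨hy, ?_⟩
  by_contra hno
  push Not at hno
  have hY0 : 0 < v y := zero_lt_one.trans hy
  have hX0 : 0 < v x := zero_lt_iff.mpr hX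
  have hYl : v y ≤ v y ^ l := le_self_pow₀ hy.le (by omega)
  rcases lt_or_gt_of_ne hno.2 with hA | hA
  · -- the constant term dominates
    obtain ⟨i, hi, hne, hge⟩ := hdom 0 (Nat.zero_le _) (by rw [h0]; exact pow_pos hX0 _)
    rw [h0] at hge
    rcases (Nat.lt_or_eq_of_le hi) with h' | rfl
    · refine not_lt_of_ge hge ((hmid i (by omega) (by omega)).trans_lt ?_)
      rw [pow_succ]
      exact mul_lt_mul_of_pos_left ((pow_le_pow_right₀ hy.le (by omega)).trans_lt hA)
        (pow_pos hX0 l)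
    · rw [htop, pow_succ, pow_succ] at hge
      exact not_lt_of_ge hge (mul_lt_mul'' (hA.trans_le (le_self_pow₀ hx.le (by omega)))
        (hYl.trans_lt hA) zero_le zero_le)
  rcases lt_or_gt_of_ne hno.1 with hB | hB
  · -- the `l`-th term dominates
    obtain ⟨i, hi, hne, hge⟩ := hdom l (by omega) (by
      rw [hfl]; exact mul_pos (pow_pos hX0 _) (pow_pos hY0 _))
    rw [hfl] at hge
    rcases Nat.eq_zero_or_pos i with rfl | hi1
    · rw [h0, pow_succ] at hge
      exact not_lt_of_ge hge (mul_lt_mul_of_pos_left hA (pow_pos hX0 l))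
    rcases (Nat.lt_or_eq_of_le hi) with h' | rfl
    · exact not_lt_of_ge hge ((hmid i hi1 (by omega)).trans_lt
        (mul_lt_mul_of_pos_left (pow_lt_pow_right₀ hy (by omega)) (pow_pos hX0 l)))
    · rw [htop, pow_succ'] at hge
      exact not_lt_of_ge hge (mul_lt_mul_of_pos_right hB (pow_pos hY0 l))
  · -- the leading term dominates
    obtain ⟨i, hi, hne, hge⟩ := hdom (l + 1) le_rfl (by rw [htop]; exact pow_pos hY0 _)
    rw [htop] at hge
    rcases Nat.eq_zero_or_pos i with rfl | hi1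
    · rw [h0, pow_succ, pow_succ] at hge
      refine not_lt_of_ge hge (mul_lt_mul'' (hB.trans_le hYl)
        ((le_self_pow₀ hx.le (by omega)).trans_lt hB) zero_le zero_le)
    · refine not_lt_of_ge hge ((hmid i hi1 (by omega)).trans_lt ?_)
      rw [pow_succ']
      exact (mul_le_mul_right (pow_le_pow_right₀ hy.le (by omega)) _).trans_lt
        (mul_lt_mul_of_pos_right hB (pow_pos hY0 l))

/-- The combinatorics of a square of two modular relations. -/
theorem val_square {a b c d : Γ} {q m : ℕ} (hq : q.Prime) (hm : m.Prime) (hqm : q ≠ m)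
    (ha : 1 < a) (hb : b = a ^ q) (hc : c = a ^ m ∨ c ^ m = a) (hd : d = b ^ m ∨ d ^ m = b)
    (hcd : d = c ^ q ∨ d ^ q = c) : d = c ^ q := by
  refine hcd.resolve_right fun h => ?_
  subst hb
  have hinj : Function.Injective (a ^ · : ℕ → Γ) := (pow_right_strictMono₀ ha).injective
  have hq2 := hq.two_le
  have hm2 := hm.two_le
  rcases hc with rfl | hc <;> rcases hd with rfl | hd
  · rw [← pow_mul, ← pow_mul] at h
    have h' : q * (m * q) = m := hinj h
    nlinarith [Nat.mul_le_mul_left m (Nat.mul_le_mul hq2 hq2)]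
  · have h1 : (d ^ q) ^ m = (d ^ m) ^ q := by rw [← pow_mul, ← pow_mul, mul_comm]
    rw [h, hd, ← pow_mul, ← pow_mul] at h1
    exact hqm (Nat.mul_self_inj.mp (hinj h1)).symm
  · rw [← h, ← pow_mul, ← pow_mul, ← pow_mul] at hc
    have h' : q * (m * (q * m)) = 1 := hinj (hc.trans (pow_one a).symm)
    have := Nat.le_of_dvd one_pos ⟨_, h'.symm⟩
    omega
  · have h1 : (d ^ m) ^ q = (d ^ q) ^ m := by rw [← pow_mul, ← pow_mul, mul_comm]
    rw [h, hd, hc, ← pow_mul] at h1
    have := hinj (h1.trans (pow_one a).symm)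
    nlinarith

end Valuation

end Fermat.HT.Cusp

end
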