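import Fermat.Agent.HT.Cusp.NormalForm
import Fermat.Agent.HT.Cusp.ValRel
import Fermat.Agent.JAC.PicMaps

/-!
# Representatives and nearness through modular correspondences

Nearness to `∞` is read off from the composite valuation of a place, so it passes through the
correspondences of degree prime to the level; a function reducing to `1` represents at each scale
the class of the near part of its divisor.
-/

set_option autoImplicit false

attribute [local instance 10000] SubalgebraClass.toAlgebra HahnSeries.powerSeriesAlgebra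

noncomputable section

open ModularCurve Polynomial AlgebraicCurve
open Fermat.RED.Model (intSeries mem_intSeries_iff redHom)

namespace Fermat.HT.Cusp

open Fermat.FF Fermat.MC Fermat.JAC Fermat.JAC.X0
open Fermat.RED (jb levelOne)

section Composite

variable {K F : Type*} [Field K] [IsAlgClosed K] [Field F] [Algebra K F] [IsFunctionField K F]

/-- The composite of a place with a valuation of the constants. -/
def placeVal (A : ValuationSubring K) (w : Place K F) : ValuationSubring F where
  carrier := {f | OrdGE w f 0 ∧ evalAt w f ∈ A}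
  mul_mem' := fun {f g} hf hg =>
    ⟨(hf.1.mul hg.1).mono (by simp), by rw [evalAt_mul hf.1 hg.1]; exact mul_mem hf.2 hg.2⟩
  one_mem' := ⟨ordGE_one w, by rw [evalAt_one]; exact one_mem A⟩
  add_mem' := fun {f g} hf hg =>
    ⟨hf.1.add hg.1, by rw [evalAt_add hf.1 hg.1]; exact add_mem hf.2 hg.2⟩
  zero_mem' := ⟨ordGE_zero w 0, by
    rw [← map_zero (algebraMap K F), evalAt_algebraMap]; exact zero_mem A⟩
  neg_mem' := fun {f} hf => ⟨hf.1.neg, by
    have e : -f = algebraMap K F (-1) * f := by rw [map_neg, map_one, neg_one_mul]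
    rw [e, evalAt_mul (ordGE_algebraMap w _) hf.1, evalAt_algebraMap, neg_one_mul]
    exact neg_mem hf.2⟩
  mem_or_inv_mem' := fun f => by
    rcases eq_or_ne f 0 with rfl | hf
    · exact .inl ⟨ordGE_zero w 0, by
        rw [← map_zero (algebraMap K F), evalAt_algebraMap]; exact zero_mem A⟩
    have hz : ∀ {g : F}, g ≠ 0 → 0 < w.ord g → OrdGE w g 0 ∧ evalAt w g ∈ A := fun {g} hg hpos => by
      have h1 : OrdGE w g 1 := (ordGE_iff_of_ne hg).mpr (by omega)
      refine ⟨h1.mono zero_le_one, ?_⟩
      rw [(evalAt_eq_zero_iff (h1.mono zero_le_one)).mpr h1]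
      exact zero_mem A
    rcases lt_trichotomy (w.ord f) 0 with h | h | h
    · exact .inr (hz (inv_ne_zero hf) (by rw [w.ord_inv]; omega))
    · refine (A.mem_or_inv_mem (evalAt w f)).imp (fun h' => ⟨(ordGE_iff_of_ne hf).mpr h.ge, h'⟩)
        fun h' => ⟨(ordGE_iff_of_ne (inv_ne_zero hf)).mpr (by rw [w.ord_inv]; omega), ?_⟩
      rw [evalAt_inv hf h]
      exact h'
    · exact .inl (hz hf h)

variable {F' : Type*} [Field F'] [Algebra K F'] [IsFunctionField K F']

/-- The composite valuation below a place is the restriction of that at the place. -/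
theorem map_mem_placeVal (A : ValuationSubring K) (φ : F →ₐ[K] F') (w : Place K F') (f : F) :
    φ f ∈ placeVal A w ↔ f ∈ placeVal A (below φ w) := by
  have key : OrdGE w (φ f) 0 → OrdGE (below φ w) f 0 := fun h => by
    rcases eq_or_ne f 0 with rfl | hf
    · exact ordGE_zero _ _
    have h1 := h.le_ord ((map_ne_zero_iff _ φ.toRingHom.injective).mpr hf)
    rw [ord_below] at h1
    exact (ordGE_iff_of_ne hf).mpr
      (nonneg_of_mul_nonneg_right h1 (by exact_mod_cast ramificationIndexAlong_pos φ w))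
  constructor
  · rintro ⟨h1, h2⟩
    exact ⟨key h1, by rwa [← evalAt_comp φ (key h1)]⟩
  · rintro ⟨h1, h2⟩
    exact ⟨ordGE_comp φ h1, by rwa [evalAt_comp φ h1]⟩

/-- Two nonzero elements have the same valuation iff both quotients are integral. -/
theorem valuation_eq_iff {K : Type*} [Field K] (W : ValuationSubring K) {f g : K} (hf : f ≠ 0)
    (hg : g ≠ 0) : W.valuation f = W.valuation g ↔ f / g ∈ W ∧ g / f ∈ W := by
  rw [← W.valuation_le_one_iff, ← W.valuation_le_one_iff, map_div₀, map_div₀,
    div_le_one₀ (zero_lt_iff.mpr ((_root_.map_ne_zero _).mpr hg)),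
    div_le_one₀ (zero_lt_iff.mpr ((_root_.map_ne_zero _).mpr hf))]
  exact le_antisymm_iff

end Composite

variable {p : ℕ} [hp : Fact p.Prime] [NeZero p]

/-- The coefficients of the divisor of a tuple. -/
theorem ofMult_apply [DecidableEq (Pt p)] (s : Multiset (Pt p)) (Q : Pt p) :
    ofMult s Q = (s.count Q : ℤ) := by
  induction s using Multiset.induction with
  | empty => simp [ofMult]
  | cons P s ih =>
    rw [ofMult_cons, Finsupp.add_apply, ih, Finsupp.single_apply, Multiset.count_cons]
    by_cases h : P = Q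
    · subst h; simp [add_comm]
    · simp [h, Ne.symm h]

namespace Red

variable (R : Red p)

/-- Nearness through the composite valuation. -/
theorem near_iff_placeVal (P : Pt p) :
    R.Near P ↔ jL p Qbar ∉ placeVal R.A P ∧ uFun p ∈ placeVal R.A P ∧
      (uFun p)⁻¹ ∈ placeVal R.A P := by
  have hu0 : uFun p ≠ 0 := div_ne_zero jNL_ne_zero (pow_ne_zero _ jL_ne_zero)
  constructor
  -- near: `u` has a unit value at the point and `j` is not integral there
  · intro h
    have hr : (R.r P).ord R.jbar < 0 := by rw [show R.r P = R.inf from h, R.ord_inf_jbar]; omega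
    obtain ⟨hA, he⟩ := R.evalAt_uFun_cases hr
    rw [if_pos (show R.r P = R.inf from h)] at he
    have hge := R.ordGE_uFun hr
    have hne : evalAt P (uFun p) ≠ 0 := fun e => by
      rw [show (⟨_, hA⟩ : R.A) = 0 from Subtype.ext e, map_zero] at he
      exact zero_ne_one he
    have hord : P.ord (uFun p) = 0 := by
      have := hge.le_ord hu0
      by_contra h0
      exact hne ((evalAt_eq_zero_iff hge).mpr ((ordGE_iff_of_ne hu0).mpr (by omega)))
    have hv : ¬ R.A.valuation (evalAt P (uFun p)) < 1 := fun hlt => by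
      rw [(R.res_eq_zero_iff hA).mpr hlt] at he
      exact zero_ne_one he
    refine ⟨fun hm => R.not_mem_of_near h hm.1 hm.2, ⟨hge, hA⟩,
      (ordGE_iff_of_ne (inv_ne_zero hu0)).mpr (by rw [P.ord_inv, hord, neg_zero]), ?_⟩
    rw [evalAt_inv hu0 hord, ← R.A.valuation_le_one_iff, map_inv₀]
    exact inv_le_one_of_one_le₀ (not_lt.mp hv)
  -- conversely `j` has a pole in the reduction
  · rintro ⟨hj, hu, hu'⟩
    have hr : (R.r P).ord R.jbar < 0 := by
      by_cases h0 : OrdGE P (jL p Qbar) 0
      · exact R.pole_of_not_mem fun hm => hj ⟨h0, hm⟩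
      · exact R.pole_of_pole h0
    -- if that pole were not at `∞` then `u` would reduce to zero, against `u⁻¹` integral
    by_contra hn
    obtain ⟨hA, he⟩ := R.evalAt_uFun_cases hr
    rw [if_neg (show ¬ R.r P = R.inf from hn), R.res_eq_zero_iff] at he
    have h1 : evalAt P (uFun p) * evalAt P (uFun p)⁻¹ = 1 := by
      rw [← evalAt_mul hu.1 hu'.1, mul_inv_cancel₀ hu0, evalAt_one]
    have h2 := congrArg R.A.valuation h1
    rw [map_mul, map_one] at h2
    exact (h2 ▸ lt_of_le_of_lt (mul_le_of_le_one_right' ((R.A.valuation_le_one_iff _).mpr hu'.2))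
      he).false

/-- Nearness of the point below a place, read on the composite valuation at the place. -/
theorem near_below_iff {F' : Type*} [Field F'] [Algebra Qbar F'] [IsFunctionField Qbar F']
    (φ : FN p Qbar →ₐ[Qbar] F') (w : Place Qbar F') :
    R.Near (below φ w) ↔ φ (jL p Qbar) ∉ placeVal R.A w ∧
      (placeVal R.A w).valuation (φ (jNL p Qbar)) =
        (placeVal R.A w).valuation (φ (jL p Qbar)) ^ p := by
  have hne : ∀ {f : FN p Qbar}, f ≠ 0 → φ f ≠ 0 := fun hf =>
    (map_ne_zero_iff _ φ.toRingHom.injective).mpr hf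
  rw [R.near_iff_placeVal, ← map_mem_placeVal R.A φ, ← map_mem_placeVal R.A φ,
    ← map_mem_placeVal R.A φ, ← map_pow,
    valuation_eq_iff _ (hne jNL_ne_zero) (pow_ne_zero _ (hne jL_ne_zero)), ← map_pow,
    ← map_div₀, ← map_div₀, uFun, inv_div]

/-- A modular relation between expansions holds between the functions. -/
theorem rel_eval {M n : ℕ} [hn : Fact n.Prime] {x y : FN M Qbar}
    (h : ((levelOne n).Φ.map (Fermat.RED.evalAt Qbar (x : LaurentSeries Qbar))).eval
      (y : LaurentSeries Qbar) = 0) :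
    ((levelOne n).Φ.map (eval₂RingHom (Int.castRingHom (FN M Qbar)) x)).eval y = 0 := by
  apply (FN M Qbar).val.toRingHom.injective
  rw [map_zero, ← eval₂_at_apply, Fermat.RED.coe_eval₂]
  exact h

/-- Natural numbers have valuation at most `1`. -/
theorem natCast_le {F' : Type*} [Field F'] (W : ValuationSubring F') (n : ℕ) :
    W.valuation (n : F') ≤ 1 := (W.valuation_le_one_iff _).mpr (natCast_mem W n)

/-- Nearness passes through the correspondences of degree prime to the level. -/
theorem near_alpha_iff_beta {l : ℕ} [NeZero l] (hl : l.Prime) (hlp : l ≠ p)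
    (w : Place Qbar (FN (p * l) Qbar)) :
    haveI : IsFunctionField Qbar (FN (p * l) Qbar) := MC.isFunctionField_FN (p * l) embC
    (R.Near (below (heckeAlphaBar Qbar p l) w) ↔ R.Near (below (heckeBetaBar Qbar p l) w)) := by
  have : IsFunctionField Qbar (FN (p * l) Qbar) := MC.isFunctionField_FN (p * l) embC
  have : Fact l.Prime := ⟨hl⟩
  have : NeZero (1 : ℕ) := ⟨one_ne_zero⟩
  have : NeZero (l * p) := ⟨mul_ne_zero (NeZero.ne l) (NeZero.ne p)⟩
  have : NeZero (p * l) := ⟨mul_ne_zero (NeZero.ne p) (NeZero.ne l)⟩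
  obtain ⟨ζl, hζl⟩ := Fermat.RED.exists_isPrimitiveRoot_unit Qbar l
    (Nat.cast_ne_zero.mpr hl.ne_zero)
  obtain ⟨ζp, hζp⟩ :=
    Fermat.RED.exists_isPrimitiveRoot_unit Qbar p (Nat.cast_ne_zero.mpr hp.out.ne_zero)
  rw [R.near_below_iff, R.near_below_iff]
  set W := placeVal R.A w
  set x₁ := heckeAlphaBar Qbar p l (jL p Qbar)
  set xp := heckeAlphaBar Qbar p l (jNL p Qbar)
  set xl := heckeBetaBar Qbar p l (jL p Qbar)
  set xpl := heckeBetaBar Qbar p l (jNL p Qbar)
  have c1 : (x₁ : LaurentSeries Qbar) = jb Qbar 1 1 := by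
    rw [Fermat.RED.jb_one, qExpand_one_apply]; exact (coe_heckeAlphaBar p l _).trans coe_jL
  have cp : (xp : LaurentSeries Qbar) = jb Qbar 1 p :=
    (coe_heckeAlphaBar p l _).trans coe_jNL
  have cl : (xl : LaurentSeries Qbar) = jb Qbar 1 (l * 1) := by
    rw [← Fermat.RED.qExpand_jb, ← c1]
    exact (coe_heckeBetaBar p l _).trans (by rw [coe_heckeAlphaBar])
  have cpl : (xpl : LaurentSeries Qbar) = jb Qbar 1 (l * p) := by
    rw [← Fermat.RED.qExpand_jb, ← cp]
    exact (coe_heckeBetaBar p l _).trans (by rw [coe_heckeAlphaBar])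
  -- the sizes along the four sides of the square of modular relations
  have r1 := fun (hx : 1 < W.valuation x₁) => val_cases l W.valuation (natCast_le W) hx
    (y := xl) (rel_eval (by rw [c1, cl]; exact Fermat.RED.eval_modular_self_mul hζl 1))
  have r2 := fun (hx : 1 < W.valuation xp) => val_cases l W.valuation (natCast_le W) hx
    (y := xpl) (rel_eval (by rw [cp, cpl]; exact Fermat.RED.eval_modular_self_mul hζl p))
  have r3 := fun (hx : 1 < W.valuation xl) => val_cases p W.valuation (natCast_le W) hx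
    (y := xpl) (rel_eval (by
      rw [cl, cpl, mul_one, mul_comm l p]; exact Fermat.RED.eval_modular_self_mul hζp l))
  have r4 := fun (hx : 1 < W.valuation xl) => val_cases l W.valuation (natCast_le W) hx
    (y := x₁) (rel_eval (by rw [c1, cl]; exact Fermat.RED.eval_modular_mul_self hζl 1))
  have r5 := fun (hx : 1 < W.valuation xpl) => val_cases l W.valuation (natCast_le W) hx
    (y := xp) (rel_eval (by rw [cp, cpl]; exact Fermat.RED.eval_modular_mul_self hζl p))
  have r6 := fun (hx : 1 < W.valuation x₁) => val_cases p W.valuation (natCast_le W) hx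
    (y := xp) (rel_eval (by
      rw [c1, cp]
      have h := Fermat.RED.eval_modular_self_mul hζp 1
      simpa only [mul_one] using h))
  have hmem : ∀ {f : FN (p * l) Qbar}, f ∉ W ↔ 1 < W.valuation f := fun {f} => by
    rw [← W.valuation_le_one_iff, not_le]
  rw [hmem, hmem]
  have hp2 := hp.out.two_le
  constructor <;> rintro ⟨ha, hb⟩
  · obtain ⟨hc, hc'⟩ := r1 ha
    obtain ⟨-, hd'⟩ := r2 (by rw [hb]; exact one_lt_pow₀ ha (by omega))
    exact ⟨hc, val_square hp.out hl hlp.symm ha hb hc' hd' (r3 hc).2⟩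
  · obtain ⟨hc, hc'⟩ := r4 ha
    obtain ⟨-, hd'⟩ := r5 (by rw [hb]; exact one_lt_pow₀ ha (by omega))
    exact ⟨hc, val_square hp.out hl hlp.symm ha hb hc' hd' (r6 hc).2⟩

open Classical in
/-- The part of a divisor near `∞`. -/
def nearPart : Divisor Qbar (FN p Qbar) →+ Divisor Qbar (FN p Qbar) :=
  Finsupp.filterAddHom R.Near

/-- The near part at a near point. -/
theorem nearPart_apply_pos {P : Pt p} (h : R.Near P) (D : Divisor Qbar (FN p Qbar)) :
    R.nearPart D P = D P := by
  classical
  exact Finsupp.filter_apply_pos R.Near D h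

/-- The near part at a point which is not near. -/
theorem nearPart_apply_neg {P : Pt p} (h : ¬ R.Near P) (D : Divisor Qbar (FN p Qbar)) :
    R.nearPart D P = 0 := by
  classical
  exact Finsupp.filter_apply_neg R.Near D h

/-- The degree of the near part is the multiplicity of `∞` in the reduction. -/
theorem degree_nearPart (D : Divisor Qbar (FN p Qbar)) :
    Divisor.degree (R.nearPart D) = Finsupp.mapDomain R.r D R.inf := by
  classical
  induction D using Finsupp.induction with
  | zero => simp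
  | single_add w n D _ _ ih =>
    rw [map_add, map_add, ih, Finsupp.mapDomain_add, Finsupp.add_apply, Finsupp.mapDomain_single,
      Finsupp.single_apply]
    congr 1
    by_cases h : R.Near w
    · rw [if_pos (show R.r w = R.inf from h),
        show R.nearPart (Finsupp.single w n) = Finsupp.single w n from
          Finsupp.filter_single_of_pos _ h, Divisor.degree_single, FF.deg_eq_one]
      simp
    · rw [if_neg (show ¬ R.r w = R.inf from h),
        show R.nearPart (Finsupp.single w n) = 0 from Finsupp.filter_single_of_neg _ h, map_zero]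

/-- The near part of the divisor of a function reducing to `1` is a near divisor. -/
theorem exists_nearS {h : FN p Qbar} (hJ : IntJ h) (hi : R.Int' h) (h1 : R.redT h = 1) :
    ∃ s, R.NearS s ∧ R.nearPart (divOf Qbar h) = nearDiv s := by
  classical
  have h0 : h ≠ 0 := fun e => by rw [e, R.redT_zero] at h1; exact zero_ne_one h1
  have hdeg : Divisor.degree (R.nearPart (divOf Qbar h)) = 0 := by
    rw [R.degree_nearPart, R.mapDomain_divOf hi (by rw [h1]; exact one_ne_zero), divOf_apply, h1,
      R.inf.ord_one]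
  set n : ℕ := (-(pinf p Qbar).ord h).toNat
  set E := R.nearPart (divOf Qbar h) + Finsupp.single (pinf p Qbar) (n : ℤ)
  have hE : 0 ≤ E := Finsupp.le_def.mpr fun v => by
    rw [Finsupp.zero_apply, Finsupp.add_apply]
    rcases eq_or_ne v (pinf p Qbar) with rfl | hv
    · rw [R.nearPart_apply_pos R.near_pinf, divOf_apply, Finsupp.single_eq_same]; omega
    rw [Finsupp.single_eq_of_ne hv, add_zero]
    by_cases hn : R.Near v
    · have hvj : OrdGE v (jL p Qbar) 0 := by
        by_contra hj
        rcases cusp_of_not_ordGE R.finrank_jL hj with e | e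
        · exact hv e
        · exact R.not_near_pzero (e ▸ hn)
      rw [R.nearPart_apply_pos hn, divOf_apply]
      exact (intJ_iff.mp hJ v hvj).le_ord h0
    · rw [R.nearPart_apply_neg hn]
  obtain ⟨s, hs, hcard⟩ := exists_ofMult hE
  rw [map_add, hdeg, Divisor.degree_single, FF.deg_eq_one, zero_add, Nat.cast_one, mul_one] at hcard
  refine ⟨s, fun Q hQ => ?_, ?_⟩
  · by_contra hn
    have h2 := ofMult_apply s Q
    rw [hs, Finsupp.add_apply, R.nearPart_apply_neg hn,
      Finsupp.single_eq_of_ne (fun e => hn (by rw [e]; exact R.near_pinf)), add_zero] at h2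
    have := Multiset.count_pos.mpr hQ
    omega
  · rw [nearDiv, hs, hcard, add_sub_cancel_right]

/-- The near part of the divisor of `pfun s` is the near divisor of `s`. -/
theorem nearPart_divOf_pfun {s : Multiset (Pt p)} (hs : R.NearS s) :
    R.nearPart (divOf Qbar (pfun s)) = nearDiv s := by
  classical
  obtain ⟨i1, i2, i3, i4, i5⟩ := R.pfun_data hs
  set D := R.nearPart (divOf Qbar (pfun s)) - nearDiv s
  have hD : 0 ≤ D := Finsupp.le_def.mpr fun v => by
    rw [Finsupp.zero_apply, Finsupp.sub_apply, nearDiv, Finsupp.sub_apply]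
    rcases eq_or_ne v (pinf p Qbar) with rfl | hv
    · rw [R.nearPart_apply_pos R.near_pinf, divOf_apply, i4, Finsupp.single_eq_same]; omega
    rw [Finsupp.single_eq_of_ne hv, sub_zero]
    by_cases hn : R.Near v
    · have hvj : OrdGE v (jL p Qbar) 0 := by
        by_contra hj
        rcases cusp_of_not_ordGE R.finrank_jL hj with e | e
        · exact hv e
        · exact R.not_near_pzero (e ▸ hn)
      rw [R.nearPart_apply_pos hn, divOf_apply]
      have := (i5 v hvj).le_ord i3
      omega
    · rw [R.nearPart_apply_neg hn, ofMult_apply, Multiset.count_eq_zero.mpr fun h => hn (hs v h)]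
      simp
  refine sub_eq_zero.mp (eq_zero_of_nonneg_of_degree hD ?_)
  rw [map_sub, R.degree_nearPart, R.mapDomain_divOf i1 (by rw [i2]; exact one_ne_zero),
    divOf_apply, i2, R.inf.ord_one, Divisor.mem_degZero.mp (nearDiv_mem s), sub_zero]

/-- `h = c + π F` reduces to `1` and the near part of its divisor has class `z`. -/
structure IsRep (π : Qbar) (z : Pic0 Qbar (FN p Qbar)) (h F : FN p Qbar) (c : Qbar) : Prop where
  /-- `h` is integral over `ℚ̄[j]`. -/
  intJ : IntJ h
  /-- `h` has integral expansion at `∞`. -/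
  int : R.Int' h
  /-- `h` reduces to one. -/
  red_one : R.redT h = 1
  /-- `h` is `c` plus `π` times `F`. -/
  eq : h = algebraMap Qbar (FN p Qbar) c + algebraMap Qbar (FN p Qbar) π * F
  /-- `F` has integral expansion at `∞`. -/
  intF : R.Int' F
  /-- The near part of the divisor of `h` has class `z`. -/
  cls_eq : ∀ s, R.nearPart (divOf Qbar h) = nearDiv s → cls s = z

variable {R}
variable {π : Qbar} {z w : Pic0 Qbar (FN p Qbar)} {h h' F F' : FN p Qbar} {c c' : Qbar}

/-- A representative is nonzero. -/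
theorem IsRep.ne_zero (H : R.IsRep π z h F c) : h ≠ 0 := fun e => by
  have := H.red_one
  rw [e, R.redT_zero] at this
  exact zero_ne_one this

/-- The constant of a representative reduces to `1`. -/
theorem IsRep.const (hπ : R.IsScale π) (H : R.IsRep π z h F c) :
    ∃ hc : c ∈ R.A, R.res ⟨c, hc⟩ = 1 := by
  have hm := R.int_mul (R.int_algebraMap hπ.mem) H.intF
  have hi : R.Int' (algebraMap Qbar (FN p Qbar) c) := by
    rw [eq_sub_of_add_eq H.eq.symm]
    exact R.int_sub H.int hm
  have hc : c ∈ R.A := by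
    have := mem_intSeries_iff.mp hi 0
    rwa [IntermediateField.coe_algebraMap_apply, algebraMap_laurentSeries_eq_single,
      HahnSeries.coeff_single_same] at this
  refine ⟨hc, (algebraMap R.k R.T).injective ?_⟩
  rw [map_one, ← R.redT_algebraMap hc, ← H.red_one, H.eq, R.redT_add hi hm,
    R.redT_mul (R.int_algebraMap hπ.mem) H.intF, R.redT_algebraMap hπ.mem, hπ.small]
  simp

/-- A presentation gives a representative. -/
theorem isRep_of_pres (hπ : R.IsScale π) {s : Multiset (Pt p)} (hs : R.IsPres π z s) :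
    R.IsRep π z (pfun s) (tfun π s) ((pfun s : LaurentSeries Qbar).coeff 0) := by
  obtain ⟨i1, i2, -⟩ := R.pfun_data hs.near
  refine ⟨intJ_pfun s, i1, i2, pfun_eq_tfun hπ.ne_zero s, hs.int, fun t ht => ?_⟩
  rw [R.nearPart_divOf_pfun hs.near] at ht
  rw [cls, ← hs.cls_eq, cls]
  exact congrArg Pic0.mk (Subtype.ext ht.symm)

/-- Representatives multiply, and digits add. -/
theorem IsRep.mul (hπ : R.IsScale π) (H : R.IsRep π z h F c) (H' : R.IsRep π w h' F' c') :
    ∃ G, R.IsRep π (z + w) (h * h') G (c * c') ∧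
      R.red G = R.red F + R.red F' := by
  obtain ⟨hc, hc1⟩ := H.const hπ
  obtain ⟨hc', hc1'⟩ := H'.const hπ
  set X := algebraMap Qbar (FN p Qbar)
  have a1 := R.int_mul (R.int_algebraMap hc') H.intF
  have a2 := R.int_mul (R.int_algebraMap hc) H'.intF
  have a3 := R.int_mul (R.int_algebraMap hπ.mem) (R.int_mul H.intF H'.intF)
  refine ⟨X c' * F + X c * F' + X π * (F * F'),
    ⟨mul_mem (S := Subalgebra Qbar (FN p Qbar)) (s := Fermat.FF.intClosure Qbar (jL p Qbar))
      H.intJ H'.intJ, R.int_mul H.int H'.int,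
      by rw [R.redT_mul H.int H'.int, H.red_one, H'.red_one, one_mul], ?_,
      R.int_add (R.int_add a1 a2) a3, fun s hs => ?_⟩, ?_⟩
  · rw [H.eq, H'.eq, map_mul]; ring
  · obtain ⟨u, hu, hu'⟩ := R.exists_nearS H.intJ H.int H.red_one
    obtain ⟨v, hv, hv'⟩ := R.exists_nearS H'.intJ H'.int H'.red_one
    rw [← H.cls_eq u hu', ← H'.cls_eq v hv', ← cls_add, cls, cls]
    refine congrArg Pic0.mk (Subtype.ext ?_)
    change nearDiv s = nearDiv (u + v)
    rw [← hs, divOf_mul H.ne_zero H'.ne_zero, map_add, hu', hv', nearDiv_add]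
  · have e : R.redT (X c' * F + X c * F' + X π * (F * F')) = R.redT F + R.redT F' := by
      rw [R.redT_add (R.int_add a1 a2) a3, R.redT_add a1 a2,
        R.redT_mul (R.int_algebraMap hc') H.intF, R.redT_mul (R.int_algebraMap hc) H'.intF,
        R.redT_mul (R.int_algebraMap hπ.mem) (R.int_mul H.intF H'.intF), R.redT_algebraMap hc,
        R.redT_algebraMap hc', R.redT_algebraMap hπ.mem, hc1, hc1', hπ.small]
      simp
    exact congrArg Subtype.val e

/-- A representative at a coarser scale, with the pairing scaled. -/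
theorem IsRep.rescale {π' : Qbar} (hπ' : π' ≠ 0) (H : R.IsRep π z h F c) (hdiv : π / π' ∈ R.A) :
    R.IsRep π' z h (algebraMap Qbar (FN p Qbar) (π / π') * F) c ∧
      ∀ a, R.pair (R.red (algebraMap Qbar (FN p Qbar) (π / π') * F)) a =
        R.res ⟨_, hdiv⟩ * R.pair (R.red F) a := by
  refine ⟨⟨H.intJ, H.int, H.red_one, ?_, R.int_mul (R.int_algebraMap hdiv) H.intF, H.cls_eq⟩,
    fun a => ?_⟩
  · rw [H.eq, ← mul_assoc, ← map_mul, mul_div_cancel₀ _ hπ']
  · have e : R.red (algebraMap Qbar (FN p Qbar) (π / π') * F) =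
        algebraMap R.k (LaurentSeries R.k) (R.res ⟨_, hdiv⟩) * R.red F :=
      congrArg Subtype.val (show R.redT (algebraMap Qbar (FN p Qbar) (π / π') * F) =
          algebraMap R.k R.T (R.res ⟨_, hdiv⟩) * R.redT F by
        rw [R.redT_mul (R.int_algebraMap hdiv) H.intF, R.redT_algebraMap hdiv])
    rw [pair, pair, e, mul_assoc, Fermat.RED.coeff_algebraMap_mul]

/-- Representatives of zero pair to zero. -/
theorem IsRep.pair_eq_zero (hπ : π ≠ 0) (H : R.IsRep π 0 h F c) {a : ℕ → ℤ}
    (ha : IsIntForm p a) : R.pair (R.red F) a = 0 := by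
  obtain ⟨s, hs, hdiv⟩ := R.exists_nearS H.intJ H.int H.red_one
  obtain ⟨f, hfi, hf1, hfd, hreg⟩ := R.exists_red_one hs (H.cls_eq s hdiv)
  have hf0 : f ≠ 0 := fun e => by rw [e, R.redT_zero] at hf1; exact zero_ne_one hf1
  have hh0 : h ≠ 0 := H.ne_zero
  have hq : IntJ (h / f) := intJ_iff.mpr fun v hv => by
    refine ordGE_iff.mpr (.inr ?_)
    have h2 := DFunLike.congr_fun (hdiv.trans hfd.symm) v
    rw [divOf_apply] at h2
    rw [ord_div v hh0 hf0]
    by_cases hn : R.Near v
    · rw [R.nearPart_apply_pos hn, divOf_apply] at h2; omega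
    · rw [R.nearPart_apply_neg hn] at h2
      have := (intJ_iff.mp H.intJ v hv).le_ord hh0
      omega
  -- `h / f` is a unit series, and the residue relation applies to `f`
  obtain ⟨hwi, hw1⟩ := R.int_div H.int hfi (by rw [hf1]; exact one_ne_zero) hq
  rw [H.red_one, hf1, div_one] at hw1
  have hord : (pinf p Qbar).ord (h / f) = 0 := by
    have h2 := DFunLike.congr_fun (hdiv.trans hfd.symm) (pinf p Qbar)
    rw [R.nearPart_apply_pos R.near_pinf, divOf_apply, divOf_apply] at h2
    rw [ord_div _ hh0 hf0, h2, sub_self]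
  have hinv := R.inv_mem_intSeries_of_red_one hwi hw1 hord
  set U : intSeries R.A := ⟨_, hinv⟩
  have hq0 : ((h / f : FN p Qbar) : LaurentSeries Qbar) ≠ 0 :=
    fun e => div_ne_zero hh0 hf0 (Subtype.ext e)
  have hU1 : redHom R.res U = 1 := by
    have h := congrArg (redHom R.res) (show U * ⟨_, hwi⟩ = 1 from Subtype.ext (inv_mul_cancel₀ hq0))
    rwa [map_mul, map_one, show redHom R.res ⟨_, hwi⟩ = 1 from
      (Fermat.RED.Model.redF_of_mem (π := R.res) (ι := (FN p Qbar).val.toRingHom) hwi).symm.trans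
        (congrArg Subtype.val hw1), mul_one] at h
  have hUneg : ∀ n < (0 : ℤ), (U : LaurentSeries Qbar).coeff n = 0 := fun n hn => by
    refine HahnSeries.coeff_eq_zero_of_lt_order (hn.trans_le ?_)
    rw [show (U : LaurentSeries Qbar) = ((h / f)⁻¹ : FN p Qbar) from rfl, ← ord_pinf,
      (pinf p Qbar).ord_inv, hord, neg_zero]
  have hf : (f : LaurentSeries Qbar) = (h : LaurentSeries Qbar) * U := by
    change _ = _ * (((h / f : FN p Qbar) : LaurentSeries Qbar))⁻¹
    rw [← IntermediateField.coe_inv, ← MulMemClass.coe_mul, inv_div, mul_div_cancel₀ _ hh0]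
  have hUa : ((U : LaurentSeries Qbar) * aSer Qbar a).coeff 0 = 0 := by
    rw [coeff_zero_mul_aSer (m := 0) (by simpa using hUneg) ha.zero_coeff]
    simp
  have hP : (h : LaurentSeries Qbar) = algebraMap Qbar (LaurentSeries Qbar) c +
      algebraMap Qbar (LaurentSeries Qbar) π * (F : LaurentSeries Qbar) := by
    conv_lhs => rw [H.eq]
    rfl
  obtain ⟨hA, hAred⟩ := R.redHom_aSer a
  have h0 := residue_int hreg ha
  rw [hf, hP, add_mul, add_mul, HahnSeries.coeff_add, mul_assoc, Fermat.RED.coeff_algebraMap_mul,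
    hUa, mul_zero, zero_add, mul_assoc, mul_assoc, Fermat.RED.coeff_algebraMap_mul] at h0
  have h1 : redHom R.res (⟨_, H.intF⟩ * U * ⟨_, hA⟩) = R.red F * 1 * aSer R.k a := by
    rw [map_mul, map_mul, hU1, hAred, red, Fermat.RED.Model.redF_of_mem H.intF]
    rfl
  rw [mul_one] at h1
  rw [pair, ← h1, Fermat.RED.Model.redHom_coeff, ← map_zero R.res]
  refine congrArg R.res (Subtype.ext ?_)
  change ((F : LaurentSeries Qbar) * U * aSer Qbar a).coeff 0 = 0
  rw [mul_assoc]
  exact (mul_eq_zero.mp h0).resolve_left hπ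

/-- A representative presents its class, with the pairing of its digit. -/
theorem IsRep.lam (hπ : R.IsScale π) (H : R.IsRep π z h F c) :
    ∃ hm : z ∈ R.scaleSub hπ, ∀ a, R.lam hπ ⟨z, hm⟩ a = R.pair (R.red F) a.1 := by
  rcases eq_or_ne z 0 with rfl | hz0
  · refine ⟨zero_mem _, fun a => ?_⟩
    rw [H.pair_eq_zero hπ.ne_zero a.2,
      show (⟨0, zero_mem _⟩ : R.scaleSub hπ) = 0 from rfl, map_zero]
    rfl
  obtain ⟨s, hs, hdiv⟩ := R.exists_nearS H.intJ H.int H.red_one
  have hz : R.redJ z = 0 := by rw [← H.cls_eq s hdiv, R.redJ_cls hs]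
  obtain ⟨π₁, t, a₁, hπ₁, ht, ha₁, hne⟩ := R.exists_normalForm (z := -z)
    (by rw [map_neg, hz, neg_zero]) (neg_ne_zero.mpr hz0)
  -- the normal form of `-z` cannot be coarser than `π`, as zero pairs to zero
  have hdiv₁ : π₁ / π ∈ R.A := by
    by_contra hd
    have hinv : π / π₁ ∈ R.A := by
      have := (R.A.mem_or_inv_mem (π₁ / π)).resolve_left hd
      rwa [inv_div] at this
    have hres : R.res ⟨_, hinv⟩ = 0 :=
      Fermat.RED.Model.map_eq_zero_of_inv_notMem R.res_surjective (a := ⟨_, hinv⟩)
        (by rwa [inv_div])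
    obtain ⟨H₁, H₁'⟩ := H.rescale hπ₁.ne_zero hinv
    obtain ⟨G, HG, hG⟩ := H₁.mul hπ₁ (isRep_of_pres hπ₁ ht)
    rw [add_neg_cancel] at HG
    have h3 := HG.pair_eq_zero hπ₁.ne_zero ha₁
    rw [hG, R.pair_add, H₁' a₁, hres, zero_mul, zero_add] at h3
    exact hne h3
  obtain ⟨ht', -⟩ := IsPres.rescale R hπ₁.ne_zero ht hdiv₁
  have hm : z ∈ R.scaleSub hπ := by
    simpa using neg_mem (show -z ∈ R.scaleSub hπ from ⟨t, ht'⟩)
  refine ⟨hm, fun a => ?_⟩
  obtain ⟨G, HG, hG⟩ := H.mul hπ (isRep_of_pres hπ ht')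
  rw [add_neg_cancel] at HG
  have h3 := HG.pair_eq_zero hπ.ne_zero a.2
  rw [hG, R.pair_add, add_eq_zero_iff_eq_neg] at h3
  rw [h3, ← show R.lam hπ ⟨-z, ⟨t, ht'⟩⟩ a = R.pair (R.red (tfun π t)) a.1 from R.lam_eq hπ ht' a,
    show (⟨-z, ⟨t, ht'⟩⟩ : R.scaleSub hπ) = -⟨z, hm⟩ from rfl, map_neg, Pi.neg_apply, neg_neg]

end Red

end Fermat.HT.Cusp

end
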