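import Fermat.Agent.HT.Cusp.Places
import Fermat.Agent.RED.Reduction.X0
import Fermat.Agent.RED.Model.GenusEq

/-!
# The reduction of `X₀(p)` at a prime `ℓ ≠ p`

The good model transferred to `FN p ℚ̄`, reduced series, the value lemma and the reductions of the
cusps.
-/

set_option autoImplicit false
set_option linter.unusedSectionVars false

attribute [local instance 10000] SubalgebraClass.toAlgebra HahnSeries.powerSeriesAlgebra

noncomputable section

open ModularCurve AlgebraicCurve
open Fermat.RED (IsSeriesReduction)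
open Fermat.RED.Model (GoodModel Normal intSeries mem_intSeries_iff redF specField)

namespace Fermat.HT.Cusp

open Fermat.FF Fermat.MC Fermat.JAC.X0

section Congr

variable {L : Type*} [Field L] {A : ValuationSubring L} {k : Type*} [Field k] {π : A →+* k}
  {S S' : IntermediateField L (LaurentSeries L)} {T : IntermediateField k (LaurentSeries k)}

/-- Good models transfer along equality of function fields. -/
theorem goodModel_congr (h : S = S') {x : S} {x' : S'}
    (hx : (x : LaurentSeries L) = (x' : LaurentSeries L)) {d : ℕ}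
    (g : GoodModel π S'.val.toRingHom x' d) :
    GoodModel π S.val.toRingHom x d ∧ Normal A π S'.val.toRingHom x' =
      Normal A π S.val.toRingHom x ∧
      Normal A π S'.val.toRingHom x'⁻¹ = Normal A π S.val.toRingHom x⁻¹ ∧
      specField π S.val.toRingHom = specField π S'.val.toRingHom := by
  subst h
  obtain rfl : x = x' := Subtype.ext hx
  exact ⟨g, rfl, rfl, rfl⟩

/-- The degree and genus of the special field of a good normal model, in an equal field. -/
theorem spec_congr [IsAlgClosed L] [IsAlgClosed k] {x : S} {d : ℕ}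
    (h : GoodModel π S.val.toRingHom x d) (hn : Normal A π S.val.toRingHom x)
    (hn' : Normal A π S.val.toRingHom x⁻¹) (hT : specField π S.val.toRingHom = T) {xb : T}
    (hx : (xb : LaurentSeries k) = redF π S.val.toRingHom x) :
    Module.finrank (IntermediateField.adjoin k {xb}) T = d ∧ genusFF k T = genusFF L S := by
  subst hT
  have := h.toPreModel.isFunctionField
  have := h.toPreModel.isFunctionField_spec
  obtain rfl : xb = Fermat.RED.Model.redS π S.val.toRingHom x := Subtype.ext hx
  exact ⟨h.toPreModel.finrank_spec, h.genus_eq_of_normal hn hn'⟩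

end Congr

variable {p : ℕ} [hp : Fact p.Prime] [NeZero p]

/-- The residue fields of places of `ℚ̄` are algebraically closed. -/
instance isAlgClosed_resField (A : ValuationSubring Qbar) :
    IsAlgClosed (IsLocalRing.ResidueField A) := Fermat.RED.Model.isAlgClosed_residue A

variable (p) in
/-- A prime `ℓ ≠ p`, a place over it and a reduction of places. -/
structure Red where
  /-- The residue characteristic. -/
  ℓ : ℕ
  /-- `ℓ` is prime. -/
  hℓ : ℓ.Prime
  /-- `ℓ` differs from `p`. -/
  hℓp : ℓ ≠ p
  /-- The place of `ℚ̄`. -/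
  A : ValuationSubring Qbar
  /-- The place lies over `ℓ`. -/
  hA : A.LiesOverPrime ℓ
  /-- The reduction of places of the function field. -/
  r : Place Qbar (FN p Qbar) → Place (IsLocalRing.ResidueField A)
    (modularFunctionFieldFullC (IsLocalRing.ResidueField A) p)
  /-- The map matches the divisors of integral expansions with those of their reductions. -/
  hr : IsSeriesReduction A (IsLocalRing.residue A) (FN p Qbar)
    (modularFunctionFieldFullC (IsLocalRing.ResidueField A) p) r

/-- Every place over a prime other than `p` carries a reduction. -/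
theorem exists_red {ℓ : ℕ} (hℓ : ℓ.Prime) (hℓp : ℓ ≠ p) (A : ValuationSubring Qbar)
    (hA : A.LiesOverPrime ℓ) : ∃ R : Red p, R.ℓ = ℓ ∧ R.A = A := by
  obtain ⟨r, hr⟩ := Fermat.RED.exists_seriesReduction_modL p hℓ
    (fun h => hℓp ((Nat.prime_dvd_prime_iff_eq hℓ hp.out).mp h)) A hA
  exact ⟨⟨ℓ, hℓ, hℓp, A, hA, r, hr⟩, rfl, rfl⟩

namespace Red

variable (R : Red p)

/-- The residue field. -/
abbrev k : Type := IsLocalRing.ResidueField R.A

/-- The residue map. -/
abbrev res : R.A →+* R.k := IsLocalRing.residue R.A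

/-- The reduced function field. -/
abbrev T : IntermediateField R.k (LaurentSeries R.k) := modularFunctionFieldFullC R.k p

/-- `ℓ` does not divide `p`. -/
theorem not_dvd : ¬ R.ℓ ∣ p := fun h => R.hℓp ((Nat.prime_dvd_prime_iff_eq R.hℓ hp.out).mp h)

/-- `p` is nonzero in the residue field. -/
theorem natCast_ne_zero : ((p : ℕ) : R.k) ≠ 0 :=
  Fermat.RED.Model.natCast_ne_zero_residue R.A R.hℓ R.hA R.not_dvd

/-- The reduced field is a function field. -/
instance isFunctionField_T : IsFunctionField R.k R.T :=
  Fermat.RED.Cusps.isFunctionField R.natCast_ne_zero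

/-- The residue map is surjective. -/
theorem res_surjective : Function.Surjective R.res := IsLocalRing.residue_surjective

/-- The kernel of the residue map in terms of the valuation. -/
theorem res_eq_zero_iff {a : Qbar} (h : a ∈ R.A) : R.res ⟨a, h⟩ = 0 ↔ R.A.valuation a < 1 := by
  rw [IsLocalRing.residue_eq_zero_iff]
  exact (R.A.valuation_lt_one_iff ⟨a, h⟩).trans Iff.rfl

/-- The good normal model of `X₀(p)` away from `p`, with special field the reduced one. -/
theorem goodModel : GoodModel R.res (FN p Qbar).val.toRingHom (jL p Qbar) (p + 1) ∧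
    Normal R.A R.res (FN p Qbar).val.toRingHom (jL p Qbar) ∧
    Normal R.A R.res (FN p Qbar).val.toRingHom (jL p Qbar)⁻¹ ∧
    specField R.res (FN p Qbar).val.toRingHom = R.T := by
  have hd : dedekindPsi p = p + 1 := by
    rw [show dedekindPsi p = dedekindPsi (p * 1) by rw [mul_one],
      Fermat.RED.dedekindPsi_prime_mul hp.out one_ne_zero, if_neg hp.out.not_dvd_one,
      dedekindPsi_one, mul_one]
  obtain ⟨hg, e1, e2, e3⟩ := goodModel_congr (π := R.res)
    (Fermat.RED.Model.fullC_eq_baseChange Qbar p) (x := jL p Qbar)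
    (x' := Fermat.RED.Model.jX Qbar p) coe_jL
    (Fermat.RED.Model.goodModel_X0 R.res_surjective R.natCast_ne_zero)
  obtain ⟨hn, hn'⟩ := Fermat.RED.Model.normal_X0 (L := Qbar) (A := R.A) embC R.res_surjective
    R.natCast_ne_zero
  exact ⟨hd ▸ hg, e1 ▸ hn, e2 ▸ hn',
    e3.trans (Fermat.RED.Model.specField_X0 R.res_surjective R.natCast_ne_zero)⟩

/-- Integrality of the expansion at `∞`. -/
def Int' (f : FN p Qbar) : Prop := (f : LaurentSeries Qbar) ∈ intSeries R.A

/-- The reduced expansion. -/
def red (f : FN p Qbar) : LaurentSeries R.k := redF R.res (FN p Qbar).val.toRingHom f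

/-- The reduced series lies in the reduced field. -/
theorem red_mem (f : FN p Qbar) : R.red f ∈ R.T :=
  R.goodModel.2.2.2 ▸ Fermat.RED.Model.redF_mem_specField R.res _ f

/-- The reduced function. -/
def redT (f : FN p Qbar) : R.T := ⟨R.red f, R.red_mem f⟩

/-- The coefficients of the reduction of an integral function. -/
theorem red_coeff {f : FN p Qbar} (hf : R.Int' f) (n : ℤ) :
    (R.red f).coeff n = R.res ⟨(f : LaurentSeries Qbar).coeff n, mem_intSeries_iff.mp hf n⟩ := by
  rw [red, Fermat.RED.Model.redF_of_mem hf, Fermat.RED.Model.redHom_coeff]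
  rfl

/-- Integral constants are integral. -/
theorem int_algebraMap {c : Qbar} (hc : c ∈ R.A) : R.Int' (algebraMap Qbar (FN p Qbar) c) :=
  R.goodModel.1.toPreModel.int_algebraMap hc

/-- `j` is integral. -/
theorem int_jL : R.Int' (jL p Qbar) := R.goodModel.1.toPreModel.int_self

/-- The reduction of an integral constant. -/
theorem redT_algebraMap {c : Qbar} (hc : c ∈ R.A) :
    R.redT (algebraMap Qbar (FN p Qbar) c) = algebraMap R.k R.T (R.res ⟨c, hc⟩) :=
  Subtype.ext (R.goodModel.1.toPreModel.redF_algebraMap hc)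

/-- The reduction of `0`. -/
theorem redT_zero : R.redT 0 = 0 := Subtype.ext Fermat.RED.Model.redF_zero

/-- The reduction of `1`. -/
theorem redT_one : R.redT 1 = 1 := Subtype.ext Fermat.RED.Model.redF_one

/-- The reduction is additive on integral functions. -/
theorem redT_add {f g : FN p Qbar} (hf : R.Int' f) (hg : R.Int' g) :
    R.redT (f + g) = R.redT f + R.redT g :=
  Subtype.ext (Fermat.RED.Model.redF_add hf hg)

/-- The reduction commutes with differences of integral functions. -/
theorem redT_sub {f g : FN p Qbar} (hf : R.Int' f) (hg : R.Int' g) :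
    R.redT (f - g) = R.redT f - R.redT g :=
  Subtype.ext (Fermat.RED.Model.redF_sub hf hg)

/-- The reduction is multiplicative on integral functions. -/
theorem redT_mul {f g : FN p Qbar} (hf : R.Int' f) (hg : R.Int' g) :
    R.redT (f * g) = R.redT f * R.redT g :=
  Subtype.ext (Fermat.RED.Model.redF_mul hf hg)

/-- Sums of integral functions are integral. -/
theorem int_add {f g : FN p Qbar} (hf : R.Int' f) (hg : R.Int' g) : R.Int' (f + g) := add_mem hf hg

/-- Differences of integral functions are integral. -/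
theorem int_sub {f g : FN p Qbar} (hf : R.Int' f) (hg : R.Int' g) : R.Int' (f - g) := sub_mem hf hg

/-- Products of integral functions are integral. -/
theorem int_mul {f g : FN p Qbar} (hf : R.Int' f) (hg : R.Int' g) : R.Int' (f * g) := mul_mem hf hg

/-- The reduction of `j` is `j` over the residue field. -/
theorem red_jL : R.red (jL p Qbar) = jqModC R.k := by
  refine HahnSeries.ext (funext fun n => ?_)
  rw [R.red_coeff R.int_jL]
  simp only [coe_jL]
  rw [coeff_jqModC_eq_intCast n (R := R.k)]
  refine Eq.trans (congrArg R.res (Subtype.ext ?_ : _ = (((jqModC ℤ).coeff n : ℤ) : R.A)))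
    (map_intCast R.res _)
  simp [coeff_jqModC_eq_intCast n (R := Qbar)]

/-- `j` on the reduction. -/
abbrev jbar : R.T := R.redT (jL p Qbar)

/-- The reduced `j` is transcendental. -/
theorem transcendental_jbar : Transcendental R.k R.jbar := fun h => by
  have h1 := h.algHom R.T.val
  change IsAlgebraic R.k (R.red (jL p Qbar)) at h1
  rw [R.red_jL] at h1
  exact Fermat.RED.transcendental_jqModC h1

/-- The reduced field has degree `p + 1` over the reduced `j` and the same genus. -/
theorem spec_data : Module.finrank (IntermediateField.adjoin R.k {R.jbar}) R.T = p + 1 ∧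
    genusFF R.k R.T = genusFF Qbar (FN p Qbar) := by
  obtain ⟨hg, hn, hn', hT⟩ := R.goodModel
  exact spec_congr hg hn hn' hT (xb := R.jbar) rfl

/-- `X₀(p)` has degree `p + 1` over the `j`-line. -/
theorem finrank_jL (R : Red p) : Module.finrank (IntermediateField.adjoin Qbar {jL p Qbar})
    (FN p Qbar) = p + 1 :=
  R.goodModel.1.toPreModel.finrank_adjoin

/-- The divisor of a function reduces to that of its reduction. -/
theorem mapDomain_divOf {f : FN p Qbar} (hf : R.Int' f) (h0 : R.redT f ≠ 0) :
    Finsupp.mapDomain R.r (divOf Qbar f) = divOf R.k (R.redT f) := by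
  obtain ⟨y, hy⟩ := id hf
  have hy' : coeffMap R.A.subtype y = (f : LaurentSeries Qbar) := hy
  have hred : R.red f = coeffMap R.res y := by
    rw [red, Fermat.RED.Model.redF_of_mem hf, ← Fermat.RED.Model.redHom_coeffMap R.res y ⟨y, rfl⟩]
    exact congrArg _ (Subtype.ext hy'.symm)
  refine Finsupp.ext fun Q => ?_
  rw [R.hr.compat y (hy'.symm ▸ f.2) (hred ▸ R.red_mem f)
    (fun e => h0 (Subtype.ext (hred.trans e))) _ (fun P => ?_) Q, divOf_apply]
  · exact congrArg Q.ord (Subtype.ext hred.symm)
  · rw [divOf_apply]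
    exact congrArg P.ord (Subtype.ext hy'.symm)

open Classical in
/-- The reduction of a divisor as a sum over the fibre. -/
theorem sum_fibre (D : Divisor Qbar (FN p Qbar)) (Q : Place R.k R.T) :
    Finsupp.mapDomain R.r D Q =
      ∑ P ∈ D.support, if R.r P = Q then D P else 0 := by
  classical
  rw [Finsupp.mapDomain, Finsupp.sum_apply, Finsupp.sum]
  exact Finset.sum_congr rfl fun P _ => Finsupp.single_apply

/-- A zero reduces to a zero, if no pole reduces to the same point. -/
theorem one_le_of_no_poles {g : FN p Qbar} (hg : R.Int' g) (h0 : R.redT g ≠ 0)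
    {P : Place Qbar (FN p Qbar)} {Q : Place R.k R.T} (hP : R.r P = Q)
    (hpole : ∀ P', R.r P' = Q → 0 ≤ P'.ord g) (hord : 0 < P.ord g) :
    1 ≤ Q.ord (R.redT g) := by
  classical
  have h := DFunLike.congr_fun (R.mapDomain_divOf hg h0) Q
  rw [divOf_apply, R.sum_fibre] at h
  rw [← h]
  refine le_trans (Int.add_one_le_iff.mpr hord) (le_trans ?_ (Finset.single_le_sum
    (f := fun P' => if R.r P' = Q then divOf Qbar g P' else 0) (fun P' _ => ?_) (a := P) ?_))
  · simp [hP]
  · split_ifs with h1
    · rw [divOf_apply]; exact hpole P' h1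
    · exact le_rfl
  · rw [Finsupp.mem_support_iff, divOf_apply]; omega

/-- The value at a point reduces to the value at its reduction, if no pole reduces there. -/
theorem res_evalAt {f : FN p Qbar} (hf : R.Int' f) {P : Place Qbar (FN p Qbar)} {Q : Place R.k R.T}
    (hP : R.r P = Q) (hpole : ∀ P', R.r P' = Q → OrdGE P' f 0) :
    ∃ h : evalAt P f ∈ R.A, R.res ⟨evalAt P f, h⟩ = evalAt Q (R.redT f) := by
  set b := evalAt P f
  have hb := evalAt_spec (hpole P hP)
  -- a non-integral value would make `1 - f / b` a function `≡ 1` with a zero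
  have hbA : b ∈ R.A := by
    by_contra hbA
    have hb0 : b ≠ 0 := fun h => hbA (h ▸ zero_mem _)
    have hinv : b⁻¹ ∈ R.A := (R.A.mem_or_inv_mem b).resolve_left hbA
    set g := 1 - algebraMap Qbar (FN p Qbar) b⁻¹ * f
    have hg : R.Int' g := R.int_sub (one_mem _) (R.int_mul (R.int_algebraMap hinv) hf)
    have hres : R.res ⟨b⁻¹, hinv⟩ = 0 :=
      Fermat.RED.Model.map_eq_zero_of_inv_notMem R.res_surjective (a := ⟨b⁻¹, hinv⟩)
        (by simpa using hbA)
    have hg1 : R.redT g = 1 := by
      rw [R.redT_sub (one_mem _) (R.int_mul (R.int_algebraMap hinv) hf),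
        R.redT_mul (R.int_algebraMap hinv) hf, R.redT_algebraMap hinv, hres, map_zero, zero_mul,
        sub_zero, R.redT_one]
    have hge : g = -(algebraMap Qbar (FN p Qbar) b⁻¹ * (f - algebraMap Qbar (FN p Qbar) b)) := by
      simp only [g, mul_sub, ← map_mul, inv_mul_cancel₀ hb0, map_one]
      ring
    have hg0 : g ≠ 0 := fun e => by
      rw [e, R.redT_zero] at hg1; exact zero_ne_one hg1
    have hord : 0 < P.ord g := by
      have h1 : OrdGE P g 1 := by
        rw [hge]; exact (((ordGE_algebraMap P _).mul hb).mono (by simp)).neg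
      have := h1.le_ord hg0
      omega
    have h1 := R.one_le_of_no_poles hg (by rw [hg1]; exact one_ne_zero) hP (fun P' hP' => by
      have h2 : OrdGE P' g 0 :=
        (ordGE_one P').sub (((ordGE_algebraMap P' _).mul (hpole P' hP')).mono (by simp))
      exact h2.le_ord hg0) hord
    rw [hg1, ← map_one (algebraMap R.k R.T), ord_algebraMap] at h1
    omega
  -- `f - b` vanishes at `P`, so its reduction vanishes at `Q`
  refine ⟨hbA, (evalAt_eq ?_).symm⟩
  set g := f - algebraMap Qbar (FN p Qbar) b
  have hgi : R.Int' g := R.int_sub hf (R.int_algebraMap hbA)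
  have he : R.redT g = R.redT f - algebraMap R.k R.T (R.res ⟨b, hbA⟩) := by
    rw [R.redT_sub hf (R.int_algebraMap hbA), R.redT_algebraMap hbA]
  rw [← he]
  rcases eq_or_ne (R.redT g) 0 with h0 | h0
  · rw [h0]; exact ordGE_zero Q 1
  have hg0 : g ≠ 0 := fun e => h0 (by rw [e, R.redT_zero])
  refine (ordGE_iff_of_ne h0).mpr (R.one_le_of_no_poles hgi h0 hP (fun P' hP' => ?_) ?_)
  · exact ((hpole P' hP').sub (ordGE_algebraMap P' b)).le_ord hg0
  · have := hb.le_ord hg0; omega

/-- The divisor of zeros is effective. -/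
theorem zeroDiv_nonneg {K F : Type*} [Field K] [IsAlgClosed K] [Field F] [Algebra K F]
    [IsFunctionField K F]
    (f : F) : 0 ≤ zeroDiv K f := Finsupp.le_def.mpr fun v => by simp

/-- The reduction of the divisor of `j - a` is the divisor of the reduction, zeros and poles
separated. -/
theorem fibre_balance {a : Qbar} (ha : a ∈ R.A) :
    Finsupp.mapDomain R.r (zeroDiv Qbar (jL p Qbar - algebraMap Qbar (FN p Qbar) a))
        + poleDiv R.k R.jbar =
      zeroDiv R.k (R.jbar - algebraMap R.k R.T (R.res ⟨a, ha⟩)) +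
        Finsupp.mapDomain R.r (poleDiv Qbar (jL p Qbar)) := by
  have hi := R.int_sub R.int_jL (R.int_algebraMap ha)
  have he : R.redT (jL p Qbar - algebraMap Qbar (FN p Qbar) a) =
      R.jbar - algebraMap R.k R.T (R.res ⟨a, ha⟩) := by
    rw [R.redT_sub R.int_jL (R.int_algebraMap ha), R.redT_algebraMap ha]
  have hne : R.jbar - algebraMap R.k R.T (R.res ⟨a, ha⟩) ≠ 0 := fun h =>
    R.transcendental_jbar (sub_eq_zero.mp h ▸ isAlgebraic_algebraMap _)
  have h := R.mapDomain_divOf hi (he ▸ hne)
  rw [he, divOf_eq_sub, divOf_eq_sub, Finsupp.mapDomain_sub,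
    poleDiv_sub_algebraMap, poleDiv_sub_algebraMap] at h
  linear_combination (norm := abel) h

/-- The zeros of `j - a` reduce onto those of `j̄ - ā`, and its poles onto the poles of `j̄`. -/
theorem fibre_eq {a : Qbar} (ha : a ∈ R.A) :
    Finsupp.mapDomain R.r (zeroDiv Qbar (jL p Qbar - algebraMap Qbar (FN p Qbar) a)) =
        zeroDiv R.k (R.jbar - algebraMap R.k R.T (R.res ⟨a, ha⟩)) ∧
      Finsupp.mapDomain R.r (poleDiv Qbar (jL p Qbar)) = poleDiv R.k R.jbar := by
  classical
  obtain ⟨⟨b, hb⟩, hbne⟩ : ∃ b : R.A, R.res b ≠ R.res ⟨a, ha⟩ := by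
    by_cases h : R.res ⟨a, ha⟩ = 0
    · exact ⟨1, by rw [h, map_one]; exact one_ne_zero⟩
    · exact ⟨0, by rw [map_zero]; exact fun e => h e.symm⟩
  set Za := zeroDiv R.k (R.jbar - algebraMap R.k R.T (R.res ⟨a, ha⟩))
  set Zb := zeroDiv R.k (R.jbar - algebraMap R.k R.T (R.res ⟨b, hb⟩))
  have hna : 0 ≤ Finsupp.mapDomain R.r
      (zeroDiv Qbar (jL p Qbar - algebraMap Qbar (FN p Qbar) a)) :=
    Finsupp.mapDomain_nonneg (f := R.r) (zeroDiv_nonneg _)
  have hnb : 0 ≤ Finsupp.mapDomain R.r
      (zeroDiv Qbar (jL p Qbar - algebraMap Qbar (FN p Qbar) b)) :=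
    Finsupp.mapDomain_nonneg (f := R.r) (zeroDiv_nonneg _)
  -- the balance at two values with disjoint fibres gives one inequality, the degrees give equality
  have h1 := R.fibre_balance ha
  have h2 := R.fibre_balance hb
  have hle : Za ≤ Finsupp.mapDomain R.r
      (zeroDiv Qbar (jL p Qbar - algebraMap Qbar (FN p Qbar) a)) := Finsupp.le_def.mpr fun Q => by
    have e1 := DFunLike.congr_fun h1 Q
    have e2 := DFunLike.congr_fun h2 Q
    simp only [Finsupp.add_apply] at e1 e2
    have n2 := Finsupp.le_def.mp hnb Q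
    have n1 := Finsupp.le_def.mp hna Q
    simp only [Finsupp.zero_apply] at n1 n2
    have hdisj : Za Q = 0 ∨ Zb Q = 0 := by
      by_contra hh
      push Not at hh
      simp only [Za, Zb, zeroDiv_apply] at hh
      have p1 : OrdGE Q (R.jbar - algebraMap R.k R.T (R.res ⟨a, ha⟩)) 1 :=
        ordGE_iff.mpr (.inr (by omega))
      have p2 : OrdGE Q (R.jbar - algebraMap R.k R.T (R.res ⟨b, hb⟩)) 1 :=
        ordGE_iff.mpr (.inr (by omega))
      exact hbne ((evalAt_eq p2).symm.trans (evalAt_eq p1))
    simp only [Za, Zb] at hdisj ⊢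
    rcases hdisj with h | h <;> omega
  have hdeg : Divisor.degree (Finsupp.mapDomain R.r
      (zeroDiv Qbar (jL p Qbar - algebraMap Qbar (FN p Qbar) a)) - Za) = 0 := by
    rw [map_sub, R.hr.degree_mapDomain, degree_zeroDiv_sub (Fermat.MC.transcendental_jL p) a,
      degree_zeroDiv_sub R.transcendental_jbar, R.finrank_jL, R.spec_data.1, sub_self]
  have hz := sub_eq_zero.mp (eq_zero_of_nonneg_of_degree (sub_nonneg.mpr hle) hdeg)
  refine ⟨hz, ?_⟩
  rw [hz] at h1
  exact (add_left_cancel h1).symm

/-- The cusp `∞` of the reduction. -/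
def inf : Place R.k R.T :=
  seriesPlace (ψ := R.T.val) ⟨R.jbar, fun hm => by
    change R.red (jL p Qbar) ∈ _ at hm
    rw [R.red_jL, mem_regSeries_iff_order (jqModC_ne_zero_of_nontrivial R.k), order_jqModC] at hm
    omega⟩

/-- The order at the reduced `∞` is the order of the series. -/
theorem ord_inf (f : R.T) : R.inf.ord f = (f : LaurentSeries R.k).order :=
  ord_seriesPlace _ (t := R.jbar)
    (by change (R.red (jL p Qbar)).order = -1; rw [R.red_jL, order_jqModC]) f

/-- The reduced `j` has a simple pole at the reduced `∞`. -/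
theorem ord_inf_jbar : R.inf.ord R.jbar = -1 := by
  rw [R.ord_inf]; change (R.red (jL p Qbar)).order = -1; rw [R.red_jL, order_jqModC]

/-- The poles of the reduced `j` are the reductions of `∞` once and of `0` `p` times. -/
theorem poles_eq :
    Finsupp.single (R.r (pinf p Qbar)) (1 : ℤ) + Finsupp.single (R.r (pzero p Qbar)) (p : ℤ) =
      poleDiv R.k R.jbar := by
  rw [← (R.fibre_eq (zero_mem R.A)).2, poleDiv_jL_eq R.finrank_jL, Finsupp.mapDomain_add,
    Finsupp.mapDomain_single, Finsupp.mapDomain_single]

/-- The cusp `∞` reduces to the reduced `∞`, the cusp `0` does not. -/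
theorem r_pinf : R.r (pinf p Qbar) = R.inf ∧ R.r (pzero p Qbar) ≠ R.inf := by
  classical
  have h := DFunLike.congr_fun R.poles_eq R.inf
  rw [Finsupp.add_apply, poleDiv_apply, R.ord_inf_jbar, Finsupp.single_apply,
    Finsupp.single_apply] at h
  have := hp.out.two_le
  split_ifs at h with h1 h2 h2 <;> simp at h ⊢ <;> first | omega | exact ⟨h1, h2⟩

/-- The cusp `∞` reduces to the reduced `∞`. -/
theorem r_pinf_eq : R.r (pinf p Qbar) = R.inf := R.r_pinf.1

/-- The cusp `0` does not reduce to the reduced `∞`. -/
theorem r_pzero_ne : R.r (pzero p Qbar) ≠ R.inf := R.r_pinf.2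

end Red

end Fermat.HT.Cusp

end
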