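import Fermat.Agent.HT.Cusp.Immersion
import Mathlib.LinearAlgebra.Dual.Lemmas

/-!
# The `ℓ`-torsion of the kernel of reduction where `T_ℓ` is invertible

Such classes live at the scale `π₀` with `π₀ ^ (ℓ - 1) = ℓ`, where the digit satisfies
`Λ + (Λ ∘ T_ℓ) ^ ℓ = 0`; the solutions of such a system are few.
-/

set_option autoImplicit false
set_option linter.unusedSectionVars false

attribute [local instance 10000] SubalgebraClass.toAlgebra HahnSeries.powerSeriesAlgebra

noncomputable section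

open ModularCurve AlgebraicCurve

namespace Fermat.HT.Cusp

open Fermat.MC Fermat.JAC.X0
open Fermat.GR (FullHecke)
open ModularFormClass (qCoeff)

/-! ### Twisted fixed functionals -/

section Sol

variable {k : Type*} [Field k] {n : ℕ} [Fact n.Prime] [CharP k n]
variable {W : Type*} [AddCommGroup W] [Module (ZMod n) W] [Module.Finite (ZMod n) W]
variable (τ : W →+ W)

variable (k) in
/-- Functionals with `Λ + (Λ ∘ τ) ^ n = 0`. -/
def solSub : AddSubgroup (W →+ k) where
  carrier := {Λ | ∀ w, Λ w + Λ (τ w) ^ n = 0}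
  zero_mem' := fun w => by simp [zero_pow (Fact.out : n.Prime).ne_zero]
  add_mem' := fun {a b} ha hb w => by
    rw [AddMonoidHom.add_apply, AddMonoidHom.add_apply, add_pow_char, add_add_add_comm, ha, hb,
      add_zero]
  neg_mem' := fun {a} ha w => by
    have hneg : ∀ x : k, (-x) ^ n = -(x ^ n) := fun x => map_neg (frobenius k n) x
    rw [AddMonoidHom.neg_apply, AddMonoidHom.neg_apply, hneg, ← neg_add, ha, neg_zero]

/-- Independent solutions over the prime field are independent over `k`. -/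
theorem linearIndependent_sol {m : ℕ} (v : Fin m → W →+ k) (hv : ∀ i, v i ∈ solSub k τ)
    (hli : ∀ c : Fin m → ℕ, ∑ i, c i • v i = 0 → ∀ i, n ∣ c i) :
    LinearIndependent k fun i => (v i : W → k) := by
  have := ZMod.algebra k n
  induction m with
  | zero => exact linearIndependent_empty_type
  | succ m ih =>
    have htail : LinearIndependent k fun i : Fin m => (v i.succ : W → k) :=
      ih (fun i => v i.succ) (fun i => hv _) fun c hc i => by
        have h := hli (Fin.cons 0 c) (by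
          rw [Fin.sum_univ_succ, Fin.cons_zero, zero_smul, zero_add]
          simpa only [Fin.cons_succ] using hc) i.succ
        simpa using h
    rw [linearIndependent_finSucc]
    refine ⟨htail, fun hmem => ?_⟩
    obtain ⟨c, hc⟩ := (Submodule.mem_span_range_iff_exists_fun k).mp hmem
    have hc' : ∀ w, ∑ i, c i * v i.succ w = v 0 w := fun w => by
      have := congrFun hc w
      simpa [Fin.tail] using this
    -- a relation twisted by `τ` and raised to the `n`-th power shows the coefficients lie in `𝔽_n`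
    have hfix : ∀ i, c i ^ n = c i := by
      have h0 : ∑ i, (c i ^ n - c i) • (v i.succ : W → k) = 0 := funext fun w => by
        have h1 := congrArg (· ^ n) (hc' (τ w))
        simp only [sum_pow_char, mul_pow] at h1
        have h2 : ∀ i, v i (τ w) ^ n = -v i w := fun i => eq_neg_of_add_eq_zero_right (hv i w)
        simp only [h2, mul_neg, Finset.sum_neg_distrib, neg_inj] at h1
        simp only [Finset.sum_apply, Pi.smul_apply, smul_eq_mul, sub_mul, Finset.sum_sub_distrib,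
          h1, hc', sub_self, Pi.zero_apply]
      exact fun i => sub_eq_zero.mp (Fintype.linearIndependent_iff.mp htail _ h0 i)
    have hd : ∀ i, ∃ d : ℕ, (d : k) = c i := fun i => by
      obtain ⟨z, hz⟩ : c i ∈ (algebraMap (ZMod n) k).fieldRange := by
        have h0 := (Subfield.mem_bot_iff_pow_eq_self k n).mpr (hfix i)
        rw [← ZMod.fieldRange_castHom_eq_bot n] at h0
        rwa [show algebraMap (ZMod n) k = ZMod.castHom dvd_rfl k from RingHom.ext_zmod _ _]
      exact ⟨z.val, by rw [← hz, ← map_natCast (algebraMap (ZMod n) k), ZMod.natCast_zmod_val]⟩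
    choose d hd using hd
    have h := hli (Fin.cons (n - 1) d) (AddMonoidHom.ext fun w => by
      rw [Fin.sum_univ_succ, Fin.cons_zero]
      simp only [Fin.cons_succ, AddMonoidHom.add_apply, AddMonoidHom.finsetSum_apply,
        AddMonoidHom.nsmul_apply, nsmul_eq_mul, hd, hc', AddMonoidHom.zero_apply]
      rw [Nat.cast_sub (Fact.out : n.Prime).one_le, CharP.cast_eq_zero, Nat.cast_one]
      ring) 0
    rw [Fin.cons_zero] at h
    exact absurd (Nat.le_of_dvd (by have := (Fact.out : n.Prime).two_le; omega) h)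
      (by have := (Fact.out : n.Prime).two_le; omega)

/-- The solutions form a vector space over `𝔽_n`. -/
instance solModule : Module (ZMod n) (solSub k τ) := AddCommGroup.zmodModule fun x => Subtype.ext
  (AddMonoidHom.ext fun w => by simp [nsmul_eq_mul])

/-- There are at most `|W|` solutions. -/
theorem card_solSub_le : Finite (solSub k τ) ∧ Nat.card (solSub k τ) ≤ Nat.card W := by
  classical
  have := ZMod.algebra k n
  have : Finite W := Module.finite_of_finite (ZMod n)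
  set bW := Module.finBasis (ZMod n) W
  have hval : ∀ (Λ : W →+ k) w, Λ w = ∑ i, (bW.repr w i).val • Λ (bW i) := fun Λ w => by
    conv_lhs => rw [← bW.sum_repr w]
    rw [map_sum]
    refine Finset.sum_congr rfl fun i _ => ?_
    rw [← map_nsmul, ← Nat.cast_smul_eq_nsmul (ZMod n), ZMod.natCast_zmod_val]
  -- independent solutions are independent on a basis of `W`
  have hrank : Module.rank (ZMod n) (solSub k τ) ≤ Module.finrank (ZMod n) W := by
    refine rank_le fun s hs => ?_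
    let v : Fin s.card → W →+ k := fun i => ((s.equivFin.symm i : solSub k τ) : W →+ k)
    have h1 : LinearIndependent k fun i => (v i : W → k) := by
      refine linearIndependent_sol τ v (fun i => (s.equivFin.symm i : solSub k τ).2)
        fun c hc i => ?_
      have hs' := hs.comp _ s.equivFin.symm.injective
      refine (ZMod.natCast_eq_zero_iff _ _).mp
        (Fintype.linearIndependent_iff.mp hs' (fun j => (c j : ZMod n)) (Subtype.ext ?_) i)
      rw [Finset.sum_congr rfl fun j _ => Nat.cast_smul_eq_nsmul (ZMod n) (c j) _,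
        AddSubmonoidClass.coe_finsetSum]
      simpa [v] using hc
    have h2 : LinearIndependent k fun i (j : Fin (Module.finrank (ZMod n) W)) => v i (bW j) := by
      rw [Fintype.linearIndependent_iff] at h1 ⊢
      refine fun g hg i => h1 g (funext fun w => ?_) i
      simp only [Finset.sum_apply, Pi.smul_apply, smul_eq_mul, Pi.zero_apply, hval _ w,
        Finset.mul_sum]
      rw [Finset.sum_comm]
      refine Finset.sum_eq_zero fun j _ => ?_
      simp only [mul_smul_comm, ← Finset.smul_sum]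
      rw [show ∑ x, g x * v x (bW j) = 0 by simpa using congrFun hg j, smul_zero]
    have h3 := h2.fintype_card_le_finrank
    simpa using h3
  have : IsNoetherian (ZMod n) (solSub k τ) :=
    IsNoetherian.iff_rank_lt_aleph0.mpr (hrank.trans_lt Cardinal.natCast_lt_aleph0)
  have hfin : Module.Finite (ZMod n) (solSub k τ) := Module.IsNoetherian.finite (ZMod n) _
  have : Finite (solSub k τ) := @Module.finite_of_finite (ZMod n) (solSub k τ) _ _ _ _ hfin
  refine ⟨inferInstance, ?_⟩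
  rw [Module.natCard_eq_pow_finrank (K := ZMod n) (V := solSub k τ),
    Module.natCard_eq_pow_finrank (K := ZMod n) (V := W)]
  refine Nat.pow_le_pow_right (Nat.card_pos) ?_
  exact Module.finrank_le_of_rank_le hrank

end Sol

/-! ### The scale of a torsion class -/

variable {p : ℕ} [hp : Fact p.Prime] [NeZero p]

namespace Red

variable (R : Red p)

/-- The pairing of an `ℓ`-th power is the `ℓ`-th power of the pairing with the `T_ℓ` image. -/
theorem pair_pow_ell (F : LaurentSeries R.k) {a b : ℕ → ℤ}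
    (hab : ∀ n, (R.ℓ : ℤ) ∣ a (n * R.ℓ) - b n) : R.pair (F ^ R.ℓ) a = R.pair F b ^ R.ℓ := by
  have := R.charP_k
  have : Fact R.ℓ.Prime := ⟨R.hℓ⟩
  have : NeZero R.ℓ := ⟨R.hℓ.ne_zero⟩
  have h1 : ((F * aSer R.k b) ^ R.ℓ).coeff 0 = R.pair F b ^ R.ℓ := by
    rw [Fermat.RED.laurent_pow_char, ← Int.mul_zero (R.ℓ : ℤ), qExpand_coeff_mul]
    rfl
  have h2 : (aSer R.k b) ^ R.ℓ = qExpand R.k R.ℓ (aSer R.k b) := by
    rw [Fermat.RED.laurent_pow_char, coeffMap_aSer]
  rw [← h1, mul_pow, h2, pair, ← sub_eq_zero, ← HahnSeries.coeff_sub, ← mul_sub,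
    HahnSeries.coeff_mul]
  refine Finset.sum_eq_zero fun ij hij => ?_
  rw [Finset.mem_antidiagonal] at hij
  obtain ⟨-, -, hsum⟩ := hij
  by_cases hd : (R.ℓ : ℤ) ∣ ij.1
  · obtain ⟨m, hm⟩ := hd
    have hj : ij.2 = (R.ℓ : ℤ) * (-m) := by rw [mul_neg, ← hm]; omega
    rw [hj, HahnSeries.coeff_sub, qExpand_coeff_mul]
    rcases lt_or_ge (-m) 0 with h | h
    · rw [coeff_aSer_of_neg _ h, coeff_aSer_of_neg _ (mul_neg_of_pos_of_neg
        (by exact_mod_cast R.hℓ.pos) h), sub_zero, mul_zero]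
    · obtain ⟨i, hi⟩ := Int.eq_ofNat_of_zero_le h
      rw [hi, coeff_aSer, show (R.ℓ : ℤ) * (i : ℤ) = ((i * R.ℓ : ℕ) : ℤ) by push_cast; ring,
        coeff_aSer, ← Int.cast_sub, (CharP.intCast_eq_zero_iff R.k R.ℓ _).mpr (hab i), mul_zero]
  · rw [Fermat.RED.laurent_pow_char, qExpand_coeff_of_not_dvd _ _ hd, zero_mul]

/-- `T_ℓ` as an element of the Hecke algebra. -/
def Tell : FullHecke p := CuspForm.heckeAlgebra.T R.hℓ R.not_dvd (Set.notMem_empty R.ℓ)

/-- The image of a form by `T_ℓ` is congruent to the coefficients in degrees divisible by `ℓ`. -/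
theorem Tell_congr {a b : ℕ → ℤ}
    (h : IsActSeq (R.Tell : Module.End ℂ (CuspForm (CongruenceSubgroup.Gamma0 p) 2)) a b) (n : ℕ) :
    (R.ℓ : ℤ) ∣ a (n * R.ℓ) - b n := by
  obtain ⟨g, hga, hgb⟩ := h
  have h1 := qCoeff_heckeT_two R.hℓ R.not_dvd g n
  have h2 : qCoeff (CuspForm.heckeTLin 2 R.hℓ R.not_dvd g) n = (b n : ℂ) := hgb n
  rw [h2, hga, hga] at h1
  have h3 : b n = a (n * R.ℓ) + if R.ℓ ∣ n then (R.ℓ : ℤ) * a (n / R.ℓ) else 0 := by
    split_ifs at h1 ⊢ <;> exact_mod_cast h1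
  rw [h3]
  split_ifs
  · exact ⟨-a (n / R.ℓ), by ring⟩
  · simp

/-- Multiplication by `ℓ` at or above the threshold. -/
theorem torsion_relation {π : Qbar} (hπ : R.IsScale π) (w : R.scaleSub hπ)
    (htor : R.ℓ • (w : Pic0 Qbar (FN p Qbar)) = 0) (hr : (R.ℓ : Qbar) / π ^ (R.ℓ - 1) ∈ R.A)
    {a b : ℕ → ℤ} (ha : IsIntForm p a) (hb : IsIntForm p b)
    (hab : IsActSeq (R.Tell : Module.End ℂ (CuspForm (CongruenceSubgroup.Gamma0 p) 2)) a b) :
    R.res ⟨_, hr⟩ * R.lam hπ w ⟨a, ha⟩ + R.lam hπ w ⟨b, hb⟩ ^ R.ℓ = 0 := by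
  obtain ⟨w, s, hs⟩ := w
  have H := isRep_of_pres hπ hs
  obtain ⟨G₁, hG₁, -⟩ := H.npow hπ R.ℓ
  obtain ⟨E, hE, hE', he⟩ := H.pow_ell_eq hπ
  set F := tfun π s
  set X := algebraMap Qbar (FN p Qbar)
  have m1 := R.int_mul (R.int_algebraMap hr) hE
  have m2 := R.int_pow H.intF R.ℓ
  have hp0 : π ^ (R.ℓ - 1) ≠ 0 := pow_ne_zero _ hπ.ne_zero
  have hsplit : π ^ R.ℓ = π ^ (R.ℓ - 1) * π := by
    rw [← pow_succ, Nat.sub_add_cancel R.hℓ.one_le]
  have hrep : R.IsRep (π ^ R.ℓ) 0 _ (X ((R.ℓ : Qbar) / π ^ (R.ℓ - 1)) * E + F ^ R.ℓ) _ :=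
    ⟨hG₁.intJ, hG₁.int, hG₁.red_one, (by
      rw [he, mul_add, ← mul_assoc, ← map_mul, add_assoc]
      congr 4
      rw [hsplit]; field_simp), R.int_add m1 m2, fun t ht => (hG₁.cls_eq t ht).trans htor⟩
  have h0 := hrep.pair_eq_zero (pow_ne_zero _ hπ.ne_zero) ha
  have e : R.red (X ((R.ℓ : Qbar) / π ^ (R.ℓ - 1)) * E + F ^ R.ℓ) =
      algebraMap R.k (LaurentSeries R.k) (R.res ⟨_, hr⟩) * R.red F + R.red F ^ R.ℓ := by
    have hpow : R.redT (F ^ R.ℓ) = R.redT F ^ R.ℓ :=
      map_pow R.redS (⟨F, H.intF⟩ : R.intSub) R.ℓ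
    exact congrArg Subtype.val (show R.redT (X _ * E + F ^ R.ℓ) =
        algebraMap R.k R.T (R.res ⟨_, hr⟩) * R.redT F + R.redT F ^ R.ℓ by
      rw [R.redT_add m1 m2, R.redT_mul (R.int_algebraMap hr) hE, R.redT_algebraMap hr, hE', hpow])
  rw [e, pair_add, R.pair_pow_ell _ (R.Tell_congr hab), pair, mul_assoc,
    Fermat.RED.coeff_algebraMap_mul] at h0
  rw [R.lam_eq hπ hs ⟨a, ha⟩, R.lam_eq hπ hs ⟨b, hb⟩]
  exact h0

/-- An `ℓ`-torsion class on which `T_ℓ` is invertible has scale `π₀`, `π₀ ^ (ℓ - 1) = ℓ`. -/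
theorem torsion_scale {π₀ : Qbar} (h₀ : π₀ ^ (R.ℓ - 1) = R.ℓ) {w : Pic0 Qbar (FN p Qbar)}
    (hw : R.redJ w = 0) (htor : R.ℓ • w = 0) (s : FullHecke p)
    (hs : jAct p s (jAct p R.Tell w) = w) :
    ∃ (hπ : R.IsScale π₀) (hm : w ∈ R.scaleSub hπ),
      (∀ a b (ha : IsIntForm p a) (hb : IsIntForm p b),
        IsActSeq (R.Tell : Module.End ℂ (CuspForm (CongruenceSubgroup.Gamma0 p) 2)) a b →
          R.lam hπ ⟨w, hm⟩ ⟨a, ha⟩ + R.lam hπ ⟨w, hm⟩ ⟨b, hb⟩ ^ R.ℓ = 0) ∧
      (R.lam hπ ⟨w, hm⟩ = 0 → w = 0) := by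
  have h1 : 1 ≤ R.ℓ - 1 := by have := R.hℓ.two_le; omega
  have hℓ0 : (R.ℓ : Qbar) ≠ 0 := Nat.cast_ne_zero.mpr R.hℓ.ne_zero
  have hvℓ : R.A.valuation (R.ℓ : Qbar) < 1 := (R.res_eq_zero_iff _).mp R.res_ell
  have hv0 : R.A.valuation π₀ < 1 := by
    by_contra hc
    rw [← h₀, map_pow] at hvℓ
    exact not_lt.mpr (one_le_pow₀ (not_lt.mp hc)) hvℓ
  have hπ₀ne : π₀ ≠ 0 := fun h => by
    rw [h, zero_pow (by omega)] at h₀; exact hℓ0 h₀.symm
  have hπ₀A : π₀ ∈ R.A := (R.A.valuation_le_one_iff _).mp hv0.le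
  have hπ₀ : R.IsScale π₀ := ⟨hπ₀ne, hπ₀A, (R.res_eq_zero_iff hπ₀A).mpr hv0⟩
  rcases eq_or_ne w 0 with rfl | hw0
  · refine ⟨hπ₀, zero_mem _, fun a b ha hb _ => ?_, fun _ => rfl⟩
    have e : (⟨0, zero_mem _⟩ : R.scaleSub hπ₀) = 0 := rfl
    rw [e, map_zero, Pi.zero_apply, Pi.zero_apply, zero_pow R.hℓ.ne_zero, add_zero]
  obtain ⟨π, hπ, hm, hne⟩ := R.exists_lam_ne_zero hw hw0
  have hπne : π ^ (R.ℓ - 1) ≠ 0 := pow_ne_zero _ hπ.ne_zero
  rcases lt_trichotomy (R.A.valuation (π ^ (R.ℓ - 1))) (R.A.valuation (R.ℓ : Qbar)) with h | h | h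
  · -- below the threshold: the digit vanishes
    have hd : R.A.valuation (π ^ (R.ℓ - 1) / R.ℓ) < 1 := by
      rw [map_div₀]
      exact (div_lt_one₀ ((Valuation.pos_iff _).mpr hℓ0)).mpr h
    have hmem := (R.A.valuation_le_one_iff _).mp hd.le
    exact absurd (R.lam_eq_zero_of_torsion hπ ⟨hmem, (R.res_eq_zero_iff hmem).mpr hd⟩ ⟨w, hm⟩
      R.hℓ.ne_zero htor) hne
  · -- the threshold
    rw [← h₀, map_pow, map_pow, pow_left_inj₀ zero_le zero_le (by omega)] at h
    have hdiv : π / π₀ ∈ R.A := (R.A.valuation_le_one_iff _).mp (by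
      rw [map_div₀, h, div_self ((Valuation.ne_zero_iff _).mpr hπ₀ne)])
    have hunit : R.res ⟨_, hdiv⟩ ≠ 0 := fun e => by
      have := (R.res_eq_zero_iff hdiv).mp e
      rw [map_div₀, h, div_self ((Valuation.ne_zero_iff _).mpr hπ₀ne)] at this
      exact lt_irrefl _ this
    -- `obtain` from a local hypothesis skips a slow search for the proof term in the goal
    have hm' := R.mem_scaleSub.mp hm
    obtain ⟨t, ht⟩ := hm'
    have hresc := IsPres.rescale R hπ.ne_zero ht hdiv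
    obtain ⟨ht', htlam⟩ := hresc
    refine ⟨hπ₀, ⟨t, ht'⟩, fun a b ha hb hab => ?_, fun hzero => absurd (funext fun a => ?_) hne⟩
    · have hr : (R.ℓ : Qbar) / π₀ ^ (R.ℓ - 1) ∈ R.A := by rw [h₀, div_self hℓ0]; exact one_mem _
      have h3 := R.torsion_relation hπ₀ ⟨w, t, ht'⟩ htor hr ha hb hab
      rwa [show (⟨_, hr⟩ : R.A) = 1 from Subtype.ext (show (R.ℓ : Qbar) / π₀ ^ (R.ℓ - 1) = 1 by
        rw [h₀, div_self hℓ0]), map_one,
        one_mul] at h3
    · have h4 := congrFun hzero a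
      rw [R.lam_eq hπ₀ ht', htlam] at h4
      rw [R.lam_eq hπ ht]
      exact (mul_eq_zero.mp h4).resolve_left hunit
  · -- above the threshold: `T_ℓ` kills the digit
    have hd : R.A.valuation ((R.ℓ : Qbar) / π ^ (R.ℓ - 1)) < 1 := by
      rw [map_div₀]
      exact (div_lt_one₀ ((Valuation.pos_iff _).mpr hπne)).mpr h
    have hmem := (R.A.valuation_le_one_iff _).mp hd.le
    have hkill : ∀ a b (ha : IsIntForm p a) (hb : IsIntForm p b),
        IsActSeq (R.Tell : Module.End ℂ (CuspForm (CongruenceSubgroup.Gamma0 p) 2)) a b →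
          R.lam hπ ⟨w, hm⟩ ⟨b, hb⟩ = 0 := fun a b ha hb hab => by
      have h3 := R.torsion_relation hπ ⟨w, hm⟩ htor hmem ha hb hab
      rw [(R.res_eq_zero_iff hmem).mpr hd, zero_mul, zero_add] at h3
      exact eq_zero_of_pow_eq_zero h3
    have hscale1 := (R.jAct_scale R.Tell).2 π hπ w hm
    obtain ⟨hm1, h1'⟩ := hscale1
    have hT : R.lam hπ ⟨_, hm1⟩ = 0 := funext fun a => by
      obtain ⟨b, hab⟩ := (R.jAct_scale R.Tell).1 a.1 a.2
      rw [h1' a.1 b a.2 hab.isIntForm_right hab]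
      exact hkill a.1 b a.2 hab.isIntForm_right hab
    have hscale2 := (R.jAct_scale s).2 π hπ _ hm1
    obtain ⟨hm2, h2'⟩ := hscale2
    refine absurd (funext fun a => ?_) hne
    obtain ⟨b, hab⟩ := (R.jAct_scale s).1 a.1 a.2
    have h4 := h2' a.1 b a.2 hab.isIntForm_right hab
    rw [hT, Pi.zero_apply] at h4
    rw [show (⟨w, hm⟩ : R.scaleSub hπ) = ⟨_, hm2⟩ from Subtype.ext hs.symm]
    exact h4

end Red

/-! ### The count -/

/-- The image sequence is unique. -/
theorem IsActSeq.unique {t : Module.End ℂ (CuspForm (CongruenceSubgroup.Gamma0 p) 2)}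
    {a b b' : ℕ → ℤ} (h : IsActSeq t a b) (h' : IsActSeq t a b') : b = b' := by
  obtain ⟨g, hga, hgb⟩ := h
  obtain ⟨g', hga', hgb'⟩ := h'
  obtain rfl : g = g' := MC.eq_of_qCoeff fun n => by rw [hga, hga']
  exact funext fun n => Int.cast_injective (α := ℂ) ((hgb n).symm.trans (hgb' n))

/-- Image sequences compose. -/
theorem IsActSeq.comp {t u : Module.End ℂ (CuspForm (CongruenceSubgroup.Gamma0 p) 2)}
    {a b c : ℕ → ℤ} (h : IsActSeq u a b) (h' : IsActSeq t b c) : IsActSeq (t * u) a c := by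
  obtain ⟨g, hga, hgb⟩ := h
  obtain ⟨g', hga', hgb'⟩ := h'
  obtain rfl : g' = u g := MC.eq_of_qCoeff fun n => by rw [hga', hgb]
  exact ⟨g, hga, fun n => by rw [Module.End.mul_apply, hgb']⟩

variable (p) in
/-- The sequences of integral forms. -/
def intForms : AddSubgroup (ℕ → ℤ) where
  carrier := {a | IsIntForm p a}
  zero_mem' := ⟨0, fun n => by rw [Fermat.MF.Eisen.qCoeff_form_zero]; simp⟩
  add_mem' := IsIntForm.add
  neg_mem' := fun {a} ha => by simpa using ha.zsmul (-1)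

/-- The image of a sequence. -/
def Red.act (R : Red p) (t : FullHecke p) (a : intForms p) : intForms p :=
  ⟨_, ((R.jAct_scale t).1 a.1 a.2).choose_spec.isIntForm_right⟩

/-- `act` gives an image sequence. -/
theorem Red.act_spec (R : Red p) (t : FullHecke p) (a : intForms p) :
    IsActSeq (t : Module.End ℂ (CuspForm (CongruenceSubgroup.Gamma0 p) 2)) a.1 (R.act t a).1 :=
  ((R.jAct_scale t).1 a.1 a.2).choose_spec

/-- `act` is multiplicative. -/
theorem Red.act_mul (R : Red p) (t u : FullHecke p) (a : intForms p) :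
    R.act (t * u) a = R.act t (R.act u a) :=
  Subtype.ext ((R.act_spec (t * u) a).unique ((R.act_spec u a).comp (R.act_spec t _)))

/-- `act` is additive in the form. -/
theorem Red.act_add_right (R : Red p) (t : FullHecke p) (a b : intForms p) :
    R.act t (a + b) = R.act t a + R.act t b := by
  refine Subtype.ext ((R.act_spec t (a + b)).unique ?_)
  obtain ⟨g, hga, hgb⟩ := R.act_spec t a
  obtain ⟨g', hga', hgb'⟩ := R.act_spec t b
  exact ⟨g + g', fun n => by
      rw [Fermat.MF.Eisen.qCoeff_form_add, hga, hga', AddSubgroup.coe_add, Pi.add_apply,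
        Int.cast_add],
    fun n => by
      rw [map_add, Fermat.MF.Eisen.qCoeff_form_add, hgb, hgb', AddSubgroup.coe_add, Pi.add_apply,
        Int.cast_add]⟩

/-- `act` is additive in the operator. -/
theorem Red.act_add_left (R : Red p) (t u : FullHecke p) (a : intForms p) :
    R.act (t + u) a = R.act t a + R.act u a := by
  refine Subtype.ext ((R.act_spec (t + u) a).unique ?_)
  obtain ⟨g, hga, hgb⟩ := R.act_spec t a
  obtain ⟨g', hga', hgb'⟩ := R.act_spec u a
  obtain rfl : g = g' := MC.eq_of_qCoeff fun n => by rw [hga, hga']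
  exact ⟨g, hga, fun n => by
    rw [show ((t + u : FullHecke p) : Module.End ℂ (CuspForm (CongruenceSubgroup.Gamma0 p) 2)) g =
      (t : Module.End ℂ _) g + (u : Module.End ℂ _) g from rfl,
      Fermat.MF.Eisen.qCoeff_form_add, hgb, hgb', AddSubgroup.coe_add, Pi.add_apply, Int.cast_add]⟩

namespace Red

variable (R : Red p)

/-- `T_ℓ`-invertible `ℓ`-torsion in the kernel of reduction fixed by `e`. -/
def torSub (e s : FullHecke p) : AddSubgroup (Pic0 Qbar (FN p Qbar)) where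
  carrier := {w | R.redJ w = 0 ∧ R.ℓ • w = 0 ∧ jAct p e w = w ∧ jAct p s (jAct p R.Tell w) = w}
  zero_mem' := by simp
  add_mem' := fun {a b} ha hb =>
    ⟨((map_add R.redJ a b).trans (congrArg₂ (· + ·) ha.1 hb.1)).trans (add_zero 0),
      ((nsmul_add a b R.ℓ).trans (congrArg₂ (· + ·) ha.2.1 hb.2.1)).trans (add_zero 0),
      (map_add (jAct p e) a b).trans (congrArg₂ (· + ·) ha.2.2.1 hb.2.2.1),
      ((congrArg _ (map_add (jAct p R.Tell) a b)).trans (map_add (jAct p s) _ _)).trans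
        (congrArg₂ (· + ·) ha.2.2.2 hb.2.2.2)⟩
  neg_mem' := fun {a} ha =>
    ⟨((map_neg R.redJ a).trans (congrArg Neg.neg ha.1)).trans neg_zero,
      ((neg_nsmul a R.ℓ).trans (congrArg Neg.neg ha.2.1)).trans neg_zero,
      (map_neg (jAct p e) a).trans (congrArg Neg.neg ha.2.2.1),
      ((congrArg _ (map_neg (jAct p R.Tell) a)).trans (map_neg (jAct p s) _)).trans
        (congrArg Neg.neg ha.2.2.2)⟩

/-- The functional `t ↦ a₁ (e t a)` modulo `ℓ` of a form. -/
def fnl (e : FullHecke p) : intForms p →+ (FullHecke p →+ ZMod R.ℓ) :=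
  AddMonoidHom.mk' (fun a => AddMonoidHom.mk'
    (fun t => (((R.act (e * t) a).1 1 : ℤ) : ZMod R.ℓ)) fun t u => by
      rw [mul_add, R.act_add_left, AddSubgroup.coe_add, Pi.add_apply, Int.cast_add])
    fun a b => AddMonoidHom.ext fun t => by
      change (((R.act (e * t) (a + b)).1 1 : ℤ) : ZMod R.ℓ) =
        ((R.act (e * t) a).1 1 : ℤ) + ((R.act (e * t) b).1 1 : ℤ)
      rw [R.act_add_right, AddSubgroup.coe_add, Pi.add_apply, Int.cast_add]

/-- The value of `fnl`. -/
theorem fnl_apply (e : FullHecke p) (a : intForms p) (t : FullHecke p) :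
    R.fnl e a t = (((R.act (e * t) a).1 1 : ℤ) : ZMod R.ℓ) := rfl

/-- Every coefficient is the first coefficient of a Hecke image. -/
theorem exists_coeff_eq {n : ℕ} (hn : 1 ≤ n) :
    ∃ t : FullHecke p, ∀ b : intForms p, (R.act t b).1 1 = b.1 n := by
  obtain ⟨w, -, hw⟩ := Fermat.MF.Eisen.exists_coeff_operator p n hn
  refine ⟨CuspForm.heckeEvalForms p 2 w, fun b => Int.cast_injective (α := ℂ) ?_⟩
  obtain ⟨g, hga, hgb⟩ := R.act_spec (CuspForm.heckeEvalForms p 2 w) b
  rw [← hgb, ← hga]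
  exact hw g

/-- A form killed by `fnl` has image by `e` divisible by `ℓ`. -/
theorem dvd_of_fnl_eq_zero {e : FullHecke p} {a : intForms p} (ha : R.fnl e a = 0) (n : ℕ) :
    (R.ℓ : ℤ) ∣ (R.act e a).1 n := by
  rcases Nat.eq_zero_or_pos n with rfl | hn
  · rw [IsIntForm.zero_coeff (R.act e a).2]; exact dvd_zero _
  obtain ⟨t, ht⟩ := R.exists_coeff_eq (p := p) hn
  have h2 := DFunLike.congr_fun ha t
  rw [fnl_apply, mul_comm, R.act_mul, ht] at h2
  exact (ZMod.intCast_zmod_eq_zero_iff_dvd _ R.ℓ).mp h2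

/-- The functionals form a vector space over `𝔽_ℓ`. -/
instance fnlModule (e : FullHecke p) : Module (ZMod R.ℓ) (R.fnl e).range :=
  AddCommGroup.zmodModule fun x => Subtype.ext (AddMonoidHom.ext fun t => by simp [nsmul_eq_mul])

/-- The shift by `T_ℓ` on the functionals. -/
def shift (e : FullHecke p) : (R.fnl e).range →+ (R.fnl e).range :=
  AddMonoidHom.mk' (fun f => ⟨f.1.comp (AddMonoidHom.mulRight R.Tell), by
    obtain ⟨_, a, rfl⟩ := f
    refine ⟨R.act R.Tell a, AddMonoidHom.ext fun t => ?_⟩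
    change (((R.act (e * t) (R.act R.Tell a)).1 1 : ℤ) : ZMod R.ℓ) =
      ((R.act (e * (t * R.Tell)) a).1 1 : ℤ)
    rw [← mul_assoc, R.act_mul (e * t)]⟩) fun f g => rfl

/-- The shift of the functional of a form is that of its image by `T_ℓ`. -/
theorem shift_mk (e : FullHecke p) (a : intForms p) :
    R.shift e ⟨R.fnl e a, a, rfl⟩ = ⟨R.fnl e (R.act R.Tell a), R.act R.Tell a, rfl⟩ :=
  Subtype.ext (AddMonoidHom.ext fun t => by
    change (((R.act (e * (t * R.Tell)) a).1 1 : ℤ) : ZMod R.ℓ) =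
      ((R.act (e * t) (R.act R.Tell a)).1 1 : ℤ)
    rw [← mul_assoc, R.act_mul (e * t)])

/-- The group `e (T / ℓ)`. -/
def eMod (e : FullHecke p) : AddSubgroup (FullHecke p ⧸ Ideal.span {(R.ℓ : FullHecke p)}) :=
  (AddMonoidHom.mulLeft (Ideal.Quotient.mk (Ideal.span {(R.ℓ : FullHecke p)}) e)).range

/-- Shortcut for the additive group `e (T / ℓ)`, as the generic search is slow. -/
private local instance eModAddCommGroup (e : FullHecke p) : AddCommGroup (R.eMod e) :=
  AddSubgroup.toAddCommGroup _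

/-- Shortcut for the additive monoid `e (T / ℓ)`. It is not private as `eModModule` mentions it. -/
local instance eModAddCommMonoid (e : FullHecke p) : AddCommMonoid (R.eMod e) :=
  (AddSubgroup.toAddCommGroup _).toAddCommMonoid

/-- Shortcut for the addition and zero of `e (T / ℓ)`. -/
private local instance eModAddZeroClass (e : FullHecke p) : AddZeroClass (R.eMod e) :=
  (AddSubgroup.toAddCommGroup _).toAddZeroClass

/-- The functionals depend only on `e t` modulo `ℓ`. -/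
theorem fnl_congr {e : FullHecke p} (a : intForms p) {t u : FullHecke p}
    (h : Ideal.Quotient.mk (Ideal.span {(R.ℓ : FullHecke p)}) (e * t) =
      Ideal.Quotient.mk (Ideal.span {(R.ℓ : FullHecke p)}) (e * u)) :
    R.fnl e a t = R.fnl e a u := by
  rw [Ideal.Quotient.mk_eq_mk_iff_sub_mem, Ideal.mem_span_singleton] at h
  obtain ⟨x, hx⟩ := h
  let φ : FullHecke p →+ ℤ := AddMonoidHom.mk' (fun t => (R.act t a).1 1) fun t u => by
    change (R.act (t + u) a).1 1 = _
    rw [R.act_add_left]; rfl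
  change ((φ (e * t) : ℤ) : ZMod R.ℓ) = (φ (e * u) : ℤ)
  rw [show e * t = e * u + R.ℓ • x by rw [nsmul_eq_mul, ← hx, add_sub_cancel], map_add, map_nsmul,
    Int.cast_add, nsmul_eq_mul, Int.cast_mul, Int.cast_natCast, ZMod.natCast_self, zero_mul,
    add_zero]

/-- `ℓ` kills `T / ℓ`. -/
theorem smul_quotient_eq_zero (y : FullHecke p ⧸ Ideal.span {(R.ℓ : FullHecke p)}) :
    R.ℓ • y = 0 := by
  rw [nsmul_eq_mul, show ((R.ℓ : ℕ) : FullHecke p ⧸ Ideal.span {(R.ℓ : FullHecke p)}) =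
      Ideal.Quotient.mk _ (R.ℓ : FullHecke p) from (map_natCast _ _).symm,
    Ideal.Quotient.eq_zero_iff_mem.mpr (Ideal.mem_span_singleton_self _), zero_mul]

/-- `e (T / ℓ)` is a vector space over `𝔽_ℓ`. -/
instance eModModule (e : FullHecke p) : Module (ZMod R.ℓ) (R.eMod e) :=
  AddCommGroup.zmodModule fun x => Subtype.ext (R.smul_quotient_eq_zero x.1)

/-- `T / ℓ` is finite. -/
theorem finite_quotient : Finite (FullHecke p ⧸ Ideal.span {(R.ℓ : FullHecke p)}) := by
  have : Module.Finite ℤ (FullHecke p) := Fermat.MC.moduleFinite_heckeAlgebra p 2 ∅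
  have : Module.Finite ℤ (FullHecke p ⧸ Ideal.span {(R.ℓ : FullHecke p)}) :=
    Module.Finite.of_surjective
      ((Ideal.Quotient.mk (Ideal.span {(R.ℓ : FullHecke p)})).toAddMonoidHom.toIntLinearMap)
      Ideal.Quotient.mk_surjective
  refine Module.finite_of_fg_torsion _ fun x => ?_
  refine ⟨⟨(R.ℓ : ℤ), mem_nonZeroDivisors_of_ne_zero (Int.natCast_ne_zero.mpr R.hℓ.ne_zero)⟩, ?_⟩
  change (R.ℓ : ℤ) • x = 0
  rw [natCast_zsmul, R.smul_quotient_eq_zero]

/-- The image of the digit functional is no larger than the `e`-part modulo `ℓ`. -/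
theorem card_fnl_range_le (e : FullHecke p) :
    Finite (R.fnl e).range ∧ Nat.card (R.fnl e).range ≤ Nat.card (R.eMod e) := by
  have : Fact R.ℓ.Prime := ⟨R.hℓ⟩
  have := R.finite_quotient (p := p)
  have : Finite (R.eMod e) := inferInstance
  have : Module.Finite (ZMod R.ℓ) (R.eMod e) := Module.Finite.of_finite
  have : Module.Free (ZMod R.ℓ) (R.eMod e) := Module.Free.of_divisionRing _ _
  have hsec : ∀ y : R.eMod e, ∃ t : FullHecke p, Ideal.Quotient.mk _ (e * t) = y.1 := fun y => by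
    obtain ⟨x, hx⟩ := y.2
    obtain ⟨t, rfl⟩ := Ideal.Quotient.mk_surjective x
    exact ⟨t, (map_mul _ _ _).trans hx⟩
  choose sec hsec using hsec
  let res : (R.fnl e).range → R.eMod e →ₗ[ZMod R.ℓ] ZMod R.ℓ := fun f =>
    AddMonoidHom.toZModLinearMap R.ℓ (AddMonoidHom.mk' (fun y => f.1 (sec y)) fun y z => by
      obtain ⟨_, a, rfl⟩ := f
      change R.fnl e a (sec (y + z)) = R.fnl e a (sec y) + R.fnl e a (sec z)
      rw [← map_add]
      exact R.fnl_congr a (by rw [hsec, mul_add, map_add, hsec, hsec]; rfl))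
  have hresinj : Function.Injective res := by
    rintro ⟨_, a, rfl⟩ ⟨_, b, rfl⟩ h
    refine Subtype.ext (AddMonoidHom.ext fun t => ?_)
    set y : R.eMod e := ⟨_, Ideal.Quotient.mk _ t, rfl⟩
    have h1 : R.fnl e a (sec y) = R.fnl e b (sec y) := by
      simpa [res] using DFunLike.congr_fun h y
    have h2 : Ideal.Quotient.mk (Ideal.span {(R.ℓ : FullHecke p)}) (e * t) =
        Ideal.Quotient.mk _ (e * sec y) := ((hsec y).trans (map_mul _ _ _).symm).symm
    exact (R.fnl_congr a h2).trans (h1.trans (R.fnl_congr b h2).symm)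
  have : Finite (R.eMod e →ₗ[ZMod R.ℓ] ZMod R.ℓ) := Module.finite_of_finite (ZMod R.ℓ)
  have : Finite (R.fnl e).range := Finite.of_injective res hresinj
  refine ⟨inferInstance, (Nat.card_le_card_of_injective res hresinj).trans_eq ?_⟩
  rw [Module.natCard_eq_pow_finrank (K := ZMod R.ℓ),
    Module.finrank_linearMap_self,
    ← Module.natCard_eq_pow_finrank (K := ZMod R.ℓ)]

/-- A digit on which `e` is the identity factors through the functionals. -/
theorem exists_factor {π : Qbar} (hπ : R.IsScale π) {e : FullHecke p}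
    (w : R.scaleSub hπ) (hew : jAct p e (w : Pic0 Qbar (FN p Qbar)) = w) :
    ∃ Λ : (R.fnl e).range →+ R.k, ∀ a : intForms p,
      Λ ⟨R.fnl e a, a, rfl⟩ = R.lam hπ w ⟨a.1, a.2⟩ := by
  have := R.charP_k
  obtain ⟨w, hm⟩ := w
  set L : intForms p →+ R.k := AddMonoidHom.mk' (fun a => R.lam hπ ⟨w, hm⟩ ⟨a.1, a.2⟩)
    fun a b => R.lam_forms_add hπ ⟨w, hm⟩ ⟨a.1, a.2⟩ ⟨b.1, b.2⟩
  -- on the kernel `e a` is divisible by `ℓ`, and `e` fixes the class
  have hle : (R.fnl e).ker ≤ L.ker := fun a ha => by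
    rw [AddMonoidHom.mem_ker] at ha ⊢
    obtain ⟨hme, h2⟩ := (R.jAct_scale e).2 π hπ w hm
    have h3 : L a = L (R.act e a) :=
      (congrArg (fun v => R.lam hπ v ⟨a.1, a.2⟩) (Subtype.ext hew.symm)).trans
        (h2 a.1 (R.act e a).1 a.2 (R.act e a).2 (R.act_spec e a))
    set c : ℕ → ℤ := fun n => (R.act e a).1 n / R.ℓ
    have hc : (R.ℓ : ℤ) • c = (R.act e a).1 :=
      funext fun n => Int.mul_ediv_cancel' (R.dvd_of_fnl_eq_zero ha n)
    have hcI : IsIntForm p c := by
      obtain ⟨g, hg⟩ := (R.act e a).2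
      refine ⟨(R.ℓ : ℂ)⁻¹ • g, fun n => ?_⟩
      rw [Fermat.MF.Eisen.qCoeff_form_smul, hg, ← hc, Pi.smul_apply, smul_eq_mul, Int.cast_mul,
        Int.cast_natCast, inv_mul_cancel_left₀ (Nat.cast_ne_zero.mpr R.hℓ.ne_zero)]
    rw [h3, show R.act e a = R.ℓ • (⟨c, hcI⟩ : intForms p) from
      Subtype.ext (by rw [AddSubgroup.coe_nsmul, ← hc, natCast_zsmul]), map_nsmul, nsmul_eq_mul,
      CharP.cast_eq_zero, zero_mul]
  refine ⟨(QuotientAddGroup.lift (R.fnl e).ker L hle).comp
    (QuotientAddGroup.quotientKerEquivRange (R.fnl e)).symm.toAddMonoidHom, fun a => ?_⟩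
  change QuotientAddGroup.lift (R.fnl e).ker L hle
    ((QuotientAddGroup.quotientKerEquivRange (R.fnl e)).symm ⟨R.fnl e a, a, rfl⟩) = L a
  rw [show (⟨R.fnl e a, a, rfl⟩ : (R.fnl e).range) =
    QuotientAddGroup.quotientKerEquivRange (R.fnl e) (QuotientAddGroup.mk a) from rfl,
    AddEquiv.symm_apply_apply]
  rfl

/-- **Few torsion points**: at most as many as elements of `e (T / ℓ)`. -/
theorem card_torSub_le (e s : FullHecke p) :
    Finite (R.torSub e s) ∧ Nat.card (R.torSub e s) ≤ Nat.card (R.eMod e) := by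
  have := R.charP_k
  have : Fact R.ℓ.Prime := ⟨R.hℓ⟩
  obtain ⟨hfin, hWcard⟩ := R.card_fnl_range_le e
  have := hfin
  have : Module.Finite (ZMod R.ℓ) (R.fnl e).range := Module.Finite.of_finite
  obtain ⟨π₀, h₀⟩ := IsAlgClosed.exists_pow_nat_eq ((R.ℓ : Qbar)) (n := R.ℓ - 1)
    (by have := R.hℓ.two_le; omega)
  have hL : ∀ w : R.torSub e s, ∃ Λ : solSub R.k (R.shift e), ∀ (hπ : R.IsScale π₀)
      (hm : (w : Pic0 Qbar (FN p Qbar)) ∈ R.scaleSub hπ) (a : intForms p),
      (Λ : (R.fnl e).range →+ R.k) ⟨R.fnl e a, a, rfl⟩ = R.lam hπ ⟨w, hm⟩ ⟨a.1, a.2⟩ := by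
    rintro ⟨w, hw, htor, hew, hsw⟩
    have hd := R.torsion_scale h₀ hw htor s hsw
    obtain ⟨hπ, hm, hrel, -⟩ := hd
    have hf := R.exists_factor hπ ⟨w, hm⟩ hew
    obtain ⟨Λ, hΛ⟩ := hf
    refine ⟨⟨Λ, ?_⟩, fun hπ' hm' a => hΛ a⟩
    rintro ⟨_, a, rfl⟩
    rw [R.shift_mk, hΛ, hΛ]
    exact hrel a.1 _ a.2 (R.act R.Tell a).2 (R.act_spec R.Tell a)
  -- the class is determined by its digit, which is a twisted fixed functional
  choose Λ hΛ using hL
  have hadd : ∀ w w', Λ (w + w') = Λ w + Λ w' := fun w w' => by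
    have hd := R.torsion_scale h₀ w.2.1 w.2.2.1 s w.2.2.2.2
    obtain ⟨hπ, hm, -, -⟩ := hd
    have hd' := R.torsion_scale h₀ w'.2.1 w'.2.2.1 s w'.2.2.2.2
    obtain ⟨_, hm', -, -⟩ := hd'
    refine Subtype.ext (AddMonoidHom.ext fun f => ?_)
    obtain ⟨_, a, rfl⟩ := f
    refine (hΛ (w + w') hπ (add_mem hm hm') a).trans
      (Eq.trans ?_ (congrArg₂ (· + ·) (hΛ w hπ hm a) (hΛ w' hπ hm' a)).symm)
    rw [← Pi.add_apply, ← map_add]
    rfl
  have hinj : Function.Injective (AddMonoidHom.mk' Λ hadd) := by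
    refine (injective_iff_map_eq_zero _).mpr fun w hw => Subtype.ext ?_
    have hd := R.torsion_scale h₀ w.2.1 w.2.2.1 s w.2.2.2.2
    obtain ⟨hπ, hm, -, hzero⟩ := hd
    refine hzero (funext fun a => ?_)
    rw [← hΛ w hπ hm ⟨a.1, a.2⟩, show Λ w = 0 from hw]
    rfl
  obtain ⟨hsfin, hcard⟩ := card_solSub_le (k := R.k) (R.shift e)
  exact ⟨Finite.of_injective _ hinj,
    ((Nat.card_le_card_of_injective _ hinj).trans hcard).trans hWcard⟩

end Red

end Fermat.HT.Cusp

end
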